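import Mathlib.Analysis.Fourier.AddCircleMulti
import Mathlib.MeasureTheory.Integral.DominatedConvergence

/-!
# Poisson summation on `d → ℝ` with respect to `d → ℤ`
-/

set_option autoImplicit false

noncomputable section

open MeasureTheory Complex Set Filter Topology UnitAddTorus

namespace FermatAgent.LT.Dihedral

variable {d : Type*} [Fintype d]

/-- An integer vector as a real vector. -/
def intVec (n : d → ℤ) : d → ℝ := fun i => (n i : ℝ)

omit [Fintype d] in
lemma intVec_add (m n : d → ℤ) : intVec (m + n) = intVec m + intVec n := by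
  funext i; simp [intVec]

/-- `exp (-2π i ⟨x, m⟩)`. -/
def phaseVec (x : d → ℝ) (m : d → ℤ) : ℂ :=
  cexp (-(2 * Real.pi * Complex.I) * ∑ i, ((m i : ℂ) * (x i : ℂ)))

/-- The Fourier transform at integer points. -/
def fourierInt (f : (d → ℝ) → ℂ) (m : d → ℤ) : ℂ := ∫ x, phaseVec x m * f x

/-- Summable uniform bound of all integer translates of `f` on `[-1, 1]^d`. -/
def TranslateBound (f : (d → ℝ) → ℂ) : Prop :=
  ∃ u : (d → ℤ) → ℝ, Summable u ∧
    ∀ n : d → ℤ, ∀ x : d → ℝ, (∀ i, |x i| ≤ 1) → ‖f (x + intVec n)‖ ≤ u n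

lemma norm_phaseVec (x : d → ℝ) (m : d → ℤ) : ‖phaseVec x m‖ = 1 := by
  rw [phaseVec, Complex.norm_exp]
  simp

lemma continuous_phaseVec (m : d → ℤ) : Continuous fun x : d → ℝ => phaseVec x m := by
  unfold phaseVec
  fun_prop

lemma phaseVec_add_intVec (x : d → ℝ) (m n : d → ℤ) :
    phaseVec (x + intVec n) m = phaseVec x m := by
  simp only [phaseVec, intVec, Pi.add_apply, Complex.ofReal_add, Complex.ofReal_intCast, mul_add,
    Finset.sum_add_distrib, Complex.exp_add]
  have : -(2 * Real.pi * Complex.I) * ∑ i, (m i : ℂ) * (n i : ℂ) =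
      (((-∑ i, m i * n i : ℤ)) : ℂ) * (2 * Real.pi * Complex.I) := by push_cast; ring
  rw [this, Complex.exp_int_mul_two_pi_mul_I, mul_one]

lemma summable_pi_prod {g : ℤ → ℝ} (hg : Summable g) (h0 : ∀ k, 0 ≤ g k) :
    Summable fun n : d → ℤ => ∏ i, g (n i) := by
  classical
  refine summable_of_sum_le (c := (∑' k, g k) ^ Fintype.card d)
    (fun n => Finset.prod_nonneg fun i _ => h0 _) fun s => ?_
  have hs : s ⊆ Fintype.piFinset fun i => s.image fun n => n i := fun n hn =>
    Fintype.mem_piFinset.2 fun i => Finset.mem_image_of_mem _ hn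
  refine (Finset.sum_le_sum_of_subset_of_nonneg hs
    fun n _ _ => Finset.prod_nonneg fun i _ => h0 _).trans ?_
  rw [← Finset.prod_univ_sum, ← Finset.card_univ, ← Finset.prod_const]
  exact Finset.prod_le_prod (fun i _ => Finset.sum_nonneg fun k _ => h0 _)
    fun i _ => hg.sum_le_tsum _ fun k _ => h0 k

/-- A function dominated by a Gaussian satisfies `TranslateBound`. -/
lemma translateBound_of_gaussian {f : (d → ℝ) → ℂ} {C c : ℝ} (hC : 0 ≤ C) (hc : 0 < c)
    (h : ∀ x, ‖f x‖ ≤ C * Real.exp (-c * ∑ i, x i ^ 2)) : TranslateBound f := by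
  have hs : Summable fun k : ℤ => Real.exp (c) * Real.exp (-(c / 2) * |(k : ℝ)|) := by
    refine Summable.mul_left _ (Summable.of_nat_of_neg ?_ ?_) <;>
      simp only [Int.cast_natCast, Int.cast_neg, abs_neg, Nat.abs_cast] <;>
      · refine (Real.summable_exp_nat_mul_iff.2 (show -(c / 2) < 0 by linarith)).congr fun n => ?_
        ring_nf
  refine ⟨fun n => C * ∏ i, Real.exp c * Real.exp (-(c / 2) * |(n i : ℝ)|),
    (summable_pi_prod hs fun k => by positivity).mul_left C, fun n x hx => ?_⟩
  refine (h _).trans (mul_le_mul_of_nonneg_left ?_ hC)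
  rw [Finset.mul_sum, Real.exp_sum]
  refine Finset.prod_le_prod (fun i _ => (Real.exp_pos _).le) fun i _ => ?_
  rw [← Real.exp_add, Real.exp_le_exp, Pi.add_apply]
  have h2 : |(n i : ℝ)| ≤ |x i + (n i : ℝ)| + 1 := by
    have := abs_sub_abs_le_abs_sub (n i : ℝ) (-x i)
    rw [abs_neg, sub_neg_eq_add, add_comm (n i : ℝ)] at this
    linarith [hx i]
  have h4 : 2 * |x i + (n i : ℝ)| ≤ (x i + (n i : ℝ)) ^ 2 + 1 := by
    nlinarith [sq_nonneg (|x i + (n i : ℝ)| - 1), sq_abs (x i + (n i : ℝ))]
  simp only [intVec]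
  nlinarith [h2, h4, hc, sq_nonneg (x i + (n i : ℝ))]

/-- The periodisation. -/
def periodise (f : (d → ℝ) → ℂ) (x : d → ℝ) : ℂ := ∑' n : d → ℤ, f (x + intVec n)

omit [Fintype d] in
lemma periodise_add_intVec (f : (d → ℝ) → ℂ) (x : d → ℝ) (k : d → ℤ) :
    periodise f (x + intVec k) = periodise f x := by
  rw [periodise, periodise, ← (Equiv.addLeft k).tsum_eq (fun n => f (x + intVec n))]
  refine tsum_congr fun n => ?_
  simp [intVec_add, add_assoc]

variable {f : C((d → ℝ), ℂ)}

lemma continuous_periodise (hf : TranslateBound f) : Continuous (periodise f) := by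
  obtain ⟨u, hu, hb⟩ := hf
  rw [continuous_iff_continuousAt]
  intro x0
  set k : d → ℤ := fun i => round (x0 i)
  have hnhds : {y : d → ℝ | ∀ i, |y i - (k i : ℝ)| < 1} ∈ 𝓝 x0 := by
    refine IsOpen.mem_nhds ?_ fun i => ?_
    · rw [Set.ofPred_forall]
      exact isOpen_iInter_of_finite fun i =>
        isOpen_lt ((continuous_apply i).sub continuous_const).abs continuous_const
    · exact (abs_sub_round (x0 i)).trans_lt (by norm_num)
  have hcont : ContinuousOn (fun y => periodise f (y - intVec k))
      {y : d → ℝ | ∀ i, |y i - (k i : ℝ)| < 1} := by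
    refine continuousOn_tsum (fun n => (f.continuous.comp (by fun_prop)).continuousOn) hu
      fun n y hy => hb n _ fun i => ?_
    simpa [intVec] using (hy i).le
  refine (hcont.continuousAt hnhds).congr (Eventually.of_forall fun y => ?_)
  beta_reduce
  conv_rhs => rw [← sub_add_cancel y (intVec k), periodise_add_intVec]

/-- The projection to the torus. -/
def toTorus (x : d → ℝ) : UnitAddTorus d := fun i => (x i : UnitAddCircle)

/-- A section of `toTorus`. -/
def torusSection (t : UnitAddTorus d) : d → ℝ := fun i => (AddCircle.equivIco (1 : ℝ) 0 (t i) : ℝ)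

omit [Fintype d] in
lemma toTorus_section (t : UnitAddTorus d) : toTorus (torusSection t) = t := by
  funext i
  exact (AddCircle.equivIco (1 : ℝ) 0).symm_apply_apply (t i)

omit [Fintype d] in
lemma periodise_section (g : (d → ℝ) → ℂ) (x : d → ℝ) :
    periodise g (torusSection (toTorus x)) = periodise g x := by
  have h : ∀ i, ∃ k : ℤ, torusSection (toTorus x) i = x i + k := fun i => by
    have := congrFun (toTorus_section (toTorus x)) i
    simp only [toTorus] at this
    obtain ⟨k, hk⟩ := QuotientAddGroup.eq.1 this.symm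
    refine ⟨k, ?_⟩
    simp only [zsmul_one] at hk
    linarith
  choose k hk using h
  rw [show torusSection (toTorus x) = x + intVec k from funext hk, periodise_add_intVec]

lemma continuous_periodise_torus (hf : TranslateBound f) :
    Continuous fun t : UnitAddTorus d => periodise f (torusSection t) := by
  have hq : IsOpenQuotientMap (toTorus (d := d)) :=
    IsOpenQuotientMap.piMap fun _ => QuotientAddGroup.isOpenQuotientMap_mk
  rw [hq.isQuotientMap.continuous_iff]
  exact (continuous_periodise hf).congr fun x => (periodise_section f x).symm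

/-- The unit box translated by `n`. -/
def boxAt (n : d → ℤ) : Set (d → ℝ) := {x | ∀ i, x i ∈ Ioc (n i : ℝ) ((n i : ℝ) + 1)}

lemma measurableSet_boxAt (n : d → ℤ) : MeasurableSet (boxAt n) := by
  rw [boxAt, Set.ofPred_forall]
  exact MeasurableSet.iInter fun i => measurableSet_Ioc.preimage (measurable_pi_apply i)

lemma volume_boxAt (n : d → ℤ) : volume (boxAt n) = 1 := by
  have : boxAt n = Set.univ.pi fun i => Ioc (n i : ℝ) ((n i : ℝ) + 1) := by
    ext x; simp [boxAt]
  rw [this, volume_pi_pi]
  simp [Real.volume_Ioc]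

omit [Fintype d] in
lemma preimage_boxAt (n : d → ℤ) :
    (fun x : d → ℝ => x + intVec n) ⁻¹' boxAt n = boxAt 0 := by
  ext x
  simp only [boxAt, Set.mem_preimage, Set.mem_ofPred_eq, Pi.add_apply, intVec, Pi.zero_apply,
    Int.cast_zero, zero_add, Set.mem_Ioc]
  exact forall_congr' fun i => ⟨fun h => ⟨by linarith [h.1], by linarith [h.2]⟩,
    fun h => ⟨by linarith [h.1], by linarith [h.2]⟩⟩

lemma setIntegral_boxAt (g : (d → ℝ) → ℂ) (n : d → ℤ) :
    ∫ x in boxAt n, g x = ∫ x in boxAt 0, g (x + intVec n) := by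
  rw [← preimage_boxAt n]
  exact ((measurePreserving_add_right volume (intVec n)).setIntegral_preimage_emb
    (measurableEmbedding_addRight _) g (boxAt n)).symm

/-- Fourier coefficients of the periodisation. -/
theorem mFourierCoeff_periodise (hf : TranslateBound f) (m : d → ℤ) :
    mFourierCoeff (fun t : UnitAddTorus d => periodise f (torusSection t)) m =
      fourierInt f m := by
  obtain ⟨u, hu, hb⟩ := hf
  have hbox0 : ∀ x ∈ boxAt (0 : d → ℤ), ∀ i, |x i| ≤ 1 := fun x hx i => by
    have := hx i
    simp only [Pi.zero_apply, Int.cast_zero, zero_add, Set.mem_Ioc] at this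
    exact abs_le.2 ⟨by linarith [this.1], this.2⟩
  set g : (d → ℝ) → ℂ := fun x => phaseVec x m * f x
  have hgcont : Continuous g := (continuous_phaseVec m).mul f.continuous
  have hgb : ∀ n : d → ℤ, ∀ x ∈ boxAt (0 : d → ℤ), ‖g (x + intVec n)‖ ≤ u n := fun n x hx => by
    rw [norm_mul, norm_phaseVec, one_mul]
    exact hb n x (hbox0 x hx)
  have hint : ∀ n : d → ℤ, IntegrableOn (fun x => g (x + intVec n)) (boxAt 0) := fun n => by
    refine Measure.integrableOn_of_bounded (M := u n) (by simp [volume_boxAt])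
      (hgcont.comp (by fun_prop)).aestronglyMeasurable ?_
    exact (ae_restrict_iff' (measurableSet_boxAt 0)).2 (Eventually.of_forall (hgb n))
  have hnorm : ∀ n : d → ℤ, ∫ x in boxAt 0, ‖g (x + intVec n)‖ ≤ u n := fun n => by
    refine (setIntegral_mono_on (hint n).norm (integrableOn_const (by simp [volume_boxAt]))
      (measurableSet_boxAt 0) (hgb n)).trans_eq ?_
    simp [measureReal_def, volume_boxAt]
  have hsum : Summable fun n : d → ℤ => ∫ x in boxAt 0, ‖g (x + intVec n)‖ :=
    hu.of_nonneg_of_le (fun n => integral_nonneg fun _ => norm_nonneg _) hnorm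
  have hswap : ∫ x in boxAt (0 : d → ℤ), ∑' n : d → ℤ, g (x + intVec n) =
      ∑' n : d → ℤ, ∫ x in boxAt n, g x := by
    simp only [setIntegral_boxAt g]
    exact (integral_tsum_of_summable_integral_norm hint hsum).symm
  have hdisj : Pairwise fun n n' : d → ℤ => Disjoint (boxAt n) (boxAt n') := by
    intro n n' hne
    rw [Set.disjoint_left]
    intro x hx hx'
    refine hne (funext fun i => ?_)
    have h1 := Int.ceil_eq_iff.2 (show ((n i + 1 : ℤ) : ℝ) - 1 < x i ∧ x i ≤ ((n i + 1 : ℤ) : ℝ) by
      push_cast; exact ⟨by linarith [(hx i).1], (hx i).2⟩)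
    have h2 := Int.ceil_eq_iff.2 (show ((n' i + 1 : ℤ) : ℝ) - 1 < x i ∧ x i ≤ ((n' i + 1 : ℤ) : ℝ) by
      push_cast; exact ⟨by linarith [(hx' i).1], (hx' i).2⟩)
    omega
  have huniv : (⋃ n : d → ℤ, boxAt n) = Set.univ := by
    refine Set.eq_univ_of_forall fun x => Set.mem_iUnion.2 ⟨fun i => ⌈x i⌉ - 1, fun i => ?_⟩
    have := Int.ceil_lt_add_one (x i)
    have := Int.le_ceil (x i)
    push_cast
    constructor <;> linarith
  have hgint : IntegrableOn g (⋃ n : d → ℤ, boxAt n) := by
    have hI : ∀ n : d → ℤ, IntegrableOn g (boxAt n) := fun n => by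
      have h := hint n
      rw [← preimage_boxAt n] at h
      exact ((measurePreserving_add_right volume (intVec n)).integrableOn_comp_preimage
        (measurableEmbedding_addRight _)).1 h
    refine integrableOn_iUnion_of_summable_integral_norm hI (hsum.congr fun n => ?_)
    conv_lhs => rw [← preimage_boxAt n]
    exact (measurePreserving_add_right volume (intVec n)).setIntegral_preimage_emb
      (measurableEmbedding_addRight _) (fun x => ‖g x‖) (boxAt n)
  rw [mFourierCoeff_eq_integral _ m 0, fourierInt,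
    ← setIntegral_univ (f := g), ← huniv, integral_iUnion measurableSet_boxAt hdisj hgint, ← hswap]
  have hset : {x : d → ℝ | ∀ i, x i ∈ Ioc ((0 : d → ℝ) i) ((0 : d → ℝ) i + 1)} =
      boxAt (0 : d → ℤ) := by
    ext x; simp [boxAt]
  rw [hset]
  refine setIntegral_congr_fun (measurableSet_boxAt 0) fun x _ => ?_
  have h1 : mFourier (-m) (toTorus x) = phaseVec x m := by
    show (∏ i, fourier ((-m) i) (x i : UnitAddCircle)) = _
    simp only [fourier_coe_apply, phaseVec, Finset.mul_sum, ← Complex.exp_sum, Pi.neg_apply]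
    congr 1
    refine Finset.sum_congr rfl fun i _ => ?_
    push_cast
    ring
  show mFourier (-m) (toTorus x) • periodise f (torusSection (toTorus x)) = _
  rw [h1, periodise_section, periodise, smul_eq_mul, ← tsum_mul_left]
  simp only [g, phaseVec_add_intVec]

/-- Poisson summation for `d → ℤ` in `d → ℝ`. -/
theorem poisson_summation (hf : TranslateBound f) (hs : Summable (fourierInt f)) :
    ∑' n : d → ℤ, f (intVec n) = ∑' m : d → ℤ, fourierInt f m := by
  set F : C(UnitAddTorus d, ℂ) := ⟨_, continuous_periodise_torus hf⟩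
  have hco : mFourierCoeff F = fourierInt f := funext fun m => mFourierCoeff_periodise hf m
  have h := hasSum_mFourier_series_apply_of_summable (f := F) (hco ▸ hs) (toTorus 0)
  have h0 : F (toTorus 0) = ∑' n : d → ℤ, f (intVec n) := by
    show periodise f (torusSection (toTorus (0 : d → ℝ))) = _
    rw [periodise_section, periodise]
    simp only [zero_add]
  rw [← h0, ← h.tsum_eq, hco]
  refine tsum_congr fun m => ?_
  have : mFourier m (toTorus (0 : d → ℝ)) = 1 := by
    show (∏ i, fourier (m i) ((0 : ℝ) : UnitAddCircle)) = _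
    simp
  rw [this, smul_eq_mul, mul_one]

end FermatAgent.LT.Dihedral
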