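import Mathlib

/-!
# A quadratic extension of a totally complex field, shared by the two kinds of dihedral data
-/

set_option autoImplicit false

noncomputable section

open NumberField

namespace FermatAgent.LT.Dihedral

/-- A quadratic extension `M` of the totally complex field `F` with its conjugation. -/
structure QuadData (F : Type) [Field F] [NumberField F] where
  /-- the quadratic extension -/
  M : Type
  [field : Field M]
  [numberField : NumberField M]
  [algebra : Algebra F M]
  finrank_eq : Module.finrank F M = 2
  totallyComplex : ∀ v : InfinitePlace F, v.IsComplex
  /-- the nontrivial automorphism -/
  σ : M ≃ₐ[F] M
  σ_ne : σ ≠ 1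

attribute [instance] QuadData.field QuadData.numberField QuadData.algebra

end FermatAgent.LT.Dihedral
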