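import Fermat.Agent.LT.Setup
import Fermat.Agent.LT.Dihedral.QuadData

/-!
# The class field theoretic input of the dihedral form
-/

set_option autoImplicit false

noncomputable section

open NumberField IsDedekindDomain

namespace FermatAgent.LT.Dihedral

/-- A quadratic extension `M` of the sextic field `F` with a character `ξ` of order four, as
needed for the theta series: all facts about ideals, no adeles. -/
structure DihedralData (F : Type) [Field F] [NumberField F] extends QuadData F where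
  /-- the places of `F` over `3` -/
  w : Fin 3 → HeightOneSpectrum (𝓞 F)
  w_injective : Function.Injective w
  three_eq : Ideal.span {(3 : 𝓞 F)} = ∏ i, (w i).asIdeal ^ 2
  absNorm_w : ∀ i, Ideal.absNorm (w i).asIdeal = 3
  /-- the places of `M` over `3` -/
  P : Fin 3 → HeightOneSpectrum (𝓞 M)
  map_inert : (w 0).asIdeal.map (algebraMap (𝓞 F) (𝓞 M)) = (P 0).asIdeal
  /-- `M/F` is unramified outside `3` -/
  unramified : ∀ q : HeightOneSpectrum (𝓞 F), (∀ i, q ≠ w i) →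
    (q.asIdeal.map (algebraMap (𝓞 F) (𝓞 M))).IsRadical
  map_ramified : ∀ i : Fin 3, i ≠ 0 →
    (w i).asIdeal.map (algebraMap (𝓞 F) (𝓞 M)) = (P i).asIdeal ^ 2
  /-- the part prime to `3` of the different of `F` -/
  D' : Ideal (𝓞 F)
  D'_coprime : D' ⊔ Ideal.span {(3 : 𝓞 F)} = ⊤
  different_eq : differentIdeal ℤ (𝓞 M) * ∏ i, (P i).asIdeal =
    Ideal.span {(3 : 𝓞 M)} * D'.map (algebraMap (𝓞 F) (𝓞 M))
  /-- the character on integral ideals -/
  ξ : Ideal (𝓞 M) →*₀ ℂ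
  ξ_eq_zero : ∀ J : Ideal (𝓞 M), ξ J = 0 ↔ J ⊔ Ideal.span {(3 : 𝓞 M)} ≠ ⊤
  ξ_conj : ∀ J : Ideal (𝓞 M), J ⊔ Ideal.span {(3 : 𝓞 M)} = ⊤ →
    ξ J * ξ (J.map (NumberField.RingOfIntegers.mapRingHom σ.toAlgHom)) = 1
  ξ_base : ∀ q : HeightOneSpectrum (𝓞 F), (∀ i, q ≠ w i) →
    ((q.asIdeal.map (algebraMap (𝓞 F) (𝓞 M))).IsPrime →
        ξ (q.asIdeal.map (algebraMap (𝓞 F) (𝓞 M))) = -1) ∧
      (¬ (q.asIdeal.map (algebraMap (𝓞 F) (𝓞 M))).IsPrime →
        ξ (q.asIdeal.map (algebraMap (𝓞 F) (𝓞 M))) = 1)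
  ξ_D' : ξ (D'.map (algebraMap (𝓞 F) (𝓞 M))) = 1
  /-- the residual characters at the places over `3` -/
  χ : ∀ i, MulChar (𝓞 M ⧸ (P i).asIdeal) ℂ
  χ_ne_one : ∀ i, χ i ≠ 1
  χ_zero_sq : χ 0 ^ 2 ≠ 1
  χ_zero_base : ∀ x : 𝓞 F, x ∉ (w 0).asIdeal →
    χ 0 (Ideal.Quotient.mk _ (algebraMap (𝓞 F) (𝓞 M) x)) = 1
  ξ_principal : ∀ x : 𝓞 M, (∀ i, x ∉ (P i).asIdeal) →
    ξ (Ideal.span {x}) = ∏ i, χ i (Ideal.Quotient.mk _ x)

namespace DihedralData

variable {F : Type} [Field F] [NumberField F] (D : DihedralData F)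

/-- The coefficient at an ideal: the sum of `ξ` over the ideals of that relative norm, the norm
being taken as `J * σ J` inside `M`. -/
def coeff (I : Ideal (𝓞 F)) : ℂ :=
  ∑ᶠ J : {J : Ideal (𝓞 D.M) //
    J * J.map (NumberField.RingOfIntegers.mapRingHom D.σ.toAlgHom) =
      I.map (algebraMap (𝓞 F) (𝓞 D.M))}, D.ξ J

end DihedralData

/-- The dihedral data of a `Setup`: its coefficients at the good places are the traces of Frobenius,
and the places over `3m` have the residue fields of the places of `K` below. -/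
def HasDihedralData (S : Setup) : Prop :=
  ∃ D : DihedralData S.F,
    (∀ v : HeightOneSpectrum (𝓞 S.F), ((3 * S.m : ℕ) : 𝓞 S.F) ∈ v.asIdeal →
      Ideal.absNorm v.asIdeal = Ideal.absNorm (v.asIdeal.comap
        (NumberField.RingOfIntegers.mapRingHom (IntermediateField.inclusion S.K_le_F).toRingHom))) ∧
      ∀ v : HeightOneSpectrum (𝓞 S.F), ((3 * S.m : ℕ) : 𝓞 S.F) ∉ v.asIdeal →
        ∀ σ, IsFrobOver v σ → D.coeff v.asIdeal = (q8Trace (S.ρ σ) : ℂ)

end FermatAgent.LT.Dihedral
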