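import Fermat.Agent.LT.Dihedral.Form

/-!
# Invariance of the level three form under `GL₂(F)`
-/

set_option autoImplicit false
set_option maxHeartbeats 400000

noncomputable section

open NumberField IsDedekindDomain WithZero

namespace FermatAgent.LT.Dihedral.DihedralData

open QuadData

variable {F : Type} [Field F] [NumberField F] {D : DihedralData F} {cv : ∀ i, D.kT i}

lemma goodMat_shift (γ β : F) (a : (Adf F)ˣ) (k : GL (Fin 2) (IntAd F)) (z : (Adf F)ˣ) :
    rationalMat (upperTri 1 γ 1) * goodMat β a k z = goodMat (γ + β) a k z := by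
  simp only [goodMat, ← mul_assoc, ← map_mul, upperTri_mul, mul_one, one_mul, Units.val_one]
  rw [add_comm]

lemma G0_w_good {a : (Adf F)ˣ} (ha : ∀ i, (a : Adf F) (D.w i) = 1) {β : F}
    (hβ : ∀ i, OrdGe (D.w i) 0 β) (k : GL (Fin 2) (IntAd F)) (z : (Adf F)ˣ) (x : XInf F) :
    D.G0 cv (infAct wMat x) (rationalMat wMat * goodMat β a k z) =
      D.G0 cv x (goodMat β a k z) := by
  obtain ⟨β', a', k', z', ha', -, he, hth⟩ := exists_w_goodMat (cv := cv) ha hβ k z
  rw [he, G0_goodMat ha', G0_goodMat ha, infAct_wMat, hth]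

lemma exists_split_good (β : F) : ∃ β₀ : F, (∀ i, OrdGe (D.w i) 0 β₀) ∧ β - β₀ ≠ 0 ∧
    ∀ i, OrdGe (D.w i) 0 (-(β - β₀)⁻¹) := by
  classical
  have hpt : ∀ v : HeightOneSpectrum (𝓞 F), ∃ t : 𝓞 F, ∀ b : 𝓞 F, OrdGe v 1 ((b : F) - (t : F)) →
      ¬ OrdGe v 1 (β - (b : F)) := by
    intro v
    by_cases h : OrdGe v 0 β
    · obtain ⟨t, ht, -⟩ := exists_int_rmod v h
      refine ⟨t + 1, fun b hb hcon => ?_⟩
      have h1 : OrdGe v 1 ((1 : 𝓞 F) : F) := by
        have h2 := (ht.sub hcon).sub hb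
        rw [coeO_add] at h2
        rwa [show β - (t : F) - (β - (b : F)) - ((b : F) - ((t : F) + ((1 : 𝓞 F) : F))) =
          ((1 : 𝓞 F) : F) by ring] at h2
      exact v.isPrime.ne_top ((Ideal.eq_top_iff_one _).2 (ordGe_one_iff.1 h1))
    · refine ⟨0, fun b _ hcon => h ?_⟩
      have := (hcon.mono zero_le_one).add (ordGe_int (v := v) b)
      rwa [sub_add_cancel] at this
  choose t ht using hpt
  obtain ⟨b, hb⟩ := exists_crt (Finset.univ.image D.w) (fun _ => 1) t
  have hno : ∀ i, ¬ OrdGe (D.w i) 1 (β - (b : F)) := fun i => ht _ b (by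
    simpa using hb (D.w i) (Finset.mem_image_of_mem _ (Finset.mem_univ i)))
  have hne : β - (b : F) ≠ 0 := fun h => hno 0 (h ▸ ordGe_zero 1)
  refine ⟨b, fun i => ordGe_int b, hne, fun i => OrdGe.neg (Or.inr ?_)⟩
  rw [dvElt_inv hne, Finsupp.neg_apply]
  have : ¬ (1 : ℤ) ≤ dvElt (β - (b : F)) (D.w i) := fun h => hno i (Or.inr h)
  omega

lemma G0_w_goodMat {a : (Adf F)ˣ} (ha : ∀ i, (a : Adf F) (D.w i) = 1) (β : F)
    (k : GL (Fin 2) (IntAd F)) (z : (Adf F)ˣ) (x : XInf F) :
    D.G0 cv (infAct wMat x) (rationalMat wMat * goodMat β a k z) =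
      D.G0 cv x (goodMat β a k z) := by
  obtain ⟨β₀, hβ₀, hne, he⟩ := exists_split_good (D := D) β
  set c := β - β₀ with hc
  set e : F := -c⁻¹ with hedef
  set B : GL (Fin 2) F := upperTri (-(Units.mk0 c hne)⁻¹) 1 (-(Units.mk0 c hne)) with hB
  set N₀ : GL (Fin 2) F := upperTri 1 β₀ 1
  have hid : (wMat : GL (Fin 2) F) * upperTri 1 c 1 = B * (wMat * upperTri 1 e 1 * wMat) := by
    refine Units.ext (Matrix.ext fun i j => ?_)
    fin_cases i <;> fin_cases j <;>
      simp [wMat, wUni, upperTri, hB, hedef, Matrix.mul_apply, Fin.sum_univ_two, hne]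
  set y := infAct (upperTri 1 (-c) 1 : GL (Fin 2) F) x with hy
  set g₁ := goodMat β₀ a k z
  have hyinv : infAct (upperTri 1 c 1 : GL (Fin 2) F) y = x := by
    rw [hy, ← infAct_mul', upperTri_mul, one_mul, Units.val_one, one_mul, mul_one, neg_add_cancel,
      upperTri_one, infAct_one']
  have hg : goodMat β a k z = rationalMat (upperTri 1 c 1) * g₁ := by
    rw [goodMat_shift, hc, sub_add_cancel]
  have hB0 : B 1 0 = 0 := rfl
  obtain ⟨β', a', k', z', ha', hβ', hwg, -⟩ := exists_w_goodMat (cv := cv) ha hβ₀ k z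
  have hB' : ∀ (u : XInf F) (h : GAf F),
      D.G0 cv (infAct B u) (rationalMat B * h) = D.G0 cv u h := fun u h => G0_upper B hB0 u h
  have hgood : ∀ i, OrdGe (D.w i) 0 (e + β') := fun i => (he i).add (hβ' i)
  calc D.G0 cv (infAct wMat x) (rationalMat wMat * goodMat β a k z)
      = D.G0 cv (infAct (wMat * upperTri 1 c 1) y) (rationalMat (wMat * upperTri 1 c 1) * g₁) := by
        rw [infAct_mul', hyinv, map_mul, mul_assoc, ← hg]
    _ = D.G0 cv (infAct (wMat * upperTri 1 e 1 * wMat) y)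
          (rationalMat (wMat * upperTri 1 e 1 * wMat) * g₁) := by
        rw [hid, infAct_mul', map_mul rationalMat B, mul_assoc (rationalMat B), hB']
    _ = D.G0 cv (infAct wMat (infAct (upperTri 1 e 1) (infAct wMat y)))
          (rationalMat wMat * goodMat (e + β') a' k' z') := by
        rw [infAct_mul', infAct_mul', map_mul, map_mul, mul_assoc, mul_assoc, hwg, goodMat_shift]
    _ = D.G0 cv (infAct (upperTri 1 e 1) (infAct wMat y))
          (rationalMat (upperTri 1 e 1) * (rationalMat wMat * g₁)) := by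
        rw [G0_w_good ha' hgood k' z', hwg, goodMat_shift]
    _ = D.G0 cv y g₁ := by
        rw [G0_upper (upperTri 1 e 1) rfl, G0_w_good ha hβ₀]
    _ = D.G0 cv x (goodMat β a k z) := by
        rw [← G0_upper (upperTri 1 c 1) rfl y g₁, hyinv, ← hg]

lemma G0_w (x : XInf F) (g : GAf F) :
    D.G0 cv (infAct wMat x) (rationalMat wMat * g) = D.G0 cv x g := by
  obtain ⟨d⟩ := D.exists_dec g
  set Q : GL (Fin 2) F := upperTri d.q 0 1
  set Q' : GL (Fin 2) F := upperTri 1 0 d.q
  set β : F := ((d.q⁻¹ : Fˣ) : F) * d.c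
  have hd : g = rationalMat Q * goodMat β d.a d.k d.z := by
    conv_lhs => rw [d.heq]
    simp only [goodMat, Q, ← mul_assoc, ← map_mul, upperTri_mul, mul_one, one_mul,
      Units.val_one, β, ← mul_assoc, Units.mul_inv]
    simp
  have hwQ : (wMat : GL (Fin 2) F) * Q = Q' * wMat := by
    refine Units.ext (Matrix.ext fun i j => ?_)
    fin_cases i <;> fin_cases j <;>
      simp [wMat, wUni, upperTri, Q, Q', Matrix.mul_apply, Fin.sum_univ_two]
  set y := infAct Q⁻¹ x
  have hx : x = infAct Q y := by rw [← infAct_mul', mul_inv_cancel, infAct_one']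
  rw [hd, hx, ← mul_assoc, ← map_mul, ← infAct_mul', hwQ, map_mul, mul_assoc, infAct_mul',
    G0_upper Q' rfl, G0_w_goodMat d.hT, G0_upper Q rfl]

/-- Left invariance under `GL₂(F)`. -/
theorem G0_rational (γ : GL (Fin 2) F) (x : XInf F) (g : GAf F) :
    D.G0 cv (infAct γ x) (rationalMat γ * g) = D.G0 cv x g := by
  by_cases h : γ 1 0 = 0
  · exact G0_upper γ h x g
  set r : F := γ 1 1 / γ 1 0
  set B : GL (Fin 2) F := γ * (upperTri 1 r 1)⁻¹ * wMat⁻¹
  have hB : B 1 0 = 0 := by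
    simp only [B, upperTri_inv, inv_one, Units.val_mul, Matrix.mul_apply, Fin.sum_univ_two]
    simp [wMat, wUni, upperTri, r, -Matrix.coe_units_inv, Units.inv_mk]
    field_simp
    ring
  have hγ : γ = B * wMat * upperTri 1 r 1 := by simp [B]
  rw [hγ, map_mul, map_mul, infAct_mul', infAct_mul', mul_assoc, mul_assoc, G0_upper B hB, G0_w,
    G0_upper _ rfl]

end FermatAgent.LT.Dihedral.DihedralData
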