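import Fermat.Agent.LT.Dihedral.HeckeSum
import Fermat.Agent.LT.Dihedral.Rational

/-!
# The level three form is an eigenfunction of the Hecke operators outside `3`
-/

set_option autoImplicit false

noncomputable section

open NumberField IsDedekindDomain WithZero

namespace FermatAgent.LT.Dihedral.DihedralData

open QuadData

variable {F : Type} [Field F] [NumberField F] {D : DihedralData F} {cv : ∀ i, D.kT i}

lemma valued_piLoc (Q : HeightOneSpectrum (𝓞 F)) :
    Valued.v ((piLoc Q : (Q.adicCompletion F)ˣ) : Q.adicCompletion F) = exp (-1 : ℤ) :=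
  valued_uniformizer Q

lemma adDv_ideleAt_piLoc (Q : HeightOneSpectrum (𝓞 F)) :
    adDv (ideleAt Q (piLoc Q)) = Finsupp.single Q 1 := by
  classical
  refine Finsupp.ext fun v => adDv_eq_of_valued ?_
  rcases eq_or_ne v Q with rfl | h
  · rw [ideleAt_self, Finsupp.single_eq_same, valued_piLoc]
  · rw [ideleAt_of_ne _ h, Finsupp.single_eq_of_ne h, map_one, neg_zero, exp_zero]

/-- The form of level `3` is an eigenfunction of the Hecke operators outside `3`, with the theta
coefficients as eigenvalues. -/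
theorem G0_isEigenAt {Q : HeightOneSpectrum (𝓞 F)} (hQ : ¬ D.InT Q) :
    IsEigenAt Q (D.G0 cv) (D.coefR (Finsupp.single Q 1)) := by
  classical
  intro x g
  have := finite_quot Q.ne_bot
  have := Fintype.ofFinite (𝓞 F ⧸ Q.asIdeal)
  set 𝔫 : Ideal (𝓞 F) := Ideal.span {(3 : 𝓞 F)} with h𝔫def
  have h𝔫 : ∀ i, 𝔫 ≤ (D.w i).asIdeal := fun i =>
    (Ideal.span_singleton_le_iff_mem _).2 (D.three_mem_w i)
  have h𝔫0 : 𝔫 ≠ ⊥ := by simp [h𝔫def]
  obtain ⟨e, he, he0⟩ := exists_levelExp h𝔫0
  set det := Matrix.GeneralLinearGroup.det g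
  set Dm : GAf F := upperTri det 0 1 with hDm
  obtain ⟨qd, a, u, haT, hsplit, huQ⟩ := D.exists_idele_split det
  set M : Option (𝓞 F ⧸ Q.asIdeal) ⊕ Unit → GAf F := fun o => match o with
    | .inl (some b) => atPlace Q (upperTri (piLoc Q)
        (algebraMap F (Q.adicCompletion F)
          ((Function.surjInv (Ideal.Quotient.mk_surjective (I := Q.asIdeal)) b : 𝓞 F) : F)) 1)
    | .inl none => atPlace Q (upperTri 1 0 (piLoc Q))
    | .inr _ => 1
  choose e' he' hconj using fun o => IsNearOne.exists_conj (Dm * M o)⁻¹ e he0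
  have hs : Matrix.GeneralLinearGroup.det (g * Dm⁻¹) = 1 := by
    rw [map_mul, map_inv, hDm, det_upperTri, mul_one, mul_inv_cancel]
  obtain ⟨γ, hγ⟩ := mem_rationalClosure_of_det _ hs (fun v => Finset.univ.sup fun o => e' o v) (by
    filter_upwards [Finset.univ.eventually_all.mpr fun o (_ : o ∈ _) => he' o] with v hv
    exact Nat.eq_zero_of_le_zero (Finset.sup_le fun o ho => (hv o ho).le))
  set s := (rationalMat γ)⁻¹ * (g * Dm⁻¹)
  have hmove : ∀ o y, D.G0 cv y (g * M o) = D.G0 cv (infAct γ⁻¹ y) (Dm * M o) := by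
    intro o y
    have hs' : IsNearOne (e' o) s :=
      IsNearOne.anti (fun v => Finset.le_sup (f := fun o => e' o v) (Finset.mem_univ o)) hγ
    have hmem : (Dm * M o)⁻¹ * s * (Dm * M o)⁻¹⁻¹ ∈ congrSubgroup 𝔫 :=
      (hconj o s hs').mem_congrSubgroup he
    have hg : g * M o = rationalMat γ * (Dm * M o * ((Dm * M o)⁻¹ * s * (Dm * M o)⁻¹⁻¹)) := by
      simp only [s]
      group
    conv_lhs => rw [hg, ← infAct_one' y, ← mul_inv_cancel γ, infAct_mul', G0_rational,
      G0_level h𝔫 hmem]
  set y₀ := infAct γ⁻¹ x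
  -- the diagonal matrix
  set U : GL (Fin 2) (IntAd F) := upperTri u 0 1
  set pI : (Adf F)ˣ := ideleAt Q (piLoc Q)
  have hpT : ∀ i, (pI : Adf F) (D.w i) = 1 := fun i =>
    ideleAt_of_ne _ fun h => hQ ⟨i, h.symm⟩
  set uA : (Adf F)ˣ := Units.map intToAdele.toMonoidHom u
  have huQ' : (uA : Adf F) Q = 1 := huQ Q hQ
  have hmapU : Matrix.GeneralLinearGroup.map intToAdele U = upperTri uA 0 1 := by
    rw [map_upperTri, map_one, map_zero]
  set Rq : GL (Fin 2) F := upperTri qd 0 1
  set y := infAct Rq⁻¹ y₀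
  have hDmeq : Dm = rationalMat Rq * (upperTri a 0 1 * upperTri uA 0 1) := by
    rw [rationalMat_upperTri, map_zero, map_one, upperTri_mul, upperTri_mul, hDm, hsplit]
    simp [mul_assoc, uA]
    rfl
  have hred : ∀ o, D.G0 cv x (g * M o) = D.G0 cv y (upperTri a 0 1 * upperTri uA 0 1 * M o) := by
    intro o
    rw [hmove, hDmeq, mul_assoc (rationalMat Rq)]
    have hy : infAct γ⁻¹ x = infAct Rq y := by
      rw [← infAct_mul', mul_inv_cancel, infAct_one']
    rw [hy, G0_rational]
  set A := adDv a with hAdef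
  obtain ⟨β₁, hβ⟩ := exists_rat_near (updAt Q ((a : Adf F) Q) 0)
    (fun v => (A v + if v = Q ∨ D.InT v then 1 else 0).toNat) (by
      refine Filter.eventually_cofinite.2 (((A.support ∪ insert Q
        (Finset.univ.image D.w)).finite_toSet).subset fun v hv => ?_)
      by_contra h
      simp only [Finset.mem_coe, Finset.mem_union, Finsupp.mem_support_iff, Finset.mem_insert,
        Finset.mem_image, Finset.mem_univ, true_and, not_or, not_not] at h
      refine hv ?_
      rw [if_neg (not_or.2 ⟨h.2.1, fun ⟨i, hi⟩ => h.2.2 ⟨i, hi.symm⟩⟩), h.1]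
      rfl)
  have hnear : ∀ v, Valued.v (updAt Q ((a : Adf F) Q) 0 v - loc v β₁) ≤
      exp (-(A v + if v = Q ∨ D.InT v then 1 else 0).toNat : ℤ) := hβ
  have hAQ : Valued.v ((a : Adf F) Q - loc Q β₁) < Valued.v ((a : Adf F) Q) := by
    have h := hnear Q
    rw [updAt_self, if_pos (Or.inl rfl)] at h
    rw [valued_idele, ← hAdef]
    refine h.trans_lt ?_
    rw [exp_lt_exp]
    have := Int.self_le_toNat (A Q + 1)
    omega
  have hvQ : Valued.v (loc Q β₁) = exp (-A Q) := by
    rw [show loc Q β₁ = (a : Adf F) Q - ((a : Adf F) Q - loc Q β₁) by ring,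
      Valuation.map_sub_eq_of_lt_left _ hAQ, valued_idele]
  have hne : ∀ v, v ≠ Q →
      Valued.v (loc v β₁) ≤ exp (-(A v + if v = Q ∨ D.InT v then 1 else 0).toNat : ℤ) := by
    intro v hv
    have h := hnear v
    rwa [updAt_of_ne _ _ _ hv, Nat.cast_zero, zero_sub, Valuation.map_neg] at h
  have hβ₁ : β₁ ≠ 0 := fun h => by rw [h, map_zero, map_zero] at hvQ; exact exp_ne_zero hvQ.symm
  have hexact : dvElt β₁ Q = A Q := by
    rw [valued_dvElt Q hβ₁, exp_inj] at hvQ
    omega
  have hord : ∀ v, OrdGe v (A v) β₁ := fun v => by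
    rcases eq_or_ne v Q with rfl | hv
    · exact Or.inr hexact.ge
    · refine ordGe_iff_valued.2 ((hne v hv).trans (exp_le_exp.2 ?_))
      have := Int.self_le_toNat (A v + if v = Q ∨ D.InT v then 1 else 0)
      split_ifs at this ⊢ <;> omega
  have hTβ : ∀ i, OrdGe (D.w i) 1 β₁ := fun i => by
    refine ordGe_iff_valued.2 ((hne _ fun h => hQ ⟨i, h.symm⟩).trans (exp_le_exp.2 ?_))
    rw [if_pos (Or.inr ⟨i, rfl⟩)]
    have := Int.self_le_toNat (A (D.w i) + 1)
    have : A (D.w i) = 0 := tfree_adDv haT i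
    omega
  -- first family
  have hfirst : ∀ b : 𝓞 F, D.G0 cv y (upperTri a 0 1 * upperTri uA 0 1 *
      atPlace Q (upperTri (piLoc Q) (algebraMap F (Q.adicCompletion F) (b : F)) 1)) =
      D.theta (A + Finsupp.single Q 1) (D.VT cv (D.resT3 U)) (β₁ * (b : F)) y := by
    intro b
    set bQ : Adf F := updAt Q (loc Q (b : F)) 0
    set β : F := β₁ * (b : F)
    set a' : (Adf F)ˣ := a * pI
    set t : Adf F := ((a'⁻¹ : (Adf F)ˣ) : Adf F) *
      ((a : Adf F) * bQ - algebraMap F (Adf F) β)
    have ha'T : ∀ i, (a' : Adf F) (D.w i) = 1 := fun i => by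
      simp only [a', Units.val_mul, adele_mul_apply, haT i, hpT i, mul_one]
    have hA' : adDv a' = A + Finsupp.single Q 1 := by rw [adDv_mul, adDv_ideleAt_piLoc]
    have hb1 : ∀ v, Valued.v (loc v (b : F)) ≤ 1 := fun v => by
      rw [valued_loc, HeightOneSpectrum.valuation_of_algebraMap]; exact v.intValuation_le_one b
    have htv : ∀ v, Valued.v (t v) ≤
        if D.InT v then exp (-1 : ℤ) else 1 := fun v => by
      rw [adele_mul_apply, map_mul, valued_idele, adDv_inv, hA', Finsupp.neg_apply, neg_neg,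
        Finsupp.add_apply, adele_sub_apply, adele_mul_apply, adele_algebraMap_apply]
      rcases eq_or_ne v Q with rfl | hv
      · rw [updAt_self, Finsupp.single_eq_same, if_neg hQ, map_mul, ← sub_mul, map_mul]
        have h := hnear v
        rw [updAt_self, if_pos (Or.inl rfl)] at h
        refine (mul_le_mul' le_rfl (mul_le_mul' h (hb1 v))).trans ?_
        rw [mul_one, ← exp_add, ← exp_zero, exp_le_exp]
        have := Int.self_le_toNat (A v + 1)
        omega
      · rw [updAt_of_ne _ _ _ hv, Nat.cast_zero, mul_zero, zero_sub, Valuation.map_neg, map_mul,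
          map_mul, Finsupp.single_eq_of_ne hv, add_zero]
        refine (mul_le_mul' le_rfl (mul_le_mul' (hne v hv) (hb1 v))).trans ?_
        rw [mul_one, ← exp_add, ← exp_zero]
        have := Int.self_le_toNat (A v + if v = Q ∨ D.InT v then 1 else 0)
        by_cases hT : D.InT v
        · rw [if_pos hT, exp_le_exp]
          rw [if_pos (Or.inr hT)] at this ⊢
          omega
        · rw [if_neg hT, exp_le_exp]
          split_ifs at this ⊢ <;> omega
    have htint : ∀ v, t v ∈ v.adicCompletionIntegers F := fun v => by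
      refine (htv v).trans ?_
      split_ifs
      · rw [← exp_zero, exp_le_exp]; omega
      · exact le_rfl
    let tI : IntAd F := fun v => ⟨t v, htint v⟩
    have hk : D.resT3 (upperTri 1 tI 1 * U) = D.resT3 U := by
      rw [map_mul, show D.resT3 (upperTri 1 tI 1) = 1 from ?_, one_mul]
      funext i
      rw [resT3_apply, resGL, map_upperTri, map_one]
      rw [show ((resHom (D.w i)).comp (Pi.evalRingHom
        (fun u : HeightOneSpectrum (𝓞 F) => u.adicCompletionIntegers F) (D.w i))) tI = 0 from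
        resHom_eq_zero (tI (D.w i)) ((htv (D.w i)).trans_eq (if_pos ⟨i, rfl⟩)), upperTri_one]
      rfl
    rw [show upperTri a 0 1 * upperTri uA 0 1 *
        atPlace Q (upperTri (piLoc Q) (algebraMap F (Q.adicCompletion F) (b : F)) 1) =
        goodMat β a' (upperTri 1 tI 1 * U) 1 by
      rw [goodMat, rationalMat_upperTri, atPlace_upperTri, ideleAt_one,
        map_mul (Matrix.GeneralLinearGroup.map intToAdele), hmapU, map_upperTri]
      simp only [map_one, upperTri_mul, Units.val_one, mul_one, one_mul, mul_zero,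
        add_zero, zero_add]
      have e1 : (a' : Adf F) * intToAdele tI = (a : Adf F) * bQ - algebraMap F (Adf F) β := by
        show (a' : Adf F) * t = _
        rw [← mul_assoc, Units.mul_inv, one_mul]
      have e2 : (uA : Adf F) * bQ = bQ := FiniteAdeleRing.ext _ fun v => by
        rw [adele_mul_apply]
        rcases eq_or_ne v Q with rfl | hv
        · rw [huQ', one_mul]
        · simp [bQ, updAt_of_ne _ _ _ hv]
      congr 1
      · simp only [a']
        rw [mul_assoc, mul_assoc, mul_comm pI uA]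
      · show (a : Adf F) * (uA : Adf F) * bQ = _
        rw [mul_assoc, e2, e1, sub_add_cancel],
      G0_goodMat ha'T, hA', hk]
  have hsecond : D.G0 cv y (upperTri a 0 1 * upperTri uA 0 1 *
      atPlace Q (upperTri 1 0 (piLoc Q))) =
      D.theta (A - Finsupp.single Q 1) (D.VT cv (D.resT3 U)) 0 y := by
    have haT' : ∀ i, ((a * pI⁻¹ : (Adf F)ˣ) : Adf F) (D.w i) = 1 := fun i => by
      have h := congrArg (fun X : Adf F => X (D.w i)) pI.mul_inv
      beta_reduce at h
      rw [adele_mul_apply, hpT i, one_mul] at h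
      rw [Units.val_mul, adele_mul_apply, haT i, one_mul]
      exact h
    rw [show upperTri a 0 1 * upperTri uA 0 1 * atPlace Q (upperTri 1 0 (piLoc Q)) =
        goodMat 0 (a * pI⁻¹) U pI by
      rw [goodMat, rationalMat_upperTri, hmapU, atPlace_upperTri, ideleAt_one]
      have : updAt Q (0 : Q.adicCompletion F) 0 = 0 := FiniteAdeleRing.ext _ fun v => by
        rcases eq_or_ne v Q with rfl | hv
        · rw [updAt_self]; rfl
        · rw [updAt_of_ne _ _ _ hv, Nat.cast_zero]; rfl
      simp only [this, map_one, map_zero, upperTri_mul, Units.val_one, mul_one, one_mul, mul_zero,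
        zero_mul, add_zero]
      congr 1
      rw [mul_right_comm a pI⁻¹ uA, inv_mul_cancel_right],
      G0_goodMat haT', adDv_mul, adDv_inv, adDv_ideleAt_piLoc, sub_eq_add_neg]
  have hrhs : D.G0 cv x g = D.theta A (D.VT cv (D.resT3 U)) 0 y := by
    have h := hred (.inr ())
    simp only [M, mul_one] at h
    rw [h, show upperTri a 0 1 * upperTri uA 0 1 = goodMat 0 a U 1 by
      rw [goodMat, rationalMat_upperTri, hmapU]
      simp [upperTri_mul], G0_goodMat haT]
  rw [heckeT, finsum_eq_sum_of_fintype, hrhs,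
    ← theta_hecke hQ (tfree_adDv haT) hβ₁ hord hexact hTβ (D.VT cv (D.resT3 U)) y, ← hsecond,
    ← hred (.inl none)]
  congr 1
  refine Finset.sum_congr rfl fun b _ => ?_
  rw [← hfirst]
  exact hred (.inl (some b))

end FermatAgent.LT.Dihedral.DihedralData
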