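import Fermat.Agent.LT.Dihedral.KeySum

/-!
# The transformation of the theta series under the inversion
-/

set_option autoImplicit false
set_option maxHeartbeats 400000

noncomputable section

open NumberField IsDedekindDomain MeasureTheory
open scoped nonZeroDivisors

namespace FermatAgent.LT.Dihedral.DihedralData

open QuadData

variable {F : Type} [Field F] [NumberField F] (D : DihedralData F)

/-- The inverted archimedean point. -/
def winv (y : XInf F) : XInf F := fun w =>
  ⟨zInv (fun v => (y v).z) (fun v => (y v).t) w, tInv (fun v => (y v).z) (fun v => (y v).t) w,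
    tInv_pos _ (fun v => (y v).t_pos) w⟩

lemma TFree.add {A B : Dv F} (hA : D.TFree A) (hB : D.TFree B) : D.TFree (A + B) := fun i => by
  rw [Finsupp.add_apply, hA i, hB i, add_zero]

lemma TFree.neg {A : Dv F} (hA : D.TFree A) : D.TFree (-A) := fun i => by
  rw [Finsupp.neg_apply, hA i, neg_zero]

variable {D} {A A' : Dv F}

/-- Pairs for `A` give pairs for `A + 2 E`. -/
def Pair.shift (E : Dv F) (hE : D.TFree E) (h : A' = A + (E + E)) (p : D.Pair A) : D.Pair A' where
  lam := p.lam
  J := p.J + extDv E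
  hJ := fun i => by rw [Finsupp.add_apply, p.hJ i, extDv_apply, D.below_P, hE i, mul_zero, add_zero]
  hdv := by
    subst h
    have h1 := p.hdv
    simp only [map_add, D.conjDv_extDv] at h1 ⊢
    rw [add_add_add_comm, h1]
    abel

lemma Pair.shift_equiv {E : Dv F} (hE : D.TFree E) (h : A' = A + (E + E)) {p q : D.Pair A}
    (hpq : p.Equiv' q) : (p.shift E hE h).Equiv' (q.shift E hE h) := by
  obtain ⟨v, hv, h1, h2⟩ := hpq
  exact ⟨v, hv, h1, by show q.J + _ = p.J + _ + _; rw [h2, add_right_comm]⟩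

/-- The shift on classes. -/
def clsShift (E : Dv F) (hE : D.TFree E) (h : A' = A + (E + E)) : D.Cls A → D.Cls A' :=
  Quotient.map (sa := D.pairSetoid A) (sb := D.pairSetoid A') (Pair.shift E hE h)
    fun _ _ hpq => Pair.shift_equiv hE h hpq

lemma clsShift_clsShift (E : Dv F) (hE : D.TFree E) (h : A' = A + (E + E))
    (h' : A = A' + (-E + -E)) (c : D.Cls A) :
    clsShift (-E) (TFree.neg D hE) h' (clsShift E hE h c) = c := by
  induction c using Quotient.inductionOn with
  | h p =>
    refine congrArg (Quotient.mk _) (Pair.ext' rfl ?_)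
    show p.J + extDv E + extDv (-E) = p.J
    rw [map_neg, add_neg_cancel_right]

/-- The classes of `A` and of `A + 2 E`. -/
def clsShiftEquiv (E : Dv F) (hE : D.TFree E) (h : A' = A + (E + E)) : D.Cls A ≃ D.Cls A' where
  toFun := clsShift E hE h
  invFun := clsShift (-E) (TFree.neg D hE) (by rw [h]; abel)
  left_inv := clsShift_clsShift E hE h (by rw [h]; abel)
  right_inv c := by
    have h' := clsShift_clsShift (A := A') (A' := A) (-E) (TFree.neg D hE) (by rw [h]; abel)
      (by rw [h]; abel) c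
    simpa only [neg_neg] using h'

lemma hW_zero (V : (∀ i, D.kT i) → ℂ) (β lam : F) : D.hW V β lam 0 = 0 := by
  have : D.χT (0 : D.M) = 0 := by
    refine Finset.prod_eq_zero (Finset.mem_univ (0 : Fin 3)) ?_
    rw [show (0 : D.M) = ((0 : 𝓞 D.M) : D.M) from (map_zero _).symm, rmod_int, map_zero, D.χ_zero]
  rw [hW, coefT, this, zero_mul, zero_mul]

/-- A class contribution as an integral of lattice sums. -/
lemma card_mul_classSum (V : (∀ i, D.kT i) → ℂ) (β : F) (p : D.Pair A) (y : XInf F) :
    (Fintype.card D.kerOne : ℂ) * D.classSum V β p y =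
      D.ξc p.J * ((D.cA A * ∏ w, (y w).t / 2 : ℝ) : ℂ) *
        ∫ u in D.dom, D.latSum (-p.J) fun x => D.hW V β p.lam x *
          gaussV (lW ((p.lam : F) * (-3)⁻¹)) (fun w => (y w).z) (fun w => (y w).t)
            (fun w => Real.exp (u w)) (D.vec x) := by
  rw [classSum, mul_left_comm]
  congr 1
  rw [D.unfold_orbits (mul_ne_zero p.lam.ne_zero (inv_ne_zero (by norm_num))) (-p.J)
    (D.hW V β p.lam) (C := ∑ c, ‖V c‖) (fun q => norm_hW_le _ _ _ _)
    (fun e q => hW_uval_mul p.hJ V β p.lam e q) _ fun w => (y w).t_pos]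
  refine setIntegral_congr_fun D.measurableSet_dom fun u _ => ?_
  exact tsum_Pts_eq_latSum (fun x => D.hW V β p.lam x *
    D.gU ((p.lam : F) * (-3)⁻¹) (fun w => (y w).z) (fun w => (y w).t) x u)
    (by rw [hW_zero, zero_mul])

variable {𝔮 : Ideal (𝓞 F)} {β β' : F}

lemma KeyHyp.tfree_sub (hK : D.KeyHyp A 𝔮 β β') : D.TFree (idealDv 𝔮 - A) := fun i => by
  rw [Finsupp.sub_apply, hK.q_T, hK.tfree i, sub_zero]

lemma η_neg (B : Dv F) : D.η (-B) = D.η B := by
  have h1 : D.η (-B) * D.η B = 1 := by rw [← η_add, neg_add_cancel, η_zero]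
  calc D.η (-B) = D.η (-B) * (D.η B * D.η B) := by rw [D.η_sq, mul_one]
    _ = D.η B := by rw [← mul_assoc, h1, one_mul]

lemma cA_shift (A B : Dv F) :
    D.cA (A + ((B - A) + (B - A))) = D.cA A * (ndeg A / ndeg B) := by
  have hA := ndeg_pos A
  have hB := ndeg_pos B
  have hd := ndeg_pos D.dD
  have h : ndeg (A + ((B - A) + (B - A)) + D.dD) = (ndeg B / ndeg A) ^ 2 * (ndeg (A + D.dD)) := by
    simp only [sub_eq_add_neg, ndeg_add, ndeg_neg]
    field_simp
  rw [cA, cA, h, Real.sqrt_mul (by positivity), Real.sqrt_sq (by positivity), mul_inv, inv_div]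
  ring

/-- The transformation of the contribution of a class. -/
theorem classSum_key (hK : D.KeyHyp A 𝔮 β β') (p : D.Pair A) (V : (∀ i, D.kT i) → ℂ) (y : XInf F) :
    D.classSum V β p y = D.classSum (D.Vtw β V) β'
      (p.shift (A' := A + ((idealDv 𝔮 - A) + (idealDv 𝔮 - A))) (idealDv 𝔮 - A) hK.tfree_sub rfl)
      (winv y) := by
  have hk : (Fintype.card D.kerOne : ℂ) ≠ 0 := by
    have := D.card_kerOne_pos
    exact Nat.cast_ne_zero.2 (by omega)
  refine mul_left_cancel₀ hk ?_
  rw [card_mul_classSum, card_mul_classSum]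
  set t : InfinitePlace F → ℝ := fun w => (y w).t
  set z : InfinitePlace F → ℂ := fun w => (y w).z
  have ht : ∀ w, 0 < t w := fun w => (y w).t_pos
  simp only [class_poisson hK p V z ht fun w => Real.exp_pos _, integral_const_mul, ← mul_assoc]
  congr 1
  rw [cA_shift]
  show _ = D.ξc (p.J + extDv (idealDv 𝔮 - A)) * ((_ * ∏ w, tInv z t w / 2 : ℝ) : ℂ)
  rw [ξc_add, show D.ξc (extDv (idealDv 𝔮 - A)) = D.η (idealDv 𝔮) * D.η A by
    show D.η _ = _
    rw [sub_eq_add_neg, η_add, η_neg]]
  have hprod : ∏ w, tInv z t w / 2 =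
      (∏ w, t w / 2) * ∏ w, (Complex.normSq (z w) + t w ^ 2)⁻¹ := by
    rw [← Finset.prod_mul_distrib]
    refine Finset.prod_congr rfl fun w _ => ?_
    rw [tInv, ← div_eq_mul_inv, div_right_comm]
  rw [hprod]
  push_cast
  ring

/-- The transformation of the theta series. -/
theorem theta_key (hK : D.KeyHyp A 𝔮 β β') (V : (∀ i, D.kT i) → ℂ) (y : XInf F) :
    D.theta A V β y =
      D.theta (A + ((idealDv 𝔮 - A) + (idealDv 𝔮 - A))) (D.Vtw β V) β' (winv y) := by
  set E := idealDv 𝔮 - A with hEdef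
  have hE : D.TFree E := hK.tfree_sub
  set e := clsShiftEquiv (A := A) (A' := A + (E + E)) E hE rfl
  let r' : D.Cls (A + (E + E)) → D.Pair (A + (E + E)) := fun c =>
    (D.crep A (e.symm c)).shift E hE rfl
  have hr' : ∀ c, Quotient.mk (D.pairSetoid (A + (E + E))) (r' c) = c := fun c => by
    show clsShift E hE rfl (Quotient.mk (D.pairSetoid A) (D.crep A (e.symm c))) = c
    rw [D.mk_crep A]
    exact e.apply_symm_apply c
  rw [D.theta_eq A hK.tfree V β y (D.mk_crep A),
    D.theta_eq _ (TFree.add D hK.tfree (TFree.add D hE hE)) _ β' _ hr', ← e.sum_comp]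
  refine Finset.sum_congr rfl fun c _ => ?_
  simp only [r', Equiv.symm_apply_apply]
  exact classSum_key hK _ V y

end FermatAgent.LT.Dihedral.DihedralData
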