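import Fermat.Agent.LT.Dihedral.Eta
import Mathlib.RingTheory.ClassGroup.Basic
import Mathlib.NumberTheory.NumberField.ClassNumber
import Mathlib.NumberTheory.NumberField.Units.DirichletTheorem

/-!
# Pairs of a frequency and a divisor of `M`, and the finiteness of their classes
-/

set_option autoImplicit false
set_option maxHeartbeats 400000

noncomputable section

open NumberField IsDedekindDomain
open scoped nonZeroDivisors

namespace FermatAgent.LT.Dihedral.DihedralData

open QuadData

variable {F : Type} [Field F] [NumberField F] (D : DihedralData F)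

/-- A divisor of `F` without places over `3`. -/
def TFree (A : Dv F) : Prop := ∀ i, A (D.w i) = 0

/-- A divisor of `M` without places over `3`. -/
def TFreeM (J : Dv D.M) : Prop := ∀ i, J (D.P i) = 0

/-- A pair for the divisor `A`: a frequency and a divisor of its relative norm. -/
structure Pair (A : Dv F) where
  lam : Fˣ
  J : Dv D.M
  hJ : D.TFreeM J
  hdv : J + D.conjDv J = extDv (dvElt (lam : F) + A + D.dD)

variable {D} {A : Dv F}

lemma Pair.lam_T (hA : D.TFree A) (p : D.Pair A) (i : Fin 3) :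
    dvElt (p.lam : F) (D.w i) = 0 := by
  have h := DFunLike.congr_fun p.hdv (D.P i)
  rw [Finsupp.add_apply, conjDv_apply, D.conjP_P, p.hJ i, extDv_apply, D.below_P,
    Finsupp.add_apply, Finsupp.add_apply, hA i, D.dD_w, add_zero, add_zero, add_zero] at h
  have := D.one_le_ram (D.P i)
  exact (mul_eq_zero.1 h.symm).resolve_left (by omega)

lemma Pair.ext' {p q : D.Pair A} (h1 : p.lam = q.lam) (h2 : p.J = q.J) : p = q := by
  cases p; cases q; simp_all

/-- Two pairs differing by an element of `M`. -/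
def Pair.Equiv' (p q : D.Pair A) : Prop :=
  ∃ v : D.M, v ≠ 0 ∧ (q.lam : F) = (p.lam : F) * D.nrm v ∧ q.J = p.J + dvElt v

variable (D A)

/-- The equivalence of pairs. -/
def pairSetoid : Setoid (D.Pair A) where
  r := Pair.Equiv'
  iseqv := by
    refine ⟨fun p => ⟨1, one_ne_zero, by rw [D.nrm_one, mul_one], by rw [dvElt_one, add_zero]⟩,
      ?_, ?_⟩
    · rintro p q ⟨v, hv, h1, h2⟩
      refine ⟨v⁻¹, inv_ne_zero hv, ?_, ?_⟩
      · rw [h1, D.nrm_inv, mul_inv_cancel_right₀ (D.nrm_eq_zero.not.2 hv)]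
      · rw [h2, dvElt_inv hv, add_neg_cancel_right]
    · rintro p q r ⟨v, hv, h1, h2⟩ ⟨v', hv', h1', h2'⟩
      refine ⟨v * v', mul_ne_zero hv hv', ?_, ?_⟩
      · rw [h1', h1, D.nrm_mul, mul_assoc]
      · rw [h2', h2, dvElt_mul hv hv', add_assoc]

/-- The classes of pairs. -/
abbrev Cls : Type := Quotient (D.pairSetoid A)

open Classical in
/-- The representatives of the units of `F` modulo squares. -/
def unitReps : Finset (𝓞 F)ˣ :=
  haveI : Fintype (Units.torsion F) := Fintype.ofFinite _
  Finset.univ.image fun p : Units.torsion F × (Fin (Units.rank F) → Fin 2) =>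
    (p.1 : (𝓞 F)ˣ) * ∏ i, Units.fundSystem F i ^ ((p.2 i : ℕ) : ℤ)

omit D in
lemma exists_unitRep (u : (𝓞 F)ˣ) : ∃ r ∈ unitReps (F := F), ∃ s : (𝓞 F)ˣ, u = r * (s * s) := by
  classical
  obtain ⟨⟨ζ, k⟩, hk, -⟩ := Units.exist_unique_eq_mul_prod F u
  have : Fintype (Units.torsion F) := Fintype.ofFinite _
  let e : Fin (Units.rank F) → Fin 2 := fun i => ⟨(k i % 2).toNat, by omega⟩
  refine ⟨(ζ : (𝓞 F)ˣ) * ∏ i, Units.fundSystem F i ^ ((e i : ℕ) : ℤ),
    by simp only [unitReps, Finset.mem_image]; exact ⟨(ζ, e), @Finset.mem_univ _ (_) _, rfl⟩,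
    ∏ i, Units.fundSystem F i ^ (k i / 2), ?_⟩
  rw [hk, mul_assoc]
  congr 1
  rw [← Finset.prod_mul_distrib, ← Finset.prod_mul_distrib]
  refine Finset.prod_congr rfl fun i _ => ?_
  rw [← zpow_add, ← zpow_add]
  congr 1
  show k i = ((k i % 2).toNat : ℤ) + (k i / 2 + k i / 2)
  omega

instance finite_Cls : Finite (D.Cls A) := by
  classical
  let base : ClassGroup (𝓞 D.M) → Option (D.Pair A) := fun c =>
    if h : ∃ p : D.Pair A, ClassGroup.mk D.M (fid p.J) = c then some h.choose else none
  let key : ClassGroup (𝓞 D.M) × (unitReps (F := F)) → Option (D.Cls A) := fun cu =>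
    (base cu.1).map fun p0 =>
      Quotient.mk _ (⟨p0.lam * Units.map (algebraMap (𝓞 F) F).toMonoidHom (cu.2 : (𝓞 F)ˣ), p0.J,
        p0.hJ, by
          rw [p0.hdv, Units.val_mul, dvElt_mul p0.lam.ne_zero (Units.ne_zero _)]
          congr 2
          rw [show ((Units.map (algebraMap (𝓞 F) F).toMonoidHom (cu.2 : (𝓞 F)ˣ) : Fˣ) : F) =
            ((((cu.2 : (𝓞 F)ˣ)) : 𝓞 F) : F) from rfl, ← idealDv_span,
            Ideal.span_singleton_eq_top.2 (Units.isUnit _), idealDv_top, add_zero]⟩ : D.Pair A)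
  have hfin : (Set.range key).Finite := Set.finite_range key
  have hsub : (Set.range (some : D.Cls A → Option (D.Cls A))) ⊆ Set.range key := by
    rintro _ ⟨c, rfl⟩
    induction c using Quotient.inductionOn with
    | h p =>
      set cl := ClassGroup.mk D.M (fid p.J)
      have hex : ∃ q : D.Pair A, ClassGroup.mk D.M (fid q.J) = cl := ⟨p, rfl⟩
      set p0 := hex.choose
      obtain ⟨v, hv, hJ⟩ := D.exists_dvElt_of_mk_eq hex.choose_spec
      have hnv : D.nrm v ≠ 0 := D.nrm_eq_zero.not.2 hv
      have hdiv : dvElt ((p0.lam : F) * D.nrm v) = dvElt (p.lam : F) := by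
        refine D.extDv_injective ?_
        rw [dvElt_mul p0.lam.ne_zero hnv, map_add, D.extDv_dvElt_nrm hv]
        have h1 := p0.hdv
        have h2 := p.hdv
        rw [map_add, map_add] at h1 h2
        rw [hJ, map_add] at h2
        rw [← add_left_inj (extDv (L := D.M) A + extDv D.dD)]
        rw [← add_assoc (extDv (L := D.M) (dvElt (p.lam : F))), ← h2, add_right_comm _ _ (extDv A + _),
          ← add_assoc (extDv (L := D.M) (dvElt (p0.lam : F))), ← h1]
        abel
      set u₀ : F := (p.lam : F) / ((p0.lam : F) * D.nrm v)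
      have hu0 : u₀ ≠ 0 := div_ne_zero p.lam.ne_zero (mul_ne_zero p0.lam.ne_zero hnv)
      have hu : dvElt u₀ = 0 := by
        simp only [u₀]
        rw [div_eq_mul_inv, dvElt_mul p.lam.ne_zero (inv_ne_zero (mul_ne_zero p0.lam.ne_zero hnv)),
          dvElt_inv (mul_ne_zero p0.lam.ne_zero hnv), hdiv, add_neg_cancel]
      obtain ⟨a, ha⟩ := exists_int_of_nonneg (Or.inr hu.ge)
      obtain ⟨b, hb⟩ := exists_int_of_nonneg (x := u₀⁻¹) (Or.inr (by rw [dvElt_inv hu0, hu, neg_zero]))
      have hab : a * b = 1 := RingOfIntegers.ext (by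
        show ((a * b : 𝓞 F) : F) = _
        rw [coeO_mul, ha, hb, mul_inv_cancel₀ hu0]
        exact (map_one _).symm)
      obtain ⟨r, hr, s, hs⟩ := exists_unitRep (Units.mkOfMulEqOne a b hab)
      refine ⟨(cl, ⟨r, hr⟩), ?_⟩
      have hb0 : base cl = some p0 := dif_pos hex
      show (base cl).map _ = _
      rw [hb0]
      refine congrArg some (Quotient.sound ?_)
      refine ⟨v * algebraMap F D.M ((s : 𝓞 F) : F),
        mul_ne_zero hv ((map_ne_zero _).2 (RingOfIntegers.coe_ne_zero_iff.2 s.ne_zero)), ?_, ?_⟩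
      · show (p.lam : F) = ((p0.lam : F) * (((r : (𝓞 F)ˣ) : 𝓞 F) : F)) * _
        have hu' : u₀ = (((r * (s * s) : (𝓞 F)ˣ) : 𝓞 F) : F) := by
          rw [← hs, ← ha]; rfl
        have hp : (p.lam : F) = u₀ * ((p0.lam : F) * D.nrm v) :=
          (div_mul_cancel₀ _ (mul_ne_zero p0.lam.ne_zero hnv)).symm
        rw [hp, hu', D.nrm_mul, D.nrm_algebraMap, Units.val_mul, Units.val_mul, coeO_mul, coeO_mul]
        ring
      · show p.J = p0.J + _
        rw [dvElt_mul hv ((map_ne_zero _).2 (RingOfIntegers.coe_ne_zero_iff.2 s.ne_zero)),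
          dvElt_algebraMap (RingOfIntegers.coe_ne_zero_iff.2 s.ne_zero), ← idealDv_span,
          Ideal.span_singleton_eq_top.2 (Units.isUnit _), idealDv_top, map_zero, add_zero]
        exact hJ
  exact Set.finite_univ_iff.1 (by
    have := (hfin.subset hsub).preimage (Option.some_injective _).injOn
    rwa [Set.preimage_range] at this)

instance fintype_Cls : Fintype (D.Cls A) := Fintype.ofFinite _

/-- The representative of a class. -/
def crep (c : D.Cls A) : D.Pair A := Quotient.out c

end FermatAgent.LT.Dihedral.DihedralData
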