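import Fermat.Agent.LT.Dihedral.FiniteSum
import Mathlib.Data.ZMod.Basic
import Mathlib.FieldTheory.Finite.GaloisField

/-!
# The finite sum at the places over `3`
-/

set_option autoImplicit false
set_option maxHeartbeats 400000

noncomputable section

open NumberField IsDedekindDomain Finset
open scoped Classical

namespace FermatAgent.LT.Dihedral.DihedralData

open QuadData

variable {F : Type} [Field F] [NumberField F] (D : DihedralData F)

/-- The residue field of `F` at `w i`. -/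
abbrev kT (i : Fin 3) : Type := 𝓞 F ⧸ (D.w i).asIdeal

/-- The residue field of `M` at `P i`. -/
abbrev BT (i : Fin 3) : Type := 𝓞 D.M ⧸ (D.P i).asIdeal

instance liesOverT (i : Fin 3) : (D.P i).asIdeal.LiesOver (D.w i).asIdeal :=
  ⟨by rw [← D.below_P i]; rfl⟩

lemma card_kT (i : Fin 3) : Nat.card (D.kT i) = 3 := by rw [card_quot, D.absNorm_w]

lemma card_BT (i : Fin 3) : Nat.card (D.BT i) = if i = 0 then 9 else 3 := by
  have h := D.absNorm_mapI (D.w i).asIdeal
  rw [D.absNorm_w] at h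
  rw [card_quot]
  rcases eq_or_ne i 0 with rfl | hi
  · rw [mapI, D.map_inert] at h
    rw [h, if_pos rfl]; norm_num
  · rw [mapI, D.map_ramified i hi, map_pow] at h
    rw [if_neg hi]
    exact Nat.pow_left_injective two_ne_zero h

instance fieldKT (i : Fin 3) : Field (D.kT i) := Ideal.Quotient.field _

instance fieldBT (i : Fin 3) : Field (D.BT i) := Ideal.Quotient.field _

instance fintypeKT (i : Fin 3) : Fintype (D.kT i) :=
  haveI := finite_quot (D.w i).ne_bot
  Fintype.ofFinite _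

instance fintypeBT (i : Fin 3) : Fintype (D.BT i) :=
  haveI := finite_quot (D.P i).ne_bot
  Fintype.ofFinite _

lemma algebraMap_mkT (i : Fin 3) (c : 𝓞 F) :
    algebraMap (D.kT i) (D.BT i) (Ideal.Quotient.mk _ c) =
      Ideal.Quotient.mk _ (algebraMap (𝓞 F) (𝓞 D.M) c) := rfl

lemma rmod_algebraMap (i : Fin 3) {a : F} (ha : OrdGe (D.w i) 0 a) :
    rmod (D.P i) (algebraMap F D.M a) = algebraMap (D.kT i) (D.BT i) (rmod (D.w i) a) := by
  obtain ⟨c, hc, hc'⟩ := exists_int_rmod (D.w i) ha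
  have h0 : OrdGe (D.below (D.P i)) 0 a := by rwa [D.below_P]
  have h1 : OrdGe (D.below (D.P i)) 1 (a - (c : F)) := by rwa [D.below_P]
  rw [hc', algebraMap_mkT]
  refine rmod_eq (D.P i) ((D.ordGe_algebraMap h0).mono (by simp)) ?_
  have h2 := (D.ordGe_algebraMap h1).mono (show (1 : ℤ) ≤ D.ram (D.P i) * 1 by
    have := D.one_le_ram (D.P i); omega)
  rwa [map_sub] at h2

/-- Conjugation on the residue fields. -/
def σT (i : Fin 3) : D.BT i ≃+* D.BT i := D.σres (D.conjP_P i)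

lemma rmod_σ (i : Fin 3) {x : D.M} (hx : OrdGe (D.P i) 0 x) :
    rmod (D.P i) (D.σ x) = D.σT i (rmod (D.P i) x) := by
  obtain ⟨c, hc, hc'⟩ := exists_int_rmod (D.P i) hx
  rw [hc', σT, σres_mk]
  refine rmod_eq (D.P i) (D.ordGe_σ (by rwa [D.conjP_P])) ?_
  have := D.ordGe_σ (P := D.P i) (x := x - (c : D.M)) (k := 1) (by rwa [D.conjP_P])
  rwa [map_sub] at this

lemma σT_fix (i : Fin 3) (c : D.kT i) :
    D.σT i (algebraMap _ _ c) = algebraMap (D.kT i) (D.BT i) c := by
  obtain ⟨c, rfl⟩ := Ideal.Quotient.mk_surjective c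
  rw [algebraMap_mkT, σT, σres_mk, D.σO_algebraMap]

lemma σT_frob (z : D.BT 0) : D.σT 0 z = z ^ 3 := by
  have hP : D.mapI (D.below (D.P 0)).asIdeal = (D.P 0).asIdeal := by
    rw [D.below_P]; exact D.map_inert
  have h := ringEquiv_eq_pow_card (k := D.kT 0) (B := D.BT 0)
    (by rw [← Nat.card_eq_fintype_card (α := D.kT 0), card_BT, card_kT, if_pos rfl]; norm_num)
    (D.σT 0) (D.σT_fix 0) (D.σres_ne hP (D.conjP_P 0)) z
  rwa [← Nat.card_eq_fintype_card, card_kT] at h

lemma algebraMap_bijective {i : Fin 3} (hi : i ≠ 0) :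
    Function.Bijective (algebraMap (D.kT i) (D.BT i)) := by
  rw [Fintype.bijective_iff_injective_and_card]
  refine ⟨(algebraMap (D.kT i) (D.BT i)).injective, ?_⟩
  rw [← Nat.card_eq_fintype_card, ← Nat.card_eq_fintype_card, card_kT, card_BT, if_neg hi]

lemma idealDv_idealT : idealDv D.idealT = D.fM := by
  classical
  have h : ∀ s : Finset (Fin 3), idealDv (∏ i ∈ s, (D.P i).asIdeal) =
      ∑ i ∈ s, Finsupp.single (D.P i) (1 : ℤ) := by
    intro s
    induction s using Finset.induction_on with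
    | empty => simp [Ideal.one_eq_top, idealDv_top]
    | @insert i s hi ih =>
      rw [Finset.prod_insert hi, Finset.sum_insert hi, idealDv_mul (D.P i).ne_bot
        (Finset.prod_ne_zero_iff.2 fun j _ => (D.P j).ne_bot), ih, idealDv_prime]
  exact h Finset.univ

/-- The residual norm. -/
def nmT (i : Fin 3) (z : D.BT i) : D.kT i :=
  Ideal.Quotient.mk _ (D.nrmO (qrep _ z))

/-- The residual trace. -/
def trT (i : Fin 3) (z : D.BT i) : D.kT i :=
  Ideal.Quotient.mk _ (D.traO (qrep _ z))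

lemma algebraMap_nmT (i : Fin 3) (z : D.BT i) :
    algebraMap (D.kT i) (D.BT i) (D.nmT i z) = z * D.σT i z := by
  rw [nmT, algebraMap_mkT, algebraMap_nrmO, map_mul, mk_qrep]
  congr 1
  conv_rhs => rw [← mk_qrep (D.P i).asIdeal z, σT, σres_mk]

lemma algebraMap_trT (i : Fin 3) (z : D.BT i) :
    algebraMap (D.kT i) (D.BT i) (D.trT i z) = z + D.σT i z := by
  rw [trT, algebraMap_mkT, algebraMap_traO, map_add, mk_qrep]
  congr 1
  conv_rhs => rw [← mk_qrep (D.P i).asIdeal z, σT, σres_mk]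

lemma ordGe_nrm_T {i : Fin 3} {x : D.M} (hx : OrdGe (D.P i) 0 x) :
    OrdGe (D.w i) 0 (D.nrm x) := by
  refine D.ordGe_nrm (fun _ => 0) (fun P _ => ?_) (fun _ => rfl) fun P hP => ?_
  · have := D.one_le_ram P; omega
  · rwa [D.eq_P_of_below hP]

lemma ordGe_tra_T {i : Fin 3} {x : D.M} (hx : OrdGe (D.P i) 0 x) :
    OrdGe (D.w i) 0 (D.tra x) := by
  refine D.ordGe_tra (fun _ => 0) (fun P _ => ?_) (fun _ => rfl) fun P hP => ?_
  · have := D.one_le_ram P; omega
  · rwa [D.eq_P_of_below hP]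

lemma rmod_nrm (i : Fin 3) {x : D.M} (hx : OrdGe (D.P i) 0 x) :
    rmod (D.w i) (D.nrm x) = D.nmT i (rmod (D.P i) x) := by
  apply (algebraMap (D.kT i) (D.BT i)).injective
  rw [algebraMap_nmT, ← D.rmod_algebraMap i (D.ordGe_nrm_T hx), algebraMap_nrm,
    rmod_mul (D.P i) hx (D.ordGe_σ (by rwa [D.conjP_P])), D.rmod_σ i hx]

lemma rmod_tra (i : Fin 3) {x : D.M} (hx : OrdGe (D.P i) 0 x) :
    rmod (D.w i) (D.tra x) = D.trT i (rmod (D.P i) x) := by
  apply (algebraMap (D.kT i) (D.BT i)).injective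
  rw [algebraMap_trT, ← D.rmod_algebraMap i (D.ordGe_tra_T hx), algebraMap_tra,
    rmod_add (D.P i) hx (D.ordGe_σ (by rwa [D.conjP_P])), D.rmod_σ i hx]

/-- The residual character restricted to the residue field of `F`. -/
def χk (i : Fin 3) : MulChar (D.kT i) ℂ where
  toFun c := D.χ i (algebraMap (D.kT i) (D.BT i) c)
  map_one' := by simp
  map_mul' a b := by simp
  map_nonunit' c hc := by
    rw [show c = 0 from not_not.1 fun h => hc (Ne.isUnit h), map_zero]
    exact MulChar.map_nonunit _ not_isUnit_zero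

lemma χk_apply (i : Fin 3) (c : D.kT i) :
    D.χk i c = D.χ i (algebraMap (D.kT i) (D.BT i) c) := rfl

/-- The Gauss sum at `w i`. -/
def gT (i : Fin 3) : ℂ := gaussSum (D.χk i) (D.psiT i)

lemma χ_zero (i : Fin 3) : D.χ i 0 = 0 := MulChar.map_nonunit _ not_isUnit_zero

lemma χ_neg_one {i : Fin 3} (hi : i ≠ 0) : D.χ i (-1) = -1 := by
  have hsq : D.χ i (-1) ^ 2 = 1 := by rw [← map_pow, neg_one_sq, map_one]
  rcases sq_eq_one_iff.1 hsq with h | h
  · exfalso
    refine D.χ_ne_one i (MulChar.ext fun u => ?_)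
    rw [MulChar.one_apply_coe]
    have hc : Nat.card (D.BT i)ˣ = 2 := by
      rw [Nat.card_eq_fintype_card, Fintype.card_units, ← Nat.card_eq_fintype_card,
        card_BT, if_neg hi]
    have hne : (-1 : (D.BT i)ˣ) ≠ 1 := by
      intro he
      have h2 : (2 : D.BT i) = 0 := by
        have := congrArg (fun v : (D.BT i)ˣ => (v : D.BT i)) he
        simp only [Units.val_neg, Units.val_one] at this
        linear_combination -this
      have h3 := FiniteField.cast_card_eq_zero (D.BT i)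
      rw [← Nat.card_eq_fintype_card, card_BT, if_neg hi] at h3
      push_cast at h3
      exact one_ne_zero (α := D.BT i) (by linear_combination h3 - h2)
    rw [Nat.card_eq_fintype_card] at hc
    have huniv : (univ : Finset (D.BT i)ˣ) = {1, -1} :=
      (Finset.eq_univ_of_card _ (by rw [Finset.card_pair hne.symm, hc])).symm
    have := Finset.mem_univ u
    rw [huniv] at this
    simp only [Finset.mem_insert, Finset.mem_singleton] at this
    rcases this with rfl | rfl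
    · simp
    · simpa using h
  · exact h

lemma kT_cases {i : Fin 3} (x : D.kT i) : x = 0 ∨ x = 1 ∨ x = -1 := by
  have hu : (univ : Finset (D.kT i)) = {0, 1, -1} := by
    have hne : (1 : D.kT i) ≠ -1 := fun h => by
      have h3 := FiniteField.cast_card_eq_zero (D.kT i)
      rw [← Nat.card_eq_fintype_card, card_kT] at h3
      push_cast at h3
      exact one_ne_zero (α := D.kT i) (by linear_combination h3 - h)
    refine (Finset.eq_univ_of_card _ ?_).symm
    rw [Finset.card_insert_of_notMem (by simp), Finset.card_pair hne,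
      ← Nat.card_eq_fintype_card, card_kT]
  have := Finset.mem_univ x
  rw [hu] at this
  simpa using this

lemma kT_sq {i : Fin 3} {x : D.kT i} (hx : x ≠ 0) : x * x = 1 := by
  rcases D.kT_cases x with h | h | h
  · exact absurd h hx
  · rw [h, one_mul]
  · rw [h, neg_mul_neg, one_mul]

lemma kT_two {i : Fin 3} : (2 : D.kT i) = -1 := by
  have h3 := FiniteField.cast_card_eq_zero (D.kT i)
  rw [← Nat.card_eq_fintype_card, card_kT] at h3
  push_cast at h3
  linear_combination h3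

lemma gT_eq {i : Fin 3} (hi : i ≠ 0) :
    D.gT i = D.psiT i 1 - D.psiT i (-1) := by
  have hu : (univ : Finset (D.kT i)) = {0, 1, -1} := by
    refine Finset.ext fun x => iff_of_true (Finset.mem_univ x) ?_
    simpa using D.kT_cases x
  have hne : (1 : D.kT i) ≠ -1 := fun h => one_ne_zero (α := D.kT i) (by
    linear_combination D.kT_two (i := i) - h)
  rw [gT, gaussSum, hu, Finset.sum_insert (by simp), Finset.sum_pair hne]
  simp [χk_apply, D.χ_neg_one hi, sub_eq_add_neg, D.χ_zero]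

lemma gT_mul : D.gT 1 * D.gT 2 = -3 := by
  have h : D.gT 1 = D.gT 2 := by
    rw [D.gT_eq (by decide), D.gT_eq (by decide)]
    have key : ∀ n : ℕ, D.psiT 1 (n : D.kT 1) = D.psiT 2 (n : D.kT 2) := fun n => by
      rw [← map_natCast (Ideal.Quotient.mk (D.w 1).asIdeal),
        ← map_natCast (Ideal.Quotient.mk (D.w 2).asIdeal), D.psiT_mk, D.psiT_mk,
        D.psiO_natCast_eq 1 2]
    have h1 := key 1
    have h2 := key 2
    simp only [Nat.cast_one, Nat.cast_ofNat, kT_two] at h1 h2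
    rw [h1, h2]
  rw [← h, ← pow_two, gT]
  refine gaussSum_three_sq (by rw [← Nat.card_eq_fintype_card, card_kT]) ?_ (D.psiT_ne_one 1)
  intro he
  have := DFunLike.congr_fun he (-1 : D.kT 1)
  rw [χk_apply, map_neg, map_one, D.χ_neg_one (show (1 : Fin 3) ≠ 0 by decide),
    MulChar.one_apply isUnit_one.neg] at this
  norm_num at this

/-- The sum at a ramified place. -/
lemma sum_ram {i : Fin 3} (hi : i ≠ 0) (W : D.kT i → ℂ) {l : D.kT i} (hl : l ≠ 0) (y : D.BT i) :
    ∑ X, D.χ i X * W (l * D.nmT i X) * D.psiT i (l * D.trT i (X * D.σT i y)) =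
      -(D.χ i (algebraMap _ _ l) * D.gT i) * D.χ i y * W (l * D.nmT i y) := by
  have hN : ∀ c : D.kT i, D.nmT i (algebraMap _ _ c) = c * c := fun c =>
    (algebraMap (D.kT i) (D.BT i)).injective (by rw [algebraMap_nmT, σT_fix, map_mul])
  have hT : ∀ c : D.kT i, D.trT i (algebraMap _ _ c) = -c := fun c =>
    (algebraMap (D.kT i) (D.BT i)).injective (by
      rw [algebraMap_trT, σT_fix, ← map_add, ← two_mul, kT_two, neg_one_mul])
  obtain ⟨c, rfl⟩ := (D.algebraMap_bijective hi).2 y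
  rw [← (Equiv.ofBijective _ (D.algebraMap_bijective hi)).sum_comp]
  simp only [Equiv.ofBijective_apply, σT_fix, ← map_mul, hN, hT]
  have hu : (univ : Finset (D.kT i)) = {0, 1, -1} := by
    refine Finset.ext fun x => iff_of_true (Finset.mem_univ x) ?_
    simpa using D.kT_cases x
  have hne : (1 : D.kT i) ≠ -1 := fun h => one_ne_zero (α := D.kT i) (by
    linear_combination D.kT_two (i := i) - h)
  rw [hu, Finset.sum_insert (by simp), Finset.sum_pair hne]
  have hm1 : D.χ i (algebraMap (D.kT i) (D.BT i) (-1)) = -1 := by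
    rw [map_neg, map_one, D.χ_neg_one hi]
  simp only [map_zero, D.χ_zero, zero_mul, zero_add, map_one, one_mul, mul_one,
    neg_mul, hm1, D.gT_eq hi]
  rcases D.kT_cases c with rfl | rfl | rfl
  · simp [D.χ_zero]
  all_goals rcases D.kT_cases l with h | rfl | rfl
  all_goals first | exact absurd h hl | (simp [D.χ_neg_one hi]; ring)

/-- The sum at the inert place. -/
lemma sum_inert (W : D.kT 0 → ℂ) {l : D.kT 0} (hl : l ≠ 0) (y : D.BT 0) :
    ∑ X, D.χ 0 X * W (l * D.nmT 0 X) * D.psiT 0 (l * D.trT 0 (X * D.σT 0 y)) =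
      -3 * D.χ 0 y * W (l * D.nmT 0 y) := by
  simp only [σT_frob]
  refine sum_nine (by rw [← Nat.card_eq_fintype_card, card_kT])
    (by rw [← Nat.card_eq_fintype_card, card_BT, if_pos rfl]) D.χ_zero_sq ?_ (D.psiT_ne_one 0)
    (D.nmT 0) (D.trT 0) (fun x => ?_) (fun x => ?_) W hl y
  · intro c hc
    obtain ⟨c, rfl⟩ := Ideal.Quotient.mk_surjective c
    rw [algebraMap_mkT]
    exact D.χ_zero_base c (mt Ideal.Quotient.eq_zero_iff_mem.2 hc)
  · rw [algebraMap_nmT, σT_frob, ← pow_succ']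
  · rw [algebraMap_trT, σT_frob]

/-- The sum over the three residue fields. -/
lemma sum_three (W : (∀ i, D.kT i) → ℂ) {l : ∀ i, D.kT i} (hl : ∀ i, l i ≠ 0)
    (y : ∀ i, D.BT i) :
    ∑ X : ∀ i, D.BT i, (∏ i, D.χ i (X i)) * W (fun i => l i * D.nmT i (X i)) *
        ∏ i, D.psiT i (l i * D.trT i (X i * D.σT i (y i))) =
      9 * (∏ i, D.χ i (algebraMap _ _ (l i))) * (∏ i, D.χ i (y i)) *
        W (fun i => l i * D.nmT i (y i)) := by
  classical
  let mk3 : ∀ {T : Fin 3 → Type}, T 0 → T 1 → T 2 → ∀ i, T i := fun a b c i =>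
    match i with
    | 0 => a
    | 1 => b
    | 2 => c
  let e : (∀ i, D.BT i) ≃ D.BT 0 × D.BT 1 × D.BT 2 :=
    { toFun := fun X => (X 0, X 1, X 2)
      invFun := fun p => mk3 (T := D.BT) p.1 p.2.1 p.2.2
      left_inv := fun X => funext fun i => by fin_cases i <;> rfl
      right_inv := fun p => rfl }
  have hW : ∀ f : ∀ i, D.kT i, W f = W (mk3 (T := D.kT) (f 0) (f 1) (f 2)) := fun f =>
    congrArg W (funext fun i => by fin_cases i <;> rfl)
  rw [← e.symm.sum_comp, Fintype.sum_prod_type]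
  simp only [Fintype.sum_prod_type, Fin.prod_univ_three]
  have step : ∀ a b c, (e.symm (a, b, c)) 0 = a ∧ (e.symm (a, b, c)) 1 = b ∧
      (e.symm (a, b, c)) 2 = c := fun a b c => ⟨rfl, rfl, rfl⟩
  simp only [(step _ _ _).1, (step _ _ _).2.1, (step _ _ _).2.2, hW (fun i => l i * D.nmT i _)]
  have h2 : ∀ a b, ∑ c, D.χ 0 a * D.χ 1 b * D.χ 2 c *
      W (mk3 (T := D.kT) (l 0 * D.nmT 0 a) (l 1 * D.nmT 1 b) (l 2 * D.nmT 2 c)) *
      (D.psiT 0 (l 0 * D.trT 0 (a * D.σT 0 (y 0))) * D.psiT 1 (l 1 * D.trT 1 (b * D.σT 1 (y 1))) *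
        D.psiT 2 (l 2 * D.trT 2 (c * D.σT 2 (y 2)))) =
      (D.χ 0 a * D.psiT 0 (l 0 * D.trT 0 (a * D.σT 0 (y 0)))) *
        (D.χ 1 b * D.psiT 1 (l 1 * D.trT 1 (b * D.σT 1 (y 1)))) *
      (-(D.χ 2 (algebraMap _ _ (l 2)) * D.gT 2) * D.χ 2 (y 2) *
        W (mk3 (T := D.kT) (l 0 * D.nmT 0 a) (l 1 * D.nmT 1 b) (l 2 * D.nmT 2 (y 2)))) := by
    intro a b
    rw [← D.sum_ram (by decide) (fun z => W (mk3 (T := D.kT) (l 0 * D.nmT 0 a) (l 1 * D.nmT 1 b) z))
      (hl 2) (y 2), Finset.mul_sum]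
    exact Finset.sum_congr rfl fun c _ => by ring
  simp only [h2]
  have h1 : ∀ a, ∑ b, (D.χ 0 a * D.psiT 0 (l 0 * D.trT 0 (a * D.σT 0 (y 0)))) *
        (D.χ 1 b * D.psiT 1 (l 1 * D.trT 1 (b * D.σT 1 (y 1)))) *
      (-(D.χ 2 (algebraMap _ _ (l 2)) * D.gT 2) * D.χ 2 (y 2) *
        W (mk3 (T := D.kT) (l 0 * D.nmT 0 a) (l 1 * D.nmT 1 b) (l 2 * D.nmT 2 (y 2)))) =
      (D.χ 0 a * D.psiT 0 (l 0 * D.trT 0 (a * D.σT 0 (y 0)))) *
        (-(D.χ 2 (algebraMap _ _ (l 2)) * D.gT 2) * D.χ 2 (y 2)) *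
        (-(D.χ 1 (algebraMap _ _ (l 1)) * D.gT 1) * D.χ 1 (y 1) *
          W (mk3 (T := D.kT) (l 0 * D.nmT 0 a) (l 1 * D.nmT 1 (y 1)) (l 2 * D.nmT 2 (y 2)))) := by
    intro a
    rw [← D.sum_ram (by decide)
      (fun z => W (mk3 (T := D.kT) (l 0 * D.nmT 0 a) z (l 2 * D.nmT 2 (y 2)))) (hl 1) (y 1),
      Finset.mul_sum]
    exact Finset.sum_congr rfl fun b _ => by ring
  simp only [h1]
  rw [show 9 * (D.χ 0 (algebraMap _ _ (l 0)) * D.χ 1 (algebraMap _ _ (l 1)) *
      D.χ 2 (algebraMap _ _ (l 2))) * (D.χ 0 (y 0) * D.χ 1 (y 1) * D.χ 2 (y 2)) *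
      W (mk3 (T := D.kT) (l 0 * D.nmT 0 (y 0)) (l 1 * D.nmT 1 (y 1)) (l 2 * D.nmT 2 (y 2))) =
    ((-(D.χ 2 (algebraMap _ _ (l 2)) * D.gT 2) * D.χ 2 (y 2)) *
      (-(D.χ 1 (algebraMap _ _ (l 1)) * D.gT 1) * D.χ 1 (y 1))) *
      (-3 * D.χ 0 (y 0) *
        W (mk3 (T := D.kT) (l 0 * D.nmT 0 (y 0)) (l 1 * D.nmT 1 (y 1)) (l 2 * D.nmT 2 (y 2)))) by
      have hχ0 : D.χ 0 (algebraMap _ _ (l 0)) = 1 := by
        obtain ⟨c, hc⟩ := Ideal.Quotient.mk_surjective (l 0)
        rw [← hc, algebraMap_mkT]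
        exact D.χ_zero_base c fun h => hl 0 (hc ▸ Ideal.Quotient.eq_zero_iff_mem.2 h)
      rw [hχ0]
      linear_combination (3 * (D.χ 1 (algebraMap _ _ (l 1)) * D.χ 2 (algebraMap _ _ (l 2)) *
        D.χ 0 (y 0) * D.χ 1 (y 1) * D.χ 2 (y 2)) *
        W (mk3 (T := D.kT) (l 0 * D.nmT 0 (y 0)) (l 1 * D.nmT 1 (y 1)) (l 2 * D.nmT 2 (y 2)))) *
          D.gT_mul,
    ← D.sum_inert (fun z => W (mk3 (T := D.kT) z (l 1 * D.nmT 1 (y 1)) (l 2 * D.nmT 2 (y 2))))
      (hl 0) (y 0), Finset.mul_sum]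
  exact Finset.sum_congr rfl fun a _ => by ring

/-- The residues at the places over `3`. -/
def resT (x : F) : ∀ i, D.kT i := fun i => rmod (D.w i) x

/-- The weight of an element in a class. -/
def coefT (V : (∀ i, D.kT i) → ℂ) (lam : F) (x : D.M) : ℂ :=
  D.χT x * V (D.resT (lam * D.nrm x))

/-- The finite sum at the places over `3`. -/
theorem residual_sum (V : (∀ i, D.kT i) → ℂ) {lam β : F} {l₀ u : D.M} (hl₀ : l₀ ≠ 0)
    (hlam0 : lam ≠ 0) (hlam : ∀ i, dvElt lam (D.w i) = 0) (hl : ∀ i, dvElt l₀ (D.P i) = 0)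
    (hβ : ∀ i, OrdGe (D.w i) 0 β) (hu : ∀ i, OrdGe (D.P i) 0 u) :
    qsum D.idealT (fun x => D.coefT V lam (l₀ * (x : D.M)) *
      ∏ i, D.psiT i (rmod (D.w i) (-3 * D.quadForm (-(β * lam * D.nrm l₀) * (-3)⁻¹)
        (algebraMap F D.M (lam * (-3)⁻¹) * (l₀ * D.σ u)) x))) =
      9 * D.χT (algebraMap F D.M lam) * D.coefT V lam u *
        ∏ i, D.psiT i (rmod (D.w i) (-(β * (lam * D.nrm u)))) := by
  classical
  have hl0 : ∀ i, OrdGe (D.P i) 0 l₀ := fun i => Or.inr (hl i).ge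
  have hlamI : ∀ i, OrdGe (D.w i) 0 lam := fun i => Or.inr (hlam i).ge
  have hlne : ∀ i, rmod (D.w i) lam ≠ 0 := fun i h => by
    have h' := ((rmod_eq_zero (D.w i) (hlamI i)).1 h).resolve_left hlam0
    rw [hlam i] at h'
    omega
  set a : ∀ i, D.BT i := fun i => rmod (D.P i) l₀
  have ha : ∀ i, a i ≠ 0 := fun i h => by
    have h' := ((rmod_eq_zero (D.P i) (hl0 i)).1 h).resolve_left hl₀
    rw [hl i] at h'
    omega
  set b : ∀ i, D.kT i := fun i => rmod (D.w i) β
  set y : ∀ i, D.BT i := fun i => rmod (D.P i) u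
  have hper : ∀ (x v : 𝓞 D.M) (i : Fin 3), v ∈ D.idealT →
      rmod (D.P i) (l₀ * ((x + v : 𝓞 D.M) : D.M)) = rmod (D.P i) (l₀ * (x : D.M)) := by
    intro x v i hv
    rw [coeO_add, rmod_mul _ (hl0 i) ((ordGe_int x).add (ordGe_int v)),
      rmod_mul _ (hl0 i) (ordGe_int x), rmod_add _ (ordGe_int x) (ordGe_int v), rmod_int _ v,
      Ideal.Quotient.eq_zero_iff_mem.2 (D.idealT_le i hv), add_zero]
  set G : (∀ i, D.BT i) → ℂ := fun X =>
    (∏ i, D.χ i (X i)) *
      (V (fun i => rmod (D.w i) lam * D.nmT i (X i)) *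
        ∏ i, D.psiT i (-(b i * (rmod (D.w i) lam * D.nmT i (X i))))) *
      ∏ i, D.psiT i (rmod (D.w i) lam * D.trT i (X i * D.σT i (y i)))
  have hval : ∀ x : 𝓞 D.M, D.coefT V lam (l₀ * (x : D.M)) *
      ∏ i, D.psiT i (rmod (D.w i) (-3 * D.quadForm (-(β * lam * D.nrm l₀) * (-3)⁻¹)
        (algebraMap F D.M (lam * (-3)⁻¹) * (l₀ * D.σ u)) x)) =
      G (fun i => rmod (D.P i) (l₀ * (x : D.M))) := by
    intro x
    have hX : ∀ i, OrdGe (D.P i) 0 (l₀ * (x : D.M)) := fun i => by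
      simpa using (hl0 i).mul (ordGe_int x)
    have hσu : ∀ i, OrdGe (D.P i) 0 (D.σ u) := fun i => D.ordGe_σ (by rw [D.conjP_P]; exact hu i)
    have he : -3 * D.quadForm (-(β * lam * D.nrm l₀) * (-3)⁻¹)
        (algebraMap F D.M (lam * (-3)⁻¹) * (l₀ * D.σ u)) x =
        -(β * (lam * D.nrm (l₀ * (x : D.M)))) + lam * D.tra ((l₀ * (x : D.M)) * D.σ u) := by
      rw [quadForm, D.nrm_mul, mul_assoc (algebraMap F D.M _), D.tra_mul_algebraMap,
        mul_right_comm l₀ (D.σ u)]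
      field_simp
      ring
    have hterm : ∀ i, D.psiT i (rmod (D.w i)
        (-(β * (lam * D.nrm (l₀ * (x : D.M)))) + lam * D.tra ((l₀ * (x : D.M)) * D.σ u))) =
      D.psiT i (-(b i * (rmod (D.w i) lam * D.nmT i (rmod (D.P i) (l₀ * (x : D.M)))))) *
        D.psiT i (rmod (D.w i) lam * D.trT i (rmod (D.P i) (l₀ * (x : D.M)) * D.σT i (y i))) := by
      intro i
      have h1 : OrdGe (D.w i) 0 (lam * D.nrm (l₀ * (x : D.M))) := by
        simpa using (hlamI i).mul (D.ordGe_nrm_T (hX i))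
      have h2 : OrdGe (D.w i) 0 (β * (lam * D.nrm (l₀ * (x : D.M)))) := by
        simpa using (hβ i).mul h1
      have h3 : OrdGe (D.P i) 0 (l₀ * (x : D.M) * D.σ u) := by simpa using (hX i).mul (hσu i)
      have h4 : OrdGe (D.w i) 0 (lam * D.tra (l₀ * (x : D.M) * D.σ u)) := by
        simpa using (hlamI i).mul (D.ordGe_tra_T h3)
      have hneg : rmod (D.w i) (-(β * (lam * D.nrm (l₀ * (x : D.M))))) =
          -rmod (D.w i) (β * (lam * D.nrm (l₀ * (x : D.M)))) := by
        refine eq_neg_of_add_eq_zero_left ?_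
        rw [← rmod_add _ h2.neg h2, neg_add_cancel,
          show (0 : F) = ((0 : 𝓞 F) : F) from (map_zero _).symm, rmod_int, map_zero]
      rw [← AddChar.map_add_eq_mul, rmod_add _ h2.neg h4, hneg, rmod_mul _ (hβ i) h1,
        rmod_mul _ (hlamI i) (D.ordGe_nrm_T (hX i)), D.rmod_nrm i (hX i),
        rmod_mul _ (hlamI i) (D.ordGe_tra_T h3), D.rmod_tra i h3, rmod_mul _ (hX i) (hσu i),
        D.rmod_σ i (hu i)]
    have hV : D.resT (lam * D.nrm (l₀ * (x : D.M))) =
        fun i => rmod (D.w i) lam * D.nmT i (rmod (D.P i) (l₀ * (x : D.M))) := by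
      funext i
      rw [resT, rmod_mul _ (hlamI i) (D.ordGe_nrm_T (hX i)), D.rmod_nrm i (hX i)]
    simp only [he, hterm, Finset.prod_mul_distrib, coefT, χT, hV, G]
    ring
  rw [qsum_congr hval]
  have hperiodic : PeriodicMod D.idealT fun x : 𝓞 D.M =>
      G (fun i => rmod (D.P i) (l₀ * (x : D.M))) := fun x v hv => by
    simp only [hper x v _ hv]
  have hsum : qsum D.idealT (fun x : 𝓞 D.M => G (fun i => rmod (D.P i) (l₀ * (x : D.M)))) =
      ∑ X, G X := by
    have := finite_quot D.idealT_ne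
    have := Fintype.ofFinite (𝓞 D.M ⧸ D.idealT)
    rw [qsum_eq_sum]
    refine Fintype.sum_bijective (fun c => fun i => rmod (D.P i) (l₀ * ((qrep D.idealT c : 𝓞 D.M) : D.M)))
      ⟨?_, ?_⟩ _ _ fun c => rfl
    · intro c c' hcc
      rw [← mk_qrep D.idealT c, ← mk_qrep D.idealT c', Ideal.Quotient.eq,
        mem_iff_ordGe D.idealT_ne]
      intro v
      rw [idealT] at *
      by_cases hv : ∃ i, D.P i = v
      · obtain ⟨i, rfl⟩ := hv
        have h1 := congrFun hcc i
        simp only at h1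
        rw [rmod_mul _ (hl0 i) (ordGe_int _), rmod_mul _ (hl0 i) (ordGe_int _), rmod_int,
          rmod_int] at h1
        have h2 := Ideal.Quotient.eq.1 (mul_left_cancel₀ (ha i) h1)
        refine (ordGe_one_iff.2 h2).mono ?_
        rw [show (1 : ℤ) = D.fM (D.P i) from (D.fM_P i).symm]
        exact le_of_eq (D.idealDv_idealT ▸ rfl)
      · push Not at hv
        refine (ordGe_int _).mono ?_
        rw [D.idealDv_idealT, fM,
          Finsupp.finsetSum_apply]
        exact (Finset.sum_eq_zero fun i _ => Finsupp.single_eq_of_ne (Ne.symm (hv i))).le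
    · intro X
      obtain ⟨z, hz⟩ := exists_crt (Finset.univ.image D.P) (fun _ => 1) (fun v =>
        if h : ∃ i, D.P i = v then qrep (D.P h.choose).asIdeal ((a h.choose)⁻¹ * X h.choose)
        else 0)
      refine ⟨Ideal.Quotient.mk _ z, funext fun i => ?_⟩
      have hzi := hz (D.P i) (Finset.mem_image_of_mem _ (Finset.mem_univ i))
      have hex : ∃ j, D.P j = D.P i := ⟨i, rfl⟩
      have hch : hex.choose = i := D.P_injective hex.choose_spec
      have hmk : Ideal.Quotient.mk (D.P i).asIdeal (qrep D.idealT (Ideal.Quotient.mk _ z)) =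
          Ideal.Quotient.mk _ z :=
        Ideal.Quotient.eq.2 (D.idealT_le i (Ideal.Quotient.eq.1 (mk_qrep _ _)))
      show rmod (D.P i) (l₀ * ((qrep D.idealT (Ideal.Quotient.mk _ z) : 𝓞 D.M) : D.M)) = X i
      rw [rmod_mul _ (hl0 i) (ordGe_int _), rmod_int, hmk]
      rw [dif_pos hex, Nat.cast_one, ← coeO_sub, ordGe_one_iff] at hzi
      have : Ideal.Quotient.mk (D.P i).asIdeal z = (a i)⁻¹ * X i := by
        rw [Ideal.Quotient.eq.2 hzi]
        rw [hch]
        exact mk_qrep _ _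
      rw [this, ← mul_assoc, show rmod (D.P i) l₀ = a i from rfl, mul_inv_cancel₀ (ha i), one_mul]
  rw [hsum]
  have key := D.sum_three (fun z => V z * ∏ i, D.psiT i (-(b i * z i))) (l := fun i => rmod (D.w i) lam)
    hlne y
  refine (Finset.sum_congr rfl fun X _ => rfl).trans (key.trans ?_)
  have hV : D.resT (lam * D.nrm u) = fun i => rmod (D.w i) lam * D.nmT i (y i) := by
    funext i
    rw [resT, rmod_mul _ (hlamI i) (D.ordGe_nrm_T (hu i)), D.rmod_nrm i (hu i)]
  have hψ : ∀ i, rmod (D.w i) (-(β * (lam * D.nrm u))) =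
      -(b i * (rmod (D.w i) lam * D.nmT i (y i))) := by
    intro i
    have h1 : OrdGe (D.w i) 0 (lam * D.nrm u) := by
      simpa using (hlamI i).mul (D.ordGe_nrm_T (hu i))
    have h2 : OrdGe (D.w i) 0 (β * (lam * D.nrm u)) := by simpa using (hβ i).mul h1
    refine (eq_neg_of_add_eq_zero_left ?_)
    rw [← D.rmod_nrm i (hu i), ← rmod_mul _ (hlamI i) (D.ordGe_nrm_T (hu i)),
      ← rmod_mul _ (hβ i) h1, ← rmod_add _ h2.neg h2, neg_add_cancel,
      show (0 : F) = ((0 : 𝓞 F) : F) from (map_zero _).symm, rmod_int, map_zero]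
  simp only [coefT, χT, hV, hψ, fun i => D.rmod_algebraMap i (hlamI i)]
  ring

end FermatAgent.LT.Dihedral.DihedralData
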