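import Fermat.Agent.LT.Dihedral.Units
import Fermat.Agent.LT.Base.Bessel
import Mathlib.MeasureTheory.Measure.Lebesgue.Integral

/-!
# Unfolding the Gaussian theta integral over the norm one units
-/

set_option autoImplicit false
set_option maxHeartbeats 400000

noncomputable section

open NumberField IsDedekindDomain MeasureTheory
open scoped nonZeroDivisors

namespace FermatAgent.LT.Dihedral

/-- The one variable integral giving the Bessel function. -/
lemma integral_exp_cosh (x c : ℝ) :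
    ∫ u : ℝ, Real.exp (-x * Real.cosh (u + c)) = 2 * H3.besselK0 x := by
  rw [integral_add_right_eq_self (fun u => Real.exp (-x * Real.cosh u)) c, H3.besselK0,
    ← integral_comp_abs (f := fun u => Real.exp (-x * Real.cosh u))]
  simp only [Real.cosh_abs]

/-- A pair Gaussian as a function of the logarithm of its ratio. -/
lemma gaussPair_exp (l z : ℂ) (t : ℝ) {a b : ℂ} (ha : a ≠ 0) (hb : b ≠ 0) (u : ℝ) :
    gaussPair l z t (Real.exp u) (a, b) =
      (Real.exp (-(4 * Real.pi * ‖l * (a * b)‖ * t) *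
        Real.cosh (u + Real.log (‖a‖ / ‖b‖))) : ℂ) *
      Complex.exp (2 * Real.pi * Complex.I * ((2 * (l * (a * b) * z).re : ℝ) : ℂ)) := by
  have hpa : 0 < ‖a‖ := norm_pos_iff.2 ha
  have hpb : 0 < ‖b‖ := norm_pos_iff.2 hb
  rw [gaussPair, Complex.ofReal_exp, ← Complex.exp_add, Real.cosh_eq, neg_add, Real.exp_add,
    Real.exp_add, Real.exp_neg (Real.log _), Real.exp_log (div_pos hpa hpb), Real.exp_neg u,
    norm_mul, norm_mul, Complex.normSq_eq_norm_sq, Complex.normSq_eq_norm_sq]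
  congr 1
  rw [show l * z * a * b = l * (a * b) * z by ring]
  have he := (Real.exp_pos u).ne'
  have h1 : 2 * Real.pi * t * ‖l‖ * (‖a‖ ^ 2 * Real.exp u + ‖b‖ ^ 2 / Real.exp u) =
      4 * Real.pi * (‖l‖ * (‖a‖ * ‖b‖)) * t *
        ((Real.exp u * (‖a‖ / ‖b‖) + (Real.exp u)⁻¹ * (‖a‖ / ‖b‖)⁻¹) / 2) := by
    field_simp
    ring
  rw [h1]
  push_cast
  ring

/-- Integrability in the logarithm of the ratio. -/
lemma integrable_gaussPair_exp {l : ℂ} (hl : l ≠ 0) (z : ℂ) {t : ℝ} (ht : 0 < t) {a b : ℂ}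
    (ha : a ≠ 0) (hb : b ≠ 0) : Integrable fun u : ℝ => gaussPair l z t (Real.exp u) (a, b) := by
  simp only [gaussPair_exp l z t ha hb]
  refine Integrable.mul_const ?_ _
  have hx : 0 < 4 * Real.pi * ‖l * (a * b)‖ * t := by
    have : 0 < ‖l * (a * b)‖ := norm_pos_iff.2 (mul_ne_zero hl (mul_ne_zero ha hb))
    positivity
  have h2 : Integrable fun u : ℝ => Real.exp (-(4 * Real.pi * ‖l * (a * b)‖ * t) *
      Real.cosh (u + Real.log (‖a‖ / ‖b‖))) := by
    by_contra h
    have h1 := integral_exp_cosh (4 * Real.pi * ‖l * (a * b)‖ * t) (Real.log (‖a‖ / ‖b‖))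
    rw [integral_undef h] at h1
    have h2 : (0 : ℝ) < H3.besselK0 (4 * Real.pi * ‖l * (a * b)‖ * t) := H3.besselK0_pos hx
    linarith
  exact h2.ofReal

/-- The integral in the logarithm of the ratio is a wave. -/
lemma integral_gaussPair_exp (l z : ℂ) {t : ℝ} (ht : 0 < t) {a b : ℂ} (ha : a ≠ 0) (hb : b ≠ 0) :
    ∫ u : ℝ, gaussPair l z t (Real.exp u) (a, b) =
      ((2 / t : ℝ) : ℂ) * H3.wave (l * (a * b)) ⟨z, t, ht⟩ := by
  simp only [gaussPair_exp l z t ha hb]
  rw [integral_mul_const, integral_complex_ofReal, integral_exp_cosh, H3.wave]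
  have ht' : (t : ℂ) ≠ 0 := by exact_mod_cast ht.ne'
  push_cast
  field_simp

namespace QuadData

variable {F : Type} [Field F] [NumberField F] (D : QuadData F)

/-- The nonzero points of a lattice. -/
abbrev Pts (E : Dv D.M) := {x : D.M // x ∈ (fid E : FractionalIdeal (𝓞 D.M)⁰ D.M) ∧ x ≠ 0}

lemma dvElt_uval (e : D.unitOne) : dvElt (D.uval e) = 0 := by
  rw [uval, ← idealDv_span, Ideal.span_singleton_eq_top.2 (Units.isUnit _), idealDv_top]

lemma uval_mul_mem {E : Dv D.M} (e : D.unitOne) {x : D.M}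
    (hx : x ∈ (fid E : FractionalIdeal (𝓞 D.M)⁰ D.M)) :
    D.uval e * x ∈ (fid E : FractionalIdeal (𝓞 D.M)⁰ D.M) := by
  rcases eq_or_ne x 0 with rfl | h0
  · rw [mul_zero]; exact hx
  rw [mem_fid, or_iff_right (mul_ne_zero (D.uval_ne e) h0), dvElt_mul (D.uval_ne e) h0,
    dvElt_uval, zero_add]
  exact (mem_fid.1 hx).resolve_left h0

/-- Translation of a point by a unit. -/
def usmul {E : Dv D.M} (e : D.unitOne) (x : D.Pts E) : D.Pts E :=
  ⟨D.uval e * (x : D.M), D.uval_mul_mem e x.2.1, mul_ne_zero (D.uval_ne e) x.2.2⟩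

/-- Two points differing by a unit of norm one. -/
def orbSetoid (E : Dv D.M) : Setoid (D.Pts E) where
  r x y := ∃ e, D.usmul e x = y
  iseqv := by
    refine ⟨fun x => ⟨1, Subtype.ext (by simp [usmul, uval_one])⟩, ?_, ?_⟩
    · rintro x y ⟨e, rfl⟩
      refine ⟨e⁻¹, Subtype.ext ?_⟩
      show D.uval e⁻¹ * (D.uval e * (x : D.M)) = x
      rw [← mul_assoc, ← uval_mul, inv_mul_cancel, uval_one, one_mul]
    · rintro x y z ⟨e, rfl⟩ ⟨f, rfl⟩
      refine ⟨f * e, Subtype.ext ?_⟩
      show D.uval (f * e) * (x : D.M) = D.uval f * (D.uval e * (x : D.M))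
      rw [uval_mul, mul_assoc]

/-- The orbits of the lattice points. -/
abbrev Orb (E : Dv D.M) := Quotient (D.orbSetoid E)

/-- A representative of an orbit. -/
def orep {E : Dv D.M} (o : D.Orb E) : D.Pts E := Quotient.out o

lemma mk_orep {E : Dv D.M} (o : D.Orb E) : Quotient.mk (D.orbSetoid E) (D.orep o) = o :=
  Quotient.out_eq o

/-- The points are the product of the orbits and the units. -/
def orbEquiv (E : Dv D.M) : D.Orb E × D.unitOne ≃ D.Pts E :=
  Equiv.ofBijective (fun p => D.usmul p.2 (D.orep p.1)) (by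
    constructor
    · rintro ⟨o, e⟩ ⟨o', e'⟩ h
      simp only at h
      have ho : o = o' := by
        rw [← D.mk_orep o, ← D.mk_orep o']
        refine Quotient.sound ?_
        show ∃ f, _
        exact (D.orbSetoid E).iseqv.trans ⟨e, rfl⟩ ((D.orbSetoid E).iseqv.symm ⟨e', h.symm⟩)
      subst ho
      have h' : D.uval e * (D.orep o : D.M) = D.uval e' * (D.orep o : D.M) := congrArg Subtype.val h
      have := mul_right_cancel₀ (D.orep o).2.2 h'
      exact Prod.ext rfl (Subtype.ext (Units.ext (RingOfIntegers.coe_injective this)))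
    · intro x
      obtain ⟨e, he⟩ : ∃ e, D.usmul e (D.orep (Quotient.mk (D.orbSetoid E) x)) = x :=
        Quotient.exact (D.mk_orep _)
      exact ⟨(_, e), he⟩)

lemma vec_ne {x : D.M} (hx : x ≠ 0) (w : InfinitePlace F) :
    (D.vec x w).1 ≠ 0 ∧ (D.vec x w).2 ≠ 0 :=
  ⟨(map_ne_zero _).2 hx, (map_ne_zero _).2 ((map_ne_zero _).2 hx)⟩

/-- The Gaussian at a point, as a function of the logarithms of the ratios. -/
def gU (l : F) (z : InfinitePlace F → ℂ) (t : InfinitePlace F → ℝ) (x : D.M)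
    (u : InfinitePlace F → ℝ) : ℂ :=
  gaussV (lW l) z t (fun w => Real.exp (u w)) (D.vec x)

/-- The integral of the Gaussian at a point. -/
def gI (l : F) (z : InfinitePlace F → ℂ) (t : InfinitePlace F → ℝ) (x : D.M) : ℂ :=
  ∫ u, D.gU l z t x u

lemma gU_mul (l : F) (z : InfinitePlace F → ℂ) (t : InfinitePlace F → ℝ) (e : D.unitOne) (x : D.M)
    (u : InfinitePlace F → ℝ) :
    D.gU l z t (D.uval e * x) u = D.gU l z t x (u + D.ulog (Additive.ofMul e)) := by
  refine Finset.prod_congr rfl fun w _ => ?_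
  have h1 := D.emb_uval w e
  have hpos : 0 < ‖D.emb w (D.uval e)‖ := norm_pos_iff.2 ((map_ne_zero _).2 (D.uval_ne e))
  have h2 : ‖D.emb w (D.σ (D.uval e))‖ = ‖D.emb w (D.uval e)‖⁻¹ := eq_inv_of_mul_eq_one_right h1
  have h3 : D.emb w (D.uval e) * D.emb w (D.σ (D.uval e)) = 1 := by
    rw [← map_mul, ← algebraMap_nrm, nrm_uval, map_one, map_one]
  have hexp : Real.exp (u w + D.ulog (Additive.ofMul e) w) =
      Real.exp (u w) * ‖D.emb w (D.uval e)‖ ^ 2 := by
    rw [Real.exp_add, exp_ulog]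
  show gaussPair _ _ _ _ ((D.vec (D.uval e * x)) w) = _
  simp only [gaussPair, vec_fst, vec_snd, map_mul]
  rw [Complex.normSq_eq_norm_sq (D.emb w (D.uval e)),
    Complex.normSq_eq_norm_sq (D.emb w (D.σ (D.uval e))), h2, Pi.add_apply, hexp]
  congr 1
  rw [show lW l w * z w * (D.emb w (D.uval e) * D.emb w x) *
      (D.emb w (D.σ (D.uval e)) * D.emb w (D.σ x)) =
    lW l w * z w * D.emb w x * D.emb w (D.σ x) *
      (D.emb w (D.uval e) * D.emb w (D.σ (D.uval e))) by ring, h3, mul_one]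
  have hne := hpos.ne'
  have he := (Real.exp_pos (u w)).ne'
  congr 3
  norm_cast
  field_simp

lemma integrable_gU {l : F} (hl : l ≠ 0) (z : InfinitePlace F → ℂ) {t : InfinitePlace F → ℝ}
    (ht : ∀ w, 0 < t w) {x : D.M} (hx : x ≠ 0) : Integrable (D.gU l z t x) := by
  have h := Integrable.fintype_prod (μ := fun _ : InfinitePlace F => (volume : Measure ℝ))
    (f := fun w (s : ℝ) => gaussPair (lW l w) (z w) (t w) (Real.exp s) (D.vec x w))
    fun w => integrable_gaussPair_exp (lW_ne hl w) (z w) (ht w) (D.vec_ne hx w).1 (D.vec_ne hx w).2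
  exact h

lemma gI_eq (l : F) (z : InfinitePlace F → ℂ) {t : InfinitePlace F → ℝ}
    (ht : ∀ w, 0 < t w) {x : D.M} (hx : x ≠ 0) :
    D.gI l z t x = ∏ w, ((2 / t w : ℝ) : ℂ) *
      H3.wave (w.embedding (l * D.nrm x)) ⟨z w, t w, ht w⟩ := by
  rw [gI]
  show ∫ u : InfinitePlace F → ℝ, ∏ w,
    gaussPair (lW l w) (z w) (t w) (Real.exp (u w)) (D.vec x w) = _
  rw [integral_fintype_prod_volume_eq_prod
    (fun w (s : ℝ) => gaussPair (lW l w) (z w) (t w) (Real.exp s) (D.vec x w))]
  refine Finset.prod_congr rfl fun w _ => ?_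
  rw [map_mul, ← D.emb_nrm w x]
  exact integral_gaussPair_exp (lW l w) (z w) (ht w) (D.vec_ne hx w).1 (D.vec_ne hx w).2

/-- A bound of the Gaussian on the fundamental domain by a fixed Gaussian. -/
lemma exists_dom_bound (t : InfinitePlace F → ℝ) (ht : ∀ w, 0 < t w) (l : F) :
    ∃ m, 0 < m ∧ ∀ (z : InfinitePlace F → ℂ) (x : D.M), ∀ u ∈ D.dom,
      ‖D.gU l z t x u‖ ≤ ‖gaussV (lW l) 0 (fun w => t w * m) (fun _ => 1) (D.vec x)‖ := by
  obtain ⟨R, hR⟩ := (isBounded_iff_forall_norm_le).1 D.isBounded_dom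
  refine ⟨Real.exp (-R), Real.exp_pos _, fun z x u hu => ?_⟩
  rw [gU, gaussV, gaussV, norm_prod, norm_prod]
  refine Finset.prod_le_prod (fun w _ => norm_nonneg _) fun w _ => ?_
  rw [norm_gaussPair, norm_gaussPair, Real.exp_le_exp, neg_le_neg_iff]
  have hw : |u w| ≤ R := le_trans (by simpa using norm_le_pi_norm u w) (hR u hu)
  have h1 : Real.exp (-R) ≤ Real.exp (u w) := Real.exp_le_exp.2 (by linarith [neg_abs_le (u w)])
  have h2 : Real.exp (-R) ≤ (Real.exp (u w))⁻¹ := by
    rw [← Real.exp_neg]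
    exact Real.exp_le_exp.2 (by linarith [le_abs_self (u w)])
  have hk : 0 ≤ 2 * Real.pi * t w * ‖lW l w‖ := by have := ht w; positivity
  have hn1 := Complex.normSq_nonneg (D.vec x w).1
  have hn2 := Complex.normSq_nonneg (D.vec x w).2
  calc 2 * Real.pi * (t w * Real.exp (-R)) * ‖lW l w‖ *
        (Complex.normSq (D.vec x w).1 * 1 + Complex.normSq (D.vec x w).2 / 1)
      = 2 * Real.pi * t w * ‖lW l w‖ * (Complex.normSq (D.vec x w).1 * Real.exp (-R) +
          Complex.normSq (D.vec x w).2 * Real.exp (-R)) := by ring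
    _ ≤ _ := by
        refine mul_le_mul_of_nonneg_left (add_le_add ?_ ?_) hk
        · exact mul_le_mul_of_nonneg_left h1 hn1
        · rw [div_eq_mul_inv]; exact mul_le_mul_of_nonneg_left h2 hn2

lemma countable_fid (E : Dv D.M) :
    Countable {x : D.M // x ∈ (fid E : FractionalIdeal (𝓞 D.M)⁰ D.M)} :=
  (D.latEquiv E).symm.injective.countable

instance countable_Pts (E : Dv D.M) : Countable (D.Pts E) := by
  have := D.countable_fid E
  exact Function.Injective.countable
    (f := fun p : D.Pts E => (⟨p.1, p.2.1⟩ : {x : D.M // x ∈ (fid E : FractionalIdeal (𝓞 D.M)⁰ D.M)}))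
    (fun a b h => by simpa [Subtype.ext_iff] using h)

lemma volume_dom_ne_top : (volume : Measure (InfinitePlace F → ℝ)) D.dom ≠ ⊤ :=
  D.isBounded_dom.measure_lt_top.ne

lemma summable_setIntegral {l : F} (hl : l ≠ 0) (E : Dv D.M) (z : InfinitePlace F → ℂ)
    {t : InfinitePlace F → ℝ} (ht : ∀ w, 0 < t w) :
    Summable fun p : D.Pts E => ∫ u in D.dom, ‖D.gU l z t p u‖ := by
  obtain ⟨m, hm, hb⟩ := D.exists_dom_bound t ht l
  have hs := D.summable_gauss_lattice E hl 0 0 (t := fun w => t w * m) (s := fun _ => 1)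
    (fun w => mul_pos (ht w) hm) (fun _ => one_pos)
  have hs' := (hs.comp_injective
    (i := fun p : D.Pts E => (⟨p.1, p.2.1⟩ : {x : D.M // x ∈ (fid E : FractionalIdeal (𝓞 D.M)⁰ D.M)}))
    (fun a b h => by simpa [Subtype.ext_iff] using h)).mul_left
      ((volume : Measure (InfinitePlace F → ℝ)).real D.dom)
  refine hs'.of_nonneg_of_le (fun p => integral_nonneg fun _ => norm_nonneg _) fun p => ?_
  simp only [Function.comp_apply, zero_add]
  refine (setIntegral_mono_on ?_ (integrableOn_const D.volume_dom_ne_top) D.measurableSet_dom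
    (fun u hu => hb z p u hu)).trans_eq ?_
  · exact (D.integrable_gU hl z ht p.2.2).norm.integrableOn
  · rw [setIntegral_const, smul_eq_mul]

/-- Summing the translates over all units gives the whole integral. -/
lemma tsum_units_eq {l : F} (hl : l ≠ 0) (z : InfinitePlace F → ℂ) {t : InfinitePlace F → ℝ}
    (ht : ∀ w, 0 < t w) {x : D.M} (hx : x ≠ 0)
    (hs : Summable fun e : D.unitOne => ∫ u in D.dom, D.gU l z t (D.uval e * x) u) :
    ∑' e : D.unitOne, ∫ u in D.dom, D.gU l z t (D.uval e * x) u =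
      (Fintype.card D.kerOne : ℂ) * D.gI l z t x := by
  have : Countable D.ulat := countable_of_Lindelof_of_discrete
  have : VAddInvariantMeasure D.ulat (InfinitePlace F → ℝ) volume :=
    ⟨fun c s _ => measure_preimage_add volume (c : InfinitePlace F → ℝ) s⟩
  have hI := D.isAddFundamentalDomain_dom.integral_eq_tsum'' (D.gU l z t x)
    (D.integrable_gU hl z ht hx)
  rw [← D.unitEquiv.tsum_eq (fun e => ∫ u in D.dom, D.gU l z t (D.uval e * x) u)]
  have hterm : ∀ p : D.kerOne × D.ulat, ∫ u in D.dom, D.gU l z t (D.uval (D.unitEquiv p) * x) u =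
      ∫ u in D.dom, D.gU l z t x (p.2 +ᵥ u) := fun p => by
    refine setIntegral_congr_fun D.measurableSet_dom fun u _ => ?_
    show D.gU l z t (D.uval (D.unitEquiv p) * x) u = _
    rw [gU_mul, ulog_unitEquiv, add_comm]
    rfl
  have hs' : Summable fun p : D.kerOne × D.ulat => ∫ u in D.dom, D.gU l z t x (p.2 +ᵥ u) :=
    ((D.unitEquiv.summable_iff).2 hs).congr hterm
  rw [tsum_congr hterm, hs'.tsum_prod, tsum_fintype]
  simp only [Finset.sum_const, Finset.card_univ, nsmul_eq_mul, gI, hI]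

/-- The orbit integrals of the Gaussians are summable. -/
theorem summable_gI {l : F} (hl : l ≠ 0) (E : Dv D.M) (z : InfinitePlace F → ℂ)
    {t : InfinitePlace F → ℝ} (ht : ∀ w, 0 < t w) :
    Summable fun o : D.Orb E => ‖D.gI l z t (D.orep o)‖ := by
  have hs : Summable fun q : D.Orb E × D.unitOne =>
      ∫ u in D.dom, ‖D.gU l z t (D.uval q.2 * (D.orep q.1 : D.M)) u‖ :=
    (D.orbEquiv E).summable_iff.2 (D.summable_setIntegral hl E z ht)
  have hnn : 0 ≤ fun q : D.Orb E × D.unitOne =>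
      ∫ u in D.dom, ‖D.gU l z t (D.uval q.2 * (D.orep q.1 : D.M)) u‖ :=
    fun q => integral_nonneg fun _ => norm_nonneg _
  obtain ⟨h1, h2⟩ := (summable_prod_of_nonneg hnn).1 hs
  refine h2.of_nonneg_of_le (fun o => norm_nonneg _) fun o => ?_
  have hx := (D.orep o).2.2
  have hsum : Summable fun e : D.unitOne =>
      ∫ u in D.dom, D.gU l z t (D.uval e * (D.orep o : D.M)) u :=
    Summable.of_norm ((h1 o).of_nonneg_of_le (fun _ => norm_nonneg _)
      fun e => norm_integral_le_integral_norm _)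
  have h := D.tsum_units_eq hl z ht hx hsum
  have hle : ‖(Fintype.card D.kerOne : ℂ) * D.gI l z t (D.orep o)‖ ≤
      ∑' e : D.unitOne, ∫ u in D.dom, ‖D.gU l z t (D.uval e * (D.orep o : D.M)) u‖ := by
    rw [← h]
    exact tsum_of_norm_bounded (h1 o).hasSum fun e => norm_integral_le_integral_norm _
  refine le_trans ?_ hle
  rw [norm_mul, Complex.norm_natCast]
  exact le_mul_of_one_le_left (norm_nonneg _) (by exact_mod_cast D.card_kerOne_pos)

/-- The unfolding of a weighted theta integral. -/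
theorem unfold_orbits {l : F} (hl : l ≠ 0) (E : Dv D.M) (h : D.M → ℂ) {C : ℝ}
    (hC : ∀ p : D.Pts E, ‖h p‖ ≤ C) (hinv : ∀ (e : D.unitOne) (p : D.Pts E), h (D.uval e * p) = h p)
    (z : InfinitePlace F → ℂ) {t : InfinitePlace F → ℝ} (ht : ∀ w, 0 < t w) :
    (Fintype.card D.kerOne : ℂ) * ∑' o : D.Orb E, h (D.orep o) * D.gI l z t (D.orep o) =
      ∫ u in D.dom, ∑' p : D.Pts E, h p * D.gU l z t p u := by
  have hF : ∀ p : D.Pts E, Integrable (fun u => h p * D.gU l z t p u) (volume.restrict D.dom) :=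
    fun p => ((D.integrable_gU hl z ht p.2.2).integrableOn.integrable).const_mul _
  have hbound : ∀ p : D.Pts E, ∫ u in D.dom, ‖h p * D.gU l z t p u‖ ≤
      C * ∫ u in D.dom, ‖D.gU l z t p u‖ := fun p => by
    simp only [norm_mul]
    rw [integral_const_mul]
    exact mul_le_mul_of_nonneg_right (hC p) (integral_nonneg fun _ => norm_nonneg _)
  have hsum : Summable fun p : D.Pts E => ∫ u in D.dom, ‖h p * D.gU l z t p u‖ :=
    ((D.summable_setIntegral hl E z ht).mul_left C).of_nonneg_of_le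
      (fun p => integral_nonneg fun _ => norm_nonneg _) hbound
  have hint : Summable fun p : D.Pts E => ∫ u in D.dom, h p * D.gU l z t p u :=
    Summable.of_norm (hsum.of_nonneg_of_le (fun _ => norm_nonneg _)
      fun p => norm_integral_le_integral_norm _)
  have hprod : Summable fun q : D.Orb E × D.unitOne =>
      ∫ u in D.dom, h (D.orbEquiv E q) * D.gU l z t (D.orbEquiv E q) u :=
    (D.orbEquiv E).summable_iff.2 hint
  rw [← integral_tsum_of_summable_integral_norm hF hsum, ← (D.orbEquiv E).tsum_eq,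
    hprod.tsum_prod, ← tsum_mul_left]
  refine tsum_congr fun o => ?_
  have hx := (D.orep o).2.2
  have hsum' : Summable fun e : D.unitOne =>
      ∫ u in D.dom, D.gU l z t (D.uval e * (D.orep o : D.M)) u := by
    refine Summable.of_norm ?_
    have h1 := ((summable_prod_of_nonneg (fun q : D.Orb E × D.unitOne =>
      (integral_nonneg fun _ => norm_nonneg _ :
        0 ≤ ∫ u in D.dom, ‖D.gU l z t (D.uval q.2 * (D.orep q.1 : D.M)) u‖))).1
      ((D.orbEquiv E).summable_iff.2 (D.summable_setIntegral hl E z ht))).1 o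
    exact h1.of_nonneg_of_le (fun _ => norm_nonneg _) fun e => norm_integral_le_integral_norm _
  rw [mul_left_comm, ← D.tsum_units_eq hl z ht hx hsum', ← tsum_mul_left]
  refine tsum_congr fun e => ?_
  show _ = ∫ u in D.dom, h (D.uval e * (D.orep o : D.M)) * D.gU l z t _ u
  rw [integral_const_mul, hinv]
  rfl

variable {D} in
lemma tsum_Pts_eq_latSum {E : Dv D.M} (f : D.M → ℂ) (h0 : f 0 = 0) :
    ∑' p : D.Pts E, f p = D.latSum E f := by
  refine Function.Injective.tsum_eq (g := fun p : D.Pts E =>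
    (⟨p.1, p.2.1⟩ : {x : D.M // x ∈ (fid E : FractionalIdeal (𝓞 D.M)⁰ D.M)}))
    (f := fun x => f x) (fun a b hab => by simpa [Subtype.ext_iff] using hab) fun x hx => ?_
  exact ⟨⟨x.1, x.2, fun h => hx (by simp [h, h0])⟩, rfl⟩

end QuadData

end FermatAgent.LT.Dihedral
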