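import Fermat.Agent.LT.Base.Adelic
import Fermat.Agent.LT.Dihedral.Pairs
import Fermat.Agent.LT.Dihedral.Residual
import Fermat.Agent.LT.Dihedral.Unfold

/-!
# The theta series attached to a divisor, and its decomposition over the classes of pairs
-/

set_option autoImplicit false
set_option maxHeartbeats 400000

noncomputable section

open NumberField IsDedekindDomain
open scoped nonZeroDivisors

namespace FermatAgent.LT.Dihedral

lemma norm_ph {K : Type*} [Field K] [NumberField K] (x : K) : ‖ph x‖ = 1 := by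
  rw [ph, show 2 * (Real.pi : ℂ) * Complex.I * ((Algebra.trace ℚ K x : ℚ) : ℂ) =
    ((2 * Real.pi * ((Algebra.trace ℚ K x : ℚ) : ℝ) : ℝ) : ℂ) * Complex.I by push_cast; ring]
  exact Complex.norm_exp_ofReal_mul_I _

lemma norm_mulChar_le_one {R : Type*} [CommRing R] [Finite R] (χ : MulChar R ℂ) (x : R) :
    ‖χ x‖ ≤ 1 := by
  by_cases hx : IsUnit x
  · obtain ⟨u, rfl⟩ := hx
    have := Fintype.ofFinite Rˣ
    refine le_of_eq (Complex.norm_eq_one_of_pow_eq_one (n := Fintype.card Rˣ) ?_ Fintype.card_ne_zero)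
    rw [← map_pow, ← Units.val_pow_eq_pow_val, pow_card_eq_one, Units.val_one, map_one]
  · rw [χ.map_nonunit hx, norm_zero]; exact zero_le_one

namespace DihedralData

open QuadData

variable {F : Type} [Field F] [NumberField F] (D : DihedralData F)

/-- The integral divisors of `M` prime to `3` of a given relative norm. -/
def normFibre (E : Dv F) : Set (Dv D.M) :=
  {J | 0 ≤ J ∧ D.TFreeM J ∧ J + D.conjDv J = extDv E}

lemma finite_normFibre (E : Dv F) : (D.normFibre E).Finite := by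
  classical
  refine (Set.finite_Icc (0 : Dv D.M) (extDv E)).subset fun J hJ => ⟨hJ.1, fun P => ?_⟩
  have h2 : extDv E P = J P + J (D.conjP P) := by
    rw [← hJ.2.2, Finsupp.add_apply, conjDv_apply]
  have h3 := hJ.1 (D.conjP P)
  rw [Finsupp.zero_apply] at h3
  omega

/-- The coefficient at an effective divisor. -/
def coefR (E : Dv F) : ℂ := ∑ᶠ J ∈ D.normFibre E, D.ξc J

/-- The divisor attached to a frequency. -/
def freqDv (A : Dv F) (ν : F) : Dv F := dvElt ν + A + D.dD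

/-- The term of frequency `ν` of the theta series. -/
def term (A : Dv F) (V : (∀ i, D.kT i) → ℂ) (β : F) (y : XInf F) (ν : Fˣ) : ℂ :=
  D.coefR (D.freqDv A ν) * (((Real.sqrt (ndeg (D.freqDv A ν)))⁻¹ : ℝ) : ℂ) *
    V (D.resT (ν : F)) * ph (-(β * (ν : F)) * (-3)⁻¹) * waveProd ((ν : F) * (-3)⁻¹) y

/-- The theta series. -/
def theta (A : Dv F) (V : (∀ i, D.kT i) → ℂ) (β : F) (y : XInf F) : ℂ :=
  ∑' ν : Fˣ, D.term A V β y ν

/-- The weight on the points of a class. -/
def hW (V : (∀ i, D.kT i) → ℂ) (β lam : F) (v : D.M) : ℂ :=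
  D.coefT V lam v * ph (-(β * (lam * D.nrm v)) * (-3)⁻¹)

/-- The constant of a class. -/
def cA (A : Dv F) : ℝ :=
  (Real.sqrt (ndeg (A + D.dD)))⁻¹ * (∏ w : InfinitePlace F, ‖w.embedding (-3 : F)‖)⁻¹

/-- The contribution of a class. -/
def classSum {A : Dv F} (V : (∀ i, D.kT i) → ℂ) (β : F) (p : D.Pair A) (y : XInf F) : ℂ :=
  D.ξc p.J * ((D.cA A * ∏ w, (y w).t / 2 : ℝ) : ℂ) *
    ∑' o : D.Orb (-p.J), D.hW V β p.lam (D.orep o) *
      D.gI ((p.lam : F) * (-3)⁻¹) (fun w => (y w).z) (fun w => (y w).t) (D.orep o)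

variable {D}

lemma ordGe_of_mem_fid {J : Dv D.M} (hJ : D.TFreeM J) {x : D.M}
    (hx : x ∈ (fid (-J) : FractionalIdeal (𝓞 D.M)⁰ D.M)) (i : Fin 3) : OrdGe (D.P i) 0 x := by
  have := mem_fid_iff_ordGe.1 hx (D.P i)
  rwa [Finsupp.neg_apply, hJ i, neg_zero] at this

lemma χT_mul {x y : D.M} (hx : ∀ i, OrdGe (D.P i) 0 x) (hy : ∀ i, OrdGe (D.P i) 0 y) :
    D.χT (x * y) = D.χT x * D.χT y := by
  simp only [χT, rmod_mul _ (hx _) (hy _), map_mul, Finset.prod_mul_distrib]

lemma χT_uval (e : D.unitOne) : D.χT (D.uval e) = 1 := by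
  rw [← D.ξc_dvElt (D.uval_ne e) (fun i => by rw [dvElt_uval]; rfl), dvElt_uval, ξc_zero]

lemma hW_uval_mul {J : Dv D.M} (hJ : D.TFreeM J) (V : (∀ i, D.kT i) → ℂ) (β lam : F)
    (e : D.unitOne) (p : D.Pts (-J)) : D.hW V β lam (D.uval e * p) = D.hW V β lam p := by
  simp only [hW, coefT, D.nrm_mul, nrm_uval, one_mul]
  rw [χT_mul (fun i => Or.inr (by rw [dvElt_uval]; rfl)) (ordGe_of_mem_fid hJ p.2.1), χT_uval,
    one_mul]

lemma norm_hW_le (V : (∀ i, D.kT i) → ℂ) (β lam : F) (v : D.M) :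
    ‖D.hW V β lam v‖ ≤ ∑ c, ‖V c‖ := by
  classical
  rw [hW, coefT, norm_mul, norm_mul, norm_ph, mul_one, χT, norm_prod]
  refine le_trans (mul_le_of_le_one_left (norm_nonneg _) ?_)
    (Finset.single_le_sum (f := fun c => ‖V c‖) (fun c _ => norm_nonneg _) (Finset.mem_univ _))
  exact Finset.prod_le_one (fun i _ => norm_nonneg _) fun i _ => norm_mulChar_le_one _ _

lemma hW_eq_zero {J : Dv D.M} (hJ : D.TFreeM J) (V : (∀ i, D.kT i) → ℂ) (β lam : F)
    (p : D.Pts (-J)) (h : ¬ ∀ i, dvElt (p : D.M) (D.P i) = 0) : D.hW V β lam p = 0 := by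
  push Not at h
  obtain ⟨i, hi⟩ := h
  have h0 := ordGe_of_mem_fid hJ p.2.1 i
  have h1 : OrdGe (D.P i) 1 (p : D.M) := Or.inr (by
    have := h0.resolve_left p.2.2
    omega)
  have : D.χT (p : D.M) = 0 := by
    refine Finset.prod_eq_zero (Finset.mem_univ i) ?_
    rw [(rmod_eq_zero _ h0).2 h1, D.χ_zero]
  rw [hW, coefT, this, zero_mul, zero_mul]

variable {A : Dv F}

lemma Pair.freq_eq (p : D.Pair A) {v : D.M} (hv : v ≠ 0) :
    p.J + dvElt v + D.conjDv (p.J + dvElt v) =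
      extDv (D.freqDv A ((p.lam : F) * D.nrm v)) := by
  rw [map_add, add_add_add_comm, p.hdv, ← D.extDv_dvElt_nrm hv, ← map_add, freqDv,
    dvElt_mul p.lam.ne_zero (D.nrm_eq_zero.not.2 hv)]
  congr 1
  abel

/-- The term of a point of a class. -/
lemma summand_eq (_hA : D.TFree A) (V : (∀ i, D.kT i) → ℂ) (β : F) (y : XInf F) (p : D.Pair A)
    (x : D.Pts (-p.J)) (hx : ∀ i, dvElt (x : D.M) (D.P i) = 0) :
    D.ξc (p.J + dvElt (x : D.M)) *
      ((((Real.sqrt (ndeg (D.freqDv A ((p.lam : F) * D.nrm x))))⁻¹ : ℝ) : ℂ) *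
        V (D.resT ((p.lam : F) * D.nrm x)) *
        ph (-(β * ((p.lam : F) * D.nrm x)) * (-3)⁻¹) *
        waveProd ((p.lam : F) * D.nrm x * (-3)⁻¹) y) =
      D.ξc p.J * ((D.cA A * ∏ w, (y w).t / 2 : ℝ) : ℂ) *
        (D.hW V β p.lam x *
          D.gI ((p.lam : F) * (-3)⁻¹) (fun w => (y w).z) (fun w => (y w).t) x) := by
  have hν : (p.lam : F) * D.nrm x ≠ 0 := mul_ne_zero p.lam.ne_zero (D.nrm_eq_zero.not.2 x.2.2)
  rw [ξc_add, D.ξc_dvElt x.2.2 hx, D.gI_eq _ _ (fun w => (y w).t_pos) x.2.2, hW, coefT,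
    waveProd, Finset.prod_mul_distrib, Finset.prod_mul_distrib]
  have hsq : (((Real.sqrt (ndeg (D.freqDv A ((p.lam : F) * D.nrm x))))⁻¹ : ℝ) : ℂ) *
      ∏ w : InfinitePlace F, ((‖w.embedding ((p.lam : F) * D.nrm x * (-3)⁻¹)‖ : ℝ) : ℂ) =
      ((D.cA A * ∏ w, (y w).t / 2 : ℝ) : ℂ) * ∏ w, ((2 / (y w).t : ℝ) : ℂ) := by
    rw [← Complex.ofReal_prod, ← Complex.ofReal_prod, ← Complex.ofReal_mul, ← Complex.ofReal_mul,
      mul_assoc (D.cA A), ← Finset.prod_mul_distrib]
    congr 1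
    have h1 : ∀ w, (y w).t / 2 * (2 / (y w).t) = 1 := fun w => by
      have := (y w).t_pos.ne'
      field_simp
    simp only [h1, Finset.prod_const_one, mul_one, freqDv, cA, map_mul, map_inv₀, norm_mul,
      norm_inv, Finset.prod_mul_distrib, Finset.prod_inv_distrib]
    rw [add_assoc, ndeg_add, Real.sqrt_mul (ndeg_pos _).le, D.sqrt_ndeg_dvElt hν, mul_inv]
    simp only [map_mul, norm_mul, Finset.prod_mul_distrib]
    have hne : ∀ z : F, z ≠ 0 → ∏ w : InfinitePlace F, ‖w.embedding z‖ ≠ 0 := fun z hz =>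
      Finset.prod_ne_zero_iff.2 fun w _ => norm_ne_zero_iff.2 ((map_ne_zero _).2 hz)
    have h2 := hne _ p.lam.ne_zero
    have h3 := hne _ (D.nrm_eq_zero.not.2 x.2.2)
    field_simp
  rw [show ((p.lam : F) * (-3)⁻¹) * D.nrm (x : D.M) = (p.lam : F) * D.nrm x * (-3)⁻¹ by ring]
  linear_combination (D.ξc p.J * D.χT x * V (D.resT ((p.lam : F) * D.nrm x)) *
    ph (-(β * ((p.lam : F) * D.nrm x)) * (-3)⁻¹) *
    ∏ w : InfinitePlace F, H3.wave (w.embedding ((p.lam : F) * D.nrm x * (-3)⁻¹)) (y w)) * hsq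

variable (D A)

/-- The points prime to `3` of the classes. -/
abbrev ClsPts (r : D.Cls A → D.Pair A) : Type :=
  Σ c : D.Cls A, {o : D.Orb (-(r c).J) // ∀ i, dvElt (D.orep o : D.M) (D.P i) = 0}

/-- A frequency with an integral divisor of its norm. -/
abbrev IntPair : Type := Σ ν : Fˣ, D.normFibre (D.freqDv A ν)

/-- From classes and orbits to integral pairs. -/
def toIntPair (r : D.Cls A → D.Pair A) (q : D.ClsPts A r) : D.IntPair A :=
  ⟨(r q.1).lam * Units.mk0 (D.nrm (D.orep q.2.1 : D.M)) (D.nrm_eq_zero.not.2 (D.orep q.2.1).2.2),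
    ⟨(r q.1).J + dvElt (D.orep q.2.1 : D.M), by
      refine ⟨?_, fun i => ?_, (r q.1).freq_eq (D.orep q.2.1).2.2⟩
      · have h := (mem_fid.1 (D.orep q.2.1).2.1).resolve_left (D.orep q.2.1).2.2
        rwa [neg_le_iff_add_nonneg'] at h
      · rw [Finsupp.add_apply, (r q.1).hJ i, q.2.2 i, add_zero]⟩⟩

lemma toIntPair_bijective (_hA : D.TFree A) {r : D.Cls A → D.Pair A}
    (hr : ∀ c, Quotient.mk (D.pairSetoid A) (r c) = c) : Function.Bijective (D.toIntPair A r) := by
  constructor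
  · rintro ⟨c, o, ho⟩ ⟨c', o', ho'⟩ h
    have h1 : ((r c).lam : F) * D.nrm (D.orep o : D.M) =
        ((r c').lam : F) * D.nrm (D.orep o' : D.M) :=
      congrArg (fun z : D.IntPair A => (z.1 : F)) h
    have h2 : (r c).J + dvElt (D.orep o : D.M) =
        (r c').J + dvElt (D.orep o' : D.M) :=
      congrArg (fun z : D.IntPair A => (z.2 : Dv D.M)) h
    have hne := (D.orep o).2.2
    have hne' := (D.orep o').2.2
    have hc : c = c' := by
      rw [← hr c, ← hr c']
      refine Quotient.sound ⟨(D.orep o : D.M) / (D.orep o' : D.M), div_ne_zero hne hne', ?_, ?_⟩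
      · show ((r c').lam : F) = ((r c).lam : F) * _
        rw [div_eq_mul_inv, D.nrm_mul, D.nrm_inv, ← mul_assoc, h1,
          mul_inv_cancel_right₀ (D.nrm_eq_zero.not.2 hne')]
      · show (r c').J = (r c).J + _
        rw [div_eq_mul_inv, dvElt_mul hne (inv_ne_zero hne'), dvElt_inv hne', ← add_assoc, h2,
          add_neg_cancel_right]
    subst hc
    have h1' : D.nrm (D.orep o : D.M) = D.nrm (D.orep o' : D.M) :=
      mul_left_cancel₀ (r c).lam.ne_zero h1
    have h2' : dvElt (D.orep o : D.M) = dvElt (D.orep o' : D.M) := add_left_cancel h2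
    set q : D.M := (D.orep o' : D.M) / (D.orep o : D.M)
    have hq0 : q ≠ 0 := div_ne_zero hne' hne
    have hdq : dvElt q = 0 := by
      simp only [q]
      rw [div_eq_mul_inv, dvElt_mul hne' (inv_ne_zero hne), dvElt_inv hne, h2', add_neg_cancel]
    obtain ⟨a, ha⟩ := exists_int_of_nonneg (Or.inr hdq.ge)
    obtain ⟨b, hb⟩ := exists_int_of_nonneg (x := q⁻¹)
      (Or.inr (by rw [dvElt_inv hq0, hdq, neg_zero]))
    have hab : a * b = 1 := RingOfIntegers.ext (by
      show ((a * b : 𝓞 D.M) : D.M) = _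
      rw [coeO_mul, ha, hb, mul_inv_cancel₀ hq0]
      exact (map_one _).symm)
    have hnq : D.nrm q = 1 := by
      simp only [q]
      rw [div_eq_mul_inv, D.nrm_mul, D.nrm_inv, h1',
        mul_inv_cancel₀ (D.nrm_eq_zero.not.2 hne')]
    let e : D.unitOne := ⟨Units.mkOfMulEqOne a b hab, by
      show D.nrm (a : D.M) = 1
      rw [ha]; exact hnq⟩
    have hoo : o = o' := by
      rw [← D.mk_orep o, ← D.mk_orep o']
      refine Quotient.sound ⟨e, Subtype.ext ?_⟩
      show (a : D.M) * (D.orep o : D.M) = _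
      rw [ha]
      exact div_mul_cancel₀ _ hne
    subst hoo
    rfl
  · rintro ⟨ν, J, hJ0, hJT, hJ⟩
    let p : D.Pair A := ⟨ν, J, hJT, hJ⟩
    set c : D.Cls A := Quotient.mk _ p
    obtain ⟨v, hv, h1, h2⟩ : (r c).Equiv' p := Quotient.exact (hr c)
    have hmem : v ∈ (fid (-(r c).J) : FractionalIdeal (𝓞 D.M)⁰ D.M) := by
      rw [mem_fid, or_iff_right hv, neg_le_iff_add_nonneg', ← h2]
      exact hJ0
    set x : D.Pts (-(r c).J) := ⟨v, hmem, hv⟩
    obtain ⟨e, he⟩ : ∃ e, D.usmul e (D.orep (Quotient.mk (D.orbSetoid _) x)) = x :=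
      Quotient.exact (D.mk_orep _)
    set o := Quotient.mk (D.orbSetoid _) x
    have hve : v = D.uval e * (D.orep o : D.M) := (congrArg Subtype.val he).symm
    have hne := (D.orep o).2.2
    have hdv : dvElt v = dvElt (D.orep o : D.M) := by
      rw [hve, dvElt_mul (D.uval_ne e) hne, dvElt_uval, zero_add]
    have hnv : D.nrm v = D.nrm (D.orep o : D.M) := by
      rw [hve, D.nrm_mul, nrm_uval, one_mul]
    have hT : ∀ i, dvElt (D.orep o : D.M) (D.P i) = 0 := fun i => by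
      have h3 := DFunLike.congr_fun h2 (D.P i)
      rw [Finsupp.add_apply, (r c).hJ i, zero_add, hdv] at h3
      exact h3.symm.trans (hJT i)
    refine ⟨⟨c, o, hT⟩, ?_⟩
    have e1 : (r c).lam * Units.mk0 (D.nrm (D.orep o : D.M))
        (D.nrm_eq_zero.not.2 hne) = ν :=
      Units.ext (by rw [Units.val_mul, Units.val_mk0, ← hnv]; exact h1.symm)
    have e2 : (r c).J + dvElt (D.orep o : D.M) = J := by rw [← hdv]; exact h2.symm
    exact Sigma.subtype_ext e1 e2

/-- The theta series is the sum of its class contributions. -/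
theorem hasSum_term (hA : D.TFree A) {r : D.Cls A → D.Pair A}
    (hr : ∀ c, Quotient.mk (D.pairSetoid A) (r c) = c) (V : (∀ i, D.kT i) → ℂ) (β : F) (y : XInf F) :
    HasSum (D.term A V β y) (∑ c : D.Cls A, D.classSum V β (r c) y) := by
  classical
  let rest : Fˣ → ℂ := fun ν => (((Real.sqrt (ndeg (D.freqDv A ν)))⁻¹ : ℝ) : ℂ) *
    V (D.resT (ν : F)) * ph (-(β * (ν : F)) * (-3)⁻¹) * waveProd ((ν : F) * (-3)⁻¹) y
  let g : D.IntPair A → ℂ := fun q => D.ξc (q.2 : Dv D.M) * rest q.1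
  have hl : ∀ c, ((r c).lam : F) * (-3)⁻¹ ≠ 0 := fun c =>
    mul_ne_zero (r c).lam.ne_zero (inv_ne_zero (by norm_num))
  let k : D.Cls A → ℂ := fun c => D.ξc (r c).J * ((D.cA A * ∏ w, (y w).t / 2 : ℝ) : ℂ)
  let f : ∀ c, D.Orb (-(r c).J) → ℂ := fun c o => k c * (D.hW V β (r c).lam (D.orep o) *
      D.gI (((r c).lam : F) * (-3)⁻¹) (fun w => (y w).z) (fun w => (y w).t) (D.orep o))
  have hf : ∀ c, Summable (f c) := fun c => by
    refine Summable.of_norm (((D.summable_gI (hl c) _ (fun w => (y w).z)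
      (fun w => (y w).t_pos)).mul_left (‖k c‖ * ∑ z, ‖V z‖)).of_nonneg_of_le
      (fun _ => norm_nonneg _) fun o => ?_)
    simp only [f, norm_mul]
    rw [mul_assoc]
    exact mul_le_mul_of_nonneg_left
      (mul_le_mul_of_nonneg_right (norm_hW_le _ _ _ _) (norm_nonneg _)) (norm_nonneg _)
  have hval : ∀ c, D.classSum V β (r c) y = ∑' o, f c o := fun c => tsum_mul_left.symm
  have hT : ∀ c, HasSum (fun o : {o : D.Orb (-(r c).J) //
      ∀ i, dvElt (D.orep o : D.M) (D.P i) = 0} => f c o) (D.classSum V β (r c) y) := by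
    intro c
    rw [hval c]
    refine (hasSum_subtype_iff_of_support_subset
      (s := {o | ∀ i, dvElt (D.orep o : D.M) (D.P i) = 0}) fun o ho => ?_).2 (hf c).hasSum
    by_contra hno
    exact ho (by simp only [f]; rw [hW_eq_zero (r c).hJ V β _ _ hno, zero_mul, mul_zero])
  have hfun : ∀ q : D.ClsPts A r, g (D.toIntPair A r q) = f q.1 q.2.1 := fun q => by
    simp only [g, rest, f, k, toIntPair, Units.val_mul, Units.val_mk0]
    exact summand_eq hA V β y (r q.1) (D.orep q.2.1) q.2.2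
  have hsum : Summable fun q : D.ClsPts A r => f q.1 q.2.1 := by
    refine Summable.of_norm ?_
    rw [summable_sigma_of_nonneg fun _ => norm_nonneg _]
    exact ⟨fun c => (hT c).summable.norm, Summable.of_finite⟩
  have htot : HasSum g (∑ c : D.Cls A, D.classSum V β (r c) y) := by
    rw [← (Equiv.ofBijective _ (D.toIntPair_bijective A hA hr)).hasSum_iff]
    have h1 : HasSum (fun q : D.ClsPts A r => f q.1 q.2.1)
        (∑ c : D.Cls A, D.classSum V β (r c) y) := by
      have h2 := hsum.hasSum.sigma hT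
      rw [← h2.unique (hasSum_fintype _)]
      exact hsum.hasSum
    exact h1.congr_fun fun q => hfun q
  refine htot.sigma fun ν => ?_
  have := (D.finite_normFibre (D.freqDv A ν)).fintype
  have h3 := hasSum_fintype fun J : D.normFibre (D.freqDv A ν) => D.ξc (J : Dv D.M) * rest ν
  have h4 : ∑ J : D.normFibre (D.freqDv A ν), D.ξc (J : Dv D.M) * rest ν = D.term A V β y ν := by
    rw [← Finset.sum_mul, term, coefR, ← finsum_set_coe_eq_finsum_mem, finsum_eq_sum_of_fintype]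
    simp only [rest]
    ring
  rwa [h4] at h3

theorem theta_eq (hA : D.TFree A) (V : (∀ i, D.kT i) → ℂ) (β : F) (y : XInf F)
    {r : D.Cls A → D.Pair A} (hr : ∀ c, Quotient.mk (D.pairSetoid A) (r c) = c) :
    D.theta A V β y = ∑ c : D.Cls A, D.classSum V β (r c) y :=
  (D.hasSum_term A hA hr V β y).tsum_eq

lemma mk_crep (c : D.Cls A) : Quotient.mk (D.pairSetoid A) (D.crep A c) = c := Quotient.out_eq c

end DihedralData

end FermatAgent.LT.Dihedral
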