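import Fermat.Agent.LT.Base.GL2F3
import Fermat.Agent.LT.Base.Adelic
import Fermat.Agent.LT.Dihedral.Theta

/-!
# The local vectors at the places over `3`

The local vectors at the places over `3`: the two-dimensional cuspidal representation of
`GL₂(𝔽₃)`, through the cocycle `tau`.
-/

set_option autoImplicit false
set_option maxHeartbeats 400000

noncomputable section

open NumberField IsDedekindDomain Matrix

namespace FermatAgent.LT.Dihedral

/-- For `g = n(t) q diag(det g, 1)` with `q` in the quaternion group, `tau g = t`. -/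
def tau {R : Type*} [CommRing R] (M : Matrix (Fin 2) (Fin 2) R) : R :=
  (M 0 0 + M 1 1 * M.det) * M 1 0 + M 0 1 * M 1 1 * (1 - M 1 0 ^ 2)

/-- `tau` on entries. -/
abbrev ttau : GL2F3.Tup → ZMod 3
  | (a, b, c, d) => (a + d * (a * d - b * c)) * c + b * d * (1 - c ^ 2)

theorem ttau_mul : ∀ g h : GL2F3.Tup, GL2F3.tdet g ≠ 0 → GL2F3.tdet h ≠ 0 →
    ttau (GL2F3.tmul g h) = ttau g + GL2F3.tdet g * ttau h := by
  decide +kernel

lemma tau_eq_ttau (M : Matrix (Fin 2) (Fin 2) (ZMod 3)) : tau M = ttau (GL2F3.toTup M) := by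
  simp [tau, ttau, GL2F3.toTup, Matrix.det_fin_two]

lemma tau_map {R S : Type*} [CommRing R] [CommRing S] (f : R →+* S)
    (M : Matrix (Fin 2) (Fin 2) R) : tau (M.map f) = f (tau M) := by
  simp [tau, Matrix.det_fin_two]

/-- The cocycle relation over a field of three elements. -/
lemma tau_mul {k : Type*} [Field k] [Finite k] (hk : Nat.card k = 3) (g h : GL (Fin 2) k) :
    tau ((g * h : GL (Fin 2) k) : Matrix (Fin 2) (Fin 2) k) =
      tau (g : Matrix (Fin 2) (Fin 2) k) +
        (g : Matrix (Fin 2) (Fin 2) k).det * tau (h : Matrix (Fin 2) (Fin 2) k) := by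
  have := Fintype.ofFinite k
  let e : k ≃+* ZMod 3 :=
    (ZMod.ringEquivOfPrime k Nat.prime_three (by rw [← Nat.card_eq_fintype_card, hk])).symm
  refine e.injective ?_
  have hd : ∀ M : Matrix (Fin 2) (Fin 2) k, e M.det = (M.map e.toRingHom).det := fun M =>
    RingHom.map_det e.toRingHom M
  have ht : ∀ M : Matrix (Fin 2) (Fin 2) k, e (tau M) = tau (M.map e.toRingHom) := fun M =>
    (tau_map e.toRingHom M).symm
  rw [map_add, map_mul, ht, ht, ht, hd, Units.val_mul, Matrix.map_mul, tau_eq_ttau, tau_eq_ttau, tau_eq_ttau,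
    GL2F3.toTup_mul, ← GL2F3.tdet_toTup]
  refine ttau_mul _ _ ?_ ?_ <;> rw [GL2F3.tdet_toTup, ← hd] <;>
    exact (map_ne_zero e).2 (Matrix.GeneralLinearGroup.det_ne_zero _)

lemma tau_upperTri {R : Type*} [CommRing R] (u d : Rˣ) (s : R) :
    tau (upperTri u s d : Matrix (Fin 2) (Fin 2) R) = s * (d : R) := by
  simp [tau, upperTri]

/-- The matrix `w n(b)`. -/
def wUni {R : Type*} [CommRing R] (b : R) : GL (Fin 2) R where
  val := !![0, -1; 1, b]
  inv := !![b, 1; -1, 0]
  val_inv := by ext i j; fin_cases i <;> fin_cases j <;> simp [Matrix.mul_apply, Fin.sum_univ_two]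
  inv_val := by ext i j; fin_cases i <;> fin_cases j <;> simp [Matrix.mul_apply, Fin.sum_univ_two]

lemma tau_wUni {R : Type*} [CommRing R] (b : R) :
    tau (wUni b : Matrix (Fin 2) (Fin 2) R) = b := by
  simp [tau, wUni, Matrix.det_fin_two]

lemma det_wUni {R : Type*} [CommRing R] (b : R) :
    (wUni b : Matrix (Fin 2) (Fin 2) R).det = 1 := by
  simp [wUni, Matrix.det_fin_two]

/-- Nontrivial characters of a field of three elements differ by a scalar. -/
lemma exists_mulShift {k : Type*} [Field k] [Finite k] {ψ ψ' : AddChar k ℂ}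
    (hk : Nat.card k = 3) (hψ : ψ ≠ 1) (hψ' : ψ' ≠ 1) :
    ∃ c : k, c ≠ 0 ∧ ∀ b, ψ' b = ψ (-(c * b)) := by
  have := Fintype.ofFinite k
  let e : ZMod 3 ≃+* k :=
    ZMod.ringEquivOfPrime k Nat.prime_three (by rw [← Nat.card_eq_fintype_card, hk])
  have hall : ∀ x : k, x = 0 ∨ x = 1 ∨ x = -1 := fun x => by
    obtain ⟨y, rfl⟩ := e.surjective x
    have : ∀ y : ZMod 3, y = 0 ∨ y = 1 ∨ y = -1 := by decide
    rcases this y with rfl | rfl | rfl <;> simp
  have key : ∀ φ φ' : AddChar k ℂ, φ 1 = φ' 1 → φ = φ' := fun φ φ' h => DFunLike.ext _ _ fun x => by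
    rcases hall x with rfl | rfl | rfl
    · simp
    · exact h
    · rw [AddChar.map_neg_eq_inv, AddChar.map_neg_eq_inv, h]
  have h1 : ∀ φ : AddChar k ℂ, φ 1 ^ 3 = 1 := fun φ => by
    rw [← AddChar.map_nsmul_eq_pow, nsmul_eq_mul, mul_one, ← map_natCast e, show ((3 : ℕ) : ZMod 3) = 0
      from rfl, map_zero, AddChar.map_zero_eq_one]
  have hne : ∀ φ : AddChar k ℂ, φ ≠ 1 → φ 1 ≠ 1 := fun φ hφ h =>
    hφ (key φ 1 (by rw [h, AddChar.one_apply]))
  by_cases h : ψ' 1 = ψ 1
  · refine ⟨-1, neg_ne_zero.2 one_ne_zero, fun b => ?_⟩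
    rw [neg_one_mul, neg_neg, key ψ' ψ h]
  · refine ⟨1, one_ne_zero, fun b => ?_⟩
    rw [one_mul]
    have h3 : ψ' 1 = (ψ 1)⁻¹ := by
      refine eq_inv_of_mul_eq_one_left ?_
      set a := ψ 1
      set a' := ψ' 1
      have ha : a ^ 2 + a + 1 = 0 := mul_left_cancel₀ (sub_ne_zero.2 (hne ψ hψ))
        (by rw [mul_zero]; linear_combination h1 ψ)
      have ha' : a' ^ 2 + a' + 1 = 0 := mul_left_cancel₀ (sub_ne_zero.2 (hne ψ' hψ'))
        (by rw [mul_zero]; linear_combination h1 ψ')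
      have hs : a' + a + 1 = 0 := mul_left_cancel₀ (sub_ne_zero.2 h)
        (by rw [mul_zero]; linear_combination ha' - ha)
      linear_combination a * hs - ha
    have h4 : ψ' = ψ.mulShift (-1) := key _ _ (by
      rw [h3, AddChar.mulShift_apply, mul_one, AddChar.map_neg_eq_inv])
    rw [h4, AddChar.mulShift_apply, neg_one_mul]

namespace DihedralData

open QuadData

variable {F : Type} [Field F] [NumberField F] (D : DihedralData F)

/-- Elements of `GL₂` of the residue fields at the places over `3`. -/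
abbrev GT := ∀ i, GL (Fin 2) (D.kT i)

/-- The vector attached to a residual matrix. -/
def VT (c : ∀ i, D.kT i) (g : D.GT) (x : ∀ i, D.kT i) : ℂ :=
  open Classical in
  ∏ i, if x i * (g i : Matrix (Fin 2) (Fin 2) (D.kT i)).det = c i then
    D.psiT i (-(x i * tau (g i : Matrix (Fin 2) (Fin 2) (D.kT i)))) else 0

variable {D}

lemma tau_mul' (i : Fin 3) (g h : GL (Fin 2) (D.kT i)) :
    tau ((g * h : GL (Fin 2) (D.kT i)) : Matrix (Fin 2) (Fin 2) (D.kT i)) =
      tau (g : Matrix (Fin 2) (Fin 2) (D.kT i)) +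
        (g : Matrix (Fin 2) (Fin 2) (D.kT i)).det * tau (h : Matrix (Fin 2) (Fin 2) (D.kT i)) := by
  let := Ideal.Quotient.field (D.w i).asIdeal
  exact tau_mul (D.card_kT i) g h

lemma units_sq (i : Fin 3) (r : (D.kT i)ˣ) : r * r = 1 :=
  Units.ext (kT_sq (D := D) (x := (r : D.kT i)) r.ne_zero)

/-- Left multiplication by an upper triangular matrix. -/
lemma VT_upper_mul (c : ∀ i, D.kT i) (g : D.GT) (u : ∀ i, (D.kT i)ˣ) (s : ∀ i, D.kT i)
    (r : ∀ i, (D.kT i)ˣ) (x : ∀ i, D.kT i) :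
    D.VT c (fun i => upperTri (r i) 0 (r i) * upperTri (u i) (s i) 1 * g i) x =
      (∏ i, D.psiT i (-(x i * s i))) * D.VT c g (fun i => x i * u i) := by
  classical
  rw [VT, VT, ← Finset.prod_mul_distrib]
  refine Finset.prod_congr rfl fun i _ => ?_
  have hr : (r i : D.kT i) * r i = 1 := by rw [← Units.val_mul, units_sq, Units.val_one]
  have hdet : ((upperTri (r i) 0 (r i) * upperTri (u i) (s i) 1 * g i : GL (Fin 2) (D.kT i)) :
      Matrix (Fin 2) (Fin 2) (D.kT i)).det =
        u i * (g i : Matrix (Fin 2) (Fin 2) (D.kT i)).det := by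
    rw [Units.val_mul, Units.val_mul, Matrix.det_mul, Matrix.det_mul,
      show (upperTri (r i) 0 (r i) : Matrix (Fin 2) (Fin 2) (D.kT i)).det = r i * r i by
        simp [upperTri, Matrix.det_fin_two],
      show (upperTri (u i) (s i) 1 : Matrix (Fin 2) (Fin 2) (D.kT i)).det = u i by
        simp [upperTri, Matrix.det_fin_two], hr, one_mul]
  have htau : tau ((upperTri (r i) 0 (r i) * upperTri (u i) (s i) 1 * g i : GL (Fin 2) (D.kT i)) :
      Matrix (Fin 2) (Fin 2) (D.kT i)) =
        s i + u i * tau (g i : Matrix (Fin 2) (Fin 2) (D.kT i)) := by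
    rw [mul_assoc, tau_mul', tau_mul', tau_upperTri, tau_upperTri]
    simp [upperTri, hr]
  rw [hdet, htau, mul_assoc]
  split_ifs
  · rw [← AddChar.map_add_eq_mul]
    congr 1
    ring
  · rw [mul_zero]

/-- Left multiplication by `w n(b)`. -/
lemma VT_wUni_mul (c : ∀ i, D.kT i) (g : D.GT) (b : ∀ i, D.kT i) (x : ∀ i, D.kT i) :
    D.VT c (fun i => wUni (b i) * g i) x = D.VT c g x * ∏ i, D.psiT i (-(b i * x i)) := by
  classical
  rw [VT, VT, ← Finset.prod_mul_distrib]
  refine Finset.prod_congr rfl fun i _ => ?_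
  rw [tau_mul', Units.val_mul, Matrix.det_mul, tau_wUni, det_wUni, one_mul, one_mul,
    ite_mul, zero_mul, ← AddChar.map_add_eq_mul]
  congr 2
  ring

/-- Right multiplication by a matrix of determinant one. -/
lemma VT_mul (c : ∀ i, D.kT i) (g h : D.GT)
    (hh : ∀ i, (h i : Matrix (Fin 2) (Fin 2) (D.kT i)).det = 1) (x : ∀ i, D.kT i) :
    D.VT c (fun i => g i * h i) x =
      (∏ i, D.psiT i (-(c i * tau (h i : Matrix (Fin 2) (Fin 2) (D.kT i))))) * D.VT c g x := by
  classical
  rw [VT, VT, ← Finset.prod_mul_distrib]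
  refine Finset.prod_congr rfl fun i _ => ?_
  rw [tau_mul', Units.val_mul, Matrix.det_mul, hh, mul_one, mul_ite, mul_zero]
  split_ifs with he
  · rw [← AddChar.map_add_eq_mul, ← he]
    congr 1
    ring
  · rfl

end DihedralData

end FermatAgent.LT.Dihedral
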