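import Fermat.Agent.LT.Base.Cosets
import Fermat.Agent.LT.Base.Expansion
import Fermat.Agent.LT.Base.Quotient
import Fermat.Agent.LT.Dihedral.Key
import Fermat.Agent.LT.Dihedral.Local3

/-!
# The theta series under upper triangular matrices of `F`
-/

set_option autoImplicit false
set_option maxHeartbeats 400000

noncomputable section

open NumberField IsDedekindDomain

namespace FermatAgent.LT

variable {K : Type*} [Field K] [NumberField K]

omit [NumberField K] in
theorem infAct_mul' (γ δ : GL (Fin 2) K) (x : XInf K) :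
    infAct (γ * δ) x = infAct γ (infAct δ x) := by
  funext w
  simp only [infAct, map_mul, mul_smul]

omit [NumberField K] in
theorem infAct_one' (x : XInf K) : infAct (1 : GL (Fin 2) K) x = x := by
  funext w
  simp [infAct]

omit [NumberField K] in
theorem infAct_scalar (z : Kˣ) (x : XInf K) : infAct (upperTri z 0 z) x = x := by
  funext w
  rw [infAct, ← scalar_eq_upperTri, Matrix.GeneralLinearGroup.map_scalar, H3.scalar_smul]

end FermatAgent.LT

namespace FermatAgent.LT.Dihedral

lemma upperTri_split {R : Type*} [CommRing R] (q : Rˣ) (c : R) :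
    upperTri q c 1 = upperTri 1 c 1 * upperTri q 0 1 := by
  rw [upperTri_mul, one_mul, Units.val_one, mul_one, mul_zero, zero_add, mul_one]

namespace DihedralData

open QuadData

variable {F : Type} [Field F] [NumberField F] (D : DihedralData F)

include D in
lemma isTotallyComplex : IsTotallyComplex F := ⟨D.totallyComplex⟩

lemma coefR_ne_zero {E : Dv F} (h : D.coefR E ≠ 0) : 0 ≤ E ∧ D.TFree E := by
  obtain ⟨J, hJ⟩ : (D.normFibre E).Nonempty := by
    by_contra h0
    rw [Set.not_nonempty_iff_eq_empty] at h0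
    exact h (by simp [coefR, h0])
  have key : ∀ P, J P + J (D.conjP P) = D.ram P * E (D.below P) := fun P => by
    have h1 := DFunLike.congr_fun hJ.2.2 P
    rwa [Finsupp.add_apply, conjDv_apply, extDv_apply] at h1
  refine ⟨fun q => ?_, fun i => ?_⟩
  · obtain ⟨P, rfl⟩ := D.exists_above q
    have h1 := hJ.1 P
    have h2 := hJ.1 (D.conjP P)
    have h3 := D.one_le_ram P
    rw [Finsupp.zero_apply] at h1 h2 ⊢
    have h4 := key P
    by_contra hlt
    have : (D.ram P : ℤ) * E (D.below P) < 0 := mul_neg_of_pos_of_neg (by omega) (by omega)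
    omega
  · have h4 := key (D.P i)
    rw [hJ.2.1 i, D.conjP_P, hJ.2.1 i, D.below_P, add_zero] at h4
    have := D.one_le_ram (D.P i)
    exact (mul_eq_zero.1 h4.symm).resolve_left (by omega)

lemma term_eq_zero {A : Dv F} {V : (∀ i, D.kT i) → ℂ} {β : F} {y : XInf F} {ν : Fˣ}
    (h : D.coefR (D.freqDv A ν) = 0) : D.term A V β y ν = 0 := by
  simp [term, h]

include D in
lemma waveProd_upper (ν : F) (q : Fˣ) (c : F) (y : XInf F) :
    waveProd ν (infAct (upperTri q c 1) y) = waveProd (ν * (q : F)) y * ph (ν * c) := by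
  have := D.isTotallyComplex
  rw [upperTri_split, infAct_mul', infAct_upperUni, waveProd_shift, waveProd_infAct_diag,
    waveChar_embVec, phaseInf_eq_exp_trace]
  rfl

/-- Moving the theta series by an upper triangular matrix. -/
theorem theta_move {A : Dv F} (hA : D.TFree A) {q : Fˣ} (hq : ∀ i, dvElt (q : F) (D.w i) = 0)
    {c : F} (hc : ∀ v, OrdGe v (A v + dvElt (q : F) v) c) (V : (∀ i, D.kT i) → ℂ) (y : XInf F) :
    D.theta (A + dvElt (q : F))
      (fun x => (∏ i, D.psiT i (-(x i * rmod (D.w i) c))) * V (fun i => x i * rmod (D.w i) (q : F)))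
      0 (infAct (upperTri q c 1) y) = D.theta A V 0 y := by
  have := D.isTotallyComplex
  rw [theta, theta, ← (Equiv.mulRight q).tsum_eq (D.term A V 0 y)]
  refine tsum_congr fun ν => ?_
  have hfreq : D.freqDv A ((ν * q : Fˣ) : F) = D.freqDv (A + dvElt (q : F)) (ν : F) := by
    rw [freqDv, freqDv, Units.val_mul, dvElt_mul ν.ne_zero q.ne_zero]
    abel
  simp only [Equiv.coe_mulRight]
  by_cases h : D.coefR (D.freqDv (A + dvElt (q : F)) (ν : F)) = 0
  · rw [term_eq_zero D h, term_eq_zero D (by rw [hfreq]; exact h)]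
  obtain ⟨h0, hT⟩ := D.coefR_ne_zero h
  have hqT : ∀ i, OrdGe (D.w i) 0 (q : F) := fun i => Or.inr (hq i).ge
  have hνT : ∀ i, OrdGe (D.w i) 0 (ν : F) := fun i => by
    refine Or.inr (le_of_eq ?_)
    have := hT i
    rw [freqDv, Finsupp.add_apply, Finsupp.add_apply, Finsupp.add_apply, hA i, hq i,
      D.dD_w] at this
    linarith
  have hcT : ∀ i, OrdGe (D.w i) 0 c := fun i => by simpa [hA i, hq i] using hc (D.w i)
  have hph : ph ((ν : F) * (-3)⁻¹ * c) =
      ∏ i, D.psiT i (rmod (D.w i) (ν : F) * rmod (D.w i) c) := by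
    have e : (-3 : F) * ((ν : F) * (-3)⁻¹ * c) = (ν : F) * c := by
      rw [show (-3 : F) * ((ν : F) * (-3)⁻¹ * c) = (ν : F) * c * ((-3) * (-3)⁻¹) by ring,
        mul_inv_cancel₀ (by norm_num), mul_one]
    have h1 := D.ph_eq_prod (y := (ν : F) * (-3)⁻¹ * c) (E := 1)
      (fun i => Or.inl (by rw [show ((1 : 𝓞 F) : F) = 1 from map_one _, sub_self]))
      (fun v hv => by
        rw [show ((1 : 𝓞 F) : F) = 1 from map_one _, one_mul]
        refine ((OrdGe.mul (Or.inr le_rfl : OrdGe v (dvElt (ν : F) v) (ν : F))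
          (D.ordGe_inv_three' hv)).mul (hc v)).mono ?_
        have := h0 v
        rw [freqDv, Finsupp.zero_apply, Finsupp.add_apply, Finsupp.add_apply,
          Finsupp.add_apply] at this
        omega)
      (fun i => by rw [e]; simpa using (hνT i).mul (hcT i))
    rw [show ((1 : 𝓞 F) : F) = 1 from map_one _, one_mul, e] at h1
    rw [h1]
    exact Finset.prod_congr rfl fun i _ => by rw [rmod_mul _ (hνT i) (hcT i)]
  have hres : D.resT ((ν * q : Fˣ) : F) = fun i => D.resT (ν : F) i * rmod (D.w i) (q : F) :=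
    funext fun i => by rw [Units.val_mul, resT, resT, rmod_mul _ (hνT i) (hqT i)]
  have hprod : (∏ i, D.psiT i (-(D.resT (ν : F) i * rmod (D.w i) c))) * ph ((ν : F) * (-3)⁻¹ * c)
      = 1 := by
    rw [hph, ← Finset.prod_mul_distrib]
    refine Finset.prod_eq_one fun i _ => ?_
    rw [← AddChar.map_add_eq_mul]
    simp [resT]
  rw [term, term, waveProd_upper D, hfreq, hres, Units.val_mul,
    show (ν : F) * (q : F) * (-3)⁻¹ = (ν : F) * (-3)⁻¹ * q by ring]
  simp only [zero_mul, neg_zero, ph_zero, mul_one]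
  linear_combination (D.coefR (D.freqDv (A + dvElt (q : F)) (ν : F)) *
    (((Real.sqrt (ndeg (D.freqDv (A + dvElt (q : F)) (ν : F))))⁻¹ : ℝ) : ℂ) *
    V (fun i => D.resT (ν : F) i * rmod (D.w i) (q : F)) *
    waveProd ((ν : F) * (-3)⁻¹ * q) y) * hprod

end DihedralData

end FermatAgent.LT.Dihedral
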