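import Fermat.Agent.LT.Base.Series
import Fermat.Agent.LT.Base.Minkowski
import Fermat.Agent.LT.Dihedral.ThetaMove

/-!
# A summable majorant of the theta series where all heights are bounded below
-/

set_option autoImplicit false
set_option maxHeartbeats 400000

noncomputable section

open NumberField IsDedekindDomain

namespace FermatAgent.LT.Dihedral

variable {K : Type*} [Field K] [NumberField K]

lemma one_le_ndeg_single (v : HeightOneSpectrum (𝓞 K)) {n : ℕ} :
    (2 : ℝ) ^ n ≤ ndeg (Finsupp.single v (n : ℤ)) := by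
  rw [show Finsupp.single v (n : ℤ) = (n : ℤ) • Finsupp.single v 1 by simp, ndeg_zsmul,
    zpow_natCast, ← idealDv_prime, ndeg_idealDv v.ne_bot]
  refine pow_le_pow_left₀ zero_le_two ?_ n
  have h0 : Ideal.absNorm v.asIdeal ≠ 0 := fun h => v.ne_bot (Ideal.absNorm_eq_zero_iff.1 h)
  have h1 : Ideal.absNorm v.asIdeal ≠ 1 := fun h => v.isPrime.ne_top (Ideal.absNorm_eq_one_iff.1 h)
  exact_mod_cast (by omega : 2 ≤ Ideal.absNorm v.asIdeal)

lemma ndeg_eq_prod (E : Dv K) :
    ndeg E = ∏ v ∈ E.support, ndeg (Finsupp.single v (E v)) := by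
  classical
  conv_lhs => rw [← E.sum_single]
  rw [Finsupp.sum]
  induction E.support using Finset.induction with
  | empty => simp [ndeg_zero]
  | insert a s ha ih => rw [Finset.sum_insert ha, Finset.prod_insert ha, ndeg_add, ih]

lemma one_le_ndeg {E : Dv K} (hE : 0 ≤ E) : 1 ≤ ndeg E := by
  rw [ndeg_eq_prod]
  refine Finset.one_le_prod fun v _ => ?_
  have h := hE v
  rw [Finsupp.zero_apply] at h
  obtain ⟨n, hn⟩ := Int.eq_ofNat_of_zero_le h
  rw [hn]
  exact (one_le_pow₀ one_le_two).trans (one_le_ndeg_single v)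

open Classical in
lemma card_Icc_le_ndeg {E : Dv K} (hE : 0 ≤ E) : ((Finset.Icc 0 E).card : ℝ) ≤ ndeg E := by
  classical
  rw [Finsupp.card_Icc, ndeg_eq_prod, Finsupp.support_zero, Finset.empty_union, Nat.cast_prod]
  refine Finset.prod_le_prod (fun v _ => Nat.cast_nonneg _) fun v _ => ?_
  have h := hE v
  rw [Finsupp.zero_apply] at h ⊢
  obtain ⟨n, hn⟩ := Int.eq_ofNat_of_zero_le h
  rw [hn, Int.card_Icc]
  refine le_trans ?_ (one_le_ndeg_single v)
  have h2 : n + 1 ≤ 2 ^ n := Nat.lt_two_pow_self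
  calc (((n : ℤ) + 1 - 0).toNat : ℝ) = ((n + 1 : ℕ) : ℝ) := by congr 1
    _ ≤ ((2 ^ n : ℕ) : ℝ) := by exact_mod_cast h2
    _ = (2 : ℝ) ^ n := by push_cast; rfl

/-- A natural number bounding a divisor. -/
lemma exists_nat_ge (E : Dv K) : ∃ N : ℕ, N ≠ 0 ∧ E ≤ dvElt ((N : 𝓞 K) : K) := by
  classical
  have h0 : 0 ≤ E.mapRange (max 0) (max_self 0) := fun v => by simp
  obtain ⟨I, hI, hIE⟩ := exists_idealDv_eq h0
  have hN : (Ideal.absNorm I : 𝓞 K) ≠ 0 := Nat.cast_ne_zero.2 fun h =>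
    hI (Ideal.absNorm_eq_zero_iff.1 h)
  refine ⟨Ideal.absNorm I, by exact_mod_cast hN, fun v => ?_⟩
  have h := (idealDv_le_iff hI hN).1 (Ideal.absNorm_mem I) v
  rw [hIE] at h
  refine le_trans ?_ h
  simp

lemma summable_exp_embSum [IsTotallyComplex K] {c : ℝ} (hc : 0 < c) :
    Summable fun a : 𝓞 K => Real.exp (-c * ∑ w : InfinitePlace K, ‖w.embedding (a : K)‖) := by
  classical
  set B := Minkowski.eBasis K
  set L : Minkowski.ESpace K →L[ℝ] (Module.Free.ChooseBasisIndex ℤ (𝓞 K) → ℝ) :=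
    LinearMap.toContinuousLinearMap B.equivFun.toLinearMap
  set m : ℝ := (‖L‖ + 1) * (Fintype.card (Module.Free.ChooseBasisIndex ℤ (𝓞 K)) + 1)
  set d : ℝ := c / m
  have hm : 0 < m := by positivity
  have hd : 0 < d := by positivity
  have hgeo : Summable fun n : ℤ => Real.exp (-d * |(n : ℝ)|) := by
    refine Summable.of_nat_of_neg ?_ ?_ <;>
      simp only [Int.cast_natCast, Int.cast_neg, abs_neg, Nat.abs_cast] <;>
      exact (Real.summable_exp_nat_mul_iff.2 (show -d < 0 by linarith)).congr fun n => by ring_nf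
  set e := (RingOfIntegers.basis K).equivFun
  rw [← e.toEquiv.symm.summable_iff]
  refine Summable.of_nonneg_of_le (fun k => (Real.exp_pos _).le) (fun k => ?_)
    (summable_pi_prod hgeo fun n => (Real.exp_pos _).le)
  simp only [Function.comp_apply]
  set a : 𝓞 K := e.toEquiv.symm k
  set S : ℝ := ∑ w : InfinitePlace K, ‖w.embedding (a : K)‖
  have hS : 0 ≤ S := by positivity
  have hL : L (Minkowski.phi K (a : K)) = fun i => (k i : ℝ) := by
    have ha : Minkowski.phi K (a : K) = ∑ i, ((k i : ℝ)) • B i := by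
      have : a = ∑ i, k i • RingOfIntegers.basis K i := Module.Basis.equivFun_symm_apply _ _
      rw [this, RingOfIntegers.coe_eq_algebraMap, map_sum, map_sum]
      refine Finset.sum_congr rfl fun i _ => ?_
      rw [map_zsmul, map_zsmul, Minkowski.eBasis_apply, Int.cast_smul_eq_zsmul]
    show B.equivFun (Minkowski.phi K (a : K)) = _
    rw [ha]
    exact B.equivFun.apply_symm_apply (fun i => (k i : ℝ)) |>.trans rfl |>
      ((congrArg B.equivFun (Module.Basis.equivFun_symm_apply B fun i => (k i : ℝ)).symm).trans ·)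
  have hk : ∀ i, |(k i : ℝ)| ≤ (‖L‖ + 1) * S := fun i => by
    have h1 : |(k i : ℝ)| ≤ ‖L (Minkowski.phi K (a : K))‖ := by
      rw [hL, ← Real.norm_eq_abs]
      exact norm_le_pi_norm (fun i => (k i : ℝ)) i
    refine h1.trans ((L.le_opNorm _).trans (mul_le_mul (by linarith [norm_nonneg L]) ?_
      (norm_nonneg _) (by positivity)))
    refine (pi_norm_le_iff_of_nonneg hS).2 fun w => ?_
    exact Finset.single_le_sum (f := fun w : InfinitePlace K => ‖w.embedding (a : K)‖)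
      (fun _ _ => norm_nonneg _) (Finset.mem_univ w)
  rw [← Real.exp_sum, Real.exp_le_exp, ← Finset.mul_sum]
  have hsum : ∑ i, |(k i : ℝ)| ≤ m * S := by
    refine (Finset.sum_le_card_nsmul _ _ _ fun i _ => hk i).trans ?_
    rw [nsmul_eq_mul, Finset.card_univ]
    have := norm_nonneg L
    simp only [m]
    nlinarith
  have : d * ∑ i, |(k i : ℝ)| ≤ c * S := by
    refine (mul_le_mul_of_nonneg_left hsum hd.le).trans_eq ?_
    rw [← mul_assoc, div_mul_cancel₀ _ hm.ne']
  linarith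

lemma pow_four_mul_exp_le {x t c : ℝ} (hx : 0 ≤ x) (hc : 0 < c) (ht : c ≤ t) :
    x ^ 4 * Real.exp (-(2 * Real.pi) * (x * t)) ≤
      24 / (Real.pi * c) ^ 4 * Real.exp (-(Real.pi * c) * x) := by
  have hp := Real.pi_pos
  have hxt : x * c ≤ x * t := mul_le_mul_of_nonneg_left ht hx
  have h1 : (Real.pi * c * x) ^ 4 / 24 ≤ Real.exp (Real.pi * c * x) := by
    have := Real.pow_div_factorial_le_exp (x := Real.pi * c * x) (by positivity) 4
    simpa [Nat.factorial] using this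
  have h2 : Real.exp (-(2 * Real.pi) * (x * t)) ≤
      Real.exp (-(Real.pi * c * x)) * Real.exp (-(Real.pi * c) * x) := by
    rw [← Real.exp_add, Real.exp_le_exp]
    nlinarith
  have h3 : x ^ 4 * Real.exp (-(Real.pi * c * x)) ≤ 24 / (Real.pi * c) ^ 4 := by
    rw [Real.exp_neg, ← div_eq_mul_inv, div_le_div_iff₀ (Real.exp_pos _) (by positivity)]
    rw [mul_pow] at h1
    nlinarith
  calc x ^ 4 * Real.exp (-(2 * Real.pi) * (x * t))
      ≤ x ^ 4 * (Real.exp (-(Real.pi * c * x)) * Real.exp (-(Real.pi * c) * x)) := by gcongr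
    _ ≤ 24 / (Real.pi * c) ^ 4 * Real.exp (-(Real.pi * c) * x) := by
        rw [← mul_assoc]; exact mul_le_mul_of_nonneg_right h3 (Real.exp_pos _).le

namespace DihedralData

open QuadData

variable {F : Type} [Field F] [NumberField F] (D : DihedralData F)

lemma norm_ξu (P : HeightOneSpectrum (𝓞 D.M)) : ‖(D.ξu P : ℂ)‖ = 1 := by
  by_cases hT : D.InT (D.below P)
  · rw [D.ξu_T hT, Units.val_one, norm_one]
  set h := Fintype.card (ClassGroup (𝓞 D.M))
  have hh : h ≠ 0 := Fintype.card_ne_zero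
  have hI : P.asIdeal ^ h ≠ ⊥ := pow_ne_zero _ P.ne_bot
  obtain ⟨x, hx⟩ : (P.asIdeal ^ h).IsPrincipal := by
    rw [← ClassGroup.mk0_eq_one_iff (mem_nonZeroDivisors_of_ne_zero hI)]
    have e : (⟨P.asIdeal ^ h, mem_nonZeroDivisors_of_ne_zero hI⟩ :
        nonZeroDivisors (Ideal (𝓞 D.M))) =
        ⟨P.asIdeal, mem_nonZeroDivisors_of_ne_zero P.ne_bot⟩ ^ h := rfl
    rw [e, map_pow, pow_card_eq_one]
  have hx' : P.asIdeal ^ h = Ideal.span {x} := hx
  have hx0 : x ≠ 0 := fun h0 => hI (by rw [hx', h0]; simp)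
  have hdv : dvElt (x : D.M) = h • Finsupp.single P 1 := by
    rw [← idealDv_span, ← hx', ← idealDv_prime]
    clear hx hx' hI hh
    induction h with
    | zero => simp [idealDv_top]
    | succ n ih => rw [pow_succ, idealDv_mul (pow_ne_zero _ P.ne_bot) P.ne_bot, ih, succ_nsmul]
  have hP : ∀ i, dvElt (x : D.M) (D.P i) = 0 := fun i => by
    rw [hdv, Finsupp.smul_apply, Finsupp.single_eq_of_ne, smul_zero]
    intro e
    exact hT ⟨i, by rw [← e, D.below_P i]⟩
  have e1 : D.ξc (h • Finsupp.single P 1) = (D.ξu P : ℂ) ^ h := by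
    rw [← D.ξc_single]
    clear hdv hP hI hh hx hx'
    induction h with
    | zero => simp [ξc_zero]
    | succ n ih => rw [succ_nsmul, ξc_add, ih, pow_succ]
  have hxne : (x : D.M) ≠ 0 := by simpa using hx0
  have h2 : ‖D.χT (x : D.M)‖ ≤ 1 := by
    rw [χT, norm_prod]
    exact Finset.prod_le_one (fun i _ => norm_nonneg _) fun i _ => norm_mulChar_le_one _ _
  have h3 : ‖(D.χT (x : D.M))⁻¹‖ ≤ 1 := by
    have hi : ∀ i, dvElt ((x : D.M)⁻¹) (D.P i) = 0 := fun i => by
      rw [dvElt_inv hxne, Finsupp.neg_apply, hP i, neg_zero]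
    rw [← D.ξc_dvElt hxne hP, ← ξc_neg, ← dvElt_inv hxne, D.ξc_dvElt (inv_ne_zero hxne) hi,
      χT, norm_prod]
    exact Finset.prod_le_one (fun i _ => norm_nonneg _) fun i _ => norm_mulChar_le_one _ _
  have h4 : ‖(D.ξu P : ℂ)‖ ^ h = 1 := by
    rw [← norm_pow, ← e1, ← hdv, D.ξc_dvElt hxne hP]
    refine le_antisymm h2 ?_
    have hne : D.χT (x : D.M) ≠ 0 := by rw [← D.ξc_dvElt hxne hP]; exact D.ξc_ne_zero _
    rw [norm_inv] at h3
    exact (inv_le_one₀ (norm_pos_iff.2 hne)).1 h3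
  exact (pow_eq_one_iff_of_nonneg (norm_nonneg _) hh).1 h4

lemma norm_ξc (J : Dv D.M) : ‖D.ξc J‖ = 1 := by
  rw [ξc, ξd, Finsupp.liftAddHom_apply, Finsupp.sum, toMul_sum, Units.coe_prod, norm_prod]
  refine Finset.prod_eq_one fun P _ => ?_
  rw [zmultiplesHom_apply, toMul_zsmul, toMul_ofMul, Units.val_zpow_eq_zpow_val, norm_zpow,
    norm_ξu, one_zpow]

lemma norm_coefR_le {E : Dv F} (hE : 0 ≤ E) : ‖D.coefR E‖ ≤ ndeg E ^ 2 := by
  classical
  rw [← D.finrank_eq, ← ndeg_extDv (L := D.M), coefR,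
    finsum_mem_eq_finite_toFinset_sum _ (D.finite_normFibre E)]
  refine (norm_sum_le _ _).trans (le_trans ?_ (card_Icc_le_ndeg (extDv_nonneg hE)))
  simp only [norm_ξc, Finset.sum_const, nsmul_eq_mul, mul_one, Nat.cast_le]
  refine Finset.card_le_card fun J hJ => ?_
  rw [Set.Finite.mem_toFinset] at hJ
  refine Finset.mem_Icc.2 ⟨hJ.1, fun P => ?_⟩
  have h2 : extDv E P = J P + J (D.conjP P) := by
    rw [← hJ.2.2, Finsupp.add_apply, conjDv_apply]
  have h3 := hJ.1 (D.conjP P)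
  rw [Finsupp.zero_apply] at h3
  omega

/-- The majorant of the theta series. -/
theorem exists_term_majorant (A : Dv F) (V : (∀ i, D.kT i) → ℂ) {c : ℝ} (hc : 0 < c) :
    ∃ u : Fˣ → ℝ, Summable u ∧ ∀ (β : F) (y : XInf F), (∀ w, c ≤ (y w).t) →
      ∀ ν, ‖D.term A V β y ν‖ ≤ u ν := by
  classical
  have := D.isTotallyComplex
  obtain ⟨N, hN, hNA⟩ := exists_nat_ge (A + D.dD)
  obtain ⟨A₁, hA₁, hwave⟩ := exists_norm_waveProd_bound (K := F)
  set C : ℝ := (∑ x, ‖V x‖) * A₁ * ndeg (A + D.dD) ^ 2 *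
    ∏ _w : InfinitePlace F, (3 ^ 4 * (24 / (Real.pi * c) ^ 4)) with hC
  set d : ℝ := Real.pi * c / 3
  let g : 𝓞 F → ℝ := fun a => Real.exp (-(d / N) * ∑ w : InfinitePlace F, ‖w.embedding (a : F)‖)
  have hN' : (0 : ℝ) < N := by exact_mod_cast Nat.pos_of_ne_zero hN
  have hint : ∀ ν : {ν : Fˣ // 0 ≤ D.freqDv A ν}, ∃ a : 𝓞 F, (a : F) = (N : F) * (ν.1 : F) := by
    rintro ⟨ν, hν⟩
    refine exists_int_of_nonneg (Or.inr ?_)
    have hN0 : (N : F) ≠ 0 := Nat.cast_ne_zero.2 hN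
    rw [dvElt_mul hN0 ν.ne_zero]
    refine hν.trans ?_
    rw [freqDv, add_assoc, add_comm (dvElt (ν : F))]
    exact add_le_add_left (by simpa using hNA) _
  choose a ha using hint
  have hinj : Function.Injective a := fun ν ν' h => by
    have := congrArg (fun x : 𝓞 F => (x : F)) h
    simp only [ha] at this
    exact Subtype.ext (Units.ext (mul_left_cancel₀ (Nat.cast_ne_zero.2 hN) this))
  refine ⟨Set.indicator {ν : Fˣ | 0 ≤ D.freqDv A ν} fun ν =>
    C * Real.exp (-d * ∑ w : InfinitePlace F, ‖w.embedding (ν : F)‖), ?_, fun β y hy ν => ?_⟩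
  · rw [← summable_subtype_iff_indicator]
    refine (((summable_exp_embSum (K := F) (c := d / N) (by positivity)).comp_injective
      hinj).mul_left C).congr fun ν => ?_
    simp only [Function.comp_apply, ha, map_mul, map_natCast, norm_mul, Complex.norm_natCast,
      ← Finset.mul_sum]
    congr 2
    field_simp
  by_cases hν : D.coefR (D.freqDv A ν) = 0
  · rw [D.term_eq_zero hν, norm_zero]
    exact Set.indicator_nonneg (fun _ _ => by positivity) _
  have hE := (D.coefR_ne_zero hν).1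
  rw [Set.indicator_of_mem (show ν ∈ {ν : Fˣ | 0 ≤ D.freqDv A ν} from hE)]
  have h1 : 1 ≤ Real.sqrt (ndeg (D.freqDv A ν)) := by
    rw [← Real.sqrt_one]; exact Real.sqrt_le_sqrt (one_le_ndeg hE)
  have hn : ndeg (D.freqDv A ν) ^ 2 =
      ndeg (A + D.dD) ^ 2 * ∏ w : InfinitePlace F, ‖w.embedding (ν : F)‖ ^ 4 := by
    rw [freqDv, add_assoc, ndeg_add, mul_pow, mul_comm, Finset.prod_pow,
      ← D.sqrt_ndeg_dvElt ν.ne_zero, show (4 : ℕ) = 2 * 2 from rfl, pow_mul,
      Real.sq_sqrt (ndeg_pos _).le]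
  have hV : ‖V (D.resT (ν : F))‖ ≤ ∑ x, ‖V x‖ :=
    Finset.single_le_sum (f := fun x => ‖V x‖) (fun x _ => norm_nonneg _) (Finset.mem_univ _)
  have hw : ‖waveProd ((ν : F) * (-3)⁻¹) y‖ ≤ A₁ * ∏ w : InfinitePlace F,
      Real.exp (-(2 * Real.pi) * (‖w.embedding (ν : F)‖ / 3 * (y w).t)) := by
    refine (hwave _ _).trans_eq ?_
    rw [← Real.exp_sum, Finset.mul_sum]
    congr 2
    refine Finset.sum_congr rfl fun w _ => ?_
    simp only [map_mul, map_inv₀, map_neg, map_ofNat, norm_mul, norm_inv, norm_neg,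
      RCLike.norm_ofNat]
    ring
  rw [term, norm_mul, norm_mul, norm_mul, norm_mul, norm_ph, mul_one, Complex.norm_real,
    Real.norm_eq_abs, abs_of_nonneg (by positivity)]
  calc ‖D.coefR (D.freqDv A ν)‖ * (Real.sqrt (ndeg (D.freqDv A ν)))⁻¹ * ‖V (D.resT (ν : F))‖ *
        ‖waveProd ((ν : F) * (-3)⁻¹) y‖
      ≤ ndeg (D.freqDv A ν) ^ 2 * 1 * (∑ x, ‖V x‖) * (A₁ * ∏ w : InfinitePlace F,
          Real.exp (-(2 * Real.pi) * (‖w.embedding (ν : F)‖ / 3 * (y w).t))) := by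
        gcongr
        · exact D.norm_coefR_le hE
        · exact inv_le_one_of_one_le₀ h1
    _ = (∑ x, ‖V x‖) * A₁ * ndeg (A + D.dD) ^ 2 * ∏ w : InfinitePlace F,
          (3 ^ 4 * ((‖w.embedding (ν : F)‖ / 3) ^ 4 *
            Real.exp (-(2 * Real.pi) * (‖w.embedding (ν : F)‖ / 3 * (y w).t)))) := by
        rw [hn, mul_one]
        have e : ∀ x : ℝ, x ^ 4 = 3 ^ 4 * (x / 3) ^ 4 := fun x => by ring
        simp only [e ‖_‖, Finset.prod_mul_distrib]
        ring
    _ ≤ (∑ x, ‖V x‖) * A₁ * ndeg (A + D.dD) ^ 2 * ∏ w : InfinitePlace F,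
          (3 ^ 4 * (24 / (Real.pi * c) ^ 4) * Real.exp (-d * ‖w.embedding (ν : F)‖)) := by
        refine mul_le_mul_of_nonneg_left (Finset.prod_le_prod (fun w _ => by positivity) fun w _ => ?_)
          (by positivity)
        rw [mul_assoc]
        refine mul_le_mul_of_nonneg_left ?_ (by norm_num)
        refine (pow_four_mul_exp_le (by positivity) hc (hy w)).trans_eq ?_
        simp only [d]
        ring_nf
    _ = C * Real.exp (-d * ∑ w : InfinitePlace F, ‖w.embedding (ν : F)‖) := by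
        rw [Finset.prod_mul_distrib, ← mul_assoc, ← Real.exp_sum, ← Finset.mul_sum]

end DihedralData

end FermatAgent.LT.Dihedral
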