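import Fermat.Agent.LT.Dihedral.Form
import Fermat.Agent.LT.MultOne.Coeff

/-!
# Level, translations and cuspidality over `3` of the level three form
-/

set_option autoImplicit false
set_option maxHeartbeats 400000

noncomputable section

open NumberField IsDedekindDomain WithZero

namespace FermatAgent.LT.Dihedral

variable {K : Type*} [Field K] [NumberField K]

lemma resHom_algebraMap (v : HeightOneSpectrum (𝓞 K)) (a : 𝓞 K) :
    resHom v (algebraMap (𝓞 K) (v.adicCompletionIntegers K) a) = Ideal.Quotient.mk _ a := by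
  rw [resHom_loc (b := (a : K)) _ rfl, rmod_int]

/-- The residual matrix of an element of a congruence subgroup. -/
lemma exists_int_of_congr {𝔫 : Ideal (𝓞 K)} {k : GAf K} (hk : k ∈ congrSubgroup 𝔫) :
    ∃ k' : GL (Fin 2) (IntAd K), Matrix.GeneralLinearGroup.map intToAdele k' = k ∧
      ∀ v : HeightOneSpectrum (𝓞 K), 𝔫 ≤ v.asIdeal → resGL v k' = 1 := by
  obtain ⟨k', hk', rfl⟩ := Subgroup.mem_map.1 hk
  refine ⟨k', rfl, fun v hv => ?_⟩
  set I := 𝔫.map (RingHom.pi fun u : HeightOneSpectrum (𝓞 K) =>
    algebraMap (𝓞 K) (u.adicCompletionIntegers K))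
  set f := (resHom v).comp
    (Pi.evalRingHom (fun u : HeightOneSpectrum (𝓞 K) => u.adicCompletionIntegers K) v)
  have hI : I ≤ RingHom.ker f := Ideal.map_le_iff_le_comap.2 fun a ha => by
    rw [Ideal.mem_comap, RingHom.mem_ker]
    show resHom v (algebraMap (𝓞 K) (v.adicCompletionIntegers K) a) = 0
    rw [resHom_algebraMap, Ideal.Quotient.eq_zero_iff_mem]
    exact hv ha
  have hker : ∀ a ∈ I, f a = 0 := fun a ha => RingHom.mem_ker.1 (hI ha)
  have hfac : f = (Ideal.Quotient.lift I f hker).comp (Ideal.Quotient.mk I) :=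
    RingHom.ext fun x => (Ideal.Quotient.lift_mk I f hker).symm
  show Matrix.GeneralLinearGroup.map f k' = 1
  rw [hfac, Matrix.GeneralLinearGroup.map_comp, MonoidHom.comp_apply, MonoidHom.mem_ker.1 hk',
    map_one]

open Classical in
/-- A matrix of the completed integers at `v`, as an integral adelic matrix. -/
def intAtMat (v : HeightOneSpectrum (𝓞 K)) :
    Matrix (Fin 2) (Fin 2) (v.adicCompletionIntegers K) →* Matrix (Fin 2) (Fin 2) (IntAd K) where
  toFun g := Matrix.of fun i j => Function.update
    (fun u : HeightOneSpectrum (𝓞 K) => if i = j then (1 : u.adicCompletionIntegers K) else 0)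
    v (g i j)
  map_one' := by
    refine Matrix.ext fun i j => funext fun u => ?_
    rcases eq_or_ne u v with rfl | h
    · rw [Matrix.of_apply, Function.update_self, Matrix.one_apply, Matrix.one_apply]
      split_ifs <;> rfl
    · rw [Matrix.of_apply, Function.update_of_ne h, Matrix.one_apply]
      split_ifs <;> rfl
  map_mul' g h := by
    refine Matrix.ext fun i j => funext fun u => ?_
    simp only [Matrix.mul_apply, Fin.sum_univ_two, Matrix.of_apply, Pi.add_apply, Pi.mul_apply]
    rcases eq_or_ne u v with rfl | hu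
    · simp only [Function.update_self]
    · simp only [Function.update_of_ne hu]
      fin_cases i <;> fin_cases j <;> simp

/-- An element of `GL₂` of the completed integers at `v`, as an integral adelic matrix. -/
def intAt (v : HeightOneSpectrum (𝓞 K)) :
    GL (Fin 2) (v.adicCompletionIntegers K) →* GL (Fin 2) (IntAd K) :=
  Units.map (intAtMat v)

lemma map_intAt (v : HeightOneSpectrum (𝓞 K)) (k : GL (Fin 2) (v.adicCompletionIntegers K)) :
    Matrix.GeneralLinearGroup.map intToAdele (intAt v k) =
      atPlace v (Matrix.GeneralLinearGroup.map (v.adicCompletionIntegers K).subtype k) := by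
  classical
  refine Units.ext (Matrix.ext fun i j => FiniteAdeleRing.ext _ fun u => ?_)
  show ((Function.update
      (fun u : HeightOneSpectrum (𝓞 K) => if i = j then (1 : u.adicCompletionIntegers K) else 0)
      v (k i j) u : u.adicCompletionIntegers K) : u.adicCompletion K) =
    updAt v ((k i j : v.adicCompletionIntegers K) : v.adicCompletion K)
      (if i = j then 1 else 0) u
  rcases eq_or_ne u v with rfl | hu
  · rw [Function.update_self, updAt_self]
  · rw [Function.update_of_ne hu, updAt_of_ne _ _ _ hu]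
    split_ifs <;> simp

lemma resGL_intAt_ne {v u : HeightOneSpectrum (𝓞 K)} (h : u ≠ v)
    (k : GL (Fin 2) (v.adicCompletionIntegers K)) : resGL u (intAt v k) = 1 := by
  classical
  refine Units.ext (Matrix.ext fun i j => ?_)
  rw [resGL_apply]
  show resHom u (Function.update
    (fun u : HeightOneSpectrum (𝓞 K) => if i = j then (1 : u.adicCompletionIntegers K) else 0)
    v (k i j) u) = (1 : Matrix (Fin 2) (Fin 2) _) i j
  rw [Function.update_of_ne h, Matrix.one_apply]
  split_ifs <;> simp

lemma resGL_intAt_self (v : HeightOneSpectrum (𝓞 K))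
    (k : GL (Fin 2) (v.adicCompletionIntegers K)) :
    resGL v (intAt v k) = Matrix.GeneralLinearGroup.map (resHom v) k := by
  classical
  refine Units.ext (Matrix.ext fun i j => ?_)
  rw [resGL_apply]
  show resHom v (Function.update
    (fun u : HeightOneSpectrum (𝓞 K) => if i = j then (1 : u.adicCompletionIntegers K) else 0)
    v (k i j) v) = _
  rw [Function.update_self]
  rfl

/-- The integral local translation. -/
def uniAt (v : HeightOneSpectrum (𝓞 K)) (b : 𝓞 K) : GL (Fin 2) (IntAd K) :=
  intAt v (upperTri 1 (algebraMap (𝓞 K) (v.adicCompletionIntegers K) b) 1)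

lemma map_uniAt (v : HeightOneSpectrum (𝓞 K)) (b : 𝓞 K) :
    Matrix.GeneralLinearGroup.map intToAdele (uniAt v b) = transl v b := by
  rw [uniAt, map_intAt, map_upperTri, map_one, transl]
  rfl

namespace DihedralData

open QuadData

variable {F : Type} [Field F] [NumberField F] {D : DihedralData F} {cv : ∀ i, D.kT i}

/-- Right invariance under the congruence subgroups contained in the level. -/
theorem G0_level {𝔫 : Ideal (𝓞 F)} (h𝔫 : ∀ i, 𝔫 ≤ (D.w i).asIdeal) {k : GAf F}
    (hk : k ∈ congrSubgroup 𝔫) (x : XInf F) (g : GAf F) : D.G0 cv x (g * k) = D.G0 cv x g := by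
  obtain ⟨k', rfl, hk'⟩ := exists_int_of_congr hk
  set d := (D.exists_dec g).some
  rw [G0_mul_int d, G0_eq d, show D.resT3 k' = 1 from funext fun i => hk' _ (h𝔫 i), mul_one]
  rfl

lemma theta_smul (A : Dv F) (c : ℂ) (V : (∀ i, D.kT i) → ℂ) (β : F) (y : XInf F) :
    D.theta A (fun x => c * V x) β y = c * D.theta A V β y := by
  rw [theta, theta, ← tsum_mul_left]
  exact tsum_congr fun ν => by rw [term, term]; ring

/-- The translations at the places over `3`. -/
theorem G0_transl (i : Fin 3) (b : 𝓞 F) (x : XInf F) (g : GAf F) :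
    D.G0 cv x (g * transl (D.w i) b) =
      D.psiT i (-(cv i * Ideal.Quotient.mk _ b)) * D.G0 cv x g := by
  classical
  rw [← map_uniAt]
  set d := (D.exists_dec g).some
  rw [G0_mul_int d, G0_eq d, Dec.value, ← theta_smul]
  congr 1
  funext y
  have hne : ∀ j, j ≠ i → D.resT3 (uniAt (D.w i) b) j = 1 := fun j hj =>
    resGL_intAt_ne (fun h => hj (D.w_injective h)) _
  have hself : D.resT3 (uniAt (D.w i) b) i = upperTri 1 (Ideal.Quotient.mk _ b) 1 := by
    rw [resT3_apply, uniAt, resGL_intAt_self, map_upperTri, map_one, resHom_algebraMap]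
  rw [show D.resT3 d.k * D.resT3 (uniAt (D.w i) b) =
    fun j => D.resT3 d.k j * D.resT3 (uniAt (D.w i) b) j from rfl, VT_mul]
  · congr 1
    rw [Finset.prod_eq_single i (fun j _ hj => by rw [hne j hj]; simp [tau])
      (fun h => absurd (Finset.mem_univ i) h), hself, tau_upperTri, Units.val_one, mul_one]
  · intro j
    rcases eq_or_ne j i with rfl | hj
    · rw [hself]; simp [upperTri, Matrix.det_fin_two]
    · rw [hne j hj]; simp

/-- Cuspidality at the places over `3`. -/
theorem G0_cuspidal (hcv : ∀ i, cv i ≠ 0) (i : Fin 3) : IsCuspidalAt (D.w i) (D.G0 cv) := by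
  classical
  intro x g k
  let := Ideal.Quotient.field (D.w i).asIdeal
  have := finite_quot (D.w i).ne_bot
  have := Fintype.ofFinite (𝓞 F ⧸ (D.w i).asIdeal)
  rw [← map_intAt, finsum_eq_sum_of_fintype]
  set k' := intAt (D.w i) k
  set d := (D.exists_dec g).some
  set K₀ := D.resT3 k'
  have hKne : ∀ j, j ≠ i → K₀ j = 1 := fun j hj =>
    resGL_intAt_ne (fun h => hj (D.w_injective h)) _
  set δ : D.kT i := (K₀ i : Matrix (Fin 2) (Fin 2) (D.kT i)).det
  have hδ : δ ≠ 0 := (K₀ i).det_ne_zero
  set e : D.kT i := -(cv i * δ⁻¹)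
  have hval : ∀ q : 𝓞 F ⧸ (D.w i).asIdeal,
      D.G0 cv x (g * transl (D.w i) (Function.surjInv Ideal.Quotient.mk_surjective q) *
        Matrix.GeneralLinearGroup.map intToAdele k') =
        D.psiT i (e * q) * D.G0 cv x (g * Matrix.GeneralLinearGroup.map intToAdele k') := by
    intro q
    set b := Function.surjInv (Ideal.Quotient.mk_surjective (I := (D.w i).asIdeal)) q
    have hb : Ideal.Quotient.mk _ b = q := Function.surjInv_eq _ q
    rw [← map_uniAt, mul_assoc, ← map_mul, G0_mul_int d, G0_mul_int d, ← theta_smul]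
    congr 1
    funext y
    have hne : ∀ j, j ≠ i → D.resT3 (uniAt (D.w i) b) j = 1 := fun j hj =>
      resGL_intAt_ne (fun h => hj (D.w_injective h)) _
    have hself : D.resT3 (uniAt (D.w i) b) i = upperTri 1 q 1 := by
      rw [resT3_apply, uniAt, resGL_intAt_self, map_upperTri, map_one, resHom_algebraMap, hb]
    have hdecomp : D.resT3 d.k * D.resT3 (uniAt (D.w i) b * k') =
        fun j => (D.resT3 d.k j * K₀ j) * ((K₀ j)⁻¹ * D.resT3 (uniAt (D.w i) b) j * K₀ j) := by
      funext j
      rw [map_mul, Pi.mul_apply, Pi.mul_apply]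
      group
      rfl
    rw [hdecomp, VT_mul]
    · congr 1
      rw [Finset.prod_eq_single i (fun j _ hj => by rw [hne j hj, hKne j hj]; simp [tau])
        (fun h => absurd (Finset.mem_univ i) h), hself]
      congr 1
      have hinv : δ * tau (((K₀ i)⁻¹ * upperTri 1 q 1 * K₀ i : GL (Fin 2) (D.kT i)) :
          Matrix (Fin 2) (Fin 2) (D.kT i)) = q := by
        have h1 := tau_mul' i (K₀ i) ((K₀ i)⁻¹ * upperTri 1 q 1 * K₀ i)
        rw [← mul_assoc, mul_inv_cancel_left, tau_mul', tau_upperTri, Units.val_one, mul_one,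
          show (upperTri 1 q 1 : Matrix (Fin 2) (Fin 2) (D.kT i)).det = 1 by
            simp [upperTri, Matrix.det_fin_two], one_mul] at h1
        linear_combination -h1
      have hd' : tau (((K₀ i)⁻¹ * upperTri 1 q 1 * K₀ i : GL (Fin 2) (D.kT i)) :
          Matrix (Fin 2) (Fin 2) (D.kT i)) = δ⁻¹ * q := by
        rw [← hinv, ← mul_assoc, inv_mul_cancel₀ hδ, one_mul, hinv]
      rw [hd']
      ring
    · intro j
      rcases eq_or_ne j i with rfl | hj
      · rw [hself, Units.val_mul, Units.val_mul, Matrix.det_mul, Matrix.det_mul,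
          show (upperTri 1 q 1 : Matrix (Fin 2) (Fin 2) (D.kT j)).det = 1 by
            simp [upperTri, Matrix.det_fin_two], mul_one, ← Matrix.det_mul, ← Units.val_mul,
          inv_mul_cancel, Units.val_one, Matrix.det_one]
      · rw [hne j hj, hKne j hj]; simp
  rw [Finset.sum_congr rfl fun q _ => hval q, ← Finset.sum_mul]
  have hne1 : (D.psiT i).mulShift e ≠ 1 :=
    AddChar.IsPrimitive.of_ne_one (D.psiT_ne_one i)
      (neg_ne_zero.2 (mul_ne_zero (hcv i) (inv_ne_zero hδ)))
  have h0 := AddChar.sum_eq_zero_of_ne_one hne1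
  simp only [AddChar.mulShift_apply] at h0
  rw [h0, zero_mul]

end DihedralData

end FermatAgent.LT.Dihedral
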