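import Fermat.Agent.LT.Descent.Classical.Sph
import Fermat.Agent.LT.Dihedral.Level

/-!
# Installing a character of the residual translations

The operator which installs a character of the residual translations at a place of full level.
-/

set_option autoImplicit false
set_option maxHeartbeats 400000

noncomputable section

open NumberField IsDedekindDomain WithZero

namespace FermatAgent.LT.Dihedral

variable {K : Type*} [Field K] [NumberField K]

/-- Right invariance under the integral matrices which are residually trivial at the places of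
`P`. -/
def RightInv (P : Set (HeightOneSpectrum (𝓞 K))) (φ : XInf K → GAf K → ℂ) : Prop :=
  ∀ k : GL (Fin 2) (IntAd K), (∀ v ∈ P, resGL v k = 1) →
    ∀ x g, φ x (g * Matrix.GeneralLinearGroup.map intToAdele k) = φ x g

variable (Q : HeightOneSpectrum (𝓞 K))

/-- The element `diag (ϖ, 1)` at `Q`. -/
def dAt : GAf K := atPlace Q (upperTri (piLoc Q) 0 1)

/-- The twisted sum of translates. -/
def twist (ψ : AddChar (𝓞 K ⧸ Q.asIdeal) ℂ) (φ : XInf K → GAf K → ℂ) (x : XInf K) (g : GAf K) :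
    ℂ :=
  ∑ᶠ b : 𝓞 K ⧸ Q.asIdeal, ψ (-b) *
    φ x (g * (transl Q (Function.surjInv (Ideal.Quotient.mk_surjective (I := Q.asIdeal)) b) *
      dAt Q))

/-- The component at `Q` of an integral matrix. -/
def compQ : GL (Fin 2) (IntAd K) →* GL (Fin 2) (Q.adicCompletionIntegers K) :=
  Matrix.GeneralLinearGroup.map
    (Pi.evalRingHom (fun u : HeightOneSpectrum (𝓞 K) => u.adicCompletionIntegers K) Q)

lemma compQ_intAt (k : GL (Fin 2) (Q.adicCompletionIntegers K)) : compQ Q (intAt Q k) = k := by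
  classical
  refine Units.ext (Matrix.ext fun i j => ?_)
  show Function.update
    (fun u : HeightOneSpectrum (𝓞 K) => if i = j then (1 : u.adicCompletionIntegers K) else 0)
    Q (k i j) Q = _
  rw [Function.update_self]

/-- An integral matrix with its component at `Q` removed. -/
def offAt (k : GL (Fin 2) (IntAd K)) : GL (Fin 2) (IntAd K) := k * (intAt Q (compQ Q k))⁻¹

lemma offAt_mul (k : GL (Fin 2) (IntAd K)) : offAt Q k * intAt Q (compQ Q k) = k :=
  inv_mul_cancel_right _ _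

lemma compQ_offAt (k : GL (Fin 2) (IntAd K)) : compQ Q (offAt Q k) = 1 := by
  rw [offAt, map_mul, map_inv, compQ_intAt, mul_inv_cancel]

lemma resGL_offAt {v : HeightOneSpectrum (𝓞 K)} (h : v ≠ Q) (k : GL (Fin 2) (IntAd K)) :
    resGL v (offAt Q k) = resGL v k := by
  rw [offAt, map_mul, map_inv, resGL_intAt_ne h, inv_one, mul_one]

lemma atPlace_comm {v : HeightOneSpectrum (𝓞 K)} (M : GL (Fin 2) (v.adicCompletion K))
    {g : GAf K} (hg : ∀ i j, g i j v = if i = j then 1 else 0) :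
    atPlace v M * g = g * atPlace v M := by
  refine Units.ext (Matrix.ext fun i j => FiniteAdeleRing.ext _ fun w => ?_)
  rw [Units.val_mul, Units.val_mul, Matrix.mul_apply, Matrix.mul_apply, Fin.sum_univ_two,
    Fin.sum_univ_two]
  simp only [adele_add_apply, adele_mul_apply]
  change updAt v ((M : Matrix (Fin 2) (Fin 2) _) i 0) _ w * _ +
      updAt v ((M : Matrix (Fin 2) (Fin 2) _) i 1) _ w * _ =
    _ * updAt v ((M : Matrix (Fin 2) (Fin 2) _) 0 j) _ w +
      _ * updAt v ((M : Matrix (Fin 2) (Fin 2) _) 1 j) _ w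
  rcases eq_or_ne w v with rfl | hw
  · simp only [updAt_self, hg]
    fin_cases i <;> fin_cases j <;> simp
  · simp only [updAt_of_ne _ _ _ hw]
    fin_cases i <;> fin_cases j <;> simp

lemma atPlace_comm_off (M : GL (Fin 2) (Q.adicCompletion K)) (k : GL (Fin 2) (IntAd K)) :
    atPlace Q M * Matrix.GeneralLinearGroup.map intToAdele (offAt Q k) =
      Matrix.GeneralLinearGroup.map intToAdele (offAt Q k) * atPlace Q M := by
  refine atPlace_comm M fun i j => ?_
  have h := congrArg (fun m : GL (Fin 2) (Q.adicCompletionIntegers K) =>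
    ((m i j : Q.adicCompletionIntegers K) : Q.adicCompletion K)) (compQ_offAt Q k)
  refine h.trans ?_
  rw [Units.val_one, Matrix.one_apply]
  split_ifs <;> rfl

lemma atPlace_comm_atPlace {v : HeightOneSpectrum (𝓞 K)} (h : v ≠ Q)
    (M : GL (Fin 2) (v.adicCompletion K)) (M' : GL (Fin 2) (Q.adicCompletion K)) :
    atPlace v M * atPlace Q M' = atPlace Q M' * atPlace v M := by
  refine atPlace_comm M fun i j => ?_
  show updAt Q _ (if i = j then 1 else 0) v = _
  rw [updAt_of_ne _ _ _ h]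
  split_ifs <;> simp

lemma transl_add' (a b : 𝓞 K) : transl Q (a + b) = transl Q a * transl Q b := by
  rw [transl, transl, transl, ← map_mul, upperTri_mul, mul_one]
  congr 2
  push_cast
  simp [add_comm]

lemma comm_twistMat {v : HeightOneSpectrum (𝓞 K)} (h : v ≠ Q)
    (M : GL (Fin 2) (v.adicCompletion K)) (a : 𝓞 K) :
    atPlace v M * (transl Q a * dAt Q) = transl Q a * dAt Q * atPlace v M := by
  rw [transl, dAt, ← map_mul, atPlace_comm_atPlace Q h]

lemma comm_twistMat₂ {v : HeightOneSpectrum (𝓞 K)} (h : v ≠ Q) (g : GAf K)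
    (M M' : GL (Fin 2) (v.adicCompletion K)) (a : 𝓞 K) :
    g * atPlace v M * atPlace v M' * (transl Q a * dAt Q) =
      g * (transl Q a * dAt Q) * atPlace v M * atPlace v M' := by
  rw [mul_assoc g (atPlace v M), ← map_mul, mul_assoc, comm_twistMat Q h, map_mul, ← mul_assoc,
    ← mul_assoc]

lemma exists_eq_pi_mul {y : Q.adicCompletionIntegers K} (hy : resHom Q y = 0) :
    ∃ z : Q.adicCompletionIntegers K,
      (y : Q.adicCompletion K) = ((piLoc Q : (Q.adicCompletion K)ˣ) : Q.adicCompletion K) * z := by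
  obtain ⟨a, ha, ha'⟩ := exists_resV Q y
  have h0 : Ideal.Quotient.mk Q.asIdeal a = 0 := ha'.symm.trans hy
  rw [Ideal.Quotient.eq_zero_iff_mem, ← ordGe_one_iff, ordGe_iff_valued] at h0
  have hv : Valued.v (y : Q.adicCompletion K) ≤ exp (-1 : ℤ) := by
    rw [← sub_add_cancel (y : Q.adicCompletion K) (loc Q (a : K))]
    exact (Valuation.map_add _ _ _).trans (max_le ha h0)
  refine ⟨⟨(((piLoc Q)⁻¹ : (Q.adicCompletion K)ˣ) : Q.adicCompletion K) * y, ?_⟩, ?_⟩
  · show Valued.v ((((piLoc Q)⁻¹ : (Q.adicCompletion K)ˣ) : Q.adicCompletion K) *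
      (y : Q.adicCompletion K)) ≤ 1
    rw [map_mul, Units.val_inv_eq_inv_val, map_inv₀,
      show Valued.v ((piLoc Q : (Q.adicCompletion K)ˣ) : Q.adicCompletion K) = exp (-1 : ℤ) from
        valued_uniformizer Q]
    refine (mul_le_mul' le_rfl hv).trans ?_
    rw [inv_mul_cancel₀ exp_ne_zero]
  · simp

variable {Q}

section props

variable {P : Set (HeightOneSpectrum (𝓞 K))} {φ : XInf K → GAf K → ℂ}

lemma map_mul_dAt (k₁ k₂ : GL (Fin 2) (Q.adicCompletionIntegers K))
    (z pI : Q.adicCompletionIntegers K)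
    (hp : (pI : Q.adicCompletion K) = ((piLoc Q : (Q.adicCompletion K)ˣ) : Q.adicCompletion K))
    (hz : k₁ 0 1 = pI * z)
    (hk : (k₂ : Matrix (Fin 2) (Fin 2) (Q.adicCompletionIntegers K)) =
      !![k₁ 0 0, z; k₁ 1 0 * pI, k₁ 1 1]) :
    Matrix.GeneralLinearGroup.map (Q.adicCompletionIntegers K).subtype k₁ *
        upperTri (piLoc Q) 0 1 =
      upperTri (piLoc Q) 0 1 *
        Matrix.GeneralLinearGroup.map (Q.adicCompletionIntegers K).subtype k₂ := by
  refine Units.ext (Matrix.ext fun i j => ?_)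
  have e : ∀ i j, k₂ i j = !![k₁ 0 0, z; k₁ 1 0 * pI, k₁ 1 1] i j := fun i j => by rw [← hk]
  have h01 : ((k₁ 0 1 : Q.adicCompletionIntegers K) : Q.adicCompletion K) =
      ((piLoc Q : (Q.adicCompletion K)ˣ) : Q.adicCompletion K) * z := by
    rw [hz, MulMemClass.coe_mul, hp]
  fin_cases i <;> fin_cases j <;> simp [Matrix.mul_apply, Fin.sum_univ_two, upperTri, e, hp, h01]
  all_goals ring

lemma RightInv.atPlace_eq (h : RightInv P φ) (hQ : Q ∉ P)
    (k : GL (Fin 2) (Q.adicCompletionIntegers K)) (x : XInf K) (g : GAf K) :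
    φ x (g * atPlace Q (Matrix.GeneralLinearGroup.map (Q.adicCompletionIntegers K).subtype k)) =
      φ x g := by
  rw [← map_intAt]
  exact h _ (fun v hv => resGL_intAt_ne (fun (e : v = Q) => hQ (e ▸ hv)) k) x g

lemma RightInv.uni_eq (h : RightInv P φ) (hQ : Q ∉ P) {y : Q.adicCompletion K}
    (hy : Valued.v y ≤ 1) (x : XInf K) (g : GAf K) :
    φ x (g * atPlace Q (upperTri 1 y 1)) = φ x g := by
  have e : upperTri 1 y 1 = Matrix.GeneralLinearGroup.map (Q.adicCompletionIntegers K).subtype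
      (upperTri 1 (⟨y, hy⟩ : Q.adicCompletionIntegers K) 1) := by
    rw [map_upperTri, map_one]
    rfl
  rw [e]
  exact h.atPlace_eq hQ _ x g

lemma transl_mul_dAt (a : 𝓞 K) :
    transl Q a * dAt Q = dAt Q * atPlace Q (upperTri 1
      ((((piLoc Q)⁻¹ : (Q.adicCompletion K)ˣ) : Q.adicCompletion K) * loc Q (a : K)) 1) := by
  rw [transl, dAt, ← map_mul, ← map_mul, upperTri_mul, upperTri_mul]
  congr 2 <;> simp

lemma RightInv.congr_mod (h : RightInv P φ) (hQ : Q ∉ P) {a a' : 𝓞 K}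
    (e : Ideal.Quotient.mk Q.asIdeal a = Ideal.Quotient.mk Q.asIdeal a') (x : XInf K) (g : GAf K) :
    φ x (g * (transl Q a * dAt Q)) = φ x (g * (transl Q a' * dAt Q)) := by
  rw [Ideal.Quotient.eq, ← ordGe_one_iff, ordGe_iff_valued] at e
  rw [show a = a' + (a - a') by ring, transl_add', mul_assoc (transl Q a'), transl_mul_dAt,
    ← mul_assoc (transl Q a'), ← mul_assoc g]
  refine h.uni_eq hQ ?_ x _
  rw [map_mul, Units.val_inv_eq_inv_val, map_inv₀,
    show Valued.v ((piLoc Q : (Q.adicCompletion K)ˣ) : Q.adicCompletion K) = exp (-1 : ℤ) from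
      valued_uniformizer Q]
  exact (mul_le_mul' le_rfl e).trans_eq (inv_mul_cancel₀ exp_ne_zero)

/-- The translations act through the character. -/
theorem twist_transl (h : RightInv P φ) (hQ : Q ∉ P) (ψ : AddChar (𝓞 K ⧸ Q.asIdeal) ℂ) :
    IsPsiAt Q ψ (twist Q ψ φ) := by
  classical
  intro x g c
  have := Ideal.finiteQuotientOfFreeOfNeBot Q.asIdeal Q.ne_bot
  have := Fintype.ofFinite (𝓞 K ⧸ Q.asIdeal)
  set σ := Function.surjInv (Ideal.Quotient.mk_surjective (I := Q.asIdeal))
  have hσ : ∀ b, Ideal.Quotient.mk Q.asIdeal (σ b) = b := Function.surjInv_eq _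
  simp only [twist, finsum_eq_sum_of_fintype, Finset.mul_sum]
  refine Fintype.sum_equiv (Equiv.addLeft (Ideal.Quotient.mk Q.asIdeal c)) _ _ fun b => ?_
  rw [← mul_assoc (ψ _), ← AddChar.map_add_eq_mul, Equiv.coe_addLeft, mul_assoc g,
    ← mul_assoc (transl Q c), ← transl_add']
  congr 1
  · congr 1; ring
  · exact h.congr_mod hQ (by rw [map_add, hσ, hσ]) x g

/-- The level grows by `Q` only. -/
theorem twist_rightInv (h : RightInv P φ) (hQ : Q ∉ P) (ψ : AddChar (𝓞 K ⧸ Q.asIdeal) ℂ) :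
    RightInv (insert Q P) (twist Q ψ φ) := by
  intro k hk x g
  refine finsum_congr fun b => ?_
  congr 1
  set a := Function.surjInv (Ideal.Quotient.mk_surjective (I := Q.asIdeal)) b
  set kQ := compQ Q k
  have hkQ : Matrix.GeneralLinearGroup.map (resHom Q) kQ = 1 := hk Q (Set.mem_insert _ _)
  set n : GL (Fin 2) (Q.adicCompletionIntegers K) :=
    upperTri 1 (algebraMap (𝓞 K) (Q.adicCompletionIntegers K) a) 1
  set k₁ := n⁻¹ * kQ * n
  have hk₁ : Matrix.GeneralLinearGroup.map (resHom Q) k₁ = 1 := by simp [k₁, hkQ]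
  have h01 : resHom Q (k₁ 0 1) = 0 := by
    have := congrArg (fun m : GL (Fin 2) (𝓞 K ⧸ Q.asIdeal) => m 0 1) hk₁
    simpa using this
  obtain ⟨z, hz⟩ := exists_eq_pi_mul Q h01
  let pI : Q.adicCompletionIntegers K :=
    ⟨((piLoc Q : (Q.adicCompletion K)ˣ) : Q.adicCompletion K), by
      show Valued.v ((piLoc Q : (Q.adicCompletion K)ˣ) : Q.adicCompletion K) ≤ 1
      rw [show Valued.v ((piLoc Q : (Q.adicCompletion K)ˣ) : Q.adicCompletion K) = exp (-1 : ℤ) from
        valued_uniformizer Q, ← exp_zero, exp_le_exp]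
      norm_num⟩
  have hz' : k₁ 0 1 = pI * z := Subtype.ext hz
  let M : Matrix (Fin 2) (Fin 2) (Q.adicCompletionIntegers K) :=
    !![k₁ 0 0, z; k₁ 1 0 * pI, k₁ 1 1]
  have hdet : IsUnit M.det := by
    rw [show M.det = (k₁ : Matrix (Fin 2) (Fin 2) _).det by
      rw [Matrix.det_fin_two, Matrix.det_fin_two, hz']; simp [M]; ring]
    exact Matrix.isUnit_iff_isUnit_det _ |>.1 k₁.isUnit
  let k₂ : GL (Fin 2) (Q.adicCompletionIntegers K) :=
    ((Matrix.isUnit_iff_isUnit_det M).2 hdet).unit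
  have hconj : atPlace Q (Matrix.GeneralLinearGroup.map (Q.adicCompletionIntegers K).subtype kQ) *
      (transl Q a * dAt Q) = (transl Q a * dAt Q) *
      atPlace Q (Matrix.GeneralLinearGroup.map (Q.adicCompletionIntegers K).subtype k₂) := by
    have e : transl Q a = atPlace Q (Matrix.GeneralLinearGroup.map
        (Q.adicCompletionIntegers K).subtype n) := by
      rw [transl, map_upperTri, map_one]; rfl
    rw [e, dAt, ← map_mul, ← map_mul, ← map_mul]
    congr 1
    rw [show kQ = n * k₁ * n⁻¹ by simp only [k₁]; group, map_mul, map_mul, map_inv]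
    simp only [mul_assoc, inv_mul_cancel_left]
    congr 1
    exact map_mul_dAt k₁ k₂ z pI rfl hz' rfl
  conv_lhs => rw [← offAt_mul Q k, map_mul, map_intAt]
  rw [mul_assoc g, mul_assoc (Matrix.GeneralLinearGroup.map intToAdele (offAt Q k)), hconj,
    ← mul_assoc (Matrix.GeneralLinearGroup.map intToAdele (offAt Q k))]
  have hoff : Matrix.GeneralLinearGroup.map intToAdele (offAt Q k) * (transl Q a * dAt Q) =
      (transl Q a * dAt Q) * Matrix.GeneralLinearGroup.map intToAdele (offAt Q k) := by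
    rw [transl, dAt, ← map_mul, atPlace_comm_off]
  rw [hoff, ← mul_assoc, ← mul_assoc, h.atPlace_eq hQ]
  refine h _ (fun v hv => ?_) x _
  rw [resGL_offAt _ (fun (e : v = Q) => hQ (e ▸ hv))]
  exact hk v (Set.mem_insert_of_mem _ hv)

/-- The congruence subgroup inside the level. -/
theorem RightInv.level (h : RightInv P φ) {𝔫 : Ideal (𝓞 K)} (h𝔫 : ∀ v ∈ P, 𝔫 ≤ v.asIdeal) :
    ∀ k ∈ congrSubgroup 𝔫, ∀ x g, φ x (g * k) = φ x g := by
  intro k hk x g
  obtain ⟨k', rfl, hk'⟩ := exists_int_of_congr hk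
  exact h k' (fun v hv => hk' v (h𝔫 v hv)) x g

theorem twist_isCuspFn {𝔫 : Ideal (𝓞 K)} (hφ : IsCuspFn 𝔫 φ) (ψ : AddChar (𝓞 K ⧸ Q.asIdeal) ℂ)
    (hlev : ∀ k ∈ congrSubgroup 𝔫, ∀ x g, twist Q ψ φ x (g * k) = twist Q ψ φ x g) :
    IsCuspFn 𝔫 (twist Q ψ φ) := by
  classical
  have := Ideal.finiteQuotientOfFreeOfNeBot Q.asIdeal Q.ne_bot
  have := Fintype.ofFinite (𝓞 K ⧸ Q.asIdeal)
  obtain ⟨C, hC⟩ := hφ.bounded
  obtain ⟨W, hW⟩ := hφ.expansion
  set X : 𝓞 K ⧸ Q.asIdeal → GAf K := fun b =>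
    transl Q (Function.surjInv (Ideal.Quotient.mk_surjective (I := Q.asIdeal)) b) * dAt Q
  have e : ∀ x g, twist Q ψ φ x g = ∑ b, ψ (-b) * φ x (g * X b) := fun x g =>
    finsum_eq_sum_of_fintype _
  refine ⟨fun γ x g => ?_, fun a x g => ?_, hlev, fun g => ?_, ?_, fun w x g => ?_, ?_⟩
  · simp only [e, mul_assoc (rationalMat γ), hφ.rational]
  · simp only [e]
    refine Finset.sum_congr rfl fun b _ => ?_
    rw [mul_assoc g, show upperTri a 0 a * X b = X b * upperTri a 0 a by
      rw [← scalar_eq_upperTri, Matrix.GeneralLinearGroup.scalar_commute], ← mul_assoc, hφ.central]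
  · simp only [e]
    exact continuous_finsetSum _ fun b _ => continuous_const.mul (hφ.continuous _)
  · refine ⟨∑ b, ‖ψ (-b)‖ * C, fun x g => ?_⟩
    rw [e]
    refine (norm_sum_le _ _).trans (Finset.sum_le_sum fun b _ => ?_)
    rw [norm_mul]
    exact mul_le_mul_of_nonneg_left (hC _ _) (norm_nonneg _)
  · simp only [e]
    refine H3.IsSph0.sum Finset.univ (fun b _ => continuous_const.mul
      ((hφ.continuous _).comp (continuous_const.update w continuous_id)))
      (fun b _ => ⟨‖ψ (-b)‖ * C, fun P => ?_⟩) fun b _ => (hφ.sph0 w x _).const_mul _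
    rw [norm_mul]
    exact mul_le_mul_of_nonneg_left (hC _ _) (norm_nonneg _)
  · refine ⟨fun g => ∑ b, ψ (-b) * W (g * X b), fun x g => ?_⟩
    rw [e]
    refine (hasSum_sum (s := Finset.univ) fun b _ =>
      (hW x (g * X b)).mul_left (ψ (-b))).congr_fun fun ν => ?_
    rw [Finset.sum_mul]
    exact Finset.sum_congr rfl fun b _ => by rw [mul_assoc (rationalMat _), mul_assoc]

/-- Eigenfunctions at another place stay eigenfunctions. -/
theorem twist_isEigenAt {v : HeightOneSpectrum (𝓞 K)} (hv : v ≠ Q)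
    (ψ : AddChar (𝓞 K ⧸ Q.asIdeal) ℂ) {l : ℂ} (h : IsEigenAt v φ l) :
    IsEigenAt v (twist Q ψ φ) l := by
  classical
  intro x g
  have := Ideal.finiteQuotientOfFreeOfNeBot Q.asIdeal Q.ne_bot
  have := Fintype.ofFinite (𝓞 K ⧸ Q.asIdeal)
  have := Ideal.finiteQuotientOfFreeOfNeBot v.asIdeal v.ne_bot
  have := Fintype.ofFinite (𝓞 K ⧸ v.asIdeal)
  have hc : ∀ (M : GL (Fin 2) (v.adicCompletion K)) (a : 𝓞 K),
      g * atPlace v M * (transl Q a * dAt Q) = g * (transl Q a * dAt Q) * atPlace v M := by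
    intro M a
    rw [mul_assoc, comm_twistMat Q hv, ← mul_assoc]
  simp only [heckeT, twist, finsum_eq_sum_of_fintype, hc]
  rw [Finset.sum_comm, ← Finset.sum_add_distrib, Finset.mul_sum]
  refine Finset.sum_congr rfl fun b _ => ?_
  have h1 := h x (g * (transl Q (Function.surjInv (Ideal.Quotient.mk_surjective (I := Q.asIdeal)) b)
    * dAt Q))
  rw [heckeT, finsum_eq_sum_of_fintype] at h1
  rw [← Finset.mul_sum, ← mul_add, h1]
  ring

/-- Characters at another place are kept. -/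
theorem twist_isPsiAt {v : HeightOneSpectrum (𝓞 K)} (hv : v ≠ Q)
    (ψ : AddChar (𝓞 K ⧸ Q.asIdeal) ℂ) {χ : AddChar (𝓞 K ⧸ v.asIdeal) ℂ} (h : IsPsiAt v χ φ) :
    IsPsiAt v χ (twist Q ψ φ) := by
  classical
  intro x g c
  have := Ideal.finiteQuotientOfFreeOfNeBot Q.asIdeal Q.ne_bot
  have := Fintype.ofFinite (𝓞 K ⧸ Q.asIdeal)
  simp only [twist, finsum_eq_sum_of_fintype, Finset.mul_sum]
  refine Finset.sum_congr rfl fun b _ => ?_
  set X := transl Q (Function.surjInv (Ideal.Quotient.mk_surjective (I := Q.asIdeal)) b) * dAt Q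
  rw [show g * transl v c * X = g * X * transl v c by
    rw [mul_assoc, transl, comm_twistMat Q hv, ← mul_assoc], h]
  ring

/-- Cuspidality at another place is kept. -/
theorem twist_isCuspidalAt {v : HeightOneSpectrum (𝓞 K)} (hv : v ≠ Q)
    (ψ : AddChar (𝓞 K ⧸ Q.asIdeal) ℂ) (h : IsCuspidalAt v φ) :
    IsCuspidalAt v (twist Q ψ φ) := by
  classical
  intro x g k
  have := Ideal.finiteQuotientOfFreeOfNeBot Q.asIdeal Q.ne_bot
  have := Fintype.ofFinite (𝓞 K ⧸ Q.asIdeal)
  have := Ideal.finiteQuotientOfFreeOfNeBot v.asIdeal v.ne_bot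
  have := Fintype.ofFinite (𝓞 K ⧸ v.asIdeal)
  simp only [twist, finsum_eq_sum_of_fintype]
  rw [Finset.sum_comm]
  refine Finset.sum_eq_zero fun b _ => ?_
  rw [← Finset.mul_sum]
  set X := transl Q (Function.surjInv (Ideal.Quotient.mk_surjective (I := Q.asIdeal)) b) * dAt Q
  have h1 := h x (g * X) k
  rw [finsum_eq_sum_of_fintype] at h1
  refine mul_eq_zero_of_right _ (Eq.trans (Finset.sum_congr rfl fun c _ => ?_) h1)
  exact congrArg (φ x) (comm_twistMat₂ Q hv g _ _ _)

end props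

end FermatAgent.LT.Dihedral
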