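import Fermat.Agent.LT.Base.Series
import Fermat.Agent.LT.Dihedral.Majorant
import Fermat.Agent.LT.Dihedral.Twist

/-!
# The character installing operator does not kill a cusp function
-/

set_option autoImplicit false
set_option maxHeartbeats 400000

noncomputable section

open NumberField IsDedekindDomain WithZero

namespace FermatAgent.LT.Dihedral

variable {K : Type*} [Field K] [NumberField K] {Q : HeightOneSpectrum (𝓞 K)}
  {P : Set (HeightOneSpectrum (𝓞 K))} {φ : XInf K → GAf K → ℂ}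

lemma valued_piLoc_inv :
    Valued.v (((piLoc Q)⁻¹ : (Q.adicCompletion K)ˣ) : Q.adicCompletion K) = exp (1 : ℤ) := by
  rw [Units.val_inv_eq_inv_val, map_inv₀,
    show Valued.v ((piLoc Q : (Q.adicCompletion K)ˣ) : Q.adicCompletion K) = exp (-1 : ℤ) from
      valued_uniformizer Q, ← exp_neg, neg_neg]

lemma diag_eq_unipotents {R : Type*} [CommRing R] (p : Rˣ) :
    (upperTri p⁻¹ 0 p : GL (Fin 2) R) =
      upperTri 1 ((p⁻¹ : Rˣ) : R) 1 * lowerUni (-(p : R)) * upperTri 1 ((p⁻¹ : Rˣ) : R) 1 *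
        (upperTri 1 (-1) 1 * lowerUni 1 * upperTri 1 (-1) 1) := by
  refine Units.ext (Matrix.ext fun i j => ?_)
  fin_cases i <;> fin_cases j <;> simp [upperTri, lowerUni, Matrix.mul_apply, Fin.sum_univ_two]

lemma RightInv.lower_eq (h : RightInv P φ) (hQ : Q ∉ P) {y : Q.adicCompletion K}
    (hy : Valued.v y ≤ 1) (x : XInf K) (g : GAf K) :
    φ x (g * atPlace Q (lowerUni y)) = φ x g := by
  have e : lowerUni y = Matrix.GeneralLinearGroup.map (Q.adicCompletionIntegers K).subtype
      (lowerUni (⟨y, hy⟩ : Q.adicCompletionIntegers K)) := by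
    refine Units.ext (Matrix.ext fun i j => ?_)
    fin_cases i <;> fin_cases j <;> simp [lowerUni, Matrix.GeneralLinearGroup.map_apply]
  rw [e]
  exact h.atPlace_eq hQ _ x g

/-- Invariance under the translations by `ϖ⁻¹` gives invariance under all translations at `Q`. -/
lemma all_uni_eq (h : RightInv P φ) (hQ : Q ∉ P)
    (hbase : ∀ (a : 𝓞 K) x g, φ x (g * atPlace Q (upperTri 1
      ((((piLoc Q)⁻¹ : (Q.adicCompletion K)ˣ) : Q.adicCompletion K) * loc Q (a : K)) 1)) = φ x g)
    (y : Q.adicCompletion K) (x : XInf K) (g : GAf K) :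
    φ x (g * atPlace Q (upperTri 1 y 1)) = φ x g := by
  set p := piLoc Q
  let H : GL (Fin 2) (Q.adicCompletion K) → Prop := fun m => ∀ x g, φ x (g * atPlace Q m) = φ x g
  have hmul : ∀ {m m'}, H m → H m' → H (m * m') := fun hm hm' x g => by
    rw [map_mul, ← mul_assoc, hm', hm]
  have hinv : ∀ {m}, H m → H m⁻¹ := fun {m} hm x g => by
    conv_rhs => rw [← inv_mul_cancel_right g (atPlace Q m), hm, ← map_inv]
  have hone : ∀ y, Valued.v y ≤ exp (1 : ℤ) → H (upperTri 1 y 1) := by
    intro y hy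
    have hint : Valued.v ((p : Q.adicCompletion K) * y) ≤ 1 := by
      rw [map_mul, show Valued.v (p : Q.adicCompletion K) = exp (-1 : ℤ) from valued_uniformizer Q]
      refine (mul_le_mul' le_rfl hy).trans_eq ?_
      rw [← exp_add, neg_add_cancel, exp_zero]
    obtain ⟨a, ha, -⟩ := exists_resV Q ⟨(p : Q.adicCompletion K) * y, hint⟩
    have e : upperTri 1 y 1 = upperTri 1 (y - ((p⁻¹ : (Q.adicCompletion K)ˣ) :
        Q.adicCompletion K) * loc Q (a : K)) 1 *
        upperTri 1 (((p⁻¹ : (Q.adicCompletion K)ˣ) : Q.adicCompletion K) * loc Q (a : K)) 1 := by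
      rw [upperTri_mul]; simp
    rw [e]
    refine hmul (fun x g => h.uni_eq hQ ?_ x g) fun x g => hbase a x g
    rw [show y - ((p⁻¹ : (Q.adicCompletion K)ˣ) : Q.adicCompletion K) * loc Q (a : K) =
      ((p⁻¹ : (Q.adicCompletion K)ˣ) : Q.adicCompletion K) *
        ((p : Q.adicCompletion K) * y - loc Q (a : K)) by
      rw [mul_sub, ← mul_assoc, Units.inv_mul, one_mul], map_mul, valued_piLoc_inv]
    refine (mul_le_mul' le_rfl ha).trans_eq ?_
    rw [← exp_add, add_neg_cancel, exp_zero]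
  have hd : H (upperTri p⁻¹ 0 p) := by
    rw [diag_eq_unipotents]
    have h1 := hone _ (valued_piLoc_inv (Q := Q)).le
    have h2 : H (lowerUni (-(p : Q.adicCompletion K))) := fun x g => h.lower_eq hQ (by
      rw [Valuation.map_neg,
        show Valued.v (p : Q.adicCompletion K) = exp (-1 : ℤ) from valued_uniformizer Q,
        ← exp_zero, exp_le_exp]
      norm_num) x g
    have h3 : H (upperTri 1 (-1) 1) := fun x g => h.uni_eq hQ (by rw [Valuation.map_neg, map_one]) x g
    have h4 : H (lowerUni 1) := fun x g => h.lower_eq hQ (by rw [map_one]) x g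
    exact hmul (hmul (hmul h1 h2) h1) (hmul (hmul h3 h4) h3)
  have key : ∀ (k : ℕ) y, Valued.v y ≤ exp (1 + 2 * k : ℤ) → H (upperTri 1 y 1) := by
    intro k
    induction k with
    | zero => intro y hy; exact hone y (by simpa using hy)
    | succ k ih =>
      intro y hy
      have e : upperTri 1 y 1 = upperTri p⁻¹ 0 p *
          upperTri 1 ((p : Q.adicCompletion K) * p * y) 1 * (upperTri p⁻¹ 0 p)⁻¹ := by
        rw [upperTri_inv, inv_inv, upperTri_mul, upperTri_mul]
        congr 1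
        · simp
        · simp only [mul_zero, zero_mul, neg_zero, mul_one, add_zero, zero_add,
            Units.val_one]
          rw [mul_comm (p : Q.adicCompletion K) (p : Q.adicCompletion K), ← mul_assoc, ← mul_assoc,
            Units.inv_mul, one_mul, mul_comm (p : Q.adicCompletion K) y, mul_assoc, Units.mul_inv,
            mul_one]
        · simp
      rw [e]
      refine hmul (hmul hd (ih _ ?_)) (hinv hd)
      rw [map_mul, map_mul,
        show Valued.v (p : Q.adicCompletion K) = exp (-1 : ℤ) from valued_uniformizer Q]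
      refine (mul_le_mul' le_rfl hy).trans_eq ?_
      rw [← exp_add, ← exp_add]
      congr 1
      push_cast
      ring
  rcases eq_or_ne (Valued.v y) 0 with h0 | h0
  · exact key 0 y (by rw [h0]; exact zero_le) x g
  · refine key (log (Valued.v y)).toNat y ?_ x g
    refine (exp_log h0).ge.trans (exp_le_exp.2 ?_)
    have := Int.self_le_toNat (log (Valued.v y))
    omega

variable [IsTotallyComplex K]

omit [IsTotallyComplex K] in
lemma exists_principal_power (Q : HeightOneSpectrum (𝓞 K)) : ∃ (h : ℕ) (r : K), h ≠ 0 ∧ r ≠ 0 ∧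
    dvElt r = h • Finsupp.single Q 1 := by
  set h := Fintype.card (ClassGroup (𝓞 K))
  have hh : h ≠ 0 := Fintype.card_ne_zero
  have hI : Q.asIdeal ^ h ≠ ⊥ := pow_ne_zero _ Q.ne_bot
  obtain ⟨x, hx⟩ : (Q.asIdeal ^ h).IsPrincipal := by
    rw [← ClassGroup.mk0_eq_one_iff (mem_nonZeroDivisors_of_ne_zero hI)]
    have e : (⟨Q.asIdeal ^ h, mem_nonZeroDivisors_of_ne_zero hI⟩ :
        nonZeroDivisors (Ideal (𝓞 K))) =
        ⟨Q.asIdeal, mem_nonZeroDivisors_of_ne_zero Q.ne_bot⟩ ^ h := rfl
    rw [e, map_pow, pow_card_eq_one]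
  have hx' : Q.asIdeal ^ h = Ideal.span {x} := hx
  have hx0 : x ≠ 0 := fun h0 => hI (by rw [hx', h0]; simp)
  refine ⟨h, x, hh, by simpa using hx0, ?_⟩
  rw [← idealDv_span, ← hx', ← idealDv_prime]
  clear hx hx' hI hh
  induction h with
  | zero => simp [idealDv_top]
  | succ n ih => rw [pow_succ, idealDv_mul (pow_ne_zero _ Q.ne_bot) Q.ne_bot, ih, succ_nsmul]

/-- An expansion invariant under translations with unbounded denominators at `Q` vanishes. -/
lemma eq_zero_of_translations {f : XInf K → ℂ} {a : Kˣ → ℂ}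
    (hf : ∀ x, HasSum (fun ν : Kˣ => a ν * waveProd (ν : K) x) (f x))
    {e : HeightOneSpectrum (𝓞 K) → ℕ} (he : ∀ᶠ v in Filter.cofinite, e v = 0)
    (hinv : ∀ β : K, (∀ v, v ≠ Q → Valued.v (loc v β) ≤ exp (-(e v : ℤ))) →
      ∀ x, f (hshift x (embVec β)) = f x) (x : XInf K) : f x = 0 := by
  classical
  have hfin : (Function.support fun v => (e v : ℤ)).Finite :=
    (Filter.eventually_cofinite.1 he).subset fun v hv => by simpa using hv
  obtain ⟨N, hN, hNe⟩ := exists_nat_ge (Finsupp.ofSupportFinite _ hfin)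
  obtain ⟨h, r, hh, hr, hdr⟩ := exists_principal_power Q
  set N' : K := ((N : 𝓞 K) : K)
  have hN' : N' ≠ 0 := by simp [N', hN]
  suffices ∀ ν, a ν = 0 from (hf x).unique (by simp [this])
  intro ν
  by_contra hν
  set k := (dvElt ((ν : K) * N') Q + diffDv K Q + 1).toNat
  have hrk : (r ^ k)⁻¹ ≠ 0 := inv_ne_zero (pow_ne_zero _ hr)
  have hdual : (ν : K) * N' * (r ^ k)⁻¹ ∈
      (fid (-(0 : Dv K) - diffDv K) : FractionalIdeal (nonZeroDivisors (𝓞 K)) K) := by
    refine mem_fid_dual.2 fun z hz => ?_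
    obtain ⟨o, rfl⟩ := exists_int_of_nonneg (mem_fid.1 hz)
    rw [show (ν : K) * N' * (r ^ k)⁻¹ * (o : K) = (ν : K) * (N' * (o : K) * (r ^ k)⁻¹) by ring]
    refine int_trace_of_expansion hf (hinv _ fun v hv => ordGe_iff_valued.1 ?_) ν hν
    rcases eq_or_ne (o : K) 0 with h0 | h0
    · exact Or.inl (by rw [h0]; simp)
    refine Or.inr ?_
    rw [dvElt_mul (mul_ne_zero hN' h0) hrk, dvElt_mul hN' h0, dvElt_inv (pow_ne_zero _ hr),
      dvElt_pow hr, hdr, Finsupp.add_apply, Finsupp.add_apply, Finsupp.neg_apply,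
      Finsupp.smul_apply, Finsupp.smul_apply, Finsupp.single_eq_of_ne hv]
    have h1 : (e v : ℤ) ≤ dvElt N' v := hNe v
    have h2 := dvElt_coe_nonneg o v
    rw [Finsupp.zero_apply] at h2
    simp only [smul_zero, neg_zero, add_zero]
    omega
  have hne : (ν : K) * N' * (r ^ k)⁻¹ ≠ 0 := mul_ne_zero (mul_ne_zero ν.ne_zero hN') hrk
  have hQ := (mem_fid.1 hdual).resolve_left hne Q
  rw [dvElt_mul (mul_ne_zero ν.ne_zero hN') hrk, dvElt_inv (pow_ne_zero _ hr), dvElt_pow hr, hdr,
    Finsupp.add_apply, Finsupp.neg_apply, Finsupp.smul_apply, Finsupp.smul_apply,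
    Finsupp.single_eq_same] at hQ
  simp only [neg_zero, zero_sub, Finsupp.neg_apply, nsmul_eq_mul, mul_one] at hQ
  have h1 := Int.self_le_toNat (dvElt ((ν : K) * N') Q + diffDv K Q + 1)
  have h2 : (k : ℤ) ≤ k * h := le_mul_of_one_le_right (Int.natCast_nonneg _) (by omega)
  omega

/-- **Nonvanishing of the twist.** -/
theorem twist_ne_zero {𝔫 : Ideal (𝓞 K)} (h𝔫 : 𝔫 ≠ ⊥) (hφ : IsCuspFn 𝔫 φ) (h : RightInv P φ)
    (hQ : Q ∉ P) {ψ : AddChar (𝓞 K ⧸ Q.asIdeal) ℂ} (hψ : ψ ≠ 1) (hne : φ ≠ 0) :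
    twist Q ψ φ ≠ 0 := by
  classical
  intro htw
  let := Ideal.Quotient.field Q.asIdeal
  have := Ideal.finiteQuotientOfFreeOfNeBot Q.asIdeal Q.ne_bot
  have := Fintype.ofFinite (𝓞 K ⧸ Q.asIdeal)
  set σ := Function.surjInv (Ideal.Quotient.mk_surjective (I := Q.asIdeal))
  have hσ : ∀ b, Ideal.Quotient.mk Q.asIdeal (σ b) = b := Function.surjInv_eq _
  -- all the twists by nontrivial characters vanish
  have hshift' : ∀ c : 𝓞 K ⧸ Q.asIdeal, c ≠ 0 → ∀ x g,
      ∑ b, ψ (-(c * b)) * φ x (g * (transl Q (σ b) * dAt Q)) = 0 := by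
    intro c hc x g
    have hc' : IsUnit (algebraMap (𝓞 K) (Q.adicCompletionIntegers K) (σ c⁻¹)) := by
      rw [HeightOneSpectrum.adicCompletionIntegers.isUnit_iff_valued_eq_one]
      show Valued.v (loc Q ((σ c⁻¹ : 𝓞 K) : K)) = 1
      rw [valued_loc, HeightOneSpectrum.valuation_of_algebraMap,
        HeightOneSpectrum.intValuation_eq_one_iff, ← Ideal.Quotient.eq_zero_iff_mem, hσ]
      exact inv_ne_zero hc
    set uI : (Q.adicCompletionIntegers K)ˣ := hc'.unit
    set u : (Q.adicCompletion K)ˣ := Units.map (Q.adicCompletionIntegers K).subtype.toMonoidHom uI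
    have hu : Matrix.GeneralLinearGroup.map (Q.adicCompletionIntegers K).subtype (upperTri uI 0 1) =
        upperTri u 0 1 := by rw [map_upperTri, map_one, map_zero]
    have hmove : ∀ a : 𝓞 K, atPlace Q (upperTri u 0 1) * (transl Q a * dAt Q) =
        transl Q (σ c⁻¹ * a) * dAt Q * atPlace Q (upperTri u 0 1) := by
      intro a
      simp only [transl, dAt, ← map_mul, upperTri_mul]
      congr 2
      · exact mul_comm _ _
      · have e : (u : Q.adicCompletion K) = algebraMap K (Q.adicCompletion K) ((σ c⁻¹ : 𝓞 K) : K) :=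
          rfl
        simp [e]
      · simp
    have h0 := congrFun (congrFun htw x) (g * atPlace Q (upperTri u 0 1))
    rw [twist, finsum_eq_sum_of_fintype, Pi.zero_apply, Pi.zero_apply] at h0
    rw [← h0]
    refine (Fintype.sum_equiv (Equiv.mulLeft₀ c⁻¹ (inv_ne_zero hc)) _ _ fun b => ?_).symm
    rw [Equiv.mulLeft₀_apply, mul_inv_cancel_left₀ hc, mul_assoc g, hmove, ← mul_assoc g]
    congr 1
    rw [← hu, h.atPlace_eq hQ]
    exact h.congr_mod hQ (by rw [map_mul, hσ, hσ, hσ]) x g
  -- so the translates do not depend on the class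
  have hconst : ∀ x g (b₀ : 𝓞 K ⧸ Q.asIdeal),
      (Fintype.card (𝓞 K ⧸ Q.asIdeal) : ℂ) * φ x (g * (transl Q (σ b₀) * dAt Q)) =
        ∑ b, φ x (g * (transl Q (σ b) * dAt Q)) := by
    intro x g b₀
    set f := fun b => φ x (g * (transl Q (σ b) * dAt Q))
    have hprim := AddChar.IsPrimitive.of_ne_one hψ
    have h1 : ∑ c, ∑ b, ψ (c * (b₀ - b)) * f b =
        (Fintype.card (𝓞 K ⧸ Q.asIdeal) : ℂ) * f b₀ := by
      rw [Finset.sum_comm]
      simp only [← Finset.sum_mul]
      rw [Finset.sum_eq_single b₀ (fun b _ hb => by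
        rw [AddChar.sum_mulShift _ hprim, if_neg (sub_ne_zero.2 (Ne.symm hb))]
        simp) (fun hb => absurd (Finset.mem_univ _) hb)]
      rw [AddChar.sum_mulShift _ hprim, if_pos (sub_self b₀)]
    have h2 : ∑ c, ∑ b, ψ (c * (b₀ - b)) * f b = ∑ b, f b := by
      rw [Finset.sum_eq_single (0 : 𝓞 K ⧸ Q.asIdeal) (fun c _ hc => ?_)
        (fun hb => absurd (Finset.mem_univ _) hb)]
      · simp
      · rw [← mul_zero (ψ (c * b₀)), ← hshift' c hc x g, Finset.mul_sum]
        refine Finset.sum_congr rfl fun b _ => ?_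
        rw [← mul_assoc, ← AddChar.map_add_eq_mul]
        congr 2
        ring
    exact h1.symm.trans h2
  have hbase : ∀ (a : 𝓞 K) x g, φ x (g * atPlace Q (upperTri 1
      ((((piLoc Q)⁻¹ : (Q.adicCompletion K)ˣ) : Q.adicCompletion K) * loc Q (a : K)) 1)) =
      φ x g := by
    intro a x g
    have h1 := hconst x (g * (dAt Q)⁻¹) (Ideal.Quotient.mk _ a)
    rw [← hconst x (g * (dAt Q)⁻¹) (Ideal.Quotient.mk _ 0)] at h1
    have h2 := mul_left_cancel₀ (Nat.cast_ne_zero.2 Fintype.card_ne_zero) h1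
    rw [h.congr_mod hQ (hσ _), h.congr_mod hQ (hσ _), transl_mul_dAt a, transl_mul_dAt 0] at h2
    simpa [← mul_assoc, upperTri_one] using h2
  -- vanishing where the component at `Q` is upper triangular
  obtain ⟨W, hW⟩ := hφ.expansion
  have hup : ∀ (a d : (Adf K)ˣ) (b : Adf K) (k : GL (Fin 2) (IntAd K)) (x : XInf K),
      φ x (upperTri a b d * Matrix.GeneralLinearGroup.map intToAdele (offAt Q k)) = 0 := by
    intro a d b k x
    set g₀ := upperTri a b d * Matrix.GeneralLinearGroup.map intToAdele (offAt Q k) with hg₀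
    obtain ⟨e, he, he0⟩ := exists_levelExp h𝔫
    obtain ⟨e', he', hconj⟩ := IsNearOne.exists_conj g₀⁻¹ e he0
    refine eq_zero_of_translations (Q := Q) (fun y => hW y g₀) he' (fun β hβ y => ?_) x
    set β' : Q.adicCompletion K := ((a⁻¹ : (Adf K)ˣ) : Adf K) Q * (loc Q β * (d : Adf K) Q)
    set N := upperTri (1 : (Adf K)ˣ) (algebraMap K (Adf K) β - updAt Q (loc Q β) 0) 1
    have hN : IsNearOne e' N := isNearOne_upperUni fun v => by
      rw [adele_sub_apply, adele_algebraMap_apply]
      rcases eq_or_ne v Q with rfl | hv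
      · rw [updAt_self, sub_self, map_zero]; exact zero_le
      · rw [updAt_of_ne _ _ _ hv, Nat.cast_zero, sub_zero]; exact hβ v hv
    have hU : atPlace Q (upperTri 1 (loc Q β) 1) * upperTri a b d =
        upperTri a b d * atPlace Q (upperTri 1 β' 1) := by
      rw [atPlace_upperTri, atPlace_upperTri, ideleAt_one, upperTri_mul, upperTri_mul, one_mul,
        mul_one, one_mul, mul_one, Units.val_one, one_mul, mul_one, add_comm (_ * _) b]
      congr 2
      refine FiniteAdeleRing.ext _ fun v => ?_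
      rw [adele_mul_apply, adele_mul_apply]
      rcases eq_or_ne v Q with rfl | hv
      · rw [updAt_self, updAt_self]
        have h1 : (a : Adf K) v * ((a⁻¹ : (Adf K)ˣ) : Adf K) v = 1 := by
          rw [← adele_mul_apply, Units.mul_inv]; rfl
        simp only [β', ← mul_assoc, h1, one_mul]
      · simp [updAt_of_ne _ _ _ hv]
    have hg : rationalMat (upperTri 1 β 1) * g₀ =
        g₀ * atPlace Q (upperTri 1 β' 1) * (g₀⁻¹ * N * g₀⁻¹⁻¹) := by
      have h1 : rationalMat (upperTri 1 β 1) = atPlace Q (upperTri 1 (loc Q β) 1) * N := by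
        rw [rationalMat_upperTri, atPlace_upperTri, ideleAt_one, upperTri_mul]
        simp only [map_one, Units.val_one, one_mul, mul_one, sub_add_cancel]
      have h2 : atPlace Q (upperTri 1 (loc Q β) 1) * g₀ = g₀ * atPlace Q (upperTri 1 β' 1) := by
        rw [hg₀, ← mul_assoc, hU, mul_assoc, atPlace_comm_off, ← mul_assoc]
      rw [← h2, h1, inv_inv]
      group
    have hper := hφ.rational (upperTri 1 β 1) y g₀
    rw [hg, hφ.level _ ((hconj N hN).mem_congrSubgroup he), all_uni_eq h hQ hbase,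
      infAct_upperUni_hshift] at hper
    exact hper
  refine hne (funext fun x => funext fun g => ?_)
  obtain ⟨a, d, b, k, rfl⟩ := exists_iwasawa g
  conv_lhs => rw [← offAt_mul Q k, map_mul, map_intAt, ← mul_assoc, h.atPlace_eq hQ]
  exact hup a d b k x

end FermatAgent.LT.Dihedral
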