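import Fermat.Agent.LT.Dihedral.Analytic
import Fermat.Agent.LT.Dihedral.Hecke
import Fermat.Agent.LT.Dihedral.TwistNe

/-!
# The dihedral forms with prescribed characters at finitely many places
-/

set_option autoImplicit false
set_option maxHeartbeats 400000

noncomputable section

open NumberField IsDedekindDomain

namespace FermatAgent.LT.Dihedral.DihedralData

open QuadData

variable {F : Type} [Field F] [NumberField F] {D : DihedralData F} {cv : ∀ i, D.kT i}

theorem G0_rightInv : RightInv {v | D.InT v} (D.G0 cv) := by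
  intro k hk x g
  set d := (D.exists_dec g).some
  rw [G0_mul_int d, G0_eq d, show D.resT3 k = 1 from funext fun i => hk _ ⟨i, rfl⟩, mul_one]
  rfl

lemma VT_one (x : ∀ i, D.kT i) :
    D.VT cv 1 x = open Classical in if x = cv then 1 else 0 := by
  classical
  rw [VT]
  split_ifs with h
  · refine Finset.prod_eq_one fun i _ => ?_
    simp [h, tau]
  · obtain ⟨i, hi⟩ := Function.ne_iff.1 h
    exact Finset.prod_eq_zero (Finset.mem_univ i) (by simp [hi])

theorem G0_ne_zero (hcv : ∀ i, cv i ≠ 0) : D.G0 cv ≠ 0 := by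
  classical
  intro h0
  obtain ⟨z, hz⟩ := Ideal.pi_quotient_surjective (I := fun i => (D.w i).asIdeal)
    (fun i j hij => Ideal.isCoprime_iff_sup_eq.2 ((D.w i).isMaximal.coprime_of_ne (D.w j).isMaximal
      fun e => hij (D.w_injective (HeightOneSpectrum.ext e)))) cv
  have hz0 : z ≠ 0 := fun e => hcv 0 (by rw [← hz 0, e, map_zero])
  have hzT : ∀ i, dvElt (z : F) (D.w i) = 0 := fun i => by
    have h1 : z ∉ (D.w i).asIdeal := fun hmem => hcv i (by
      rw [← hz i, Ideal.Quotient.eq_zero_iff_mem.2 hmem])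
    rw [mem_prime_iff _ hz0] at h1
    have := dvElt_coe_nonneg z (D.w i)
    rw [Finsupp.zero_apply] at this
    omega
  obtain ⟨a, ha, haT⟩ := exists_idele_exact (-dvElt (z : F) - D.dD)
  have haT' : ∀ i, (a : Adf F) (D.w i) = 1 := fun i => haT _ (by simp [hzT i, D.dD_w i])
  set A : Dv F := adDv a
  set ν₀ : Fˣ := Units.mk0 (z : F) (by simpa using hz0)
  have hfreq : D.freqDv A ν₀ = 0 := by
    simp only [freqDv, ν₀, Units.val_mk0, ha]
    abel
  set V := D.VT cv (D.resT3 1)
  set κ : Fˣ := Units.mk0 ((-3 : F)⁻¹) (inv_ne_zero (by norm_num))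
  set c : Fˣ → ℂ := fun μ => D.coefR (D.freqDv A (μ * κ⁻¹ : Fˣ)) *
    (((Real.sqrt (ndeg (D.freqDv A (μ * κ⁻¹ : Fˣ))))⁻¹ : ℝ) : ℂ) *
      V (D.resT ((μ * κ⁻¹ : Fˣ) : F))
  have hsum : ∀ y, HasSum (fun μ : Fˣ => c μ * waveProd (μ : F) y) 0 := fun y => by
    have h1 := congrFun (congrFun h0 y) (goodMat 0 a 1 1)
    rw [G0_goodMat haT', Pi.zero_apply, Pi.zero_apply] at h1
    rw [← h1, ← (Equiv.mulRight κ).hasSum_iff]
    refine (hasSum_theta (tfree_adDv haT') _ 0 y).congr_fun fun ν => ?_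
    simp only [Function.comp_apply, Equiv.coe_mulRight, c, mul_inv_cancel_right, term, zero_mul,
      neg_zero, ph_zero, mul_one]
    rfl
  have hzero := expansion_unique hsum (a' := fun _ => 0) (fun y => by simp [hasSum_zero]) (ν₀ * κ)
  simp only [c, mul_inv_cancel_right, hfreq, coefR_zero, ndeg_zero, Real.sqrt_one, inv_one,
    Complex.ofReal_one, one_mul] at hzero
  have hres : D.resT (ν₀ : F) = cv := funext fun i => (rmod_int _ z).trans (hz i)
  rw [hres] at hzero
  simp only [V, map_one, VT_one, if_pos] at hzero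
  exact one_ne_zero hzero

/-- The forms with prescribed characters at the places over `3` and at the places of `bad`. -/
theorem exists_form (D : DihedralData F) {R : Ideal (𝓞 F)} (hR0 : R ≠ ⊥)
    (ψ : ∀ v : HeightOneSpectrum (𝓞 F), AddChar (𝓞 F ⧸ v.asIdeal) ℂ)
    (bad : Finset (HeightOneSpectrum (𝓞 F))) :
    (∀ v ∈ bad, ¬ D.InT v) → (∀ v, D.InT v ∨ v ∈ bad → R ≤ v.asIdeal ∧ ψ v ≠ 1) →
      ∃ φ : XInf F → GAf F → ℂ, φ ≠ 0 ∧ IsCuspFn R φ ∧
        RightInv ({v | D.InT v} ∪ ↑bad) φ ∧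
        (∀ v, D.InT v ∨ v ∈ bad → IsPsiAt v (ψ v) φ) ∧
        (∀ i, IsCuspidalAt (D.w i) φ) ∧
        ∀ v, ¬ D.InT v → v ∉ bad → IsEigenAt v φ (D.coeff v.asIdeal) := by
  classical
  have := D.isTotallyComplex
  induction bad using Finset.induction with
  | empty =>
    intro _ hR
    have hshift : ∀ i, ∃ c : D.kT i, c ≠ 0 ∧ ∀ b, ψ (D.w i) b = D.psiT i (-(c * b)) := fun i => by
      let := Ideal.Quotient.field (D.w i).asIdeal
      have := finite_quot (D.w i).ne_bot
      exact exists_mulShift (D.card_kT i) (D.psiT_ne_one i) (hR _ (Or.inl ⟨i, rfl⟩)).2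
    choose cv hcv hψ using hshift
    have h := G0_isCuspFn (D := D) (cv := cv)
    refine ⟨D.G0 cv, G0_ne_zero hcv, { h with level := ?_ }, ?_, ?_, G0_cuspidal hcv,
      fun v hv _ => ?_⟩
    · exact fun k hk => G0_level (fun i => (hR _ (Or.inl ⟨i, rfl⟩)).1) hk
    · rw [Finset.coe_empty, Set.union_empty]
      exact G0_rightInv
    · rintro v (⟨i, rfl⟩ | hv) x g b
      · rw [G0_transl, hψ]
      · exact absurd hv (Finset.notMem_empty v)
    · rw [← coefR_eq_coeff hv]
      exact G0_isEigenAt hv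
  | insert Q s hQs ih =>
    intro hT hR
    obtain ⟨φ, hne, hc, hinv, hpsi, hcus, heig⟩ := ih (fun v hv => hT v (Finset.mem_insert_of_mem hv))
      fun v hv => hR v (hv.imp_right Finset.mem_insert_of_mem)
    have hQT : ¬ D.InT Q := hT Q (Finset.mem_insert_self _ _)
    have hQ : Q ∉ ({v | D.InT v} ∪ ↑s : Set (HeightOneSpectrum (𝓞 F))) := fun h =>
      h.elim hQT hQs
    have hset : insert Q ({v | D.InT v} ∪ ↑s : Set (HeightOneSpectrum (𝓞 F))) =
        {v | D.InT v} ∪ ↑(insert Q s) := by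
      rw [Finset.coe_insert, Set.union_insert]
    have hR' : ∀ v ∈ ({v | D.InT v} ∪ ↑(insert Q s) : Set (HeightOneSpectrum (𝓞 F))),
        R ≤ v.asIdeal := fun v hv => (hR v hv).1
    have hinv' : RightInv ({v | D.InT v} ∪ ↑(insert Q s)) (twist Q (ψ Q) φ) :=
      hset ▸ twist_rightInv hinv hQ (ψ Q)
    refine ⟨twist Q (ψ Q) φ,
      twist_ne_zero hR0 hc hinv hQ (hR Q (Or.inr (Finset.mem_insert_self _ _))).2 hne,
      twist_isCuspFn hc (ψ Q) (hinv'.level hR'), hinv', fun v hv => ?_, fun i => ?_,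
      fun v hv hv' => ?_⟩
    · rcases eq_or_ne v Q with rfl | hne'
      · exact twist_transl hinv hQ (ψ v)
      · exact twist_isPsiAt hne' _ (hpsi v (hv.imp_right fun h =>
          (Finset.mem_insert.1 h).resolve_left hne'))
    · exact twist_isCuspidalAt (fun e : D.w i = Q => hQT ⟨i, e.symm⟩) _ (hcus i)
    · rw [Finset.mem_insert, not_or] at hv'
      exact twist_isEigenAt hv'.1 _ (heig v hv hv'.2)

end FermatAgent.LT.Dihedral.DihedralData
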