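import Fermat.Agent.LT.Base.Adelic
import Fermat.Agent.LT.Setup
import Fermat.Agent.LT.MultOne.Main
import Fermat.Agent.LT.ClassField.Main
import Fermat.Agent.LT.Dihedral.Existence

set_option autoImplicit false

/-!
# The dihedral form on the sextic field and its descent data
-/

noncomputable section

open NumberField IsDedekindDomain

namespace FermatAgent.LT

local notation "Qb" => AlgebraicClosure ℚ

/-- The residue characters prescribed at the places of `K` over `3m`. -/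
abbrev Setup.PsiData (S : Setup) :=
  ∀ v : HeightOneSpectrum (𝓞 S.K), AddChar (𝓞 S.K ⧸ v.asIdeal) ℂ

/-- All the prescribed characters are nontrivial. -/
def Setup.PsiData.Nontriv {S : Setup} (Ψ : S.PsiData) : Prop :=
  ∀ v : HeightOneSpectrum (𝓞 S.K), ((3 * S.m : ℕ) : 𝓞 S.K) ∈ v.asIdeal → Ψ v ≠ 1

/-- The inclusion of `K` in `F`. -/
def Setup.inclKF (S : Setup) : S.K →ₐ[ℚ] S.F := IntermediateField.inclusion S.K_le_F

/-- The inclusion of rings of integers. -/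
def Setup.inclInt (S : Setup) : 𝓞 S.K →+* 𝓞 S.F :=
  NumberField.RingOfIntegers.mapRingHom S.inclKF

/-- The properties of the dihedral form: level, local types at `3m`, eigenvalues at every good
place (also those of higher degree over `K`). -/
structure IsDihedralLike (S : Setup) (Ψ : S.PsiData) (G : XInf S.F → GAf S.F → ℂ) : Prop where
  cusp : IsCuspFn (S.levelIdeal S.F) G
  psi : ∀ w : HeightOneSpectrum (𝓞 S.F), ((3 * S.m : ℕ) : 𝓞 S.F) ∈ w.asIdeal →
    ∀ v : HeightOneSpectrum (𝓞 S.K), v.asIdeal = w.asIdeal.comap S.inclInt →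
      ∀ x g (b : 𝓞 S.K), G x (g * transl w (S.inclInt b)) =
        Ψ v (Ideal.Quotient.mk v.asIdeal b) * G x g
  cuspidal : ∀ w : HeightOneSpectrum (𝓞 S.F), (3 : 𝓞 S.F) ∈ w.asIdeal → IsCuspidalAt w G
  eigen : ∀ w : HeightOneSpectrum (𝓞 S.F), ((3 * S.m : ℕ) : 𝓞 S.F) ∉ w.asIdeal →
    ∀ σ, IsFrobOver w σ → IsEigenAt w G (q8Trace (S.ρ σ) : ℂ)

theorem exists_dihedral (S : Setup) (Ψ : S.PsiData) (hΨ : Ψ.Nontriv) :
    ∃ G : XInf S.F → GAf S.F → ℂ, G ≠ 0 ∧ IsDihedralLike S Ψ G := by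
  classical
  obtain ⟨D, -, hcoef⟩ := Dihedral.hasDihedralData S
  have hM : ((3 * S.m : ℕ) : 𝓞 S.F) ≠ 0 :=
    Nat.cast_ne_zero.2 (mul_ne_zero (by norm_num) S.m_squarefree.ne_zero)
  set R : Ideal (𝓞 S.F) := S.levelIdeal S.F
  have hle : ∀ w : HeightOneSpectrum (𝓞 S.F), ((3 * S.m : ℕ) : 𝓞 S.F) ∈ w.asIdeal →
      R ≤ w.asIdeal := fun w hw =>
    (w.isPrime.radical_le_iff).2 ((Ideal.span_singleton_le_iff_mem _).2 hw)
  have hR0 : R ≠ ⊥ := fun h => hM (by
    have := Ideal.le_radical (Ideal.mem_span_singleton_self ((3 * S.m : ℕ) : 𝓞 S.F))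
    change _ ∈ R at this
    rwa [h, Ideal.mem_bot] at this)
  -- the characters on the residue fields of `F`
  have hchar : ∀ w : HeightOneSpectrum (𝓞 S.F), ∃ ψ : AddChar (𝓞 S.F ⧸ w.asIdeal) ℂ,
      ((3 * S.m : ℕ) : 𝓞 S.F) ∈ w.asIdeal → ψ ≠ 1 ∧
        ∀ v : HeightOneSpectrum (𝓞 S.K), v.asIdeal = w.asIdeal.comap S.inclInt →
          ∀ b : 𝓞 S.K, ψ (Ideal.Quotient.mk _ (S.inclInt b)) =
            Ψ v (Ideal.Quotient.mk v.asIdeal b) := by
    intro w
    by_cases hw : ((3 * S.m : ℕ) : 𝓞 S.F) ∈ w.asIdeal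
    swap
    · exact ⟨1, fun h => absurd h hw⟩
    have hmem : ((3 * S.m : ℕ) : 𝓞 S.K) ∈ w.asIdeal.comap S.inclInt := by
      rw [Ideal.mem_comap, map_natCast]; exact hw
    let v₀ : HeightOneSpectrum (𝓞 S.K) :=
      ⟨w.asIdeal.comap S.inclInt, Ideal.comap_isPrime _ _, fun h => by
        rw [h, Ideal.mem_bot, Nat.cast_eq_zero] at hmem
        exact mul_ne_zero (by norm_num) S.m_squarefree.ne_zero hmem⟩
    set f : (𝓞 S.K ⧸ v₀.asIdeal) →+* 𝓞 S.F ⧸ w.asIdeal :=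
      Ideal.quotientMap w.asIdeal S.inclInt le_rfl
    have hf : Function.Bijective f := by
      refine ⟨Ideal.quotientMap_injective' (H := le_rfl) le_rfl, fun q => ?_⟩
      obtain ⟨o, rfl⟩ := Ideal.Quotient.mk_surjective q
      obtain ⟨b, hb⟩ := S.surjective_residue w hw o
      exact ⟨Ideal.Quotient.mk _ b, ((Ideal.Quotient.eq).2 hb).symm⟩
    set e := RingEquiv.ofBijective f hf
    refine ⟨(Ψ v₀).compAddMonoidHom e.symm.toAddMonoidHom, fun _ => ⟨fun h => ?_, fun v hv b => ?_⟩⟩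
    · refine hΨ v₀ hmem (DFunLike.ext _ _ fun q => ?_)
      have := DFunLike.congr_fun h (e q)
      simpa using this
    · obtain rfl : v = v₀ := HeightOneSpectrum.ext hv
      show Ψ v₀ (e.symm (e (Ideal.Quotient.mk _ b))) = _
      rw [RingEquiv.symm_apply_apply]
  choose ψ hψ using hchar
  have hfin : {w : HeightOneSpectrum (𝓞 S.F) |
      ((3 * S.m : ℕ) : 𝓞 S.F) ∈ w.asIdeal ∧ ¬ D.InT w}.Finite := by
    refine (Ideal.finite_factors (I := Ideal.span {((3 * S.m : ℕ) : 𝓞 S.F)})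
      (by simpa using hM)).subset fun w hw => ?_
    exact Ideal.dvd_span_singleton.2 hw.1
  have hT : ∀ w, D.InT w → ((3 * S.m : ℕ) : 𝓞 S.F) ∈ w.asIdeal := by
    rintro w ⟨i, rfl⟩
    push_cast
    exact Ideal.mul_mem_right _ _ (D.three_mem_w i)
  have hbad : ∀ w, D.InT w ∨ w ∈ hfin.toFinset ↔ ((3 * S.m : ℕ) : 𝓞 S.F) ∈ w.asIdeal := fun w => by
    rw [hfin.mem_toFinset]
    exact ⟨fun h => h.elim (hT w) (fun h => h.1), fun h => (em _).imp_right fun h' => ⟨h, h'⟩⟩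
  obtain ⟨G, hne, hc, -, hpsi, hcus, heig⟩ := D.exists_form hR0 ψ hfin.toFinset
    (fun w hw => (hfin.mem_toFinset.1 hw).2)
    fun w hw => ⟨hle w ((hbad w).1 hw), (hψ w ((hbad w).1 hw)).1⟩
  refine ⟨G, hne, hc, fun w hw v hv x g b => ?_, fun w hw => ?_, fun w hw σ hσ => ?_⟩
  · rw [hpsi w ((hbad w).2 hw) x g (S.inclInt b), (hψ w hw).2 v hv b]
  · obtain ⟨i, rfl⟩ := D.inT_of_three_mem hw
    exact hcus i
  · rw [← hcoef w hw σ hσ]
    exact heig w (fun h => hw (hT w h)) fun h => hw (hfin.mem_toFinset.1 h).1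

/-- Multiplicity one: the coefficients are determined by the eigenvalues. -/
theorem dihedralLike_unique (S : Setup) (Ψ : S.PsiData) (hΨ : Ψ.Nontriv)
    {G G' : XInf S.F → GAf S.F → ℂ} (hG : G ≠ 0) (h : IsDihedralLike S Ψ G)
    (h' : IsDihedralLike S Ψ G') : ∃ a : ℂ, G' = a • G := by
  refine S.multOne Ψ hΨ hG h.cusp h'.cusp ?_ ?_
  · rintro H (rfl | rfl)
    exacts [h.psi, h'.psi]
  · rintro H (rfl | rfl)
    exacts [h.eigen, h'.eigen]

end FermatAgent.LT
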