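import Fermat.Agent.LT.Dihedral.Div
import Mathlib.RingTheory.DedekindDomain.Ideal.Lemmas

/-!
# Orders at finitely many primes: approximation and residues
-/

set_option autoImplicit false

noncomputable section

open NumberField IsDedekindDomain
open scoped nonZeroDivisors

namespace FermatAgent.LT.Dihedral

variable {K : Type*} [Field K] [NumberField K]

omit [NumberField K] in
lemma coeO_sub (a b : 𝓞 K) : ((a - b : 𝓞 K) : K) = (a : K) - (b : K) := rfl

omit [NumberField K] in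
lemma coeO_add (a b : 𝓞 K) : ((a + b : 𝓞 K) : K) = (a : K) + (b : K) := rfl

omit [NumberField K] in
lemma coeO_mul (a b : 𝓞 K) : ((a * b : 𝓞 K) : K) = (a : K) * (b : K) := rfl

omit [NumberField K] in
lemma coeO_zero : ((0 : 𝓞 K) : K) = 0 := rfl

/-- `x` has order at least `n` at `v` (any order if `x = 0`). -/
def OrdGe (v : HeightOneSpectrum (𝓞 K)) (n : ℤ) (x : K) : Prop := x = 0 ∨ n ≤ dvElt x v

variable {v : HeightOneSpectrum (𝓞 K)}

lemma ordGe_zero (n : ℤ) : OrdGe v n (0 : K) := Or.inl rfl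

lemma OrdGe.mono {m n : ℤ} {x : K} (h : OrdGe v n x) (hmn : m ≤ n) : OrdGe v m x :=
  h.imp_right fun h => hmn.trans h

lemma OrdGe.mul {m n : ℤ} {x y : K} (hx : OrdGe v m x) (hy : OrdGe v n y) :
    OrdGe v (m + n) (x * y) := by
  rcases eq_or_ne x 0 with rfl | hx0
  · exact Or.inl (zero_mul y)
  rcases eq_or_ne y 0 with rfl | hy0
  · exact Or.inl (mul_zero x)
  refine Or.inr ?_
  rw [dvElt_mul hx0 hy0, Finsupp.add_apply]
  exact add_le_add (hx.resolve_left hx0) (hy.resolve_left hy0)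

lemma ordGe_iff_mem {n : ℤ} {x : K} (D : Dv K) (hD : D v = n)
    (hx : ∀ w, w ≠ v → OrdGe w (D w) x) :
    OrdGe v n x ↔ x ∈ (fid D : FractionalIdeal (𝓞 K)⁰ K) := by
  rw [mem_fid]
  rcases eq_or_ne x 0 with rfl | h0
  · exact ⟨fun _ => Or.inl rfl, fun _ => ordGe_zero _⟩
  simp only [OrdGe, h0, false_or]
  constructor
  · intro h w
    rcases eq_or_ne w v with rfl | hw
    · rwa [hD]
    · exact (hx w hw).resolve_left h0
  · intro h
    rw [← hD]; exact h v

lemma mem_fid_iff_ordGe {D : Dv K} {x : K} :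
    x ∈ (fid D : FractionalIdeal (𝓞 K)⁰ K) ↔ ∀ w, OrdGe w (D w) x := by
  rw [mem_fid]
  rcases eq_or_ne x 0 with rfl | h0
  · exact ⟨fun _ w => ordGe_zero _, fun _ => Or.inl rfl⟩
  simp only [OrdGe, h0, false_or]
  exact ⟨fun h w => h w, fun h => h⟩

lemma OrdGe.add {n : ℤ} {x y : K} (hx : OrdGe v n x) (hy : OrdGe v n y) : OrdGe v n (x + y) := by
  classical
  let D : Dv K := (dvElt x ⊓ dvElt y).update v n
  have hDv : D v = n := by simp [D]
  have hDw : ∀ w, w ≠ v → D w = min (dvElt x w) (dvElt y w) := fun w hw => by simp [D, hw]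
  have h1 := (ordGe_iff_mem D hDv fun w hw => Or.inr (hDw w hw ▸ min_le_left _ _)).1 hx
  have h2 := (ordGe_iff_mem D hDv fun w hw => Or.inr (hDw w hw ▸ min_le_right _ _)).1 hy
  have h3 : x + y ∈ (fid D : FractionalIdeal (𝓞 K)⁰ K) :=
    FractionalIdeal.mem_coe.1 (Submodule.add_mem _ (FractionalIdeal.mem_coe.2 h1)
      (FractionalIdeal.mem_coe.2 h2))
  exact hDv ▸ mem_fid_iff_ordGe.1 h3 v

lemma OrdGe.neg {n : ℤ} {x : K} (hx : OrdGe v n x) : OrdGe v n (-x) := by
  rcases hx with rfl | h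
  · exact Or.inl neg_zero
  · exact Or.inr (by rwa [dvElt_neg])

lemma OrdGe.sub {n : ℤ} {x y : K} (hx : OrdGe v n x) (hy : OrdGe v n y) : OrdGe v n (x - y) :=
  sub_eq_add_neg x y ▸ hx.add hy.neg

lemma ordGe_int (a : 𝓞 K) : OrdGe v 0 (a : K) := Or.inr (dvElt_coe_nonneg a v)

lemma ordGe_pow_iff {n : ℕ} {a : 𝓞 K} : OrdGe v n (a : K) ↔ a ∈ v.asIdeal ^ n := by
  classical
  rcases eq_or_ne a 0 with rfl | ha
  · exact ⟨fun _ => zero_mem _, fun _ => Or.inl rfl⟩
  have hI : idealDv (v.asIdeal ^ n) = Finsupp.single v (n : ℤ) := by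
    induction n with
    | zero => rw [pow_zero, Ideal.one_eq_top, idealDv_top]; simp
    | succ n ih =>
      rw [pow_succ, idealDv_mul (pow_ne_zero n v.ne_bot) v.ne_bot, ih, idealDv_prime,
        ← Finsupp.single_add]
      push_cast
      rfl
  rw [idealDv_le_iff (pow_ne_zero n v.ne_bot) ha, hI]
  simp only [OrdGe, RingOfIntegers.coe_ne_zero_iff.2 ha, false_or]
  constructor
  · intro h w
    rw [Finsupp.single_apply]
    split_ifs with hw
    · exact hw ▸ h
    · exact dvElt_coe_nonneg a w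
  · intro h
    simpa using h v

lemma ordGe_one_iff {a : 𝓞 K} : OrdGe v 1 (a : K) ↔ a ∈ v.asIdeal := by
  simpa using ordGe_pow_iff (v := v) (n := 1) (a := a)

/-- Chinese remainder theorem at finitely many primes. -/
lemma exists_crt (s : Finset (HeightOneSpectrum (𝓞 K))) (n : HeightOneSpectrum (𝓞 K) → ℕ)
    (x : HeightOneSpectrum (𝓞 K) → 𝓞 K) :
    ∃ a : 𝓞 K, ∀ v ∈ s, OrdGe v (n v) ((a : K) - (x v : K)) := by
  obtain ⟨a, ha⟩ := IsDedekindDomain.exists_forall_sub_mem_ideal (s := s) (fun v => v.asIdeal) n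
    (fun v _ => v.prime) (fun v _ w _ h h' => h (HeightOneSpectrum.ext h')) (fun v => x v)
  exact ⟨a, fun v hv => by rw [← map_sub]; exact ordGe_pow_iff.2 (ha v hv)⟩

/-- An element with prescribed orders at finitely many primes. -/
lemma exists_ord_eq (s : Finset (HeightOneSpectrum (𝓞 K))) (D : HeightOneSpectrum (𝓞 K) → ℤ) :
    ∃ x : K, x ≠ 0 ∧ ∀ v ∈ s, dvElt x v = D v := by
  classical
  have hu : ∀ u ∈ s, ∃ p : K, p ≠ 0 ∧ ∀ v ∈ s, dvElt p v = if v = u then 1 else 0 := by
    intro u hu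
    obtain ⟨π, hπ1, hπ2⟩ : ∃ π : 𝓞 K, π ∈ u.asIdeal ∧ π ∉ u.asIdeal ^ 2 := by
      have hlt := Ideal.pow_right_strictAnti u.asIdeal u.ne_bot u.isPrime.ne_top (show 1 < 2 by norm_num)
      simp only [pow_one] at hlt
      exact Set.exists_of_ssubset hlt
    obtain ⟨a, ha⟩ := exists_crt s (fun _ => 2) (fun v => if v = u then π else 1)
    have hau : a ∈ u.asIdeal ∧ a ∉ u.asIdeal ^ 2 := by
      have h := ha u hu
      rw [if_pos rfl, ← map_sub] at h
      have h2 : a - π ∈ u.asIdeal ^ 2 := ordGe_pow_iff.1 h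
      refine ⟨?_, fun h' => hπ2 ?_⟩
      · have := add_mem (Ideal.pow_le_self two_ne_zero h2) hπ1
        simpa using this
      · have := sub_mem h' h2
        simpa using this
    have ha0 : a ≠ 0 := fun h => hau.2 (h ▸ zero_mem _)
    refine ⟨a, RingOfIntegers.coe_ne_zero_iff.2 ha0, fun v hv => ?_⟩
    have hge := dvElt_coe_nonneg a v
    split_ifs with hvu
    · subst hvu
      have h1 := (mem_prime_iff v ha0).1 hau.1
      have h2 : ¬ (2 : ℤ) ≤ dvElt (a : K) v := fun h =>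
        hau.2 (ordGe_pow_iff.1 (Or.inr (by exact_mod_cast h)))
      omega
    · have h := ha v hv
      rw [if_neg hvu, ← map_sub] at h
      have h2 : a - 1 ∈ v.asIdeal := Ideal.pow_le_self two_ne_zero (ordGe_pow_iff.1 h)
      have h3 : ¬ 1 ≤ dvElt (a : K) v := fun h' => by
        have := sub_mem ((mem_prime_iff v ha0).2 h') h2
        exact v.isPrime.ne_top ((Ideal.eq_top_iff_one _).2 (by simpa using this))
      have hge' : (0 : ℤ) ≤ dvElt (a : K) v := hge
      omega
  choose p hp0 hp using hu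
  refine ⟨∏ u ∈ s.attach, p u.1 u.2 ^ D u.1,
    Finset.prod_ne_zero_iff.2 fun u _ => zpow_ne_zero _ (hp0 _ _), fun v hv => ?_⟩
  have hz : ∀ (x : K) (k : ℤ), x ≠ 0 → dvElt (x ^ k) = k • dvElt x := by
    intro x k hx
    rcases Int.eq_nat_or_neg k with ⟨n, rfl | rfl⟩
    · rw [zpow_natCast, dvElt_pow hx, natCast_zsmul]
    · rw [zpow_neg, dvElt_inv (zpow_ne_zero _ hx), zpow_natCast, dvElt_pow hx, neg_smul,
        natCast_zsmul]
  have hprod : ∀ t : Finset {u // u ∈ s}, dvElt (∏ u ∈ t, p u.1 u.2 ^ D u.1) v =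
      ∑ u ∈ t, if v = u.1 then D u.1 else 0 := by
    intro t
    induction t using Finset.induction_on with
    | empty => simp [dvElt_one]
    | @insert u t hut ih =>
      rw [Finset.prod_insert hut, Finset.sum_insert hut,
        dvElt_mul (zpow_ne_zero _ (hp0 _ _))
          (Finset.prod_ne_zero_iff.2 fun w _ => zpow_ne_zero _ (hp0 _ _)),
        Finsupp.add_apply, ih, hz _ _ (hp0 _ _), Finsupp.smul_apply, hp u.1 u.2 v hv, smul_eq_mul]
      congr 1
      split_ifs <;> simp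
  rw [hprod, Finset.sum_attach s (fun u => if v = u then D u else 0), Finset.sum_ite_eq, if_pos hv]

/-- An element integral at `s` is congruent to an integer at `s`. -/
lemma exists_int_congr (s : Finset (HeightOneSpectrum (𝓞 K)))
    (n : HeightOneSpectrum (𝓞 K) → ℕ) {x : K} (hx : ∀ v ∈ s, OrdGe v 0 x) :
    ∃ a : 𝓞 K, ∀ v ∈ s, OrdGe v (n v) (x - (a : K)) := by
  classical
  rcases eq_or_ne x 0 with rfl | hx0
  · exact ⟨0, fun v _ => Or.inl (by simp)⟩
  -- a denominator which is prime to `s`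
  set t := (dvElt x).support.filter (fun v => dvElt x v < 0)
  have hts : ∀ v ∈ t, v ∉ s := fun v hv hvs => by
    simp only [t, Finset.mem_filter] at hv
    have := (hx v hvs).resolve_left hx0
    omega
  obtain ⟨d, hd⟩ := exists_crt (s ∪ t) (fun v => if v ∈ s then max 1 (n v) else (-dvElt x v).toNat)
    (fun v => if v ∈ s then 1 else 0)
  have hd1 : ∀ v ∈ s, OrdGe v (max 1 (n v) : ℕ) ((d : K) - 1) := fun v hv => by
    simpa [if_pos hv] using hd v (Finset.mem_union_left _ hv)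
  have hint : x * (d : K) = 0 ∨ 0 ≤ dvElt (x * (d : K)) := by
    rcases eq_or_ne d 0 with rfl | hd0
    · exact Or.inl (by simp)
    refine Or.inr fun v => ?_
    rw [dvElt_mul hx0 (RingOfIntegers.coe_ne_zero_iff.2 hd0), Finsupp.add_apply, Finsupp.zero_apply]
    have h1 : (0 : ℤ) ≤ dvElt (algebraMap (𝓞 K) K d) v := dvElt_coe_nonneg d v
    by_cases hv : v ∈ t
    · have h2 := hd v (Finset.mem_union_right _ hv)
      rw [if_neg (hts v hv), if_neg (hts v hv), coeO_zero, sub_zero] at h2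
      have : _ ≤ dvElt (algebraMap (𝓞 K) K d) v :=
        h2.resolve_left (RingOfIntegers.coe_ne_zero_iff.2 hd0)
      omega
    · have : 0 ≤ dvElt x v := by
        by_contra h
        push Not at h
        exact hv (by simp only [t, Finset.mem_filter, Finsupp.mem_support_iff]; exact ⟨h.ne, h⟩)
      omega
  obtain ⟨a, ha⟩ := exists_int_of_nonneg hint
  refine ⟨a, fun v hv => ?_⟩
  rw [ha, show x - x * (d : K) = x * -((d : K) - 1) by ring]
  exact ((hx v hv).mul (hd1 v hv).neg).mono (by push_cast; omega)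

section Residue

variable (v)

open Classical in
/-- The residue of a `v`-integral element, zero otherwise. -/
def rmod (x : K) : 𝓞 K ⧸ v.asIdeal :=
  if h : OrdGe v 0 x then
    Ideal.Quotient.mk _ (exists_int_congr {v} (fun _ => 1)
      (fun _ hw => Finset.mem_singleton.1 hw ▸ h)).choose
  else 0

lemma rmod_eq {x : K} (hx : OrdGe v 0 x) {a : 𝓞 K} (ha : OrdGe v 1 (x - (a : K))) :
    rmod v x = Ideal.Quotient.mk _ a := by
  rw [rmod, dif_pos hx, Ideal.Quotient.eq]
  set b := (exists_int_congr {v} (fun _ => 1)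
    (fun w hw => Finset.mem_singleton.1 hw ▸ hx)).choose
  have hb : OrdGe v 1 (x - (b : K)) := by
    exact_mod_cast (exists_int_congr {v} (fun _ => 1)
      (fun w hw => Finset.mem_singleton.1 hw ▸ hx)).choose_spec v (Finset.mem_singleton_self v)
  refine ordGe_one_iff.1 ?_
  rw [coeO_sub, show (b : K) - (a : K) = (x - (a : K)) - (x - (b : K)) by ring]
  exact ha.sub hb

lemma exists_int_rmod {x : K} (hx : OrdGe v 0 x) :
    ∃ a : 𝓞 K, OrdGe v 1 (x - (a : K)) ∧ rmod v x = Ideal.Quotient.mk _ a := by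
  obtain ⟨a, ha⟩ := exists_int_congr {v} (fun _ => 1) (x := x)
    (fun w hw => Finset.mem_singleton.1 hw ▸ hx)
  have := ha v (Finset.mem_singleton_self v)
  exact ⟨a, by simpa using this, rmod_eq v hx (by simpa using this)⟩

lemma rmod_int (a : 𝓞 K) : rmod v (a : K) = Ideal.Quotient.mk _ a :=
  rmod_eq v (ordGe_int a) (Or.inl (sub_self _))

lemma rmod_add {x y : K} (hx : OrdGe v 0 x) (hy : OrdGe v 0 y) :
    rmod v (x + y) = rmod v x + rmod v y := by
  obtain ⟨a, ha, ha'⟩ := exists_int_rmod v hx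
  obtain ⟨b, hb, hb'⟩ := exists_int_rmod v hy
  rw [ha', hb', ← map_add]
  refine rmod_eq v (hx.add hy) ?_
  rw [coeO_add, show x + y - ((a : K) + (b : K)) = (x - (a : K)) + (y - (b : K)) by ring]
  exact ha.add hb

lemma rmod_mul {x y : K} (hx : OrdGe v 0 x) (hy : OrdGe v 0 y) :
    rmod v (x * y) = rmod v x * rmod v y := by
  obtain ⟨a, ha, ha'⟩ := exists_int_rmod v hx
  obtain ⟨b, hb, hb'⟩ := exists_int_rmod v hy
  rw [ha', hb', ← map_mul]
  refine rmod_eq v (by simpa using hx.mul hy) ?_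
  rw [coeO_mul, show x * y - (a : K) * (b : K) = (x - (a : K)) * y + (a : K) * (y - (b : K)) by ring]
  exact (by simpa using ha.mul hy : OrdGe v 1 _).add
    (by simpa using (ordGe_int a).mul hb : OrdGe v 1 _)

lemma rmod_eq_zero {x : K} (hx : OrdGe v 0 x) : rmod v x = 0 ↔ OrdGe v 1 x := by
  obtain ⟨a, ha, ha'⟩ := exists_int_rmod v hx
  rw [ha', Ideal.Quotient.eq_zero_iff_mem, ← ordGe_one_iff]
  constructor
  · intro h
    simpa using ha.add h
  · intro h
    simpa using h.sub ha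

lemma rmod_congr {x y : K} (hy : OrdGe v 0 y) (h : OrdGe v 1 (x - y)) :
    rmod v x = rmod v y := by
  have h0 := h.mono (show (0 : ℤ) ≤ 1 by norm_num)
  have hd : rmod v (x - y) = 0 := (rmod_eq_zero v h0).2 h
  rw [show x = y + (x - y) by ring, rmod_add v hy h0, hd, add_zero]

end Residue

end FermatAgent.LT.Dihedral
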