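import Fermat.Agent.LT.Base.Cosets
import Fermat.Agent.LT.Dihedral.Approx
import Fermat.Agent.LT.MultOne.StrongApprox

/-!
# Valuations, divisors and residues of finite adeles
-/

set_option autoImplicit false

noncomputable section

open NumberField IsDedekindDomain WithZero Filter

namespace FermatAgent.LT.Dihedral

variable {K : Type*} [Field K] [NumberField K]

lemma valued_coe_int (v : HeightOneSpectrum (𝓞 K)) {a : 𝓞 K} (ha : a ≠ 0) :
    Valued.v (loc v (a : K)) = exp (-dvElt (a : K) v) := by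
  rw [valued_int v ha, ← idealDv_span]
  rfl

lemma valued_dvElt (v : HeightOneSpectrum (𝓞 K)) {x : K} (hx : x ≠ 0) :
    Valued.v (loc v x) = exp (-dvElt x v) := by
  obtain ⟨a, b, hb, rfl⟩ := IsFractionRing.div_surjective (𝓞 K) x
  have hb0 : b ≠ 0 := nonZeroDivisors.ne_zero hb
  have ha0 : a ≠ 0 := fun h => hx (by simp [h])
  rw [map_div₀, map_div₀, valued_coe_int v ha0, valued_coe_int v hb0, ← exp_sub, div_eq_mul_inv,
    dvElt_mul (RingOfIntegers.coe_ne_zero_iff.2 ha0)
      (inv_ne_zero (RingOfIntegers.coe_ne_zero_iff.2 hb0)),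
    dvElt_inv (RingOfIntegers.coe_ne_zero_iff.2 hb0), Finsupp.add_apply, Finsupp.neg_apply]
  congr 1
  ring

lemma ordGe_iff_valued {v : HeightOneSpectrum (𝓞 K)} {n : ℤ} {x : K} :
    OrdGe v n x ↔ Valued.v (loc v x) ≤ exp (-n) := by
  rcases eq_or_ne x 0 with rfl | hx
  · simp [OrdGe]
  · rw [OrdGe, or_iff_right hx, valued_dvElt v hx, exp_le_exp, neg_le_neg_iff]

lemma idele_apply_ne (a : (Adf K)ˣ) (v : HeightOneSpectrum (𝓞 K)) :
    Valued.v ((a : Adf K) v) ≠ 0 :=
  (Valuation.ne_zero_iff _).2 ((FiniteAdeleRing.isUnit_iff.1 a.isUnit).1 v)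

/-- The divisor of an idele. -/
def adDv (a : (Adf K)ˣ) : Dv K :=
  Finsupp.ofSupportFinite (fun v => -log (Valued.v ((a : Adf K) v))) (by
    refine (Filter.eventually_cofinite.1 (FiniteAdeleRing.isUnit_iff.1 a.isUnit).2).subset ?_
    intro v hv h
    exact hv (by simp [h]))

lemma adDv_apply (a : (Adf K)ˣ) (v : HeightOneSpectrum (𝓞 K)) :
    adDv a v = -log (Valued.v ((a : Adf K) v)) := rfl

lemma valued_idele (a : (Adf K)ˣ) (v : HeightOneSpectrum (𝓞 K)) :
    Valued.v ((a : Adf K) v) = exp (-adDv a v) := by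
  rw [adDv_apply, neg_neg, exp_log (idele_apply_ne a v)]

lemma adDv_eq_of_valued {a : (Adf K)ˣ} {v : HeightOneSpectrum (𝓞 K)} {n : ℤ}
    (h : Valued.v ((a : Adf K) v) = exp (-n)) : adDv a v = n := by
  rw [adDv_apply, h, log_exp, neg_neg]

lemma adDv_mul (a b : (Adf K)ˣ) : adDv (a * b) = adDv a + adDv b := by
  refine Finsupp.ext fun v => adDv_eq_of_valued ?_
  rw [Units.val_mul, adele_mul_apply, map_mul, valued_idele a, valued_idele b, ← exp_add,
    Finsupp.add_apply, neg_add]

lemma adDv_one : adDv (1 : (Adf K)ˣ) = 0 := by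
  refine Finsupp.ext fun v => adDv_eq_of_valued ?_
  rw [Units.val_one, adele_one_apply, map_one, Finsupp.zero_apply, neg_zero, exp_zero]

lemma adDv_inv (a : (Adf K)ˣ) : adDv a⁻¹ = -adDv a :=
  eq_neg_of_add_eq_zero_left (by rw [← adDv_mul, inv_mul_cancel, adDv_one])

lemma adDv_rat (q : Kˣ) :
    adDv (Units.map (algebraMap K (Adf K)).toMonoidHom q) = dvElt (q : K) :=
  Finsupp.ext fun v => adDv_eq_of_valued (valued_dvElt v q.ne_zero)

lemma adDv_eq_zero {a : (Adf K)ˣ} {v : HeightOneSpectrum (𝓞 K)} (h : (a : Adf K) v = 1) :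
    adDv a v = 0 :=
  adDv_eq_of_valued (by rw [h, map_one, neg_zero, exp_zero])

section Residue

variable (v : HeightOneSpectrum (𝓞 K))

/-- The residue of an integral local element. -/
def resV (x : v.adicCompletionIntegers K) : 𝓞 K ⧸ v.asIdeal :=
  Ideal.Quotient.mk _ (exists_int_close v x.2 1).choose

variable {v}

lemma resV_eq (x : v.adicCompletionIntegers K) {a : 𝓞 K}
    (ha : Valued.v ((x : v.adicCompletion K) - loc v (a : K)) ≤ exp (-1 : ℤ)) :
    resV v x = Ideal.Quotient.mk _ a := by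
  rw [resV, Ideal.Quotient.eq, ← ordGe_one_iff, ordGe_iff_valued, coeO_sub, map_sub,
    ← sub_sub_sub_cancel_left _ _ (x : v.adicCompletion K)]
  exact (Valuation.map_sub _ _ _).trans
    (max_le ha (exists_int_close v x.2 1).choose_spec)

variable (v)

lemma exists_resV (x : v.adicCompletionIntegers K) :
    ∃ a : 𝓞 K, Valued.v ((x : v.adicCompletion K) - loc v (a : K)) ≤ exp (-1 : ℤ) ∧
      resV v x = Ideal.Quotient.mk _ a :=
  ⟨_, (exists_int_close v x.2 1).choose_spec, rfl⟩

/-- The residue map. -/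
def resHom : v.adicCompletionIntegers K →+* 𝓞 K ⧸ v.asIdeal where
  toFun := resV v
  map_one' := by rw [resV_eq (a := 1) 1 (by simp), map_one]
  map_zero' := by rw [resV_eq (a := 0) 0 (by simp), map_zero]
  map_add' x y := by
    obtain ⟨a, ha, ha'⟩ := exists_resV v x
    obtain ⟨b, hb, hb'⟩ := exists_resV v y
    rw [ha', hb', ← map_add]
    refine resV_eq _ ?_
    rw [AddMemClass.coe_add, coeO_add, map_add, add_sub_add_comm]
    exact (Valuation.map_add _ _ _).trans (max_le ha hb)
  map_mul' x y := by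
    obtain ⟨a, ha, ha'⟩ := exists_resV v x
    obtain ⟨b, hb, hb'⟩ := exists_resV v y
    rw [ha', hb', ← map_mul]
    refine resV_eq _ ?_
    rw [MulMemClass.coe_mul, coeO_mul, map_mul,
      show ∀ X Y A B : v.adicCompletion K, X * Y - A * B = (X - A) * Y + A * (Y - B) from
        fun X Y A B => by ring]
    have h1 : Valued.v (loc v (a : K)) ≤ 1 := by
      rw [valued_loc, HeightOneSpectrum.valuation_of_algebraMap]
      exact v.intValuation_le_one a
    refine (Valuation.map_add _ _ _).trans (max_le ?_ ?_) <;> rw [map_mul]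
    · exact (mul_le_mul' ha y.2).trans_eq (mul_one _)
    · exact (mul_le_mul' h1 hb).trans_eq (one_mul _)

variable {v}

lemma resHom_eq (x : v.adicCompletionIntegers K) {a : 𝓞 K}
    (ha : Valued.v ((x : v.adicCompletion K) - loc v (a : K)) ≤ exp (-1 : ℤ)) :
    resHom v x = Ideal.Quotient.mk _ a :=
  resV_eq x ha

lemma resHom_loc {b : K} (x : v.adicCompletionIntegers K)
    (h : (x : v.adicCompletion K) = loc v b) : resHom v x = rmod v b := by
  have h0 : OrdGe v 0 b := ordGe_iff_valued.2 (by rw [← h, neg_zero, exp_zero]; exact x.2)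
  obtain ⟨a, ha, ha'⟩ := exists_int_rmod v h0
  rw [ha']
  refine resHom_eq x ?_
  rw [h, ← map_sub]
  exact ordGe_iff_valued.1 ha

lemma resHom_eq_zero (x : v.adicCompletionIntegers K)
    (h : Valued.v (x : v.adicCompletion K) ≤ exp (-1 : ℤ)) : resHom v x = 0 := by
  rw [resHom_eq (a := 0) x (by simpa using h), map_zero]

variable (v)

/-- The residual matrix at `v`. -/
def resGL : GL (Fin 2) (IntAd K) →* GL (Fin 2) (𝓞 K ⧸ v.asIdeal) :=
  Matrix.GeneralLinearGroup.map ((resHom v).comp
    (Pi.evalRingHom (fun u : HeightOneSpectrum (𝓞 K) => u.adicCompletionIntegers K) v))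

lemma resGL_apply (k : GL (Fin 2) (IntAd K)) (i j : Fin 2) :
    resGL v k i j = resHom v (k i j v) := rfl

end Residue

end FermatAgent.LT.Dihedral
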