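import Fermat.Agent.LT.Base.Expansion
import Fermat.Agent.LT.Base.Siegel
import Fermat.Agent.LT.Base.Space
import Fermat.Agent.LT.Base.BallInt
import Fermat.Agent.LT.Base.WaveSph
import Fermat.Agent.LT.Descent.Classical.Sph
import Fermat.Agent.LT.Dihedral.Majorant
import Fermat.Agent.LT.Dihedral.Level
import Fermat.Agent.LT.Dihedral.Rational

/-!
# The dihedral form of level `3` is a cusp function
-/

set_option autoImplicit false
set_option maxHeartbeats 400000

noncomputable section

open NumberField IsDedekindDomain MeasureTheory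
open scoped MatrixGroups

namespace FermatAgent.LT.Dihedral.DihedralData

open QuadData

variable {F : Type} [Field F] [NumberField F] {D : DihedralData F} {cv : ∀ i, D.kT i}

section theta

variable {A : Dv F} (hA : D.TFree A) (V : (∀ i, D.kT i) → ℂ) (β : F)
include hA

lemma hasSum_theta (y : XInf F) : HasSum (D.term A V β y) (D.theta A V β y) :=
  (D.hasSum_term A hA (D.mk_crep A) V β y).summable.hasSum

set_option linter.unusedSectionVars false in -- `hA` is part of the uniform signature of this section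
lemma continuous_term (ν : Fˣ) : Continuous fun y => D.term A V β y ν := by
  have := D.isTotallyComplex
  refine continuous_const.mul (continuous_finsetProd _ fun w _ => continuous_const.mul ?_)
  have hν : w.embedding ((ν : F) * (-3)⁻¹) ≠ 0 :=
    (map_ne_zero _).2 (mul_ne_zero ν.ne_zero (inv_ne_zero (by norm_num)))
  have hK : Continuous fun Q : H3 => H3.besselK0 (4 * Real.pi * ‖w.embedding ((ν : F) * (-3)⁻¹)‖ * Q.t) :=
    H3.continuousOn_besselK0.comp_continuous (continuous_const.mul H3.continuous_coord_t)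
      fun Q => mul_pos (by have := norm_pos_iff.mpr hν; positivity) Q.t_pos
  exact ((Complex.continuous_ofReal.comp (H3.continuous_coord_t.mul hK)).mul
    ((H3.continuous_echar _).comp H3.continuous_coord_z)).comp (continuous_apply w)

lemma continuous_theta : Continuous fun y => D.theta A V β y := by
  refine continuous_iff_continuousAt.2 fun y₀ => ?_
  have := D.isTotallyComplex
  obtain ⟨w₀, hw₀⟩ := Finite.exists_min fun w : InfinitePlace F => (y₀ w).t
  set c := (y₀ w₀).t / 2
  have hc : 0 < c := by have := (y₀ w₀).t_pos; positivity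
  obtain ⟨u, hu, hbd⟩ := D.exists_term_majorant A V hc
  set U : Set (XInf F) := {y | ∀ w, c < (y w).t}
  have hU : IsOpen U := by
    simp only [U, Set.ofPred_forall]
    exact isOpen_iInter_of_finite fun w =>
      isOpen_lt continuous_const (H3.continuous_coord_t.comp (continuous_apply w))
  have hy₀ : y₀ ∈ U := fun w => by
    have := hw₀ w
    have := (y₀ w₀).t_pos
    show c < _
    simp only [c]
    linarith
  exact (continuousOn_tsum (fun ν => (continuous_term hA V β ν).continuousOn) hu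
    fun ν y hy => hbd β y (fun w => (hy w).le) ν).continuousAt (hU.mem_nhds hy₀)

set_option linter.unusedSectionVars false in -- `hA` is part of the uniform signature of this section
lemma exists_theta_bound {c : ℝ} (hc : 0 < c) :
    ∃ C, ∀ y, (∀ w, c ≤ (y w).t) → ‖D.theta A V β y‖ ≤ C := by
  obtain ⟨u, hu, hbd⟩ := D.exists_term_majorant A V hc
  exact ⟨∑' ν, u ν, fun y hy => tsum_of_norm_bounded hu.hasSum (hbd β y hy)⟩

end theta

omit [NumberField F] in
lemma infAct_upper_t (g : GL (Fin 2) F) (hg : g 1 0 = 0) :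
    ∀ w : InfinitePlace F, ∃ r > 0, ∀ x : XInf F, (infAct g x w).t = r * (x w).t := by
  intro w
  obtain ⟨u, q, c, rfl⟩ := exists_upper_form g hg
  refine ⟨‖w.embedding (q : F)‖, norm_pos_iff.2 ((map_ne_zero _).2 q.ne_zero), fun x => ?_⟩
  rw [infAct_mul', infAct_scalar, (infAct_upperTri q c x w).2]

lemma upper_inv_eq {g : GAf F} (d : D.Dec g) :
    (upperTri d.q d.c 1)⁻¹ = upperTri d.q⁻¹ (-(((d.q⁻¹ : Fˣ) : F) * d.c)) 1 := by
  rw [upperTri_inv, inv_one, Units.val_one, mul_one]

theorem continuous_G0 (g : GAf F) : Continuous fun x => D.G0 cv x g := by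
  set d := (D.exists_dec g).some
  simp only [G0_eq d, Dec.value]
  exact (continuous_theta (tfree_adDv d.hT) _ 0).comp (continuous_infAct _)

theorem exists_G0_bound_siegel (g : GAf F) {c : ℝ} (hc : 0 < c) :
    ∃ C, ∀ x : XInf F, (∀ w, c ≤ (x w).t) → ‖D.G0 cv x g‖ ≤ C := by
  have := D.isTotallyComplex
  set d := (D.exists_dec g).some
  choose r hr hrt using infAct_upper_t (upperTri d.q d.c 1)⁻¹ (by
    rw [upper_inv_eq]; simp [upperTri])
  obtain ⟨w₀, hw₀⟩ := Finite.exists_min r
  obtain ⟨C, hC⟩ := exists_theta_bound (tfree_adDv d.hT) (D.VT cv (D.resT3 d.k)) 0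
    (mul_pos (hr w₀) hc)
  refine ⟨C, fun x hx => ?_⟩
  rw [G0_eq d, Dec.value]
  refine hC _ fun w => ?_
  rw [hrt]
  exact mul_le_mul (hw₀ w) (hx w) hc.le (hr w).le

/-- The level `3`. -/
lemma three_level : ∀ i, Ideal.span {(3 : 𝓞 F)} ≤ (D.w i).asIdeal := fun i =>
  (Ideal.span_singleton_le_iff_mem _).2 (D.three_mem_w i)

theorem G0_bounded : ∃ C, ∀ x g, ‖D.G0 cv x g‖ ≤ C := by
  classical
  have := D.isTotallyComplex
  set 𝔫 : Ideal (𝓞 F) := Ideal.span {(3 : 𝓞 F)} with h𝔫
  have h0 : 𝔫 ≠ ⊥ := by simp [h𝔫]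
  obtain ⟨S, c, R, hS, hc, -, hcov⟩ := exists_siegel h0
  choose C hC using fun q : Cosets 𝔫 => exists_G0_bound_siegel (D := D) (cv := cv) q.out hc
  refine ⟨∑ q ∈ hS.toFinset, |C q|, fun x g => ?_⟩
  obtain ⟨γ, hγS, hγx⟩ := hcov (x, (g : Cosets 𝔫))
  induction γ using QuotientGroup.induction_on with | H γ => ?_
  change (infAct γ x, rationalMat γ • (g : Cosets 𝔫)).2 ∈ S at hγS
  change (infAct γ x, rationalMat γ • (g : Cosets 𝔫)).1 ∈ siegelInf c R at hγx
  set q : Cosets 𝔫 := rationalMat γ • (g : Cosets 𝔫)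
  have hq : ((q.out : GAf F) : Cosets 𝔫) = ((rationalMat γ * g : GAf F) : Cosets 𝔫) :=
    QuotientGroup.out_eq' q
  rw [QuotientGroup.eq] at hq
  have hinv : ∀ k ∈ levelGroup 𝔫, ∀ g', D.G0 cv (infAct γ x) (g' * k) = D.G0 cv (infAct γ x) g' := by
    intro k hk
    obtain ⟨k₁, hk₁, n, hn, rfl⟩ := Subgroup.mem_sup_of_normal_right.1 hk
    rw [Matrix.GeneralLinearGroup.center_eq_range_scalar] at hn
    obtain ⟨a, rfl⟩ := hn
    intro g'
    rw [scalar_eq_upperTri, ← mul_assoc, G0_central, G0_level three_level hk₁]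
  have key : D.G0 cv x g = D.G0 cv (infAct γ x) q.out := by
    rw [← hinv _ hq q.out, mul_inv_cancel_left, G0_rational]
  rw [key]
  refine (hC q _ fun w => (hγx w).2.1).trans ((le_abs_self _).trans ?_)
  exact Finset.single_le_sum (f := fun q => |C q|) (fun _ _ => abs_nonneg _) (hS.mem_toFinset.2 hγS)

theorem isSph0_G0 (w : InfinitePlace F) (x : XInf F) (g : GAf F) :
    letI := Classical.decEq (InfinitePlace F)
    H3.IsSph0 fun P => D.G0 cv (Function.update x w P) g := by
  classical
  have := D.isTotallyComplex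
  intro P ε hε
  set d := (D.exists_dec g).some
  set V := D.VT cv (D.resT3 d.k)
  set A := adDv d.a
  set Mi := (upperTri d.q d.c 1)⁻¹
  choose r hr hrt using infAct_upper_t Mi (by
    simp only [Mi]; rw [upper_inv_eq]; simp [upperTri])
  let y : H3 → XInf F := fun Q => infAct Mi (Function.update x w Q)
  have hy : Continuous y :=
    (continuous_infAct _).comp (continuous_const.update w continuous_id)
  have hterm : ∀ ν, H3.IsSph0 fun Q => D.term A V 0 (y Q) ν := by
    intro ν
    set μ : F := (ν : F) * (-3)⁻¹ * ((d.q⁻¹ : Fˣ) : F)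
    have hμ : w.embedding μ ≠ 0 := (map_ne_zero _).2
      (mul_ne_zero (mul_ne_zero ν.ne_zero (inv_ne_zero (by norm_num))) d.q⁻¹.ne_zero)
    set k : ℂ := D.coefR (D.freqDv A ν) * (((Real.sqrt (ndeg (D.freqDv A ν)))⁻¹ : ℝ) : ℂ) *
      V (D.resT (ν : F)) * ph (-((0 : F) * (ν : F)) * (-3)⁻¹) *
      (ph ((ν : F) * (-3)⁻¹ * -(((d.q⁻¹ : Fˣ) : F) * d.c)) *
        ((‖w.embedding μ‖ : ℂ) * ∏ u ∈ Finset.univ.erase w,
          ((‖u.embedding μ‖ : ℂ) * H3.wave (u.embedding μ) (x u))))
    have e : (fun Q => D.term A V 0 (y Q) ν) = fun Q => k * H3.wave (w.embedding μ) Q := by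
      funext Q
      simp only [term, y, Mi, upper_inv_eq, D.waveProd_upper]
      rw [waveProd, ← Finset.mul_prod_erase _ _ (Finset.mem_univ w), Function.update_self,
        Finset.prod_congr rfl fun u hu => by rw [Function.update_of_ne (Finset.ne_of_mem_erase hu)]]
      simp only [k]
      ring
    rw [e]
    exact (H3.isSph0_wave _ hμ).const_mul k
  -- a lower bound for the heights on the ball
  set rest := Finset.univ.image fun u => r u * min (x u).t (P.t * Real.exp (-ε))
  obtain ⟨c, hcmem, hcle⟩ : ∃ c ∈ rest, ∀ z ∈ rest, c ≤ z :=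
    ⟨rest.min' (Finset.univ_nonempty.image _), rest.min'_mem _, fun z hz => rest.min'_le z hz⟩
  have hc : 0 < c := by
    obtain ⟨u, -, rfl⟩ := Finset.mem_image.1 hcmem
    exact mul_pos (hr u) (lt_min (x u).t_pos (mul_pos P.t_pos (Real.exp_pos _)))
  obtain ⟨b, hb, hbd⟩ := D.exists_term_majorant A V hc
  have hball : ∀ Q ∈ H3.ball P ε, ∀ ν, ‖D.term A V 0 (y Q) ν‖ ≤ b ν := by
    intro Q hQ
    refine hbd 0 _ fun u => ?_
    refine (hcle _ (Finset.mem_image_of_mem _ (Finset.mem_univ u))).trans ?_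
    simp only [y, hrt]
    refine mul_le_mul_of_nonneg_left ?_ (hr u).le
    rcases eq_or_ne u w with rfl | hu
    · rw [Function.update_self]
      rw [← H3.preimage_ballSet P hε.le] at hQ
      exact (min_le_right _ _).trans hQ.1.1
    · rw [Function.update_of_ne hu]
      exact min_le_left _ _
  have : IsFiniteMeasure (H3.vol.restrict (H3.ball P ε)) :=
    ⟨by rw [Measure.restrict_apply_univ]; exact H3.ball_volume_lt_top P hε.le⟩
  have hm : MeasurableSet (H3.ball P ε) := by
    rw [← H3.preimage_ballSet P hε.le]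
    exact H3.measurable_coords (H3.isCompact_ballSet P ε).measurableSet
  have hA := tfree_adDv (D := D) d.hT
  have : Countable F := (Module.Free.chooseBasis ℚ F).equivFun.injective.countable
  have : Countable Fˣ := Units.val_injective.countable
  simp only [G0_eq d, Dec.value]
  have hI := hasSum_integral_of_dominated_convergence
    (μ := H3.vol.restrict (H3.ball P ε))
    (F := fun ν Q => D.term A V 0 (y Q) ν) (f := fun Q => D.theta A V 0 (y Q))
    (fun ν _ => b ν) (fun ν => ((continuous_term hA V 0 ν).comp hy).aestronglyMeasurable)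
    (fun ν => ae_restrict_of_forall_mem hm fun Q hQ => hball Q hQ ν)
    (Filter.Eventually.of_forall fun _ => hb) (integrable_const _)
    (Filter.Eventually.of_forall fun Q => hasSum_theta hA V 0 (y Q))
  exact hI.unique (((hasSum_theta hA V 0 (y P)).mul_left (H3.sph0 ε : ℂ)).congr_fun fun ν =>
    hterm ν P ε hε)

/-- An expansion from the expansions of all the slices. -/
theorem hasExpansion_of_slices {K : Type*} [Field K] [NumberField K]
    {φ : XInf K → GAf K → ℂ} (hrat : ∀ γ x g, φ (infAct γ x) (rationalMat γ * g) = φ x g)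
    (h : ∀ g, ∃ a : Kˣ → ℂ, ∀ x, HasSum (fun ν : Kˣ => a ν * waveProd (ν : K) x) (φ x g)) :
    ∃ W, HasExpansion φ W := by
  choose a hexp using h
  refine ⟨fun g => a g 1, fun x g => ?_⟩
  refine (hexp g x).congr_fun fun ν => ?_
  congr 1
  set h := rationalMat (upperTri ν 0 1) * g with hh
  have h2 : ∀ y, HasSum (fun lam : Kˣ => a h (lam * ν⁻¹) * waveProd (lam : K) y) (φ y g) := fun y => by
    have h3 := hexp h (infAct (upperTri ν 0 1) y)
    rw [hh, hrat] at h3
    refine ((Equiv.mulRight ν⁻¹).hasSum_iff.mpr h3).congr_fun fun lam => ?_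
    simp only [Function.comp_apply, Equiv.coe_mulRight, waveProd_infAct_diag]
    rw [Units.val_mul, mul_assoc, Units.inv_mul, mul_one]
  have h4 := expansion_unique h2 (hexp g) ν
  rwa [mul_inv_cancel] at h4

theorem G0_expansion : ∃ W, HasExpansion (D.G0 cv) W := by
  refine hasExpansion_of_slices G0_rational fun g => ?_
  set d := (D.exists_dec g).some
  set κ : Fˣ := Units.mk0 ((-3 : F)⁻¹ * ((d.q⁻¹ : Fˣ) : F))
    (mul_ne_zero (inv_ne_zero (by norm_num)) d.q⁻¹.ne_zero)
  refine ⟨fun μ => D.coefR (D.freqDv (adDv d.a) (μ * κ⁻¹ : Fˣ)) *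
    (((Real.sqrt (ndeg (D.freqDv (adDv d.a) (μ * κ⁻¹ : Fˣ))))⁻¹ : ℝ) : ℂ) *
    D.VT cv (D.resT3 d.k) (D.resT ((μ * κ⁻¹ : Fˣ) : F)) *
    ph (((μ * κ⁻¹ : Fˣ) : F) * (-3)⁻¹ * -(((d.q⁻¹ : Fˣ) : F) * d.c)), fun x => ?_⟩
  rw [G0_eq d, Dec.value, upper_inv_eq]
  rw [← (Equiv.mulRight κ).hasSum_iff]
  refine (hasSum_theta (tfree_adDv d.hT) _ 0 _).congr_fun fun ν => ?_
  simp only [Function.comp_apply, Equiv.coe_mulRight, mul_inv_cancel_right, term, D.waveProd_upper,
    zero_mul, neg_zero, ph_zero, mul_one]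
  rw [show ((ν * κ : Fˣ) : F) = (ν : F) * (-3)⁻¹ * ((d.q⁻¹ : Fˣ) : F) by simp [κ, mul_assoc]]
  ring

/-- The form of level `3` is a cusp function. -/
theorem G0_isCuspFn : IsCuspFn (Ideal.span {(3 : 𝓞 F)}) (D.G0 cv) where
  rational := G0_rational
  central := G0_central
  level _ hk := G0_level three_level hk
  continuous := continuous_G0
  bounded := G0_bounded
  sph0 := isSph0_G0
  expansion := G0_expansion

end FermatAgent.LT.Dihedral.DihedralData
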