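import Fermat.Agent.LT.Dihedral.ThetaMove

/-!
# The recursion of the coefficients at a prime outside `3`, and the eigenvalue
-/

set_option autoImplicit false
set_option maxHeartbeats 400000

noncomputable section

open NumberField IsDedekindDomain
open scoped nonZeroDivisors

namespace FermatAgent.LT.Dihedral.DihedralData

open QuadData

variable {F : Type} [Field F] [NumberField F] {D : DihedralData F}

lemma coefR_eq_zero {E : Dv F} (h : ¬ (0 ≤ E ∧ D.TFree E)) : D.coefR E = 0 :=
  not_not.1 fun h0 => h (D.coefR_ne_zero h0)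

lemma coefR_eq_sum (E : Dv F) :
    D.coefR E = ∑ J ∈ (D.finite_normFibre E).toFinset, D.ξc J := by
  rw [coefR, finsum_mem_eq_finite_toFinset_sum]

lemma coefR_zero : D.coefR 0 = 1 := by
  rw [coefR, show D.normFibre 0 = {0} from ?_, finsum_mem_singleton, ξc_zero]
  refine Set.eq_singleton_iff_unique_mem.2 ⟨⟨le_rfl, fun i => rfl, by simp⟩, fun J hJ => ?_⟩
  refine le_antisymm (fun P => ?_) hJ.1
  have h := DFunLike.congr_fun hJ.2.2 P
  rw [Finsupp.add_apply, conjDv_apply, map_zero, Finsupp.zero_apply] at h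
  have := hJ.1 (D.conjP P)
  rw [Finsupp.zero_apply] at this ⊢
  omega

lemma ξc_single_natCast (P : HeightOneSpectrum (𝓞 D.M)) (j : ℕ) :
    D.ξc (Finsupp.single P (j : ℤ)) = (D.ξu P : ℂ) ^ j := by
  induction j with
  | zero => simp [ξc_zero]
  | succ j ih => rw [Nat.cast_succ, Finsupp.single_add, ξc_add, ih, ξc_single, pow_succ]

lemma tfreeM_single {P : HeightOneSpectrum (𝓞 D.M)} (h : ¬ D.InT (D.below P)) (n : ℤ) :
    D.TFreeM (Finsupp.single P n) := fun i => by
  classical
  rw [Finsupp.single_apply, if_neg]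
  rintro rfl
  exact h ⟨i, D.below_P i⟩

lemma fibre_above {E : Dv F} {q : HeightOneSpectrum (𝓞 F)} (hq : E q = 0) {J : Dv D.M}
    (hJ : J ∈ D.normFibre E) {Q : HeightOneSpectrum (𝓞 D.M)} (hQ : D.below Q = q) : J Q = 0 := by
  have h := DFunLike.congr_fun hJ.2.2 Q
  rw [Finsupp.add_apply, conjDv_apply, extDv_apply, hQ, hq, mul_zero] at h
  have h1 := hJ.1 Q
  have h2 := hJ.1 (D.conjP Q)
  rw [Finsupp.zero_apply] at h1 h2
  omega

/-- The coefficient at a split prime power times a divisor prime to it. -/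
lemma coefR_split {P : HeightOneSpectrum (𝓞 D.M)} (hT : ¬ D.InT (D.below P))
    (hne : D.conjP P ≠ P)
    (hsp : D.mapI (D.below P).asIdeal = P.asIdeal * (D.conjP P).asIdeal)
    {E : Dv F} (hE : E (D.below P) = 0) (n : ℕ) :
    D.coefR (E + Finsupp.single (D.below P) (n : ℤ)) =
      (∑ j ∈ Finset.range (n + 1), (D.ξu P : ℂ) ^ j * (D.ξu (D.conjP P) : ℂ) ^ (n - j)) *
        D.coefR E := by
  classical
  rw [coefR_eq_sum, coefR_eq_sum, Finset.sum_mul_sum, ← Finset.sum_product']
  have hn : extDv (L := D.M) (Finsupp.single (D.below P) (n : ℤ)) =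
      Finsupp.single P (n : ℤ) + Finsupp.single (D.conjP P) (n : ℤ) := by
    rw [show Finsupp.single (D.below P) (n : ℤ) = (n : ℤ) • Finsupp.single (D.below P) 1 by simp,
      map_zsmul, extDv_split hsp, smul_add, Finsupp.smul_single, Finsupp.smul_single,
      smul_eq_mul, mul_one]
  refine Finset.sum_nbij'
    (i := fun J => ((J P).toNat, (J.erase P).erase (D.conjP P)))
    (j := fun p => p.2 + Finsupp.single P (p.1 : ℤ) + Finsupp.single (D.conjP P) ((n - p.1 : ℕ) : ℤ))
    ?_ ?_ ?_ ?_ ?_
  · intro J hJ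
    rw [Set.Finite.mem_toFinset] at hJ
    have hsum : J P + J (D.conjP P) = n := by
      have h := DFunLike.congr_fun hJ.2.2 P
      rw [Finsupp.add_apply, conjDv_apply, extDv_apply, D.ram_eq_one hT, one_mul,
        Finsupp.add_apply, hE, zero_add, Finsupp.single_eq_same] at h
      exact h
    have h1 := hJ.1 P
    have h2 := hJ.1 (D.conjP P)
    rw [Finsupp.zero_apply] at h1 h2
    refine Finset.mem_product.2 ⟨Finset.mem_range.2 (by omega), ?_⟩
    rw [Set.Finite.mem_toFinset]
    refine ⟨fun Q => ?_, fun i => ?_, Finsupp.ext fun Q => ?_⟩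
    · rw [Finsupp.erase_apply, Finsupp.erase_apply]
      split_ifs <;> first | exact le_rfl | exact hJ.1 Q
    · rw [Finsupp.erase_apply, Finsupp.erase_apply]
      split_ifs <;> first | rfl | exact hJ.2.1 i
    · have h := DFunLike.congr_fun hJ.2.2 Q
      rw [Finsupp.add_apply, conjDv_apply, extDv_apply, Finsupp.add_apply] at h
      simp only [Finsupp.add_apply, conjDv_apply, extDv_apply, Finsupp.erase_apply]
      by_cases hb : D.below Q = D.below P
      · rcases D.eq_or_eq_conjP hb with rfl | rfl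
        · simp [hE]
        · simp [D.conjP_conjP, hE, D.below_conjP]
      · have h3 : Q ≠ P := fun he => hb (he ▸ rfl)
        have h4 : Q ≠ D.conjP P := fun he => hb (he ▸ D.below_conjP P)
        have h5 : D.conjP Q ≠ P := fun he => hb (by rw [← he, D.below_conjP])
        have h6 : D.conjP Q ≠ D.conjP P := fun he => h3 (D.conjP.injective he)
        rw [Finsupp.single_eq_of_ne hb, add_zero] at h
        simpa [h3, h4, h5, h6] using h
  · intro p hp
    rw [Finset.mem_product, Finset.mem_range, Set.Finite.mem_toFinset] at hp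
    rw [Set.Finite.mem_toFinset]
    obtain ⟨hp1, hp2⟩ := hp
    refine ⟨?_, ?_, ?_⟩
    · refine add_nonneg (add_nonneg hp2.1 ?_) ?_ <;>
        exact Finsupp.single_nonneg.2 (by positivity)
    · intro i
      rw [Finsupp.add_apply, Finsupp.add_apply, hp2.2.1 i, tfreeM_single hT _ i,
        tfreeM_single (by rwa [D.below_conjP]) _ i]
      rfl
    · rw [map_add, map_add, map_add, conjDv_single, conjDv_single, D.conjP_conjP, hn,
        ← hp2.2.2]
      have : ((n - p.1 : ℕ) : ℤ) = (n : ℤ) - p.1 := by omega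
      rw [this, Finsupp.single_sub, Finsupp.single_sub]
      abel
  · intro J hJ
    rw [Set.Finite.mem_toFinset] at hJ
    have h := DFunLike.congr_fun hJ.2.2 P
    rw [Finsupp.add_apply, conjDv_apply, extDv_apply, D.ram_eq_one hT, one_mul,
      Finsupp.add_apply, hE, zero_add, Finsupp.single_eq_same] at h
    have h1 := hJ.1 P
    have h2 := hJ.1 (D.conjP P)
    rw [Finsupp.zero_apply] at h1 h2
    refine Finsupp.ext fun Q => ?_
    simp only [Finsupp.add_apply, Finsupp.erase_apply, Finsupp.single_apply]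
    rcases eq_or_ne Q P with rfl | h3
    · simp [Ne.symm hne, hne]
      omega
    rcases eq_or_ne Q (D.conjP P) with rfl | h4
    · simp [Ne.symm hne]
      omega
    simp [h3, h4, Ne.symm h3, Ne.symm h4]
  · intro p hp
    rw [Finset.mem_product, Finset.mem_range, Set.Finite.mem_toFinset] at hp
    have h1 := fibre_above hE hp.2 (rfl : D.below P = _)
    have h2 := fibre_above hE hp.2 (D.below_conjP P)
    refine Prod.ext ?_ (Finsupp.ext fun Q => ?_)
    · simp [h1, hne]
    · simp only [Finsupp.erase_apply, Finsupp.add_apply, Finsupp.single_apply]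
      split_ifs <;> simp_all
  · intro J hJ
    rw [Set.Finite.mem_toFinset] at hJ
    have h := DFunLike.congr_fun hJ.2.2 P
    rw [Finsupp.add_apply, conjDv_apply, extDv_apply, D.ram_eq_one hT, one_mul,
      Finsupp.add_apply, hE, zero_add, Finsupp.single_eq_same] at h
    have h1 := hJ.1 P
    have h2 := hJ.1 (D.conjP P)
    rw [Finsupp.zero_apply] at h1 h2
    have hJe : J = ((J.erase P).erase (D.conjP P)) + Finsupp.single P ((J P).toNat : ℤ) +
        Finsupp.single (D.conjP P) ((n - (J P).toNat : ℕ) : ℤ) := by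
      refine Finsupp.ext fun Q => ?_
      simp only [Finsupp.add_apply, Finsupp.erase_apply, Finsupp.single_apply]
      rcases eq_or_ne Q P with rfl | h3
      · simp [Ne.symm hne, hne]
        omega
      rcases eq_or_ne Q (D.conjP P) with rfl | h4
      · simp [Ne.symm hne]
        omega
      simp [h3, h4, Ne.symm h3, Ne.symm h4]
    conv_lhs => rw [hJe, ξc_add, ξc_add, ξc_single_natCast, ξc_single_natCast]
    ring

/-- The coefficient at an inert prime power times a divisor prime to it. -/
lemma coefR_inert {P : HeightOneSpectrum (𝓞 D.M)} (hT : ¬ D.InT (D.below P))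
    (hc : D.conjP P = P) (hin : D.mapI (D.below P).asIdeal = P.asIdeal)
    {E : Dv F} (hE : E (D.below P) = 0) (n : ℕ) :
    D.coefR (E + Finsupp.single (D.below P) (n : ℤ)) =
      (if Even n then (-1 : ℂ) ^ (n / 2) else 0) * D.coefR E := by
  classical
  have hξ : (D.ξu P : ℂ) = -1 := by
    rw [D.coe_ξu hT, ← hin]
    exact (D.ξ_base _ fun i hi => hT ⟨i, hi⟩).1 (by rw [mapI] at hin; rw [hin]; exact P.isPrime)
  have hkey : ∀ J ∈ D.normFibre (E + Finsupp.single (D.below P) (n : ℤ)), 2 * J P = n := by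
    intro J hJ
    have h := DFunLike.congr_fun hJ.2.2 P
    rw [Finsupp.add_apply, conjDv_apply, hc, extDv_apply, D.ram_eq_one hT, one_mul,
      Finsupp.add_apply, hE, zero_add, Finsupp.single_eq_same] at h
    rw [two_mul]
    exact h
  split_ifs with hn
  · obtain ⟨m, rfl⟩ := hn
    rw [coefR_eq_sum, coefR_eq_sum, Finset.mul_sum]
    refine Finset.sum_nbij' (i := fun J => J.erase P)
      (j := fun J' => J' + Finsupp.single P (m : ℤ)) ?_ ?_ ?_ ?_ ?_
    · intro J hJ
      rw [Set.Finite.mem_toFinset] at hJ ⊢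
      refine ⟨fun Q => ?_, fun i => ?_, Finsupp.ext fun Q => ?_⟩
      · rw [Finsupp.erase_apply]; split_ifs <;> first | exact le_rfl | exact hJ.1 Q
      · rw [Finsupp.erase_apply]; split_ifs <;> first | rfl | exact hJ.2.1 i
      · have h := DFunLike.congr_fun hJ.2.2 Q
        rw [Finsupp.add_apply, conjDv_apply, extDv_apply, Finsupp.add_apply] at h
        simp only [Finsupp.add_apply, conjDv_apply, extDv_apply, Finsupp.erase_apply]
        by_cases hb : D.below Q = D.below P
        · rcases D.eq_or_eq_conjP hb with rfl | rfl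
          · simp [hc, hE]
          · simp [hc, hE]
        · have h3 : Q ≠ P := fun he => hb (he ▸ rfl)
          have h5 : D.conjP Q ≠ P := fun he => hb (by rw [← he, D.below_conjP])
          rw [Finsupp.single_eq_of_ne hb, add_zero] at h
          simpa [h3, h5] using h
    · intro J' hJ'
      rw [Set.Finite.mem_toFinset] at hJ' ⊢
      refine ⟨add_nonneg hJ'.1 (Finsupp.single_nonneg.2 (by positivity)), fun i => ?_, ?_⟩
      · rw [Finsupp.add_apply, hJ'.2.1 i, tfreeM_single hT _ i, add_zero]
      · rw [map_add, map_add, conjDv_single, hc,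
          show Finsupp.single (D.below P) ((m + m : ℕ) : ℤ) =
            ((m + m : ℕ) : ℤ) • Finsupp.single (D.below P) 1 by simp, map_zsmul, extDv_inert hin,
          ← hJ'.2.2, Finsupp.smul_single, smul_eq_mul, mul_one, Nat.cast_add, Finsupp.single_add]
        abel
    · intro J hJ
      rw [Set.Finite.mem_toFinset] at hJ
      have := hkey J hJ
      refine Finsupp.ext fun Q => ?_
      simp only [Finsupp.add_apply, Finsupp.erase_apply, Finsupp.single_apply]
      rcases eq_or_ne Q P with rfl | h3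
      · simp; omega
      · simp [h3, Ne.symm h3]
    · intro J' hJ'
      rw [Set.Finite.mem_toFinset] at hJ'
      have h1 := fibre_above hE hJ' (rfl : D.below P = _)
      refine Finsupp.ext fun Q => ?_
      simp only [Finsupp.erase_apply, Finsupp.add_apply, Finsupp.single_apply]
      split_ifs <;> simp_all
    · intro J hJ
      rw [Set.Finite.mem_toFinset] at hJ
      have := hkey J hJ
      have hJe : J = J.erase P + Finsupp.single P (m : ℤ) := by
        rw [show (m : ℤ) = J P by omega, Finsupp.erase_add_single]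
      rw [show (m + m) / 2 = m by omega]
      conv_lhs => rw [hJe, ξc_add, ξc_single_natCast, hξ]
      ring
  · rw [zero_mul, coefR, show D.normFibre _ = ∅ from Set.eq_empty_of_forall_notMem fun J hJ => hn
      (by have := hkey J hJ; rw [Nat.even_iff]; omega), finsum_mem_empty]

/-- The recursion of the coefficients. -/
theorem coefR_recursion {q : HeightOneSpectrum (𝓞 F)} (hq : ¬ D.InT q) (E : Dv F) :
    (if 0 ≤ E q then D.coefR (E + Finsupp.single q 1) else 0) +
        D.coefR (E - Finsupp.single q 1) =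
      D.coefR (Finsupp.single q 1) * D.coefR E := by
  classical
  by_cases hgood : 0 ≤ E ∧ D.TFree E
  swap
  · rw [coefR_eq_zero hgood, mul_zero]
    have h1 : D.coefR (E - Finsupp.single q 1) = 0 := coefR_eq_zero fun h => hgood
      ⟨h.1.trans (sub_le_self _ (Finsupp.single_nonneg.2 zero_le_one)), fun i => by
        have := h.2 i
        rwa [Finsupp.sub_apply, Finsupp.single_eq_of_ne (fun he => hq ⟨i, he.symm⟩), sub_zero]
          at this⟩
    rw [h1, add_zero]
    split_ifs with h0
    · refine coefR_eq_zero fun h => hgood ⟨fun v => ?_, fun i => ?_⟩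
      · rcases eq_or_ne v q with rfl | hv
        · exact h0
        · have := h.1 v
          rwa [Finsupp.add_apply, Finsupp.single_eq_of_ne hv, add_zero] at this
      · have := h.2 i
        rwa [Finsupp.add_apply, Finsupp.single_eq_of_ne (fun he => hq ⟨i, he.symm⟩), add_zero]
          at this
    · rfl
  have hEq : 0 ≤ E q := by simpa using hgood.1 q
  obtain ⟨n, hn⟩ := Int.eq_ofNat_of_zero_le hEq
  obtain ⟨E', hE'⟩ : ∃ E', E' = E.erase q := ⟨_, rfl⟩
  have hE0 : E' q = 0 := by rw [hE', Finsupp.erase_same]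
  have hsplit : E = E' + Finsupp.single q (n : ℤ) := by rw [hE', ← hn, Finsupp.erase_add_single]
  rw [if_pos hEq]
  obtain ⟨P, rfl, ⟨hc, hin⟩ | ⟨hne, hsp⟩⟩ := D.prime_cases hq
  · have hL := fun m => coefR_inert hq hc hin hE0 m
    have h1 : D.coefR (Finsupp.single (D.below P) 1) = 0 := by
      have h := coefR_inert hq hc hin (E := 0) rfl 1
      simpa using h
    rw [h1, zero_mul, hsplit, add_assoc, ← Finsupp.single_add,
      show (n : ℤ) + 1 = ((n + 1 : ℕ) : ℤ) by simp, hL]
    rcases n with - | k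
    · rw [coefR_eq_zero (E := E' + Finsupp.single (D.below P) ((0 : ℕ) : ℤ) -
          Finsupp.single (D.below P) 1) fun h => by
        have := h.1 (D.below P)
        simp [hE0] at this]
      simp
    · rw [add_sub_assoc, ← Finsupp.single_sub, show ((k + 1 : ℕ) : ℤ) - 1 = (k : ℤ) by simp, hL]
      rcases Nat.even_or_odd k with hk | hk
      · rw [if_pos (show Even (k + 1 + 1) by simpa [Nat.even_add_one] using hk), if_pos hk,
          show (k + 1 + 1) / 2 = k / 2 + 1 by omega, pow_succ]
        ring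
      · have hk' : ¬ Even k := Nat.not_even_iff_odd.2 hk
        rw [if_neg (show ¬ Even (k + 1 + 1) by simpa [Nat.even_add_one] using hk'), if_neg hk']
        ring
  · have hts : (D.ξu P : ℂ) * (D.ξu (D.conjP P) : ℂ) = 1 := by
      rw [← ξc_single, ← ξc_single, ← conjDv_single, ξc_conj, mul_inv_cancel₀ (D.ξc_ne_zero _)]
    have hL := fun m => coefR_split hq hne hsp hE0 m
    have h1 : D.coefR (Finsupp.single (D.below P) 1) =
        (D.ξu (D.conjP P) : ℂ) + (D.ξu P : ℂ) := by
      have h := coefR_split hq hne hsp (E := 0) rfl 1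
      simpa [coefR_zero, Finset.sum_range_succ] using h
    rw [h1, hsplit, add_assoc E' (Finsupp.single _ _), ← Finsupp.single_add,
      show (n : ℤ) + 1 = ((n + 1 : ℕ) : ℤ) by simp, hL, hL]
    set t : ℂ := (D.ξu P : ℂ)
    set s : ℂ := (D.ξu (D.conjP P) : ℂ)
    set L : ℕ → ℂ := fun m => ∑ j ∈ Finset.range (m + 1), t ^ j * s ^ (m - j) with hLdef
    have hLr : ∀ m, L (m + 1) = t ^ (m + 1) + s * L m := fun m => by
      simp only [hLdef]
      rw [Finset.sum_range_succ, Nat.sub_self, pow_zero, mul_one, Finset.mul_sum, add_comm]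
      congr 1
      refine Finset.sum_congr rfl fun j hj => ?_
      rw [Finset.mem_range] at hj
      rw [show m + 1 - j = m - j + 1 by omega, pow_succ]
      ring
    rcases n with - | k
    · rw [coefR_eq_zero (E := E' + Finsupp.single (D.below P) ((0 : ℕ) : ℤ) -
          Finsupp.single (D.below P) 1) fun h => by
        have := h.1 (D.below P)
        simp [hE0] at this]
      simp only [zero_add, Finset.sum_range_succ, Finset.sum_range_zero, Nat.sub_self,
        pow_zero, pow_one, mul_one, one_mul, add_zero, Nat.sub_zero]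
    · rw [add_sub_assoc, ← Finsupp.single_sub, show ((k + 1 : ℕ) : ℤ) - 1 = (k : ℤ) by simp, hL]
      show L (k + 1 + 1) * _ + L k * _ = _ * (L (k + 1) * _)
      rw [hLr (k + 1)]
      linear_combination (-(L k) * D.coefR E') * hts - (t * D.coefR E') * hLr k

lemma idealDv_injective {K : Type*} [Field K] [NumberField K] {I J : Ideal (𝓞 K)} (hI : I ≠ ⊥)
    (hJ : J ≠ ⊥) (h : idealDv I = idealDv J) : I = J := by
  have he : (I : FractionalIdeal (𝓞 K)⁰ K) = (J : FractionalIdeal (𝓞 K)⁰ K) := by
    rw [← fid_idealDv hI, ← fid_idealDv hJ, h]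
  exact FractionalIdeal.coeIdeal_injective he

/-- The coefficient at a prime, in terms of ideals. -/
theorem coefR_eq_coeff {q : HeightOneSpectrum (𝓞 F)} (hq : ¬ D.InT q) :
    D.coefR (Finsupp.single q 1) = D.coeff q.asIdeal := by
  classical
  have hiff : ∀ J : Ideal (𝓞 D.M), J ≠ ⊥ →
      (J * J.map D.σO = D.mapI q.asIdeal ↔
        idealDv J + D.conjDv (idealDv J) = extDv (Finsupp.single q 1)) := by
    intro J hJ
    have hJ' : J.map D.σO ≠ ⊥ :=
      fun h => hJ ((Ideal.map_eq_bot_iff_of_injective D.σO.injective).1 h)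
    rw [← idealDv_map_σO hJ, ← idealDv_mul hJ hJ', ← idealDv_prime, ← idealDv_map q.ne_bot]
    exact ⟨fun h => by rw [h], idealDv_injective (mul_ne_zero hJ hJ') (map_ne_bot_ext q.ne_bot)⟩
  have hne : ∀ J : Ideal (𝓞 D.M), J * J.map D.σO = D.mapI q.asIdeal → J ≠ ⊥ := fun J h h0 => by
    rw [h0, Ideal.bot_mul] at h
    exact map_ne_bot_ext q.ne_bot h.symm
  have hTF : ∀ J ∈ D.normFibre (Finsupp.single q 1), ∀ Q, J Q ≠ 0 → ¬ D.InT (D.below Q) := by
    rintro J hJ Q hQ ⟨i, hi⟩
    rw [D.eq_P_of_below hi] at hQ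
    exact hQ (hJ.2.1 i)
  rw [coefR, coeff]
  rw [← finsum_set_coe_eq_finsum_mem]
  symm
  refine finsum_eq_of_bijective (fun J => ⟨idealDv J.1, ?_⟩) ⟨?_, ?_⟩ ?_
  · refine ⟨idealDv_nonneg _, fun i => ?_, (hiff _ (hne _ J.2)).1 J.2⟩
    have h := DFunLike.congr_fun ((hiff _ (hne _ J.2)).1 J.2) (D.P i)
    rw [Finsupp.add_apply, conjDv_apply, D.conjP_P, extDv_apply, D.below_P,
      Finsupp.single_eq_of_ne fun he => hq ⟨i, he.symm⟩, mul_zero] at h
    omega
  · exact fun J J' h => Subtype.ext (idealDv_injective (hne _ J.2) (hne _ J'.2)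
      (congrArg Subtype.val h))
  · rintro ⟨J, hJ⟩
    obtain ⟨I, hI, rfl⟩ := exists_idealDv_eq hJ.1
    exact ⟨⟨I, (hiff I hI).2 hJ.2.2⟩, rfl⟩
  · intro J
    show D.ξ J.1 = D.ξc (idealDv J.1)
    refine (D.ξc_idealDv ?_).symm
    by_contra hcon
    obtain ⟨m, hm, hle⟩ := Ideal.exists_le_maximal _ hcon
    have h3 : (3 : 𝓞 D.M) ∈ m := hle (Ideal.mem_sup_right (Ideal.mem_span_singleton_self _))
    obtain ⟨I, hI⟩ := J
    have hI' : I * I.map D.σO = D.mapI q.asIdeal := hI
    have hIm : I ≤ m := le_trans le_sup_left hle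
    have hle' : D.mapI q.asIdeal ≤ m := by
      rw [← hI']
      exact le_trans Ideal.mul_le_left hIm
    refine hq (D.inT_of_three_mem ?_)
    by_contra h3q
    obtain ⟨y, hy⟩ := exists_inv_mod q h3q
    have h4 : algebraMap (𝓞 F) (𝓞 D.M) (3 * y - 1) ∈ m := hle' (Ideal.mem_map_of_mem _ hy)
    rw [map_sub, map_mul, map_ofNat, map_one] at h4
    exact hm.ne_top ((Ideal.eq_top_iff_one _).2 (by
      simpa using sub_mem (Ideal.mul_mem_right (algebraMap (𝓞 F) (𝓞 D.M) y) m h3) h4))

end FermatAgent.LT.Dihedral.DihedralData
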