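import Fermat.Agent.LT.Dihedral.Quad
import Fermat.Agent.LT.Dihedral.Approx

/-!
# The primes of `M` over those of `F`, and conjugation on divisors
-/

set_option autoImplicit false

noncomputable section

open NumberField IsDedekindDomain
open scoped nonZeroDivisors

namespace FermatAgent.LT.Dihedral.QuadData

variable {F : Type} [Field F] [NumberField F] (D : QuadData F)

/-- The prime of `F` below a prime of `M`. -/
def below (P : HeightOneSpectrum (𝓞 D.M)) : HeightOneSpectrum (𝓞 F) :=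
  P.under (𝓞 F)

lemma below_asIdeal (P : HeightOneSpectrum (𝓞 D.M)) :
    (D.below P).asIdeal = P.asIdeal.comap (algebraMap (𝓞 F) (𝓞 D.M)) := rfl

lemma idealDv_map_apply (q : HeightOneSpectrum (𝓞 F)) (P : HeightOneSpectrum (𝓞 D.M)) :
    (1 ≤ idealDv (q.asIdeal.map (algebraMap (𝓞 F) (𝓞 D.M))) P ↔ D.below P = q) ∧
      0 ≤ idealDv (q.asIdeal.map (algebraMap (𝓞 F) (𝓞 D.M))) P := by
  refine ⟨?_, idealDv_nonneg _ _⟩
  have hne := map_ne_bot_ext (L := D.M) q.ne_bot
  have h1 : 1 ≤ idealDv (q.asIdeal.map (algebraMap (𝓞 F) (𝓞 D.M))) P ↔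
      q.asIdeal.map (algebraMap (𝓞 F) (𝓞 D.M)) ≤ P.asIdeal := by
    constructor
    · intro h x hx
      rcases eq_or_ne x 0 with rfl | hx0
      · exact zero_mem _
      · exact (mem_prime_iff P hx0).2 (h.trans ((idealDv_le_iff hne hx0).1 hx P))
    · intro h
      have h' := FractionalIdeal.count_mono D.M P
        (FractionalIdeal.coeIdeal_ne_zero.2 hne)
        ((FractionalIdeal.coeIdeal_le_coeIdeal _).2 h)
      rw [FractionalIdeal.count_self] at h'
      exact h'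
  rw [h1, Ideal.map_le_iff_le_comap, ← below_asIdeal]
  refine ⟨fun h => ?_, fun h => h ▸ le_rfl⟩
  exact HeightOneSpectrum.ext (q.isMaximal.eq_of_le (D.below P).isPrime.ne_top h).symm

/-- The ramification index over `F`. -/
def ram (P : HeightOneSpectrum (𝓞 D.M)) : ℤ :=
  idealDv ((D.below P).asIdeal.map (algebraMap (𝓞 F) (𝓞 D.M))) P

lemma one_le_ram (P : HeightOneSpectrum (𝓞 D.M)) : 1 ≤ D.ram P :=
  (D.idealDv_map_apply _ P).1.2 rfl

lemma idealDv_map_of_ne {q : HeightOneSpectrum (𝓞 F)} {P : HeightOneSpectrum (𝓞 D.M)}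
    (h : D.below P ≠ q) : idealDv (q.asIdeal.map (algebraMap (𝓞 F) (𝓞 D.M))) P = 0 := by
  have h1 := (D.idealDv_map_apply q P).2
  have h2 := mt (D.idealDv_map_apply q P).1.1 h
  omega

lemma extDv_apply (A : Dv F) (P : HeightOneSpectrum (𝓞 D.M)) :
    extDv (L := D.M) A P = D.ram P * A (D.below P) := by
  classical
  induction A using Finsupp.induction with
  | zero => simp
  | single_add q n E _ _ ih =>
    rw [map_add, Finsupp.add_apply, Finsupp.add_apply, ih, extDv_single, Finsupp.smul_apply,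
      Finsupp.single_apply, mul_add, smul_eq_mul]
    congr 1
    by_cases h : D.below P = q
    · subst h; simp [ram, mul_comm]
    · rw [D.idealDv_map_of_ne h, if_neg (Ne.symm h), mul_zero, mul_zero]

lemma exists_above (q : HeightOneSpectrum (𝓞 F)) : ∃ P, D.below P = q := by
  classical
  have hne := map_ne_bot_ext (L := D.M) q.ne_bot
  have hlt : q.asIdeal.map (algebraMap (𝓞 F) (𝓞 D.M)) ≠ ⊤ := by
    intro h
    have h1 := ndeg_idealDv hne
    rw [idealDv_map q.ne_bot, ndeg_extDv, D.finrank_eq, ndeg_idealDv q.ne_bot, h,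
      Ideal.absNorm_top, Nat.cast_one] at h1
    have h2 : (Ideal.absNorm q.asIdeal : ℝ) ^ 2 = 1 := h1
    have h3 : Ideal.absNorm q.asIdeal ^ 2 = 1 := by exact_mod_cast h2
    rw [Nat.pow_eq_one, or_iff_left two_ne_zero, Ideal.absNorm_eq_one_iff] at h3
    exact q.isPrime.ne_top h3
  obtain ⟨m, hm, hle⟩ := Ideal.exists_le_maximal _ hlt
  have hm0 : m ≠ ⊥ := fun h => hne (le_bot_iff.1 (h ▸ hle))
  refine ⟨⟨m, hm.isPrime, hm0⟩, ?_⟩
  exact HeightOneSpectrum.ext
    (q.isMaximal.eq_of_le (D.below ⟨m, hm.isPrime, hm0⟩).isPrime.ne_top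
      (Ideal.map_le_iff_le_comap.1 hle)).symm

/-- Conjugation of primes. -/
def conjP : HeightOneSpectrum (𝓞 D.M) ≃ HeightOneSpectrum (𝓞 D.M) :=
  HeightOneSpectrum.equivOfRingEquiv D.σO

lemma conjP_asIdeal (P : HeightOneSpectrum (𝓞 D.M)) :
    (D.conjP P).asIdeal = P.asIdeal.map D.σO :=
  (Ideal.comap_symm D.σO).symm ▸ rfl

lemma mem_conjP {P : HeightOneSpectrum (𝓞 D.M)} {x : 𝓞 D.M} :
    x ∈ (D.conjP P).asIdeal ↔ D.σO x ∈ P.asIdeal := by
  have h := D.conjP_asIdeal P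
  rw [h, Ideal.mem_map_of_equiv]
  constructor
  · rintro ⟨y, hy, rfl⟩
    rwa [D.σO_σO]
  · intro hx
    exact ⟨D.σO x, hx, D.σO_σO x⟩

lemma conjP_conjP (P : HeightOneSpectrum (𝓞 D.M)) : D.conjP (D.conjP P) = P :=
  HeightOneSpectrum.ext (Ideal.ext fun x => by rw [mem_conjP, mem_conjP, D.σO_σO])

lemma below_conjP (P : HeightOneSpectrum (𝓞 D.M)) : D.below (D.conjP P) = D.below P := by
  refine HeightOneSpectrum.ext (Ideal.ext fun x => ?_)
  simp only [below_asIdeal, Ideal.mem_comap, mem_conjP, D.σO_algebraMap]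

/-- Conjugation of divisors. -/
def conjDv : Dv D.M →+ Dv D.M := Finsupp.mapDomain.addMonoidHom D.conjP

lemma conjDv_apply (A : Dv D.M) (P : HeightOneSpectrum (𝓞 D.M)) :
    D.conjDv A P = A (D.conjP P) := by
  have : Finsupp.mapDomain D.conjP A (D.conjP (D.conjP P)) = A (D.conjP P) :=
    Finsupp.mapDomain_apply D.conjP.injective _ _
  rwa [conjP_conjP] at this

lemma ram_conjP (P : HeightOneSpectrum (𝓞 D.M)) : D.ram (D.conjP P) = D.ram P := by
  classical
  have h : ∀ Q, D.ram Q ≤ D.ram (D.conjP Q) := by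
    intro Q
    obtain ⟨x, hx, hxQ⟩ : ∃ x : 𝓞 F, x ≠ 0 ∧ dvElt (x : F) (D.below Q) = 1 := by
      obtain ⟨π, h1, h2⟩ := Set.exists_of_ssubset
        (Ideal.pow_right_strictAnti (D.below Q).asIdeal (D.below Q).ne_bot
          (D.below Q).isPrime.ne_top (show 1 < 2 by norm_num))
      simp only [SetLike.mem_coe, pow_one] at h1
      have hπ : π ≠ 0 := fun h => h2 (h ▸ zero_mem _)
      refine ⟨π, hπ, ?_⟩
      have h3 := (mem_prime_iff (D.below Q) hπ).1 h1
      have h4 : ¬ (2 : ℤ) ≤ dvElt (π : F) (D.below Q) := fun h =>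
        h2 (ordGe_pow_iff.1 (Or.inr (by exact_mod_cast h)))
      omega
    obtain ⟨n, hn⟩ := Int.eq_ofNat_of_zero_le (zero_le_one.trans (D.one_le_ram Q))
    have hxF : (x : F) ≠ 0 := RingOfIntegers.coe_ne_zero_iff.2 hx
    set y : 𝓞 D.M := algebraMap (𝓞 F) (𝓞 D.M) x
    have hval : ∀ R, D.below R = D.below Q → dvElt (y : D.M) R = D.ram R := fun R hR => by
      have : (y : D.M) = algebraMap F D.M (x : F) := rfl
      rw [this, dvElt_algebraMap hxF, extDv_apply, hR, hxQ, mul_one]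
    have hy0 : y ≠ 0 := fun h => hx (FaithfulSMul.algebraMap_injective _ _ (h.trans (map_zero _).symm))
    have hyQ : y ∈ Q.asIdeal ^ n :=
      ordGe_pow_iff.1 (Or.inr (by rw [hval Q rfl, hn]))
    have hyc : y ∈ (D.conjP Q).asIdeal ^ n := by
      have h' := D.conjP_asIdeal Q
      rw [h', ← Ideal.map_pow]
      exact (Ideal.mem_map_of_equiv _ _).2 ⟨y, hyQ, D.σO_algebraMap x⟩
    have := (ordGe_pow_iff (v := D.conjP Q) (n := n)).2 hyc
    rw [OrdGe, or_iff_right (RingOfIntegers.coe_ne_zero_iff.2 hy0),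
      hval _ (D.below_conjP Q)] at this
    omega
  refine le_antisymm ?_ (h P)
  have := h (D.conjP P)
  rwa [conjP_conjP] at this

lemma conjDv_extDv (A : Dv F) : D.conjDv (extDv A) = extDv A :=
  Finsupp.ext fun P => by rw [conjDv_apply, extDv_apply, extDv_apply, ram_conjP, below_conjP]

lemma conjDv_idealDv {I : Ideal (𝓞 D.M)} (hI : I ≠ ⊥) :
    idealDv (I.map D.σO) = D.conjDv (idealDv I) := by
  induction I using UniqueFactorizationMonoid.induction_on_prime with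
  | h₁ => exact absurd rfl hI
  | h₂ J hJ => rw [Ideal.isUnit_iff.1 hJ, Ideal.map_top, idealDv_top, map_zero]
  | h₃ J p hJ hp ih =>
    have hne : ∀ {A : Ideal (𝓞 D.M)}, A ≠ ⊥ → A.map D.σO ≠ ⊥ := fun h h' =>
      h ((Ideal.map_eq_bot_iff_of_injective D.σO.injective).1 h')
    rw [Ideal.map_mul, idealDv_mul (hne hp.ne_zero) (hne hJ), ih hJ,
      idealDv_mul hp.ne_zero hJ, map_add]
    congr 1
    obtain ⟨v, rfl⟩ : ∃ v : HeightOneSpectrum (𝓞 D.M), v.asIdeal = p :=
      ⟨⟨p, Ideal.isPrime_of_prime hp, hp.ne_zero⟩, rfl⟩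
    rw [← D.conjP_asIdeal v, idealDv_prime, idealDv_prime]
    exact (Finsupp.mapDomain_single).symm

lemma dvElt_σ {x : D.M} (hx : x ≠ 0) : dvElt (D.σ x) = D.conjDv (dvElt x) := by
  obtain ⟨a, b, hb, rfl⟩ := IsFractionRing.div_surjective (𝓞 D.M) x
  have hb0 : b ≠ 0 := nonZeroDivisors.ne_zero hb
  have ha0 : a ≠ 0 := fun h => hx (by simp [h])
  have key : ∀ z : 𝓞 D.M, z ≠ 0 → dvElt (D.σ (z : D.M)) = D.conjDv (dvElt (z : D.M)) := by
    intro z hz
    rw [← coe_σO, ← idealDv_span, ← idealDv_span, ← D.conjDv_idealDv (by simp [hz]),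
      Ideal.map_span, Set.image_singleton]
  have haM : (a : D.M) ≠ 0 := RingOfIntegers.coe_ne_zero_iff.2 ha0
  have hbM : (b : D.M) ≠ 0 := RingOfIntegers.coe_ne_zero_iff.2 hb0
  change dvElt (D.σ ((a : D.M) / (b : D.M))) = D.conjDv (dvElt ((a : D.M) / (b : D.M)))
  rw [div_eq_mul_inv, map_mul, map_inv₀, dvElt_mul ((map_ne_zero _).2 haM)
    (inv_ne_zero ((map_ne_zero _).2 hbM)), dvElt_inv ((map_ne_zero _).2 hbM), key a ha0, key b hb0,
    dvElt_mul haM (inv_ne_zero hbM), dvElt_inv hbM, map_add, map_neg]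

lemma extDv_dvElt_nrm {x : D.M} (hx : x ≠ 0) :
    extDv (L := D.M) (dvElt (D.nrm x)) = dvElt x + D.conjDv (dvElt x) := by
  rw [← dvElt_algebraMap (D.nrm_eq_zero.not.2 hx), algebraMap_nrm,
    dvElt_mul hx ((map_ne_zero _).2 hx), D.dvElt_σ hx]

end FermatAgent.LT.Dihedral.QuadData
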