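import Fermat.Agent.LT.Dihedral.Data
import Fermat.Agent.LT.Dihedral.QuadConj

/-!
# The divisors of the places over `3`
-/

set_option autoImplicit false

noncomputable section

open NumberField IsDedekindDomain
open scoped nonZeroDivisors

namespace FermatAgent.LT.Dihedral.DihedralData

open QuadData

variable {F : Type} [Field F] [NumberField F] (D : DihedralData F)

lemma below_P (i : Fin 3) : D.below (D.P i) = D.w i := by
  refine (D.idealDv_map_apply (D.w i) (D.P i)).1.1 ?_
  rcases eq_or_ne i 0 with rfl | hi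
  · rw [D.map_inert, idealDv_prime]; simp
  · rw [D.map_ramified i hi, pow_two, idealDv_mul (D.P i).ne_bot (D.P i).ne_bot, idealDv_prime]
    simp

lemma eq_P_of_below {P : HeightOneSpectrum (𝓞 D.M)} {i : Fin 3} (h : D.below P = D.w i) :
    P = D.P i := by
  classical
  have h1 := (D.idealDv_map_apply (D.w i) P).1.2 h
  by_contra hne
  have hne' : (D.P i) ≠ P := Ne.symm hne
  rcases eq_or_ne i 0 with rfl | hi
  · rw [D.map_inert, idealDv_prime, Finsupp.single_apply, if_neg hne'] at h1
    exact absurd h1 (by norm_num)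
  · rw [D.map_ramified i hi, pow_two, idealDv_mul (D.P i).ne_bot (D.P i).ne_bot, idealDv_prime,
      Finsupp.add_apply, Finsupp.single_apply, if_neg hne'] at h1
    exact absurd h1 (by norm_num)

lemma P_injective : Function.Injective D.P := fun i j h =>
  D.w_injective (by rw [← D.below_P i, h, D.below_P])

/-- The prime of `F` lies over `3`. -/
def InT (q : HeightOneSpectrum (𝓞 F)) : Prop := ∃ i, q = D.w i

lemma conjP_P (i : Fin 3) : D.conjP (D.P i) = D.P i :=
  D.eq_P_of_below (by rw [below_conjP, below_P])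

/-- The sum of the places of `F` over `3`. -/
def fT : Dv F := ∑ i, Finsupp.single (D.w i) 1

/-- The sum of the places of `M` over `3`. -/
def fM : Dv D.M := ∑ i, Finsupp.single (D.P i) 1

/-- The divisor of the part prime to `3` of the different. -/
def dD : Dv F := idealDv D.D'

lemma fT_w (i : Fin 3) : D.fT (D.w i) = 1 := by
  classical
  simp [fT, Finsupp.finsetSum_apply, Finsupp.single_apply, D.w_injective.eq_iff]

lemma fT_of_not {q : HeightOneSpectrum (𝓞 F)} (h : ¬ D.InT q) : D.fT q = 0 := by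
  classical
  rw [fT, Finsupp.finsetSum_apply]
  exact Finset.sum_eq_zero fun i _ => Finsupp.single_eq_of_ne fun h' => h ⟨i, h'⟩

lemma fM_P (i : Fin 3) : D.fM (D.P i) = 1 := by
  classical
  simp [fM, Finsupp.finsetSum_apply, Finsupp.single_apply, D.P_injective.eq_iff]

lemma fM_of_not {P : HeightOneSpectrum (𝓞 D.M)} (h : ¬ D.InT (D.below P)) : D.fM P = 0 := by
  classical
  rw [fM, Finsupp.finsetSum_apply]
  exact Finset.sum_eq_zero fun i _ => Finsupp.single_eq_of_ne fun h' =>
    h ⟨i, by rw [h', D.below_P]⟩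

lemma conjDv_fM : D.conjDv D.fM = D.fM := by
  simp only [fM, map_sum]
  refine Finset.sum_congr rfl fun i _ => ?_
  rw [show D.conjDv (Finsupp.single (D.P i) 1) = Finsupp.single (D.conjP (D.P i)) 1 from
    Finsupp.mapDomain_single, D.conjP_P]

lemma D'_ne : D.D' ≠ ⊥ := by
  intro h
  have h1 := D.D'_coprime
  rw [h, bot_sup_eq, Ideal.span_singleton_eq_top] at h1
  have h2 : ((3 : 𝓞 F) : F) = 3 := map_ofNat _ 3
  obtain ⟨u, hu⟩ := h1.exists_left_inv
  have h3 : Algebra.norm ℚ ((3 : F) : F) * Algebra.norm ℚ ((u : 𝓞 F) : F) = 1 := by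
    rw [← map_mul, mul_comm, ← h2, ← coeO_mul, hu]
    simp
  rw [show ((3 : F)) = algebraMap ℚ F 3 by simp, Algebra.norm_algebraMap] at h3
  have h4 : IsIntegral ℤ (Algebra.norm ℚ ((u : 𝓞 F) : F)) := Algebra.isIntegral_norm ℚ u.2
  obtain ⟨n, hn⟩ := IsIntegrallyClosed.isIntegral_iff.1 h4
  rw [← hn] at h3
  have h5 : (3 : ℤ) ^ Module.finrank ℚ F * n = 1 := by
    have : ((3 : ℚ) ^ Module.finrank ℚ F) * (n : ℚ) = 1 := h3
    exact_mod_cast this
  rcases Int.eq_one_or_neg_one_of_mul_eq_one h5 with h6 | h6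
  · rw [pow_eq_one_iff_of_ne_zero Module.finrank_pos.ne'] at h6
    omega
  · have := pow_pos (show (0 : ℤ) < 3 by norm_num) (Module.finrank ℚ F)
    omega

lemma dD_T {q : HeightOneSpectrum (𝓞 F)} (h : (3 : 𝓞 F) ∈ q.asIdeal) : D.dD q = 0 := by
  by_contra hne
  have h1 : 1 ≤ D.dD q := by
    have : 0 ≤ D.dD q := idealDv_nonneg D.D' q
    omega
  have hle : D.D' ≤ q.asIdeal := fun x hx => by
    rcases eq_or_ne x 0 with rfl | hx0
    · exact zero_mem _
    · exact (mem_prime_iff q hx0).2 (h1.trans ((idealDv_le_iff D.D'_ne hx0).1 hx q))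
  exact q.isPrime.ne_top (top_le_iff.1 (D.D'_coprime ▸ sup_le hle
    ((Ideal.span_singleton_le_iff_mem _).2 h)))

lemma three_mem_w (i : Fin 3) : (3 : 𝓞 F) ∈ (D.w i).asIdeal := by
  have h : Ideal.span {(3 : 𝓞 F)} ≤ (D.w i).asIdeal := by
    rw [D.three_eq]
    refine (Ideal.le_of_dvd (Finset.dvd_prod_of_mem _ (Finset.mem_univ i))).trans ?_
    exact Ideal.pow_le_self two_ne_zero
  exact h (Ideal.mem_span_singleton_self _)

lemma dD_w (i : Fin 3) : D.dD (D.w i) = 0 := D.dD_T (D.three_mem_w i)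

lemma dvElt_three : dvElt (3 : F) = 2 • D.fT := by
  classical
  have h : ((3 : 𝓞 F) : F) = 3 := map_ofNat _ 3
  rw [← h, ← idealDv_span, D.three_eq]
  have : ∀ s : Finset (Fin 3), idealDv (∏ i ∈ s, (D.w i).asIdeal ^ 2) =
      2 • ∑ i ∈ s, Finsupp.single (D.w i) (1 : ℤ) := by
    intro s
    induction s using Finset.induction_on with
    | empty => simp [Ideal.one_eq_top, idealDv_top]
    | @insert i s hi ih =>
      rw [Finset.prod_insert hi, Finset.sum_insert hi, idealDv_mul (pow_ne_zero _ (D.w i).ne_bot)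
        (Finset.prod_ne_zero_iff.2 fun j _ => pow_ne_zero _ (D.w j).ne_bot), ih, smul_add, pow_two,
        idealDv_mul (D.w i).ne_bot (D.w i).ne_bot, idealDv_prime, two_nsmul, two_nsmul]
  exact this Finset.univ

lemma diffDv_eq : diffDv D.M + D.fM = extDv (2 • D.fT + D.dD) := by
  classical
  have hprod : ∀ s : Finset (Fin 3), idealDv (∏ i ∈ s, (D.P i).asIdeal) =
      ∑ i ∈ s, Finsupp.single (D.P i) (1 : ℤ) := by
    intro s
    induction s using Finset.induction_on with
    | empty => simp [Ideal.one_eq_top, idealDv_top]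
    | @insert i s hi ih =>
      rw [Finset.prod_insert hi, Finset.sum_insert hi, idealDv_mul (D.P i).ne_bot
        (Finset.prod_ne_zero_iff.2 fun j _ => (D.P j).ne_bot), ih, idealDv_prime]
  have h := congrArg idealDv D.different_eq
  rw [idealDv_mul differentIdeal_ne_bot (Finset.prod_ne_zero_iff.2 fun j _ => (D.P j).ne_bot),
    hprod, idealDv_mul (by simp) (map_ne_bot_ext D.D'_ne), idealDv_map D.D'_ne] at h
  rw [diffDv, fM, h, map_add, ← D.dvElt_three, ← dvElt_algebraMap (by norm_num)]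
  congr 1
  have h3 : ((3 : 𝓞 D.M) : D.M) = algebraMap F D.M 3 := by rw [map_ofNat]; exact map_ofNat _ 3
  rw [idealDv_span, h3]

lemma ndeg_fM : ndeg D.fM = 81 := by
  have h0 : ∀ i, ndeg (Finsupp.single (D.P i) (1 : ℤ)) =
      if i = 0 then 9 else 3 := by
    intro i
    have h := ndeg_extDv (L := D.M) (idealDv (D.w i).asIdeal)
    rw [← idealDv_map (D.w i).ne_bot, D.finrank_eq, ndeg_idealDv (D.w i).ne_bot, D.absNorm_w] at h
    rcases eq_or_ne i 0 with rfl | hi
    · rw [D.map_inert, idealDv_prime] at h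
      rw [h, if_pos rfl]; norm_num
    · rw [D.map_ramified i hi, pow_two, idealDv_mul (D.P i).ne_bot (D.P i).ne_bot, idealDv_prime,
        ndeg_add] at h
      rw [if_neg hi]
      have := ndeg_pos (Finsupp.single (D.P i) (1 : ℤ))
      push_cast at h
      nlinarith
  rw [fM, Fin.sum_univ_three, ndeg_add, ndeg_add, h0, h0, h0, if_pos rfl, if_neg (by decide),
    if_neg (by decide)]
  norm_num

end FermatAgent.LT.Dihedral.DihedralData
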