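import Fermat.Agent.LT.Dihedral.Adele
import Fermat.Agent.LT.Dihedral.ThetaMove

/-!
# The decomposition `g = B(F) diag(a, 1) K Z` with `a` trivial over `3`
-/

set_option autoImplicit false
set_option maxHeartbeats 400000

noncomputable section

open NumberField IsDedekindDomain WithZero

namespace FermatAgent.LT.Dihedral

lemma upperTri_eq_of_entries {R : Type*} [CommRing R] (g : GL (Fin 2) R) (r u : Rˣ) (s : R)
    (h00 : g 0 0 = (r : R) * (u : R)) (h01 : g 0 1 = (r : R) * s) (h10 : g 1 0 = 0)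
    (h11 : g 1 1 = (r : R)) : g = upperTri r 0 r * upperTri u s 1 := by
  refine Units.ext (Matrix.ext fun i j => ?_)
  fin_cases i <;> fin_cases j <;> simp [upperTri, Matrix.mul_apply, Fin.sum_univ_two, *]

namespace DihedralData

open QuadData

variable {F : Type} [Field F] [NumberField F] (D : DihedralData F)

/-- The idele of an element of `F`. -/
abbrev ratIdele (q : Fˣ) : (Adf F)ˣ := Units.map (algebraMap F (Adf F)).toMonoidHom q

/-- A decomposition of an adelic matrix. -/
structure Dec (g : GAf F) where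
  q : Fˣ
  c : F
  a : (Adf F)ˣ
  k : GL (Fin 2) (IntAd F)
  z : (Adf F)ˣ
  hT : ∀ i, (a : Adf F) (D.w i) = 1
  heq : g = rationalMat (upperTri q c 1) * upperTri a 0 1 *
    Matrix.GeneralLinearGroup.map intToAdele k * upperTri z 0 z

/-- The residual matrices over `3`. -/
def resT3 : GL (Fin 2) (IntAd F) →* D.GT := MonoidHom.pi fun i => resGL (D.w i)

lemma resT3_apply (k : GL (Fin 2) (IntAd F)) (i : Fin 3) : D.resT3 k i = resGL (D.w i) k := rfl

variable {D}

/-- The value attached to a decomposition. -/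
def Dec.value {g : GAf F} (d : D.Dec g) (cv : ∀ i, D.kT i) (x : XInf F) : ℂ :=
  D.theta (adDv d.a) (D.VT cv (D.resT3 d.k)) 0 (infAct (upperTri d.q d.c 1)⁻¹ x)

lemma tfree_adDv {a : (Adf F)ˣ} (h : ∀ i, (a : Adf F) (D.w i) = 1) : D.TFree (adDv a) :=
  fun i => adDv_eq_zero (h i)

variable (D) in
open Classical in
/-- An idele is an element of `F` times one trivial over `3` times a unit supported over `3`. -/
theorem exists_idele_split (a' : (Adf F)ˣ) : ∃ (q : Fˣ) (a : (Adf F)ˣ) (u : (IntAd F)ˣ),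
    (∀ i, (a : Adf F) (D.w i) = 1) ∧ a' = ratIdele q * a * Units.map intToAdele.toMonoidHom u ∧
      ∀ v, ¬ D.InT v → ((Units.map intToAdele.toMonoidHom u : (Adf F)ˣ) : Adf F) v = 1 := by
  obtain ⟨q, hq0, hq⟩ := exists_ord_eq (Finset.univ.image D.w) fun v => adDv a' v
  let qu : Fˣ := Units.mk0 q hq0
  set a₁ : (Adf F)ˣ := a' * (ratIdele qu)⁻¹ with ha₁
  have ha₁T : ∀ i, adDv a₁ (D.w i) = 0 := fun i => by
    rw [ha₁, adDv_mul, adDv_inv, adDv_rat, Finsupp.add_apply, Finsupp.neg_apply,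
      show dvElt (qu : F) (D.w i) = adDv a' (D.w i) from
        hq _ (Finset.mem_image_of_mem _ (Finset.mem_univ i)), add_neg_cancel]
  let uA : Adf F := ⟨fun v => if D.InT v then (a₁ : Adf F) v else 1, by
    filter_upwards [(a₁ : Adf F).2] with v hv
    split_ifs
    · exact hv
    · exact one_mem _⟩
  have huA : ∀ v, Valued.v (uA v) = 1 := fun v => by
    show Valued.v (if D.InT v then (a₁ : Adf F) v else 1) = 1
    split_ifs with h
    · obtain ⟨i, rfl⟩ := h
      rw [valued_idele, ha₁T i, neg_zero, exp_zero]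
    · exact map_one _
  have huu : IsUnit uA := FiniteAdeleRing.isUnit_iff.2
    ⟨fun v h => by have := huA v; rw [h, map_zero] at this; exact zero_ne_one this,
      Filter.Eventually.of_forall huA⟩
  obtain ⟨u, hu⟩ := exists_intUnit huu.unit huA
  set a₂ : (Adf F)ˣ := a₁ * (Units.map intToAdele.toMonoidHom u)⁻¹ with ha₂
  have ha₂T : ∀ i, (a₂ : Adf F) (D.w i) = 1 := fun i => by
    have h1 : (a₁ : Adf F) (D.w i) = (huu.unit : Adf F) (D.w i) := by
      show _ = if D.InT (D.w i) then _ else _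
      rw [if_pos ⟨i, rfl⟩]
    rw [ha₂, hu, Units.val_mul, adele_mul_apply, h1, ← adele_mul_apply, Units.mul_inv]
    rfl
  refine ⟨qu, a₂, u, ha₂T, ?_, fun v hv => ?_⟩
  · rw [ha₂, mul_assoc, inv_mul_cancel_right, ha₁, mul_comm, inv_mul_cancel_right]
  · rw [hu]
    show (if D.InT v then (a₁ : Adf F) v else 1) = 1
    rw [if_neg hv]

variable (D) in
open Classical in
theorem exists_dec (g : GAf F) : Nonempty (D.Dec g) := by
  obtain ⟨a₀, d, b, k₀, rfl⟩ := exists_iwasawa g
  set a' : (Adf F)ˣ := a₀ * d⁻¹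
  obtain ⟨qu, a₂, u, ha₂T, hsplit, -⟩ := D.exists_idele_split a'
  set b' : Adf F := b * ((d⁻¹ : (Adf F)ˣ) : Adf F)
  obtain ⟨c, hc⟩ := exists_rat_near b' (fun v => (adDv (ratIdele qu * a₂) v).toNat) (by
    refine Filter.eventually_cofinite.2
      ((adDv (ratIdele qu * a₂)).support.finite_toSet.subset fun v hv => ?_)
    refine Finsupp.mem_support_iff.2 fun h => hv ?_
    rw [h]; rfl)
  set s : Adf F := ((((ratIdele qu) * a₂)⁻¹ : (Adf F)ˣ) : Adf F) * (b' - algebraMap F (Adf F) c)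
  have hs : ∀ v, s v ∈ v.adicCompletionIntegers F := fun v => by
    change Valued.v (s v) ≤ 1
    rw [adele_mul_apply, map_mul, valued_idele, adDv_inv, Finsupp.neg_apply, neg_neg]
    refine (mul_le_mul' le_rfl (hc v)).trans ?_
    rw [← exp_add, ← exp_zero, exp_le_exp]
    beta_reduce
    have := Int.self_le_toNat (adDv (ratIdele qu * a₂) v)
    omega
  let si : IntAd F := fun v => ⟨s v, hs v⟩
  refine ⟨⟨qu, c, a₂, upperTri u si 1 * k₀, d, ha₂T, ?_⟩⟩
  have hkey : rationalMat (upperTri qu c 1) * upperTri a₂ 0 1 *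
      Matrix.GeneralLinearGroup.map intToAdele (upperTri u si 1) = upperTri a' b' 1 := by
    rw [rationalMat_upperTri, map_upperTri, map_one, upperTri_mul, upperTri_mul]
    have e2 : intToAdele si = s := rfl
    congr 1
    · exact hsplit.symm
    · rw [e2, mul_zero, zero_add, Units.val_one, mul_one]
      simp only [map_one, Units.val_one, mul_one, s]
      rw [← mul_assoc, Units.mul_inv, one_mul]
      ring
    · simp
  rw [map_mul, ← mul_assoc, hkey, mul_assoc, ← scalar_eq_upperTri,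
    ← Matrix.GeneralLinearGroup.scalar_commute, ← mul_assoc, scalar_eq_upperTri, upperTri_mul]
  congr 2
  · simp [a']
  · simp [b', mul_assoc]
  · simp

/-- The value does not depend on the decomposition. -/
theorem Dec.value_eq {g : GAf F} (d₁ d₂ : D.Dec g) (cv : ∀ i, D.kT i) (x : XInf F) :
    d₁.value cv x = d₂.value cv x := by
  set q₀ : Fˣ := d₂.q⁻¹ * d₁.q
  set c₀ : F := ((d₂.q⁻¹ : Fˣ) : F) * (d₁.c - d₂.c)
  have hγ : (upperTri d₂.q d₂.c 1)⁻¹ * upperTri d₁.q d₁.c 1 = upperTri q₀ c₀ 1 := by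
    rw [upperTri_inv, upperTri_mul]
    congr 1
    · simp [c₀]; ring
    · simp
  set u : GL (Fin 2) (IntAd F) := d₂.k * d₁.k⁻¹
  set zz : (Adf F)ˣ := d₁.z * d₂.z⁻¹
  set e : (Adf F)ˣ := d₂.a⁻¹ * ratIdele q₀ * d₁.a
  set f : Adf F := ((d₂.a⁻¹ : (Adf F)ˣ) : Adf F) * algebraMap F (Adf F) c₀
  have hU : Matrix.GeneralLinearGroup.map intToAdele u = upperTri zz 0 zz * upperTri e f 1 := by
    have h := d₁.heq.symm.trans d₂.heq
    have h1 : Matrix.GeneralLinearGroup.map intToAdele u =
        (upperTri d₂.a 0 1)⁻¹ * (rationalMat ((upperTri d₂.q d₂.c 1)⁻¹ * upperTri d₁.q d₁.c 1) *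
          upperTri d₁.a 0 1) * (upperTri d₁.z 0 d₁.z * (upperTri d₂.z 0 d₂.z)⁻¹) := by
      set P₁ := rationalMat (upperTri d₁.q d₁.c 1) * upperTri d₁.a 0 1
      set K₁ := Matrix.GeneralLinearGroup.map intToAdele d₁.k
      set K₂ := Matrix.GeneralLinearGroup.map intToAdele d₂.k
      set P₂ := rationalMat (upperTri d₂.q d₂.c 1) * upperTri d₂.a 0 1
      set Z₁ := upperTri d₁.z 0 d₁.z
      set Z₂ := upperTri d₂.z 0 d₂.z
      have hc : ∀ X : GAf F, X * Z₁ = Z₁ * X := fun X => by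
        simp only [Z₁, ← scalar_eq_upperTri, Matrix.GeneralLinearGroup.scalar_commute]
      have hc2 : ∀ X : GAf F, X * Z₂ = Z₂ * X := fun X => by
        simp only [Z₂, ← scalar_eq_upperTri, Matrix.GeneralLinearGroup.scalar_commute]
      rw [map_mul rationalMat, map_inv, map_mul (Matrix.GeneralLinearGroup.map intToAdele), map_inv]
      show K₂ * K₁⁻¹ = _
      rw [show (upperTri d₂.a 0 1)⁻¹ * ((rationalMat (upperTri d₂.q d₂.c 1))⁻¹ *
        rationalMat (upperTri d₁.q d₁.c 1) * upperTri d₁.a 0 1) = P₂⁻¹ * P₁ by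
          simp only [P₁, P₂, mul_inv_rev, mul_assoc]]
      have h2 : P₂⁻¹ * P₁ * K₁ * Z₁ = K₂ * Z₂ := by
        rw [mul_assoc P₂⁻¹, mul_assoc P₂⁻¹, h]
        group
      have h3 : K₂ = P₂⁻¹ * P₁ * K₁ * Z₁ * Z₂⁻¹ := by rw [h2, mul_inv_cancel_right]
      rw [h3, mul_assoc _ Z₁ Z₂⁻¹, mul_assoc (P₂⁻¹ * P₁) K₁,
        show K₁ * (Z₁ * Z₂⁻¹) = (Z₁ * Z₂⁻¹) * K₁ from
          (Commute.mul_right (hc K₁) (Commute.inv_right (hc2 K₁))).eq]
      group
    rw [h1, hγ, rationalMat_upperTri, map_one, upperTri_inv, upperTri_inv]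
    simp only [upperTri_mul]
    congr 1
    · simp [e, zz, mul_comm, mul_left_comm]
      rfl
    · simp [f, zz]
      ring
    · simp [zz]
  have hent : ∀ i j, intToAdele (u i j) =
      ((upperTri zz 0 zz * upperTri e f 1 : GAf F) : Matrix (Fin 2) (Fin 2) (Adf F)) i j := by
    intro i j
    rw [← hU]
    rfl
  have hzv : ∀ v, (((u 1 1 v : v.adicCompletionIntegers F)) : v.adicCompletion F) = (zz : Adf F) v :=
    fun v => (congrArg (fun X : Adf F => X v) (hent 1 1)).trans
      (by simp [upperTri, Matrix.mul_apply, Fin.sum_univ_two])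
  have hev : ∀ v, (((u 0 0 v : v.adicCompletionIntegers F)) : v.adicCompletion F) =
      (zz : Adf F) v * (e : Adf F) v := fun v =>
    (congrArg (fun X : Adf F => X v) (hent 0 0)).trans
      (by simp [upperTri, Matrix.mul_apply, Fin.sum_univ_two, adele_mul_apply])
  have hfv : ∀ v, (((u 0 1 v : v.adicCompletionIntegers F)) : v.adicCompletion F) =
      (zz : Adf F) v * f v := fun v =>
    (congrArg (fun X : Adf F => X v) (hent 0 1)).trans
      (by simp [upperTri, Matrix.mul_apply, Fin.sum_univ_two, adele_mul_apply])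
  have hu10 : u 1 0 = 0 := funext fun v => Subtype.ext
    ((congrArg (fun X : Adf F => X v) (hent 1 0)).trans
      (by simp [upperTri, Matrix.mul_apply, Fin.sum_univ_two, adele_zero_apply]))
  have hinv : (u : Matrix (Fin 2) (Fin 2) (IntAd F)).det = u 0 0 * u 1 1 := by
    rw [Matrix.det_fin_two, hu10, mul_zero, sub_zero]
  have hval : ∀ v, adDv zz v = 0 ∧ adDv e v = 0 := fun v => by
    have hdet : IsUnit ((u 0 0 v : v.adicCompletionIntegers F) * u 1 1 v) := by
      have h := (Matrix.GeneralLinearGroup.det u).isUnit.map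
        (Pi.evalRingHom (fun v : HeightOneSpectrum (𝓞 F) => v.adicCompletionIntegers F) v)
      rw [Matrix.GeneralLinearGroup.val_det_apply, hinv] at h
      exact h
    obtain ⟨h0, h1⟩ := IsUnit.mul_iff.1 hdet
    rw [HeightOneSpectrum.adicCompletionIntegers.isUnit_iff_valued_eq_one] at h0 h1
    rw [hzv v] at h1
    rw [hev v, map_mul, h1, one_mul] at h0
    exact ⟨adDv_eq_of_valued (by rw [h1, neg_zero, exp_zero]),
      adDv_eq_of_valued (by rw [h0, neg_zero, exp_zero])⟩
  have hA : adDv d₂.a = adDv d₁.a + dvElt (q₀ : F) := by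
    have h : adDv e = 0 := Finsupp.ext fun v => (hval v).2
    rw [show adDv e = -adDv d₂.a + dvElt (q₀ : F) + adDv d₁.a by
      simp only [e, adDv_mul, adDv_inv, adDv_rat]] at h
    rw [← sub_eq_zero, ← neg_eq_zero, ← h]
    abel
  have hqT : ∀ i, dvElt (q₀ : F) (D.w i) = 0 := fun i => by
    have h := DFunLike.congr_fun hA (D.w i)
    rw [Finsupp.add_apply, tfree_adDv d₁.hT i, tfree_adDv d₂.hT i, zero_add] at h
    exact h.symm
  have hc0 : ∀ v, OrdGe v (adDv d₁.a v + dvElt (q₀ : F) v) c₀ := fun v => by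
    rw [← Finsupp.add_apply, ← hA, ordGe_iff_valued]
    have h : Valued.v (((u 0 1 v : v.adicCompletionIntegers F)) : v.adicCompletion F) ≤ 1 :=
      (u 0 1 v).2
    rw [hfv v, map_mul, valued_idele zz, (hval v).1, neg_zero, exp_zero, one_mul,
      adele_mul_apply, map_mul, valued_idele, adDv_inv, Finsupp.neg_apply, neg_neg,
      adele_algebraMap_apply] at h
    calc Valued.v (loc v c₀)
        = exp (-adDv d₂.a v) * (exp (adDv d₂.a v) * Valued.v (loc v c₀)) := by
          rw [← mul_assoc, ← exp_add, neg_add_cancel, exp_zero, one_mul]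
      _ ≤ exp (-adDv d₂.a v) * 1 := mul_le_mul' le_rfl h
      _ = _ := mul_one _
  have hainv : ∀ i, ((d₂.a⁻¹ : (Adf F)ˣ) : Adf F) (D.w i) = 1 := fun i => by
    have h := congrArg (fun X : Adf F => X (D.w i)) d₂.a.mul_inv
    beta_reduce at h
    rw [adele_mul_apply, d₂.hT i, one_mul] at h
    exact h
  have hres : ∀ i, ∃ r : (D.kT i)ˣ, ∃ qb : (D.kT i)ˣ, (qb : D.kT i) = rmod (D.w i) (q₀ : F) ∧
      D.resT3 u i = upperTri r 0 r * upperTri qb (rmod (D.w i) c₀) 1 := by
    intro i
    set v := D.w i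
    have hz1 : IsUnit (u 1 1 v) := by
      rw [HeightOneSpectrum.adicCompletionIntegers.isUnit_iff_valued_eq_one, hzv v, valued_idele,
        (hval v).1, neg_zero, exp_zero]
    have hq0 : OrdGe v 0 (q₀ : F) := Or.inr (hqT i).ge
    have hq0' : OrdGe v 0 ((q₀⁻¹ : Fˣ) : F) := Or.inr (by
      rw [Units.val_inv_eq_inv_val, dvElt_inv q₀.ne_zero, Finsupp.neg_apply, hqT i, neg_zero])
    let qb : (D.kT i)ˣ := Units.mkOfMulEqOne _ (rmod v ((q₀⁻¹ : Fˣ) : F)) (by
      rw [← rmod_mul v hq0 hq0', ← Units.val_mul, mul_inv_cancel, Units.val_one,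
        show (1 : F) = ((1 : 𝓞 F) : F) from (map_one _).symm, rmod_int, map_one])
    have he : ((e : Adf F) v) = loc v (q₀ : F) := by
      simp [e, adele_mul_apply, v, hainv i, d₁.hT i]
      rfl
    have hf : f v = loc v c₀ := by
      simp [f, adele_mul_apply, v, hainv i]
      rfl
    let qI : v.adicCompletionIntegers F := ⟨loc v (q₀ : F), by
      have := ordGe_iff_valued.1 hq0; rwa [neg_zero, exp_zero] at this⟩
    have hc0' : OrdGe v 0 c₀ := by
      have := hc0 v
      rwa [tfree_adDv d₁.hT i, hqT i, add_zero] at this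
    let cI : v.adicCompletionIntegers F := ⟨loc v c₀, by
      have := ordGe_iff_valued.1 hc0'; rwa [neg_zero, exp_zero] at this⟩
    refine ⟨(hz1.map (resHom v)).unit, qb, rfl, upperTri_eq_of_entries _ _ _ _ ?_ ?_ ?_ ?_⟩
    · rw [resT3_apply, resGL_apply, show u 0 0 v = u 1 1 v * qI from
        Subtype.ext (by rw [MulMemClass.coe_mul, hev v, hzv v, he]), map_mul]
      congr 1
      exact resHom_loc qI rfl
    · rw [resT3_apply, resGL_apply, show u 0 1 v = u 1 1 v * cI from
        Subtype.ext (by rw [MulMemClass.coe_mul, hfv v, hzv v, hf]), map_mul]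
      congr 1
      exact resHom_loc cI rfl
    · rw [resT3_apply, resGL_apply, hu10]
      exact map_zero _
    · rfl
  choose r qb hqb hr using hres
  have hVT : D.VT cv (D.resT3 d₂.k) = fun x => (∏ i, D.psiT i (-(x i * rmod (D.w i) c₀))) *
      D.VT cv (D.resT3 d₁.k) (fun i => x i * rmod (D.w i) (q₀ : F)) := by
    funext y
    have hk : D.resT3 d₂.k = fun i =>
        upperTri (r i) 0 (r i) * upperTri (qb i) (rmod (D.w i) c₀) 1 * D.resT3 d₁.k i := by
      funext i
      rw [← hr i, ← Pi.mul_apply, ← map_mul, inv_mul_cancel_right]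
    rw [hk, VT_upper_mul]
    simp only [hqb]
  rw [Dec.value, Dec.value, hA, hVT]
  conv_rhs => rw [show infAct (upperTri d₂.q d₂.c 1)⁻¹ x =
    infAct (upperTri q₀ c₀ 1) (infAct (upperTri d₁.q d₁.c 1)⁻¹ x) by
      rw [← infAct_mul', ← hγ, mul_inv_cancel_right]]
  exact (D.theta_move (tfree_adDv d₁.hT) hqT hc0 _ _).symm

end DihedralData

end FermatAgent.LT.Dihedral
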