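import Mathlib.RingTheory.DedekindDomain.Factorization
import Mathlib.NumberTheory.NumberField.FractionalIdeal
import Mathlib.RingTheory.Ideal.Norm.AbsNorm
import Mathlib.RingTheory.DedekindDomain.Different
import Mathlib.RingTheory.Ideal.Norm.RelNorm
import Mathlib.Data.Real.Basic

/-!
# Divisors of a number field

Divisors of a number field, their fractional ideals, and extension along a field extension.
-/

set_option autoImplicit false

noncomputable section

open NumberField IsDedekindDomain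
open scoped nonZeroDivisors

namespace FermatAgent.LT.Dihedral

variable {K : Type*} [Field K] [NumberField K]

/-- Divisors. -/
abbrev Dv (K : Type*) [Field K] [NumberField K] := HeightOneSpectrum (𝓞 K) →₀ ℤ

/-- The unit fractional ideal of a prime. -/
def primeUnit (v : HeightOneSpectrum (𝓞 K)) : (FractionalIdeal (𝓞 K)⁰ K)ˣ :=
  Units.mk0 (v.asIdeal : FractionalIdeal (𝓞 K)⁰ K) (FractionalIdeal.coeIdeal_ne_zero.2 v.ne_bot)

/-- The fractional ideal of a divisor. -/
def fid (D : Dv K) : (FractionalIdeal (𝓞 K)⁰ K)ˣ := D.prod fun v n => primeUnit v ^ n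

lemma fid_zero : fid (0 : Dv K) = 1 := Finsupp.prod_zero_index

lemma fid_add (D E : Dv K) : fid (D + E) = fid D * fid E := by
  classical
  exact Finsupp.prod_add_index' (fun v => zpow_zero _) fun v m n => zpow_add _ m n

lemma fid_neg (D : Dv K) : fid (-D) = (fid D)⁻¹ :=
  eq_inv_of_mul_eq_one_left (by rw [← fid_add, neg_add_cancel, fid_zero])

lemma count_fid (D : Dv K) (v : HeightOneSpectrum (𝓞 K)) :
    FractionalIdeal.count K v (fid D : FractionalIdeal (𝓞 K)⁰ K) = D v := by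
  have h : (fid D : FractionalIdeal (𝓞 K)⁰ K) =
      D.prod fun v n => (v.asIdeal : FractionalIdeal (𝓞 K)⁰ K) ^ n := by
    simp [fid, Finsupp.prod, primeUnit]
  rw [h]
  exact FractionalIdeal.count_finsuppProd K v D

lemma support_count_finite (I : FractionalIdeal (𝓞 K)⁰ K) :
    (Function.support fun v : HeightOneSpectrum (𝓞 K) => FractionalIdeal.count K v I).Finite :=
  Filter.eventually_cofinite.1 (FractionalIdeal.finite_factors I)

/-- The divisor of a fractional ideal. -/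
def fracDv (I : FractionalIdeal (𝓞 K)⁰ K) : Dv K :=
  Finsupp.ofSupportFinite _ (support_count_finite I)

lemma fracDv_apply (I : FractionalIdeal (𝓞 K)⁰ K) (v : HeightOneSpectrum (𝓞 K)) :
    fracDv I v = FractionalIdeal.count K v I := rfl

lemma fracDv_mul {I J : FractionalIdeal (𝓞 K)⁰ K} (hI : I ≠ 0) (hJ : J ≠ 0) :
    fracDv (I * J) = fracDv I + fracDv J :=
  Finsupp.ext fun v => FractionalIdeal.count_mul K v hI hJ

lemma fracDv_fid (D : Dv K) : fracDv (fid D : FractionalIdeal (𝓞 K)⁰ K) = D :=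
  Finsupp.ext fun v => count_fid D v

lemma fid_fracDv {I : FractionalIdeal (𝓞 K)⁰ K} (hI : I ≠ 0) :
    (fid (fracDv I) : FractionalIdeal (𝓞 K)⁰ K) = I := by
  have h1 := FractionalIdeal.finprod_heightOneSpectrum_factorization' K hI
  have h2 := FractionalIdeal.finprod_heightOneSpectrum_factorization' K (fid (fracDv I)).ne_zero
  refine h2.symm.trans ((finprod_congr fun v => ?_).trans h1)
  rw [count_fid, fracDv_apply]

lemma fid_le {D E : Dv K} (h : D ≤ E) :
    (fid E : FractionalIdeal (𝓞 K)⁰ K) ≤ fid D := by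
  classical
  obtain ⟨N, hN, rfl⟩ : ∃ N : Dv K, 0 ≤ N ∧ E = D + N :=
    ⟨E - D, sub_nonneg.2 h, (add_sub_cancel D E).symm⟩
  rw [fid_add, Units.val_mul]
  refine mul_le_of_le_one_right' ?_
  have : ∀ v ∈ N.support,
      ((primeUnit v ^ N v : (FractionalIdeal (𝓞 K)⁰ K)ˣ) : FractionalIdeal (𝓞 K)⁰ K) ≤ 1 := by
    intro v _
    obtain ⟨n, hn⟩ := Int.eq_ofNat_of_zero_le (hN v)
    rw [hn, zpow_natCast, Units.val_pow_eq_pow_val, primeUnit, Units.val_mk0,
      ← FractionalIdeal.coeIdeal_pow]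
    exact FractionalIdeal.coeIdeal_le_one
  rw [fid, Finsupp.prod, Units.coe_prod]
  exact Finset.prod_le_one' this

/-- The divisor of an element. -/
def dvElt (x : K) : Dv K := fracDv (FractionalIdeal.spanSingleton (𝓞 K)⁰ x)

lemma spanSingleton_ne {x : K} (hx : x ≠ 0) : FractionalIdeal.spanSingleton (𝓞 K)⁰ x ≠ 0 :=
  FractionalIdeal.spanSingleton_ne_zero_iff.2 hx

lemma dvElt_mul {x y : K} (hx : x ≠ 0) (hy : y ≠ 0) : dvElt (x * y) = dvElt x + dvElt y := by
  rw [dvElt, ← FractionalIdeal.spanSingleton_mul_spanSingleton]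
  exact fracDv_mul (spanSingleton_ne hx) (spanSingleton_ne hy)

lemma dvElt_one : dvElt (1 : K) = 0 := by
  refine Finsupp.ext fun v => ?_
  rw [dvElt, fracDv_apply, FractionalIdeal.spanSingleton_one, FractionalIdeal.count_one]
  rfl

lemma dvElt_inv {x : K} (hx : x ≠ 0) : dvElt x⁻¹ = -dvElt x := by
  refine eq_neg_of_add_eq_zero_left ?_
  rw [← dvElt_mul (inv_ne_zero hx) hx, inv_mul_cancel₀ hx, dvElt_one]

lemma dvElt_neg (x : K) : dvElt (-x) = dvElt x := by
  rw [dvElt, dvElt]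
  congr 1
  refine FractionalIdeal.coeToSubmodule_injective ?_
  simp only [FractionalIdeal.coe_spanSingleton]
  exact (Submodule.span_singleton_eq_span_singleton).2 ⟨-1, by simp⟩

lemma dvElt_pow {x : K} (hx : x ≠ 0) (n : ℕ) : dvElt (x ^ n) = n • dvElt x := by
  induction n with
  | zero => simp [dvElt_one]
  | succ n ih => rw [pow_succ, dvElt_mul (pow_ne_zero n hx) hx, ih, succ_nsmul]

lemma mem_fid {D : Dv K} {x : K} :
    x ∈ (fid D : FractionalIdeal (𝓞 K)⁰ K) ↔ x = 0 ∨ D ≤ dvElt x := by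
  rw [← FractionalIdeal.spanSingleton_le_iff_mem]
  rcases eq_or_ne x 0 with rfl | hx
  · simp
  constructor
  · intro h
    refine Or.inr fun v => ?_
    have := FractionalIdeal.count_mono K v (spanSingleton_ne hx) h
    rwa [count_fid] at this
  · rintro (h | h)
    · exact absurd h hx
    · rw [← fid_fracDv (spanSingleton_ne hx)]
      exact fid_le h

/-- The divisor of an ideal. -/
def idealDv (I : Ideal (𝓞 K)) : Dv K := fracDv (I : FractionalIdeal (𝓞 K)⁰ K)

lemma idealDv_mul {I J : Ideal (𝓞 K)} (hI : I ≠ ⊥) (hJ : J ≠ ⊥) :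
    idealDv (I * J) = idealDv I + idealDv J := by
  rw [idealDv, FractionalIdeal.coeIdeal_mul]
  exact fracDv_mul (FractionalIdeal.coeIdeal_ne_zero.2 hI) (FractionalIdeal.coeIdeal_ne_zero.2 hJ)

lemma idealDv_top : idealDv (⊤ : Ideal (𝓞 K)) = 0 := by
  refine Finsupp.ext fun v => ?_
  rw [idealDv, fracDv_apply, FractionalIdeal.coeIdeal_top, FractionalIdeal.count_one]
  rfl

lemma idealDv_nonneg (I : Ideal (𝓞 K)) : 0 ≤ idealDv I := fun v =>
  FractionalIdeal.count_coe_nonneg K v I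

lemma idealDv_prime (v : HeightOneSpectrum (𝓞 K)) : idealDv v.asIdeal = Finsupp.single v 1 := by
  classical
  refine Finsupp.ext fun w => ?_
  rw [idealDv, fracDv_apply, FractionalIdeal.count_maximal, Finsupp.single_apply]

lemma idealDv_span (x : 𝓞 K) : idealDv (Ideal.span {x}) = dvElt (x : K) := by
  rw [idealDv, dvElt, FractionalIdeal.coeIdeal_span_singleton]

lemma dvElt_coe_nonneg (x : 𝓞 K) : 0 ≤ dvElt (x : K) := idealDv_span x ▸ idealDv_nonneg _

lemma fid_idealDv {I : Ideal (𝓞 K)} (hI : I ≠ ⊥) :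
    (fid (idealDv I) : FractionalIdeal (𝓞 K)⁰ K) = I :=
  fid_fracDv (FractionalIdeal.coeIdeal_ne_zero.2 hI)

lemma idealDv_le_iff {I : Ideal (𝓞 K)} (hI : I ≠ ⊥) {x : 𝓞 K} (hx : x ≠ 0) :
    x ∈ I ↔ idealDv I ≤ dvElt (x : K) := by
  have h1 : (x : K) ∈ (I : FractionalIdeal (𝓞 K)⁰ K) ↔ x ∈ I := by
    rw [FractionalIdeal.mem_coeIdeal]
    refine ⟨?_, fun h => ⟨x, h, rfl⟩⟩
    rintro ⟨y, hy, he⟩
    rwa [← RingOfIntegers.coe_injective he]
  rw [← h1, ← fid_idealDv hI, mem_fid, or_iff_right (RingOfIntegers.coe_ne_zero_iff.2 hx)]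

lemma mem_prime_iff (v : HeightOneSpectrum (𝓞 K)) {x : 𝓞 K} (hx : x ≠ 0) :
    x ∈ v.asIdeal ↔ 1 ≤ dvElt (x : K) v := by
  classical
  rw [idealDv_le_iff v.ne_bot hx, idealDv_prime]
  constructor
  · intro h
    simpa using h v
  · intro h w
    rw [Finsupp.single_apply]
    split_ifs with hw
    · rwa [← hw]
    · exact dvElt_coe_nonneg x w

/-- An element with nonnegative divisor is integral. -/
lemma exists_int_of_nonneg {x : K} (h : x = 0 ∨ 0 ≤ dvElt x) : ∃ a : 𝓞 K, (a : K) = x := by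
  have h' := mem_fid.2 h
  rw [fid_zero, Units.val_one] at h'
  exact (FractionalIdeal.mem_one_iff _).1 h'

/-- The norm of a divisor. -/
def ndeg (D : Dv K) : ℝ := (FractionalIdeal.absNorm (fid D : FractionalIdeal (𝓞 K)⁰ K) : ℚ)

lemma ndeg_add (D E : Dv K) : ndeg (D + E) = ndeg D * ndeg E := by
  rw [ndeg, fid_add, Units.val_mul, map_mul, Rat.cast_mul]
  rfl

lemma ndeg_zero : ndeg (0 : Dv K) = 1 := by simp [ndeg, fid_zero]

lemma ndeg_pos (D : Dv K) : 0 < ndeg D := by
  have h : (FractionalIdeal.absNorm (fid D : FractionalIdeal (𝓞 K)⁰ K)) ≠ 0 :=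
    FractionalIdeal.absNorm_eq_zero_iff.not.2 (fid D).ne_zero
  exact Rat.cast_pos.2 (lt_of_le_of_ne (FractionalIdeal.absNorm_nonneg _) h.symm)

lemma ndeg_neg (D : Dv K) : ndeg (-D) = (ndeg D)⁻¹ :=
  eq_inv_of_mul_eq_one_left (by rw [← ndeg_add, neg_add_cancel, ndeg_zero])

lemma ndeg_idealDv {I : Ideal (𝓞 K)} (hI : I ≠ ⊥) : ndeg (idealDv I) = Ideal.absNorm I := by
  rw [ndeg, fid_idealDv hI, FractionalIdeal.coeIdeal_absNorm]
  simp

lemma ndeg_dvElt {x : K} (hx : x ≠ 0) :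
    ndeg (dvElt x) = |((Algebra.norm ℚ x : ℚ) : ℝ)| := by
  rw [ndeg, dvElt, fid_fracDv (spanSingleton_ne hx),
    FractionalIdeal.absNorm_span_singleton]
  simp

lemma ndeg_zsmul (E : Dv K) (k : ℤ) : ndeg (k • E) = ndeg E ^ k := by
  induction k using Int.induction_on with
  | zero => simp [ndeg_zero]
  | succ k ih => rw [add_zsmul, one_zsmul, ndeg_add, ih, zpow_add_one₀ (ndeg_pos E).ne']
  | pred k ih =>
    rw [sub_eq_add_neg, add_zsmul, neg_one_zsmul, ndeg_add, ndeg_neg, ih,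
      zpow_add₀ (ndeg_pos E).ne', zpow_neg_one]

section Ext

variable {L : Type*} [Field L] [NumberField L] [Algebra K L]

/-- Extension of divisors. -/
def extDv : Dv K →+ Dv L :=
  Finsupp.liftAddHom fun v =>
    zmultiplesHom (Dv L) (idealDv (v.asIdeal.map (algebraMap (𝓞 K) (𝓞 L))))

lemma extDv_single (v : HeightOneSpectrum (𝓞 K)) (n : ℤ) :
    extDv (L := L) (Finsupp.single v n) =
      n • idealDv (v.asIdeal.map (algebraMap (𝓞 K) (𝓞 L))) := by
  simp [extDv]

omit [NumberField K] [NumberField L] in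
lemma map_ne_bot_ext {I : Ideal (𝓞 K)} (hI : I ≠ ⊥) : I.map (algebraMap (𝓞 K) (𝓞 L)) ≠ ⊥ :=
  fun h => hI ((Ideal.map_eq_bot_iff_of_injective
    (FaithfulSMul.algebraMap_injective (𝓞 K) (𝓞 L))).1 h)

lemma idealDv_map {I : Ideal (𝓞 K)} (hI : I ≠ ⊥) :
    idealDv (I.map (algebraMap (𝓞 K) (𝓞 L))) = extDv (idealDv I) := by
  induction I using UniqueFactorizationMonoid.induction_on_prime with
  | h₁ => exact absurd rfl hI
  | h₂ J hJ =>
    rw [Ideal.isUnit_iff.1 hJ, Ideal.map_top, idealDv_top, idealDv_top, map_zero]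
  | h₃ J p hJ hp ih =>
    have hp0 : p ≠ ⊥ := hp.ne_zero
    rw [Ideal.map_mul, idealDv_mul (map_ne_bot_ext hp0) (map_ne_bot_ext hJ), ih hJ,
      idealDv_mul hp0 hJ, map_add]
    congr 1
    obtain ⟨v, rfl⟩ : ∃ v : HeightOneSpectrum (𝓞 K), v.asIdeal = p :=
      ⟨⟨p, Ideal.isPrime_of_prime hp, hp0⟩, rfl⟩
    rw [idealDv_prime, extDv_single, one_zsmul]

lemma dvElt_algebraMap {a : K} (ha : a ≠ 0) : dvElt (algebraMap K L a) = extDv (dvElt a) := by
  obtain ⟨x, y, hy, rfl⟩ := IsFractionRing.div_surjective (𝓞 K) a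
  have hy0 : y ≠ 0 := nonZeroDivisors.ne_zero hy
  have hx0 : x ≠ 0 := fun h => ha (by simp [h])
  have key : ∀ z : 𝓞 K, z ≠ 0 →
      dvElt (algebraMap K L (z : K)) = extDv (dvElt (z : K)) := by
    intro z hz
    have he : algebraMap K L (z : K) = ((algebraMap (𝓞 K) (𝓞 L) z : 𝓞 L) : L) := rfl
    rw [he, ← idealDv_span, ← idealDv_span, ← idealDv_map (by simp [hz]), Ideal.map_span,
      Set.image_singleton]
  have hxK : (x : K) ≠ 0 := RingOfIntegers.coe_ne_zero_iff.2 hx0
  have hyK : (y : K) ≠ 0 := RingOfIntegers.coe_ne_zero_iff.2 hy0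
  change dvElt (algebraMap K L ((x : K) / (y : K))) = extDv (dvElt ((x : K) / (y : K)))
  rw [div_eq_mul_inv, map_mul, map_inv₀, dvElt_mul ((map_ne_zero _).2 hxK)
    (inv_ne_zero ((map_ne_zero _).2 hyK)), dvElt_inv ((map_ne_zero _).2 hyK), key x hx0, key y hy0,
    dvElt_mul hxK (inv_ne_zero hyK), dvElt_inv hyK, map_add, map_neg]

lemma extDv_nonneg {D : Dv K} (hD : 0 ≤ D) : 0 ≤ extDv (L := L) D := by
  classical
  induction D using Finsupp.induction with
  | zero => simp
  | single_add v n E hv hn ih =>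
    have hn0 : 0 ≤ n := by
      have := hD v
      simpa [Finsupp.notMem_support_iff.1 hv] using this
    have hE : 0 ≤ E := fun w => by
      rcases eq_or_ne w v with rfl | hw
      · simp [Finsupp.notMem_support_iff.1 hv]
      · have := hD w
        simpa [hw] using this
    rw [map_add, extDv_single]
    exact add_nonneg (smul_nonneg hn0 (idealDv_nonneg _)) (ih hE)

lemma ndeg_extDv (D : Dv K) :
    ndeg (extDv (L := L) D) = ndeg D ^ Module.finrank K L := by
  classical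
  induction D using Finsupp.induction with
  | zero => simp [ndeg_zero]
  | single_add v n E hv hn ih =>
    rw [map_add, ndeg_add, ndeg_add, ih, mul_pow, extDv_single]
    congr 1
    have h1 : ndeg (idealDv (v.asIdeal.map (algebraMap (𝓞 K) (𝓞 L)))) =
        ndeg (Finsupp.single v 1) ^ Module.finrank K L := by
      rw [← idealDv_prime, ndeg_idealDv (map_ne_bot_ext v.ne_bot), ndeg_idealDv v.ne_bot]
      rw [← Ideal.absNorm_relNorm (𝓞 K), Ideal.relNorm_algebraMap, map_pow, Nat.cast_pow,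
        IsFractionRing.finrank_eq (𝓞 K) K (𝓞 L) L]
    rw [ndeg_zsmul, h1, show Finsupp.single v n = n • Finsupp.single v 1 by simp, ndeg_zsmul,
      ← zpow_natCast, ← zpow_natCast, ← zpow_mul, ← zpow_mul, mul_comm]

end Ext

section Dual

/-- The divisor of the different. -/
def diffDv (K : Type*) [Field K] [NumberField K] : Dv K := idealDv (differentIdeal ℤ (𝓞 K))

lemma dual_fid (D : Dv K) :
    FractionalIdeal.dual ℤ ℚ (fid D : FractionalIdeal (𝓞 K)⁰ K) = fid (-D - diffDv K) := by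
  have h : (differentIdeal ℤ (𝓞 K) : FractionalIdeal (𝓞 K)⁰ K) =
      (FractionalIdeal.dual ℤ ℚ (1 : FractionalIdeal (𝓞 K)⁰ K))⁻¹ :=
    coeIdeal_differentIdeal ℤ ℚ K (𝓞 K)
  rw [FractionalIdeal.dual_eq_mul_inv, sub_eq_add_neg, add_comm, fid_add, Units.val_mul, fid_neg,
    fid_neg, Units.val_inv_eq_inv_val, Units.val_inv_eq_inv_val, diffDv,
    fid_idealDv differentIdeal_ne_bot, h, inv_inv]

/-- Membership in the trace dual of the lattice of `D`. -/
lemma mem_fid_dual {D : Dv K} {x : K} :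
    x ∈ (fid (-D - diffDv K) : FractionalIdeal (𝓞 K)⁰ K) ↔
      ∀ a ∈ (fid D : FractionalIdeal (𝓞 K)⁰ K), ∃ n : ℤ, Algebra.trace ℚ K (x * a) = n := by
  rw [← dual_fid, FractionalIdeal.mem_dual (fid D).ne_zero]
  refine forall₂_congr fun a _ => ?_
  rw [Algebra.traceForm_apply, RingHom.mem_range]
  exact ⟨fun ⟨n, hn⟩ => ⟨n, by rw [← hn]; simp⟩, fun ⟨n, hn⟩ => ⟨n, by rw [hn]; simp⟩⟩

end Dual

end FermatAgent.LT.Dihedral
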