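import Mathlib.RingTheory.Ideal.Quotient.Operations
import Mathlib.Analysis.Complex.Basic
import Mathlib.Algebra.BigOperators.Finprod

/-!
# Sums over residue rings of functions given on representatives
-/

set_option autoImplicit false
set_option maxHeartbeats 400000

noncomputable section

open Finset

namespace FermatAgent.LT.Dihedral

variable {R : Type*} [CommRing R]

/-- `f` only depends on the class modulo `I`. -/
def PeriodicMod (I : Ideal R) (f : R → ℂ) : Prop := ∀ x, ∀ u ∈ I, f (x + u) = f x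

/-- A chosen representative of a residue class. -/
def qrep (I : Ideal R) (c : R ⧸ I) : R := Function.surjInv Ideal.Quotient.mk_surjective c

@[simp] lemma mk_qrep (I : Ideal R) (c : R ⧸ I) : Ideal.Quotient.mk I (qrep I c) = c :=
  Function.surjInv_eq Ideal.Quotient.mk_surjective c

/-- The sum of `f` over the classes modulo `I`. -/
def qsum (I : Ideal R) (f : R → ℂ) : ℂ := ∑ᶠ c : R ⧸ I, f (qrep I c)

variable {I J : Ideal R} {f g : R → ℂ}

lemma PeriodicMod.eq_of_mk (h : PeriodicMod I f) {x y : R}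
    (hxy : Ideal.Quotient.mk I x = Ideal.Quotient.mk I y) : f x = f y := by
  rw [← h y (x - y) ((Ideal.Quotient.eq).1 hxy), add_sub_cancel]

lemma PeriodicMod.qrep_mk (h : PeriodicMod I f) (x : R) :
    f (qrep I (Ideal.Quotient.mk I x)) = f x :=
  h.eq_of_mk (mk_qrep I _)

lemma qsum_eq_sum [Fintype (R ⧸ I)] (f : R → ℂ) : qsum I f = ∑ c : R ⧸ I, f (qrep I c) :=
  finsum_eq_sum_of_fintype _

lemma qsum_congr (h : ∀ x, f x = g x) : qsum I f = qsum I g :=
  finsum_congr fun _ => h _

lemma qsum_const_mul (a : ℂ) (f : R → ℂ) : qsum I (fun x => a * f x) = a * qsum I f :=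
  (mul_finsum _ _).symm

/-- Change of representatives. -/
lemma qsum_reindex (hf : PeriodicMod I f) {ι : Type*} [Fintype ι] (r : ι → R)
    (hr : Function.Bijective fun i => Ideal.Quotient.mk I (r i)) :
    qsum I f = ∑ i, f (r i) := by
  rw [qsum, ← finsum_eq_sum_of_fintype, ← finsum_comp_equiv (Equiv.ofBijective _ hr)]
  exact finsum_congr fun i => hf.qrep_mk (r i)

lemma qsum_add_shift (hf : PeriodicMod I f) (a : R) :
    qsum I (fun x => f (x + a)) = qsum I f := by
  rw [qsum, qsum, ← finsum_comp_equiv (Equiv.addRight (Ideal.Quotient.mk I a))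
    (f := fun c => f (qrep I c))]
  refine finsum_congr fun c => (hf.eq_of_mk ?_).symm
  simp

/-- A function with a nontrivial twist under translations by `J` has sum zero. -/
lemma qsum_eq_zero_of_twist [Finite (R ⧸ I)] (hf : PeriodicMod I f) (J : Ideal R)
    (χ : R → R → ℂ) (hper : ∀ x, PeriodicMod I (χ x))
    (htw : ∀ x, ∀ u ∈ J, f (x + u) = f x * χ x u)
    (hmul : ∀ x, ∀ u ∈ J, ∀ v ∈ J, χ x (u + v) = χ x u * χ x v)
    (hne : ∀ x, f x ≠ 0 → ∃ u ∈ J, χ x u ≠ 1) : qsum I f = 0 := by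
  classical
  have : Fintype (R ⧸ I) := Fintype.ofFinite _
  set U := (univ : Finset (R ⧸ I)).filter (fun c => c ∈ J.map (Ideal.Quotient.mk I))
  have hU : ∀ c ∈ U, ∃ u ∈ J, Ideal.Quotient.mk I u = c := fun c hc =>
    (Ideal.mem_map_iff_of_surjective _ Ideal.Quotient.mk_surjective).1 (mem_filter.1 hc).2
  choose! r hrJ hr using hU
  have h0 : 0 < U.card := card_pos.2 ⟨0, mem_filter.2 ⟨mem_univ _, zero_mem _⟩⟩
  have key : (U.card : ℂ) * qsum I f = 0 := by
    have h1 : ∀ c ∈ U, qsum I (fun x => f x * χ x (r c)) = qsum I f := fun c hc => by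
      rw [← qsum_add_shift hf (r c)]
      exact qsum_congr fun x => (htw x _ (hrJ c hc)).symm
    rw [← nsmul_eq_mul, ← sum_const, ← sum_congr rfl h1]
    simp only [qsum_eq_sum]
    rw [sum_comm]
    refine sum_eq_zero fun c _ => ?_
    set x := qrep I c
    rw [← mul_sum]
    by_cases hx : f x = 0
    · rw [hx, zero_mul]
    obtain ⟨u, huJ, hu⟩ := hne x hx
    refine mul_eq_zero_of_right _ ?_
    set t := Ideal.Quotient.mk I u
    have htU : t ∈ J.map (Ideal.Quotient.mk I) := Ideal.mem_map_of_mem _ huJ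
    have hsum : ∑ d ∈ U, χ x (r d) = χ x u * ∑ d ∈ U, χ x (r d) := by
      rw [mul_sum]
      refine (sum_bij' (fun d _ => t + d) (fun d _ => d - t) ?_ ?_ ?_ ?_ ?_).symm
      · exact fun d hd => mem_filter.2 ⟨mem_univ _, add_mem htU (mem_filter.1 hd).2⟩
      · exact fun d hd => mem_filter.2 ⟨mem_univ _, sub_mem (mem_filter.1 hd).2 htU⟩
      · intro d _; abel
      · intro d _; abel
      intro d hd
      rw [← hmul x u huJ _ (hrJ d hd)]
      refine (hper x).eq_of_mk ?_
      rw [map_add, hr d hd, hr (t + d) (mem_filter.2 ⟨mem_univ _, add_mem htU (mem_filter.1 hd).2⟩)]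
    rcases mul_eq_zero.1 (show (χ x u - 1) * ∑ d ∈ U, χ x (r d) = 0 by
      linear_combination -hsum) with h | h
    · exact absurd (sub_eq_zero.1 h) hu
    · exact h
  exact (mul_eq_zero.1 key).resolve_left (Nat.cast_ne_zero.2 h0.ne')

/-- A function periodic modulo a larger ideal. -/
lemma qsum_coarsen [Finite (R ⧸ I)] (hIJ : I ≤ J) (hf : PeriodicMod J f) :
    (Nat.card (R ⧸ J) : ℂ) * qsum I f = (Nat.card (R ⧸ I) : ℂ) * qsum J f := by
  classical
  have : Fintype (R ⧸ I) := Fintype.ofFinite _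
  have : Finite (R ⧸ J) := Finite.of_surjective _ (Ideal.Quotient.factor_surjective hIJ)
  have : Fintype (R ⧸ J) := Fintype.ofFinite _
  have hsh : ∀ d : R ⧸ J, qsum I (fun x => if Ideal.Quotient.mk J x = d then (1 : ℂ) else 0) =
      qsum I (fun x => if Ideal.Quotient.mk J x = 0 then 1 else 0) := by
    intro d
    obtain ⟨a, rfl⟩ := Ideal.Quotient.mk_surjective d
    rw [← qsum_add_shift (I := I) (f := fun x => if Ideal.Quotient.mk J x = Ideal.Quotient.mk J a
      then (1 : ℂ) else 0) (fun x u hu => by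
        simp only [map_add, Ideal.Quotient.eq_zero_iff_mem.2 (hIJ hu), add_zero]) a]
    exact qsum_congr fun x => by simp only [map_add, add_eq_right]
  set m := qsum I (fun x => if Ideal.Quotient.mk J x = 0 then (1 : ℂ) else 0)
  have hcol : ∀ h : R → ℂ, PeriodicMod J h → qsum I h = m * qsum J h := by
    intro h hh
    rw [qsum_eq_sum h, qsum_eq_sum h, mul_sum]
    conv_rhs => enter [2, d]; rw [← hsh d, qsum_eq_sum, sum_mul]
    rw [sum_comm]
    refine sum_congr rfl fun c _ => ?_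
    rw [sum_eq_single (Ideal.Quotient.mk J (qrep I c))]
    · rw [if_pos rfl, one_mul, hh.qrep_mk]
    · intro d _ hd
      rw [if_neg (Ne.symm hd), zero_mul]
    · simp
  have hm := hcol (fun _ => 1) (fun _ _ _ => rfl)
  simp only [qsum_eq_sum, sum_const, card_univ, nsmul_eq_mul, mul_one,
    ← Nat.card_eq_fintype_card] at hm
  rw [hcol f hf, hm]
  ring

/-- The Chinese remainder theorem for sums of products. -/
lemma qsum_mul_crt [Finite (R ⧸ I)] [Finite (R ⧸ J)] (h : I ⊔ J = ⊤) (hf : PeriodicMod I f)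
    (hg : PeriodicMod J g) :
    qsum (I * J) (fun x => f x * g x) = qsum I f * qsum J g := by
  classical
  have : Fintype (R ⧸ I) := Fintype.ofFinite _
  have : Fintype (R ⧸ J) := Fintype.ofFinite _
  have hinf : I * J = I ⊓ J := Ideal.mul_eq_inf_of_coprime h
  have hper : PeriodicMod (I * J) fun x => f x * g x := fun x u hu => by
    have hu' : u ∈ I ⊓ J := by rw [← hinf]; exact hu
    simp only [hf x u hu'.1, hg x u hu'.2]
  have hex : ∀ p : (R ⧸ I) × (R ⧸ J), ∃ x : R,
      Ideal.Quotient.mk I x = p.1 ∧ Ideal.Quotient.mk J x = p.2 := by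
    intro p
    obtain ⟨a, ha⟩ := Ideal.Quotient.mk_surjective p.1
    obtain ⟨b, hb⟩ := Ideal.Quotient.mk_surjective p.2
    obtain ⟨u, hu, v, hv, huv⟩ := Submodule.mem_sup.1 ((Ideal.eq_top_iff_one _).1 h)
    refine ⟨v * a + u * b, ?_, ?_⟩
    · rw [← ha, Ideal.Quotient.eq]
      rw [show v * a + u * b - a = u * (b - a) by linear_combination a * huv]
      exact Ideal.mul_mem_right _ _ hu
    · rw [← hb, Ideal.Quotient.eq]
      rw [show v * a + u * b - b = v * (a - b) by linear_combination b * huv]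
      exact Ideal.mul_mem_right _ _ hv
  choose r hr₁ hr₂ using hex
  rw [qsum_eq_sum f, qsum_eq_sum g, sum_mul_sum, ← sum_product',
    qsum_reindex (I := I * J) (f := fun x => f x * g x) hper r ⟨?_, ?_⟩, univ_product_univ]
  · refine sum_congr rfl fun p _ => ?_
    rw [← hf.qrep_mk (r p), ← hg.qrep_mk (r p), hr₁, hr₂]
  · intro p q hpq
    have hd : r p - r q ∈ I ⊓ J := by rw [← hinf]; exact (Ideal.Quotient.eq).1 hpq
    refine Prod.ext ?_ ?_
    · rw [← hr₁ p, ← hr₁ q]
      exact Ideal.Quotient.eq.2 hd.1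
    · rw [← hr₂ p, ← hr₂ q]
      exact Ideal.Quotient.eq.2 hd.2
  · intro c
    obtain ⟨x, rfl⟩ := Ideal.Quotient.mk_surjective c
    refine ⟨(Ideal.Quotient.mk I x, Ideal.Quotient.mk J x), Ideal.Quotient.eq.2 ?_⟩
    rw [hinf]
    exact ⟨Ideal.Quotient.eq.1 (hr₁ _), Ideal.Quotient.eq.1 (hr₂ _)⟩

/-- Scaling: the classes in `J` modulo `I` are the multiples of `a` by the classes modulo `K`. -/
lemma qsum_scale [Finite (R ⧸ I)] {K : Ideal R} [Finite (R ⧸ K)] (hf : PeriodicMod I f) (a : R)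
    (hJ : Ideal.span {a} ⊔ I = J) (hK : ∀ z, a * z ∈ I ↔ z ∈ K)
    (hsupp : ∀ x, f x ≠ 0 → x ∈ J) : qsum I f = qsum K (fun z => f (a * z)) := by
  classical
  have : Fintype (R ⧸ I) := Fintype.ofFinite _
  have : Fintype (R ⧸ K) := Fintype.ofFinite _
  rw [qsum_eq_sum f, qsum_eq_sum (fun z => f (a * z))]
  refine (sum_bij_ne_zero (fun d _ _ => Ideal.Quotient.mk I (a * qrep K d))
    (fun _ _ _ => mem_univ _) ?_ ?_ ?_).symm
  · intro d₁ _ _ d₂ _ _ he
    rw [Ideal.Quotient.eq, ← mul_sub, hK] at he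
    rw [← mk_qrep K d₁, ← mk_qrep K d₂]
    exact Ideal.Quotient.eq.2 he
  · intro c _ hc
    have hx := hsupp _ hc
    rw [← hJ, Submodule.mem_sup] at hx
    obtain ⟨y, hy, z, hz, hyz⟩ := hx
    obtain ⟨t, rfl⟩ := Ideal.mem_span_singleton'.1 hy
    have hc' : Ideal.Quotient.mk I (a * qrep K (Ideal.Quotient.mk K t)) = c := by
      rw [← mk_qrep I c, ← hyz, Ideal.Quotient.eq]
      have := (hK _).2 ((Ideal.Quotient.eq).1 (mk_qrep K (Ideal.Quotient.mk K t)))
      rw [show a * qrep K (Ideal.Quotient.mk K t) - (t * a + z) =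
        a * (qrep K (Ideal.Quotient.mk K t) - t) - z by ring]
      exact sub_mem this hz
    refine ⟨Ideal.Quotient.mk K t, mem_univ _, ?_, hc'⟩
    rw [← hf.qrep_mk (a * qrep K _), hc']
    exact hc
  · exact fun d _ _ => (hf.qrep_mk _).symm

end FermatAgent.LT.Dihedral
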