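import Mathlib.FieldTheory.Finite.Basic
import Mathlib.NumberTheory.GaussSum
import Mathlib.Analysis.Complex.Basic

/-!
# Character sums over small residue fields
-/

set_option autoImplicit false

noncomputable section

open Finset

namespace FermatAgent.LT.Dihedral

variable {k : Type*} [Field k] [Fintype k]
variable {B : Type*} [Field B] [Fintype B] [Algebra k B]

/-- The sum of a nontrivial additive character over all norms from the quadratic extension. -/
theorem sum_addChar_pow_succ (hcard : Fintype.card B = Fintype.card k ^ 2) (Nm : B → k)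
    (hN : ∀ x, algebraMap k B (Nm x) = x ^ (Fintype.card k + 1)) {ψ : AddChar k ℂ} (hψ : ψ ≠ 1) :
    ∑ x, ψ (Nm x) = -(Fintype.card k : ℂ) := by
  classical
  set q := Fintype.card k with hq
  have hq1 : 1 < q := Fintype.one_lt_card
  have hinj : Function.Injective (algebraMap k B) := (algebraMap k B).injective
  have hzero : ∀ x, Nm x = 0 ↔ x = 0 := fun x => by
    rw [← map_eq_zero_iff _ hinj, hN, pow_eq_zero_iff (by omega)]
  have hle : ∀ c : k, #{x | Nm x = c} ≤ q + 1 := fun c => by
    refine le_trans ?_ ((Multiset.toFinset_card_le _).trans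
      (Polynomial.card_nthRoots (q + 1) (algebraMap k B c)))
    refine Finset.card_le_card fun x hx => ?_
    rw [Finset.mem_filter] at hx
    rw [Multiset.mem_toFinset, Polynomial.mem_nthRoots (by omega), ← hN, hx.2]
  have htot : ∑ c ∈ univ.erase (0 : k), #{x | Nm x = c} = #(univ.erase (0 : B)) := by
    rw [Finset.card_eq_sum_card_fiberwise (f := Nm) (t := univ.erase (0 : k)) fun x hx => by
      simp only [Finset.coe_erase, Set.mem_sdiff, Set.mem_singleton_iff,
        Finset.mem_univ, Finset.mem_coe] at hx ⊢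
      exact ⟨trivial, fun h => hx.2 ((hzero x).1 h)⟩]
    refine Finset.sum_congr rfl fun c hc => ?_
    rw [Finset.mem_erase] at hc
    congr 1
    ext x
    simp only [Finset.mem_filter, Finset.mem_univ, true_and, Finset.mem_erase, and_true,
      iff_and_self]
    intro hx h
    exact hc.1 (hx ▸ (hzero x).2 h)
  have heq : ∀ c ∈ univ.erase (0 : k), #{x | Nm x = c} = q + 1 := by
    refine (Finset.sum_eq_sum_iff_of_le fun c _ => hle c).1 ?_
    rw [htot, Finset.sum_const, Finset.card_erase_of_mem (Finset.mem_univ _),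
      Finset.card_erase_of_mem (Finset.mem_univ _), Finset.card_univ, Finset.card_univ, hcard,
      smul_eq_mul, ← hq]
    rw [mul_comm, ← one_pow 2, Nat.sq_sub_sq, one_pow]
  rw [← Finset.sum_fiberwise univ Nm]
  have h1 : ∀ c : k, ∑ x ∈ univ.filter (fun x => Nm x = c), ψ (Nm x) =
      (#{x | Nm x = c} : ℂ) * ψ c := fun c => by
    rw [Finset.sum_congr rfl fun x hx => by rw [(Finset.mem_filter.1 hx).2]]
    simp
  simp only [h1]
  rw [← Finset.add_sum_erase univ _ (Finset.mem_univ (0 : k))]
  have h0 : #{x | Nm x = 0} = 1 := by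
    rw [Finset.card_eq_one]
    exact ⟨0, by ext x; simp [hzero]⟩
  rw [h0, Finset.sum_congr rfl fun c hc => by rw [heq c hc], ← Finset.mul_sum,
    Finset.sum_erase_eq_sub (Finset.mem_univ _), AddChar.sum_eq_zero_of_ne_one hψ,
    AddChar.map_zero_eq_one]
  push_cast
  ring

omit [Fintype B] in
/-- The nontrivial automorphism of a quadratic extension of finite fields is the Frobenius. -/
theorem ringEquiv_eq_pow_card [Finite B] (hcard : Nat.card B = Fintype.card k ^ 2) (σ : B ≃+* B)
    (hσ : ∀ c, σ (algebraMap k B c) = algebraMap k B c) (hne : σ ≠ RingEquiv.refl B) (x : B) :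
    σ x = x ^ Fintype.card k := by
  classical
  set q := Fintype.card k
  have hinj : Function.Injective (algebraMap k B) := (algebraMap k B).injective
  have hq : 1 < q := Fintype.one_lt_card
  have hfix : ∀ y : B, y ^ q = y → ∃ c : k, algebraMap k B c = y := by
    intro y hy
    by_contra hc
    push Not at hc
    have hle := Polynomial.card_le_degree_of_subset_roots
      (p := (Polynomial.X ^ q - Polynomial.X : Polynomial B))
      (Z := insert y ((Finset.univ : Finset k).image (algebraMap k B))) ?_
    · rw [Finset.card_insert_of_notMem (by simpa using hc), Finset.card_image_of_injective _ hinj,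
        Finset.card_univ, FiniteField.X_pow_card_sub_X_natDegree_eq B hq] at hle
      exact Nat.not_succ_le_self q hle
    · intro z hz
      rw [Finset.mem_val, Finset.mem_insert, Finset.mem_image] at hz
      rw [Polynomial.mem_roots (FiniteField.X_pow_card_sub_X_ne_zero B hq)]
      rcases hz with rfl | ⟨c, -, rfl⟩
      · simp [hy]
      · simp [← map_pow, FiniteField.pow_card, q]
  by_cases hx : x ^ q = x
  · obtain ⟨c, rfl⟩ := hfix x hx
    rw [hσ, hx]
  · have : Fintype B := Fintype.ofFinite B
    have hqq : (x ^ q) ^ q = x := by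
      rw [← pow_mul, ← pow_two, ← hcard, Nat.card_eq_fintype_card, FiniteField.pow_card]
    obtain ⟨p, hchar, n, hp, hpn⟩ := FiniteField.card' k
    have : Fact p.Prime := ⟨hp⟩
    have : CharP B p := charP_of_injective_algebraMap hinj p
    have hT : (x + x ^ q) ^ q = x + x ^ q := by
      rw [show q = p ^ (n : ℕ) from hpn, add_pow_char_pow, ← show q = p ^ (n : ℕ) from hpn, hqq,
        add_comm]
    obtain ⟨T, hT'⟩ := hfix _ hT
    obtain ⟨N, hN'⟩ := hfix (x * x ^ q) (by rw [mul_pow, hqq, mul_comm])
    have hquad : σ x ^ 2 - (x + x ^ q) * σ x + x * x ^ q = 0 := by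
      rw [← hT', ← hN', ← hσ T, ← hσ N, ← map_pow, ← map_mul, ← map_sub, ← map_add,
        hT', hN', show x ^ 2 - (x + x ^ q) * x + x * x ^ q = 0 by ring, map_zero]
    have hprod : (σ x - x) * (σ x - x ^ q) = 0 := by linear_combination hquad
    rcases mul_eq_zero.1 hprod with h | h
    · exfalso
      rw [sub_eq_zero] at h
      refine hne (RingEquiv.ext fun y => ?_)
      have hlin : Function.Injective fun ab : k × k =>
          algebraMap k B ab.1 + algebraMap k B ab.2 * x := by
        rintro ⟨a, b⟩ ⟨a', b'⟩ h'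
        simp only at h'
        by_cases hb : b = b'
        · subst hb
          rw [hinj (add_right_cancel h')]
        · exfalso
          have hxk : x = algebraMap k B ((a' - a) / (b - b')) := by
            rw [map_div₀, eq_div_iff (by simpa [sub_eq_zero] using hb), map_sub, map_sub]
            linear_combination h'
          exact hx (by rw [hxk, ← map_pow, FiniteField.pow_card])
      have hsurj := ((Fintype.bijective_iff_injective_and_card _).2 ⟨hlin, by
        rw [Fintype.card_prod, ← Nat.card_eq_fintype_card (α := B), hcard, pow_two]⟩).2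
      obtain ⟨⟨a, b⟩, rfl⟩ := hsurj y
      simp [hσ, h]
    · exact sub_eq_zero.1 h

/-- The basic sum on the field of nine elements. -/
theorem sum_nine (hk : Fintype.card k = 3) (hB : Fintype.card B = 9) {χ : MulChar B ℂ}
    (hχ2 : χ ^ 2 ≠ 1) (hχk : ∀ c : k, c ≠ 0 → χ (algebraMap k B c) = 1) {ψ : AddChar k ℂ}
    (hψ : ψ ≠ 1) (Nm Tr : B → k) (hN : ∀ x, algebraMap k B (Nm x) = x ^ 4)
    (hT : ∀ x, algebraMap k B (Tr x) = x + x ^ 3) (V : k → ℂ) {m l : k} (hm : m ≠ 0) (y : B) :
    ∑ x, χ x * V (l * Nm x) * ψ (m * Tr (x * y ^ 3)) = -3 * χ y * V (l * Nm y) := by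
  classical
  have hinj : Function.Injective (algebraMap k B) := (algebraMap k B).injective
  have h8 : Fintype.card Bˣ = 8 := by rw [Fintype.card_units, hB]
  obtain ⟨g, hg⟩ := IsCyclic.exists_generator (α := Bˣ)
  have hord : orderOf g = 8 := by
    rw [orderOf_eq_card_of_forall_mem_zpowers hg, Nat.card_eq_fintype_card, h8]
  set a : B := (g : B)
  have ha8 : a ^ 8 = 1 := by
    rw [← Units.val_pow_eq_pow_val, ← hord, pow_orderOf_eq_one, Units.val_one]
  have ha4 : a ^ 4 = -1 := by
    have h : (a ^ 4) ^ 2 = 1 := by rw [← pow_mul]; exact ha8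
    rcases sq_eq_one_iff.1 h with h | h
    · exfalso
      have h' : g ^ 4 = 1 := Units.ext (by simpa using h)
      have := Nat.le_of_dvd (by norm_num) (orderOf_dvd_of_pow_eq_one h')
      omega
    · exact h
  have hχm1 : χ (-1) = 1 := by
    have := hχk (-1) (neg_ne_zero.2 one_ne_zero)
    rwa [map_neg, map_one] at this
  have hg2 : χ a ^ 2 = -1 := by
    have h4 : (χ a ^ 2) ^ 2 = 1 := by rw [← pow_mul, ← map_pow, ha4, hχm1]
    rcases sq_eq_one_iff.1 h4 with h | h
    · exfalso
      refine hχ2 (MulChar.ext fun u => ?_)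
      obtain ⟨n, rfl⟩ := (mem_powers_iff_mem_zpowers.2 (hg u))
      simp only [MulChar.pow_apply' χ two_ne_zero, MulChar.one_apply_coe, Units.val_pow_eq_pow_val,
        map_pow]
      rw [← pow_mul, mul_comm, pow_mul, h, one_pow]
    · exact h
  have hbij : Function.Bijective fun n : Fin 8 => g ^ (n : ℕ) := by
    rw [Fintype.bijective_iff_injective_and_card, Fintype.card_fin, h8]
    exact ⟨fun i j h => Fin.ext (pow_injOn_Iio_orderOf (by simp [hord]) (by simp [hord]) h), rfl⟩
  have hsum : ∀ f : B → ℂ, ∑ x, f x = f 0 + ∑ n : Fin 8, f (a ^ (n : ℕ)) := by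
    intro f
    rw [← Finset.add_sum_erase univ f (Finset.mem_univ (0 : B))]
    congr 1
    have h1 := (Equiv.ofBijective _ hbij).sum_comp (fun u : Bˣ => f u)
    refine Eq.trans ?_ (h1.symm.trans (Finset.sum_congr rfl fun n _ => by simp [a]))
    refine Finset.sum_bij' (fun x hx => Units.mk0 x (Finset.mem_erase.1 hx).1)
      (fun u _ => (u : B)) (by simp) (by simp) (by simp) (fun u _ => Units.ext rfl)
      fun x _ => rfl
  rcases eq_or_ne y 0 with rfl | hy
  · rw [MulChar.map_zero, mul_zero, zero_mul]
    simp only [zero_pow three_ne_zero, mul_zero]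
    have hT0 : Tr 0 = 0 := hinj (by rw [hT, map_zero]; simp)
    rw [hT0, mul_zero, AddChar.map_zero_eq_one]
    simp only [mul_one]
    set S := ∑ x, χ x * V (l * Nm x)
    have hNm : ∀ x, Nm (x * a ^ 2) = Nm x := fun x => hinj (by
      rw [hN, hN, mul_pow, ← pow_mul, ha8, mul_one])
    have hS : S = -S := by
      have hne : a ^ 2 ≠ 0 := pow_ne_zero _ g.ne_zero
      calc S = ∑ x, χ (x * a ^ 2) * V (l * Nm (x * a ^ 2)) :=
            (Equiv.sum_comp (Equiv.mulRight₀ (a ^ 2) hne) fun x => χ x * V (l * Nm x)).symm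
        _ = -S := by
            rw [← Finset.sum_neg_distrib]
            refine Finset.sum_congr rfl fun x _ => ?_
            rw [hNm, map_mul, map_pow, hg2]
            ring
    linear_combination hS / 2
  · rw [← Equiv.sum_comp (Equiv.mulRight₀ y hy)]
    simp only [Equiv.mulRight₀_apply]
    have hTy : ∀ u, Tr (u * y * y ^ 3) = Tr u * Nm y := fun u => hinj (by
      rw [map_mul, hT, hT, hN]
      have hy9 : y ^ 8 = 1 := by rw [← FiniteField.pow_card_sub_one_eq_one y hy, hB]
      linear_combination (u ^ 3 * y ^ 4) * hy9)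
    have hNy : ∀ u, Nm (u * y) = Nm u * Nm y := fun u => hinj (by
      rw [map_mul, hN, hN, hN, mul_pow])
    simp only [hTy, hNy, map_mul]
    rw [hsum]
    have h0 : Nm 0 = 0 := hinj (by rw [hN, map_zero]; simp)
    simp only [MulChar.map_zero, zero_mul, zero_add, Fin.sum_univ_eight, Fin.isValue]
    have hmy : m * Nm y ≠ 0 :=
      mul_ne_zero hm fun h => hy (by
        have := hN y
        rw [h, map_zero] at this
        exact pow_eq_zero_iff (n := 4) (by norm_num) |>.1 this.symm)
    have hNa : ∀ n : ℕ, Nm (a ^ n) = (-1) ^ n := fun n => hinj (by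
      rw [hN, map_pow, map_neg, map_one, ← pow_mul, mul_comm, pow_mul, ha4])
    have t0 : Tr (a ^ 0) = 2 := hinj (by rw [hT, map_ofNat, pow_zero]; ring)
    have t2 : Tr (a ^ 2) = 0 := hinj (by
      rw [hT, map_zero]; linear_combination (a ^ 2) * ha4)
    have t6 : Tr (a ^ 6) = 0 := hinj (by
      rw [hT, map_zero]; linear_combination (a ^ 2) * ha4 + (a ^ 10 + a ^ 2) * ha8)
    have t4 : Tr (a ^ 4) = -2 := hinj (by
      rw [hT, map_neg, map_ofNat]; linear_combination ha4 + (a ^ 8 - a ^ 4 + 1) * ha4)
    have t3 : Tr (a ^ 3) = Tr (a ^ 1) := hinj (by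
      rw [hT, hT]; linear_combination a * ha8)
    have t5 : Tr (a ^ 5) = -Tr (a ^ 1) := hinj (by
      rw [map_neg, hT, hT]; linear_combination a * ha4 + a ^ 3 * (a ^ 8 - a ^ 4 + 1) * ha4)
    have t7 : Tr (a ^ 7) = -Tr (a ^ 1) := hinj (by
      rw [map_neg, hT, hT]; linear_combination a ^ 3 * ha4 + a * ha4 + (a ^ 13 + a ^ 5) * ha8)
    simp only [Fin.coe_ofNat_eq_mod, Nat.reduceMod, map_pow,
      hNa, t0, t2, t3, t4, t5, t6, t7]
    rw [show χ a ^ 3 = -χ a by linear_combination χ a * hg2,
      show χ a ^ 4 = 1 by linear_combination (χ a ^ 2 - 1) * hg2,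
      show χ a ^ 5 = χ a by linear_combination (χ a ^ 3 - χ a) * hg2,
      show χ a ^ 6 = -1 by linear_combination (χ a ^ 4 - χ a ^ 2 + 1) * hg2,
      show χ a ^ 7 = -χ a by linear_combination (χ a ^ 5 - χ a ^ 3 + χ a) * hg2, hg2]
    have hψsum : ψ (m * (2 * Nm y)) + ψ (m * (-2 * Nm y)) = -1 := by
      set b := m * Nm y
      have e1 : m * (2 * Nm y) = 2 * b := by ring
      have e2 : m * (-2 * Nm y) = -(2 * b) := by ring
      rw [e1, e2]
      have h2 : (2 : k) * b ≠ 0 := by
        refine mul_ne_zero ?_ hmy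
        intro h
        have h6 := FiniteField.cast_card_eq_zero k
        rw [hk, show ((3 : ℕ) : k) = 2 + 1 by norm_num, h, zero_add] at h6
        exact one_ne_zero h6
      set c := 2 * b
      have hne : c ≠ -c := by
        intro h
        have h3 := FiniteField.cast_card_eq_zero k
        rw [hk] at h3
        push_cast at h3
        exact h2 (by linear_combination (-1 : k) * h + c * h3)
      have huniv : (univ : Finset k) = {0, c, -c} := by
        refine (Finset.eq_univ_of_card _ ?_).symm
        rw [hk, Finset.card_insert_of_notMem (by simp [h2, Ne.symm h2]),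
          Finset.card_insert_of_notMem (by simp [hne]), Finset.card_singleton]
      have := AddChar.sum_eq_zero_of_ne_one hψ
      rw [huniv, Finset.sum_insert (by simp [h2, Ne.symm h2]), Finset.sum_insert (by simp [hne]),
        Finset.sum_singleton, AddChar.map_zero_eq_one] at this
      linear_combination this
    simp only [zero_mul, mul_zero, AddChar.map_zero_eq_one, pow_zero, pow_one, neg_mul, mul_neg,
      one_mul, mul_one, neg_one_sq]
    rw [neg_mul, mul_neg] at hψsum
    norm_num
    linear_combination (χ y * V (l * Nm y)) * hψsum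

omit [Fintype k] in
/-- The Gauss sum of the sign character on the field of three elements squares to `-3`. -/
theorem gaussSum_three_sq [Fintype k] (hk : Fintype.card k = 3) {χ : MulChar k ℂ} (hχ : χ ≠ 1)
    {ψ : AddChar k ℂ} (hψ : ψ ≠ 1) : gaussSum χ ψ ^ 2 = -3 := by
  classical
  have h2 : (2 : k) = -1 := by
    have h6 := FiniteField.cast_card_eq_zero k
    rw [hk] at h6
    push_cast at h6
    linear_combination h6
  have hne : (1 : k) ≠ -1 := fun h => one_ne_zero (α := k) (by linear_combination h2 - h)
  have huniv : ∀ x : k, x = 0 ∨ x = 1 ∨ x = -1 := by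
    have hu : (univ : Finset k) = {0, 1, -1} := by
      refine (Finset.eq_univ_of_card _ ?_).symm
      rw [hk, Finset.card_insert_of_notMem (by simp), Finset.card_insert_of_notMem (by simp [hne]),
        Finset.card_singleton]
    intro x
    have := Finset.mem_univ x
    rw [hu] at this
    simpa using this
  have hsq : χ (-1) ^ 2 = 1 := by rw [← map_pow, neg_one_sq, map_one]
  have hm1 : χ (-1) = -1 := by
    rcases sq_eq_one_iff.1 hsq with h | h
    · exfalso
      refine hχ (MulChar.ext fun u => ?_)
      rcases huniv u with hu | hu | hu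
      · exact absurd hu u.ne_zero
      · simp [hu]
      · rw [MulChar.one_apply_coe, hu, h]
    · exact h
  have hquad : χ.IsQuadratic := by
    intro x
    rcases huniv x with hx | hx | hx
    · exact Or.inl (by rw [hx, MulChar.map_zero])
    · exact Or.inr (Or.inl (by rw [hx, map_one]))
    · exact Or.inr (Or.inr (by rw [hx, hm1]))
  rw [gaussSum_sq hχ hquad (AddChar.IsPrimitive.of_ne_one hψ), hm1, hk]
  norm_num

end FermatAgent.LT.Dihedral
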