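import Fermat.Agent.LT.Dihedral.QuadConj
import Fermat.Agent.LT.Dihedral.QSum
import Fermat.Agent.LT.Dihedral.Residue

/-!
# The primes of `M` over a prime of `F` with radical extension
-/

set_option autoImplicit false
set_option maxHeartbeats 400000

noncomputable section

open NumberField IsDedekindDomain
open scoped nonZeroDivisors

namespace FermatAgent.LT.Dihedral.QuadData

variable {F : Type} [Field F] [NumberField F] (D : QuadData F)

/-- The extension of an ideal to `M`. -/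
abbrev mapI (I : Ideal (𝓞 F)) : Ideal (𝓞 D.M) := I.map (algebraMap (𝓞 F) (𝓞 D.M))

lemma finite_quot {K : Type} [Field K] [NumberField K] {I : Ideal (𝓞 K)} (hI : I ≠ ⊥) :
    Finite (𝓞 K ⧸ I) :=
  Ring.HasFiniteQuotients.finiteQuotient hI

lemma card_quot {K : Type} [Field K] [NumberField K] (I : Ideal (𝓞 K)) :
    Nat.card (𝓞 K ⧸ I) = Ideal.absNorm I := by
  rw [Ideal.absNorm_apply, Submodule.cardQuot_apply]

lemma absNorm_mapI (I : Ideal (𝓞 F)) : Ideal.absNorm (D.mapI I) = Ideal.absNorm I ^ 2 := by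
  rcases eq_or_ne I ⊥ with rfl | hI
  · simp [mapI]
  · have h := ndeg_extDv (L := D.M) (idealDv I)
    rw [← idealDv_map hI, ndeg_idealDv (map_ne_bot_ext hI), ndeg_idealDv hI, D.finrank_eq] at h
    exact_mod_cast h

/-- Contraction of an extended ideal. -/
lemma mem_of_algebraMap_mem {I : Ideal (𝓞 F)} (hI : I ≠ ⊥) {a : 𝓞 F}
    (h : algebraMap (𝓞 F) (𝓞 D.M) a ∈ D.mapI I) : a ∈ I := by
  rcases eq_or_ne a 0 with rfl | ha
  · exact zero_mem _
  refine (idealDv_le_iff hI ha).2 fun q => ?_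
  obtain ⟨P, rfl⟩ := D.exists_above q
  have ha' : algebraMap (𝓞 F) (𝓞 D.M) a ≠ 0 := fun he =>
    ha (FaithfulSMul.algebraMap_injective _ _ (he.trans (map_zero _).symm))
  have h1 := (idealDv_le_iff (map_ne_bot_ext hI) ha').1 h P
  have h2 : ((algebraMap (𝓞 F) (𝓞 D.M) a : 𝓞 D.M) : D.M) = algebraMap F D.M (a : F) := rfl
  rw [h2, dvElt_algebraMap (RingOfIntegers.coe_ne_zero_iff.2 ha), idealDv_map hI, extDv_apply,
    extDv_apply] at h1
  exact le_of_mul_le_mul_left h1 (lt_of_lt_of_le zero_lt_one (D.one_le_ram P))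

lemma σO_mem_mapI {I : Ideal (𝓞 F)} {x : 𝓞 D.M} (h : x ∈ D.mapI I) : D.σO x ∈ D.mapI I := by
  have he : (D.mapI I).map D.σO.toRingHom = D.mapI I := by
    rw [mapI, Ideal.map_map]
    congr 1
    exact RingHom.ext fun a => D.σO_algebraMap a
  rw [← he]
  exact Ideal.mem_map_of_mem _ h

/-- A prime over `q` is one of `P` and its conjugate. -/
lemma eq_or_eq_conjP {P P' : HeightOneSpectrum (𝓞 D.M)} (h : D.below P' = D.below P) :
    P' = P ∨ P' = D.conjP P := by
  classical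
  by_contra hc
  push Not at hc
  obtain ⟨x, hx⟩ := exists_crt {P, P', D.conjP P'} (fun _ => 1)
    (fun v => if v = P then 0 else 1)
  have hne : D.conjP P' ≠ P := fun he => hc.2 (by rw [← he, D.conjP_conjP])
  have h1 : x ∈ P.asIdeal := by
    have := hx P (by simp)
    rw [if_pos rfl, ← coeO_sub, Nat.cast_one, ordGe_one_iff, sub_zero] at this
    exact this
  have h2 : ∀ Q ∈ ({P', D.conjP P'} : Finset (HeightOneSpectrum (𝓞 D.M))), x ∉ Q.asIdeal := by
    intro Q hQ hxQ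
    have hQP : Q ≠ P := by
      simp only [Finset.mem_insert, Finset.mem_singleton] at hQ
      rcases hQ with rfl | rfl
      exacts [hc.1, hne]
    have := hx Q (Finset.mem_insert_of_mem hQ)
    rw [if_neg hQP, ← coeO_sub, Nat.cast_one, ordGe_one_iff] at this
    exact Q.isPrime.ne_top ((Ideal.eq_top_iff_one _).2 (by simpa using sub_mem hxQ this))
  have h3 : D.nrmO x ∈ (D.below P).asIdeal := by
    rw [below_asIdeal, Ideal.mem_comap, algebraMap_nrmO]
    exact Ideal.mul_mem_right _ _ h1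
  rw [← h, below_asIdeal, Ideal.mem_comap, algebraMap_nrmO] at h3
  rcases P'.isPrime.mem_or_mem h3 with h4 | h4
  · exact h2 P' (by simp) h4
  · exact h2 (D.conjP P') (by simp) (D.mem_conjP.2 h4)

/-- No ramification over a prime whose extension is radical. -/
lemma ram_eq_one_of_isRadical {P : HeightOneSpectrum (𝓞 D.M)}
    (hrad : (D.mapI (D.below P).asIdeal).IsRadical) : D.ram P = 1 := by
  refine le_antisymm ?_ (D.one_le_ram P)
  by_contra hc
  push Not at hc
  have hle : D.mapI (D.below P).asIdeal ≤ P.asIdeal ^ 2 := by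
    intro x hx
    rcases eq_or_ne x 0 with rfl | hx0
    · exact zero_mem _
    rw [← ordGe_pow_iff]
    have := (idealDv_le_iff (map_ne_bot_ext (D.below P).ne_bot) hx0).1 hx P
    exact Or.inr (le_trans (by push_cast; exact hc) this)
  obtain ⟨R, hR⟩ := Ideal.dvd_iff_le.2 hle
  have hsq : P.asIdeal * R ≤ D.mapI (D.below P).asIdeal := by
    intro x hx
    refine hrad ⟨2, ?_⟩
    rw [hR, show P.asIdeal ^ 2 * R = (P.asIdeal * R) * P.asIdeal by ring, pow_two x]
    exact Ideal.mul_mem_mul hx (Ideal.mul_le_left hx)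
  have hR0 : R ≠ ⊥ := fun h0 =>
    map_ne_bot_ext (L := D.M) (D.below P).ne_bot (hR.trans (by rw [h0, Ideal.mul_bot]))
  rw [hR] at hsq
  have hd := Ideal.dvd_iff_le.2 hsq
  rw [show P.asIdeal ^ 2 * R = P.asIdeal * (P.asIdeal * R) by ring] at hd
  nth_rw 2 [← one_mul (P.asIdeal * R)] at hd
  exact P.isPrime.ne_top (Ideal.isUnit_iff.1 (isUnit_of_dvd_one
    ((mul_dvd_mul_iff_right (mul_ne_zero P.ne_bot hR0)).1 hd)))

/-- The decomposition of a prime whose extension is radical. -/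
lemma prime_cases_of_isRadical {q : HeightOneSpectrum (𝓞 F)}
    (h : (D.mapI q.asIdeal).IsRadical) :
    ∃ P, D.below P = q ∧
      ((D.conjP P = P ∧ D.mapI q.asIdeal = P.asIdeal) ∨
        (D.conjP P ≠ P ∧ D.mapI q.asIdeal = P.asIdeal * (D.conjP P).asIdeal)) := by
  classical
  obtain ⟨P, rfl⟩ := D.exists_above q
  refine ⟨P, rfl, ?_⟩
  have key : ∀ Q, idealDv (D.mapI (D.below P).asIdeal) Q =
      if Q = P ∨ Q = D.conjP P then 1 else 0 := by
    intro Q
    split_ifs with hQ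
    · have hb : D.below Q = D.below P := by
        rcases hQ with rfl | rfl
        exacts [rfl, D.below_conjP P]
      rw [← hb]
      exact D.ram_eq_one_of_isRadical (hb ▸ h)
    · exact D.idealDv_map_of_ne fun hb => hQ (D.eq_or_eq_conjP hb)
  have hinj : ∀ {I J : Ideal (𝓞 D.M)}, I ≠ ⊥ → J ≠ ⊥ → idealDv I = idealDv J → I = J := by
    intro I J hI hJ he
    have he' : (I : FractionalIdeal (𝓞 D.M)⁰ D.M) = (J : FractionalIdeal (𝓞 D.M)⁰ D.M) := by
      rw [← fid_idealDv hI, ← fid_idealDv hJ, he]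
    exact FractionalIdeal.coeIdeal_injective he'
  by_cases hP : D.conjP P = P
  · refine Or.inl ⟨hP, hinj (map_ne_bot_ext (D.below P).ne_bot) P.ne_bot (Finsupp.ext fun Q => ?_)⟩
    rw [key, idealDv_prime, Finsupp.single_apply]
    simp only [hP, or_self, eq_comm]
  · refine Or.inr ⟨hP, hinj (map_ne_bot_ext (D.below P).ne_bot)
      (mul_ne_zero P.ne_bot (D.conjP P).ne_bot) (Finsupp.ext fun Q => ?_)⟩
    rw [key, idealDv_mul P.ne_bot (D.conjP P).ne_bot, idealDv_prime, idealDv_prime,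
      Finsupp.add_apply, Finsupp.single_apply, Finsupp.single_apply]
    rcases eq_or_ne Q P with rfl | h1
    · simp [hP]
    rcases eq_or_ne Q (D.conjP P) with rfl | h2
    · simp [Ne.symm h1]
    simp [h1, h2, Ne.symm h1, Ne.symm h2]

/-- The norm of an element of an extended ideal. -/
lemma nrmO_mem {I : Ideal (𝓞 F)} (hI : I ≠ ⊥) {x : 𝓞 D.M} (hx : x ∈ D.mapI I) :
    D.nrmO x ∈ I * I := by
  refine D.mem_of_algebraMap_mem (mul_ne_zero hI hI) ?_
  rw [algebraMap_nrmO, mapI, Ideal.map_mul]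
  exact Ideal.mul_mem_mul hx (D.σO_mem_mapI hx)

lemma traO_mem {I : Ideal (𝓞 F)} (hI : I ≠ ⊥) {x : 𝓞 D.M} (hx : x ∈ D.mapI I) :
    D.traO x ∈ I := by
  refine D.mem_of_algebraMap_mem hI ?_
  rw [algebraMap_traO]
  exact add_mem hx (D.σO_mem_mapI hx)

lemma exists_inv_mod {K : Type} [Field K] [NumberField K] (P : HeightOneSpectrum (𝓞 K))
    {x : 𝓞 K} (hx : x ∉ P.asIdeal) : ∃ t, x * t - 1 ∈ P.asIdeal := by
  obtain ⟨t, i, hi, he⟩ := P.isMaximal.exists_inv hx
  refine ⟨t, ?_⟩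
  rw [show x * t - 1 = -i by linear_combination he]
  exact neg_mem hi

lemma split_solve {P : HeightOneSpectrum (𝓞 D.M)} (hP : D.conjP P ≠ P) {x : 𝓞 D.M}
    (hx : x ∉ P.asIdeal) (c : 𝓞 F) :
    ∃ w ∈ (D.conjP P).asIdeal, D.traO (x * w) - c ∈ (D.below P).asIdeal := by
  classical
  obtain ⟨e, he, heP⟩ : ∃ e ∈ (D.conjP P).asIdeal, e ∉ P.asIdeal := by
    by_contra hc
    push Not at hc
    exact hP (HeightOneSpectrum.ext ((D.conjP P).isMaximal.eq_of_le P.isPrime.ne_top hc))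
  obtain ⟨t, ht⟩ := exists_inv_mod P (x := x * e) (fun h => (P.isPrime.mem_or_mem h).elim hx heP)
  refine ⟨e * t * algebraMap (𝓞 F) (𝓞 D.M) c,
    Ideal.mul_mem_right _ _ (Ideal.mul_mem_right _ _ he), ?_⟩
  rw [below_asIdeal, Ideal.mem_comap, map_sub, algebraMap_traO]
  have h1 : D.σO (x * (e * t * algebraMap (𝓞 F) (𝓞 D.M) c)) ∈ P.asIdeal :=
    D.mem_conjP.1 (Ideal.mul_mem_left _ _ (Ideal.mul_mem_right _ _ (Ideal.mul_mem_right _ _ he)))
  rw [show x * (e * t * algebraMap (𝓞 F) (𝓞 D.M) c) + D.σO (x * (e * t * algebraMap _ _ c)) -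
    algebraMap (𝓞 F) (𝓞 D.M) c = algebraMap (𝓞 F) (𝓞 D.M) c * (x * e * t - 1) +
      D.σO (x * (e * t * algebraMap _ _ c)) by ring]
  exact add_mem (Ideal.mul_mem_left _ _ ht) h1

section Inert

variable {P : HeightOneSpectrum (𝓞 D.M)}
  (hP : D.mapI (D.below P).asIdeal = P.asIdeal) (hc : D.conjP P = P)

include hc in
lemma map_σO_of_fixed : P.asIdeal = P.asIdeal.map (D.σO : 𝓞 D.M →+* 𝓞 D.M) := by
  conv_lhs => rw [← hc, conjP_asIdeal]
  rfl

/-- Conjugation of the residue field. -/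
def σres : (𝓞 D.M ⧸ P.asIdeal) ≃+* (𝓞 D.M ⧸ P.asIdeal) :=
  Ideal.quotientEquiv _ _ D.σO (D.map_σO_of_fixed hc)

lemma σres_mk (x : 𝓞 D.M) :
    D.σres hc (Ideal.Quotient.mk _ x) = Ideal.Quotient.mk _ (D.σO x) := rfl

include hP in
lemma card_inert :
    Nat.card (𝓞 D.M ⧸ P.asIdeal) = Nat.card (𝓞 F ⧸ (D.below P).asIdeal) ^ 2 := by
  rw [card_quot, card_quot, ← hP, absNorm_mapI]

instance liesOver (P : HeightOneSpectrum (𝓞 D.M)) : P.asIdeal.LiesOver (D.below P).asIdeal :=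
  ⟨rfl⟩

lemma mk_algebraMap (c : 𝓞 F) :
    algebraMap (𝓞 F ⧸ (D.below P).asIdeal) (𝓞 D.M ⧸ P.asIdeal)
      (Ideal.Quotient.mk (D.below P).asIdeal c) =
      Ideal.Quotient.mk P.asIdeal (algebraMap (𝓞 F) (𝓞 D.M) c) := rfl

include hP in
lemma σres_ne : D.σres hc ≠ RingEquiv.refl _ := by
  intro he
  have := finite_quot (D.below P).ne_bot
  have := finite_quot P.ne_bot
  have := Fintype.ofFinite (𝓞 D.M ⧸ P.asIdeal)
  let := Ideal.Quotient.field P.asIdeal
  have hfix : ∀ x, D.σO x - x ∈ P.asIdeal := fun x => by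
    rw [← Ideal.Quotient.eq, ← σres_mk D hc, he]; rfl
  have himg : ∀ x : 𝓞 D.M ⧸ P.asIdeal, ∃ c, x * x = algebraMap (𝓞 F ⧸ (D.below P).asIdeal) _ c ∧
      ∃ c', x + x = algebraMap (𝓞 F ⧸ (D.below P).asIdeal) _ c' := by
    intro x
    obtain ⟨x, rfl⟩ := Ideal.Quotient.mk_surjective x
    refine ⟨Ideal.Quotient.mk _ (D.nrmO x), ?_, Ideal.Quotient.mk _ (D.traO x), ?_⟩
    · rw [mk_algebraMap, algebraMap_nrmO, map_mul, (Ideal.Quotient.eq).2 (hfix x)]
    · rw [mk_algebraMap, algebraMap_traO, map_add, (Ideal.Quotient.eq).2 (hfix x)]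
  have hsurj : Function.Surjective
      (algebraMap (𝓞 F ⧸ (D.below P).asIdeal) (𝓞 D.M ⧸ P.asIdeal)) := by
    intro y
    by_cases h2 : (2 : 𝓞 D.M ⧸ P.asIdeal) = 0
    · have : CharP (𝓞 D.M ⧸ P.asIdeal) 2 :=
        CharTwo.of_one_ne_zero_of_two_eq_zero one_ne_zero h2
      obtain ⟨x, hx⟩ : ∃ x, x * x = y := by
        have hinj : Function.Injective fun x : 𝓞 D.M ⧸ P.asIdeal => x * x := fun a b h =>
          CharTwo.sq_injective (by simpa [pow_two] using h)
        exact (Finite.injective_iff_surjective.1 hinj) y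
      obtain ⟨c, hc', -⟩ := himg x
      exact ⟨c, by rw [← hc', hx]⟩
    · obtain ⟨-, -, c, hc'⟩ := himg (y / 2)
      exact ⟨c, by rw [← hc', ← two_mul, mul_div_cancel₀ _ h2]⟩
  have h1 := Nat.card_le_card_of_surjective _ hsurj
  rw [D.card_inert hP] at h1
  have h2 : 1 < Nat.card (𝓞 F ⧸ (D.below P).asIdeal) := by
    have : Nontrivial (𝓞 F ⧸ (D.below P).asIdeal) :=
      Ideal.Quotient.nontrivial_iff.2 (D.below P).isPrime.ne_top
    exact Finite.one_lt_card
  nlinarith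

end Inert

/-- The relative trace reaches `1` on every element which is not `0` modulo `q`. -/
lemma exists_tra_eq_one_of_isRadical {q : HeightOneSpectrum (𝓞 F)}
    (hq : (D.mapI q.asIdeal).IsRadical) {x : 𝓞 D.M}
    (hx : x ∉ D.mapI q.asIdeal) : ∃ w, D.traO (x * w) - 1 ∈ q.asIdeal := by
  obtain ⟨P, rfl, ⟨hc, hP⟩ | ⟨hc, hP⟩⟩ := D.prime_cases_of_isRadical hq
  · rw [hP] at hx
    obtain ⟨y, hy⟩ : ∃ y, D.traO y ∉ (D.below P).asIdeal := by
      by_contra hall
      push Not at hall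
      refine D.σres_ne hP hc (RingEquiv.ext fun z => ?_)
      obtain ⟨z, rfl⟩ := Ideal.Quotient.mk_surjective z
      have h1 : ∀ y, y + D.σO y ∈ P.asIdeal := fun y => by
        have := hall y
        rwa [below_asIdeal, Ideal.mem_comap, algebraMap_traO] at this
      have h2 : (2 : 𝓞 D.M) ∈ P.asIdeal := by simpa [one_add_one_eq_two] using h1 1
      rw [σres_mk, RingEquiv.refl_apply, Ideal.Quotient.eq,
        show D.σO z - z = (z + D.σO z) - 2 * z by ring]
      exact sub_mem (h1 z) (Ideal.mul_mem_right _ _ h2)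
    obtain ⟨s, hs⟩ := exists_inv_mod (D.below P) hy
    obtain ⟨t, ht⟩ := exists_inv_mod P hx
    refine ⟨t * y * algebraMap (𝓞 F) (𝓞 D.M) s, ?_⟩
    have h1 : D.traO (x * (t * y * algebraMap (𝓞 F) (𝓞 D.M) s)) =
        D.traO ((x * t - 1) * (y * algebraMap (𝓞 F) (𝓞 D.M) s)) + D.traO y * s := by
      apply FaithfulSMul.algebraMap_injective (𝓞 F) (𝓞 D.M)
      simp only [map_add, map_mul, algebraMap_traO, D.σO_algebraMap, map_sub, map_one]
      ring
    rw [h1, add_sub_assoc]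
    refine add_mem (D.traO_mem (D.below P).ne_bot ?_) hs
    rw [hP]
    exact Ideal.mul_mem_right _ _ ht
  · rw [hP, Ideal.mul_eq_inf_of_coprime
      (P.isMaximal.coprime_of_ne (D.conjP P).isMaximal fun h => hc (HeightOneSpectrum.ext h).symm),
      Ideal.mem_inf, not_and_or] at hx
    rcases hx with hx | hx
    · obtain ⟨w, -, hw⟩ := D.split_solve hc hx 1
      exact ⟨w, hw⟩
    · obtain ⟨w, -, hw⟩ := D.split_solve (P := D.conjP P)
        (by rwa [D.conjP_conjP, ne_comm]) hx 1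
      rw [D.below_conjP] at hw
      exact ⟨w, hw⟩

end FermatAgent.LT.Dihedral.QuadData
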