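import Fermat.Agent.LT.Dihedral.Conj
import Fermat.Agent.LT.Dihedral.QuadPrimes

/-!
# The primes of `M` over a prime of `F` prime to `3`
-/

set_option autoImplicit false

noncomputable section

open NumberField IsDedekindDomain
open scoped nonZeroDivisors

namespace FermatAgent.LT.Dihedral.DihedralData

open QuadData

variable {F : Type} [Field F] [NumberField F] (D : DihedralData F)

lemma unramified_map {q : HeightOneSpectrum (𝓞 F)} (h : ¬ D.InT q) :
    (D.mapI q.asIdeal).IsRadical :=
  D.unramified q fun i hi => h ⟨i, hi⟩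

lemma ram_eq_one {P : HeightOneSpectrum (𝓞 D.M)} (h : ¬ D.InT (D.below P)) : D.ram P = 1 :=
  D.ram_eq_one_of_isRadical (D.unramified_map h)

/-- The decomposition of a prime outside `3`. -/
lemma prime_cases {q : HeightOneSpectrum (𝓞 F)} (h : ¬ D.InT q) :
    ∃ P, D.below P = q ∧
      ((D.conjP P = P ∧ D.mapI q.asIdeal = P.asIdeal) ∨
        (D.conjP P ≠ P ∧ D.mapI q.asIdeal = P.asIdeal * (D.conjP P).asIdeal)) :=
  D.prime_cases_of_isRadical (D.unramified_map h)

/-- The relative trace reaches `1` on every element which is not `0` modulo `q`. -/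
lemma exists_tra_eq_one {q : HeightOneSpectrum (𝓞 F)} (hq : ¬ D.InT q) {x : 𝓞 D.M}
    (hx : x ∉ D.mapI q.asIdeal) : ∃ w, D.traO (x * w) - 1 ∈ q.asIdeal :=
  D.exists_tra_eq_one_of_isRadical (D.unramified_map hq) hx

end FermatAgent.LT.Dihedral.DihedralData
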