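import Fermat.Agent.LT.Dihedral.QuadAux
import Fermat.Agent.LT.Dihedral.Primes

/-!
# The character on divisors, and its restriction `η` to divisors of `F`
-/

set_option autoImplicit false
set_option maxHeartbeats 400000

noncomputable section

open NumberField IsDedekindDomain
open scoped nonZeroDivisors

namespace FermatAgent.LT.Dihedral.DihedralData

open QuadData

variable {F : Type} [Field F] [NumberField F] (D : DihedralData F)

open Classical in
/-- The value of `ξ` at a prime as a unit, `1` at the places over `3`. -/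
def ξu (P : HeightOneSpectrum (𝓞 D.M)) : ℂˣ :=
  if h : D.ξ P.asIdeal = 0 then 1 else Units.mk0 (D.ξ P.asIdeal) h

/-- The character on divisors. -/
def ξd : Dv D.M →+ Additive ℂˣ :=
  Finsupp.liftAddHom fun P => zmultiplesHom _ (Additive.ofMul (D.ξu P))

/-- The character on divisors, as a complex number. -/
def ξc (J : Dv D.M) : ℂ := ((D.ξd J).toMul : ℂˣ)

lemma ξc_zero : D.ξc 0 = 1 := by simp [ξc]

lemma ξc_add (J J' : Dv D.M) : D.ξc (J + J') = D.ξc J * D.ξc J' := by simp [ξc]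

lemma ξc_ne_zero (J : Dv D.M) : D.ξc J ≠ 0 := Units.ne_zero _

lemma ξc_neg (J : Dv D.M) : D.ξc (-J) = (D.ξc J)⁻¹ :=
  eq_inv_of_mul_eq_one_left (by rw [← ξc_add, neg_add_cancel, ξc_zero])

lemma ξc_single (P : HeightOneSpectrum (𝓞 D.M)) :
    D.ξc (Finsupp.single P 1) = D.ξu P := by
  simp [ξc, ξd]

lemma three_mem_P (i : Fin 3) : (3 : 𝓞 D.M) ∈ (D.P i).asIdeal := by
  have h := D.three_mem_w i
  rw [← D.below_P i, below_asIdeal, Ideal.mem_comap, map_ofNat] at h
  exact h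

lemma inT_of_three_mem {q : HeightOneSpectrum (𝓞 F)} (h : (3 : 𝓞 F) ∈ q.asIdeal) : D.InT q := by
  have hle : Ideal.span {(3 : 𝓞 F)} ≤ q.asIdeal := (Ideal.span_singleton_le_iff_mem _).2 h
  rw [D.three_eq] at hle
  obtain ⟨i, -, hi⟩ := (q.isPrime.prod_le).1 hle
  exact ⟨i, HeightOneSpectrum.ext
    (((D.w i).isMaximal.eq_of_le q.isPrime.ne_top (q.isPrime.le_of_pow_le hi)).symm)⟩

lemma ξ_prime_eq_zero_iff (P : HeightOneSpectrum (𝓞 D.M)) :
    D.ξ P.asIdeal = 0 ↔ D.InT (D.below P) := by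
  rw [D.ξ_eq_zero]
  constructor
  · intro h
    have h3 : (3 : 𝓞 D.M) ∈ P.asIdeal := by
      by_contra h3
      obtain ⟨t, ht⟩ := exists_inv_mod P h3
      refine h ((Ideal.eq_top_iff_one _).2 (Submodule.mem_sup.2 ⟨-(3 * t - 1), neg_mem ht, 3 * t,
        Ideal.mem_span_singleton.2 (dvd_mul_right 3 t), by ring⟩))
    exact D.inT_of_three_mem (by rw [below_asIdeal, Ideal.mem_comap, map_ofNat]; exact h3)
  · rintro ⟨i, hi⟩ h
    rw [D.eq_P_of_below hi] at h
    refine (D.P i).isPrime.ne_top (top_le_iff.1 (h ▸ sup_le le_rfl ?_))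
    exact (Ideal.span_singleton_le_iff_mem _).2 (D.three_mem_P i)

lemma coe_ξu {P : HeightOneSpectrum (𝓞 D.M)} (h : ¬ D.InT (D.below P)) :
    (D.ξu P : ℂ) = D.ξ P.asIdeal := by
  rw [ξu, dif_neg (mt (D.ξ_prime_eq_zero_iff P).1 h), Units.val_mk0]

lemma ξu_T {P : HeightOneSpectrum (𝓞 D.M)} (h : D.InT (D.below P)) : D.ξu P = 1 := by
  rw [ξu, dif_pos ((D.ξ_prime_eq_zero_iff P).2 h)]

lemma coprime_of_mul {I J : Ideal (𝓞 D.M)} (h : I * J ⊔ Ideal.span {(3 : 𝓞 D.M)} = ⊤) :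
    I ⊔ Ideal.span {(3 : 𝓞 D.M)} = ⊤ :=
  top_le_iff.1 (h ▸ sup_le_sup_right Ideal.mul_le_left _)

lemma ξc_idealDv {I : Ideal (𝓞 D.M)} (hI : I ⊔ Ideal.span {(3 : 𝓞 D.M)} = ⊤) :
    D.ξc (idealDv I) = D.ξ I := by
  induction I using UniqueFactorizationMonoid.induction_on_prime with
  | h₁ =>
    exfalso
    rw [Ideal.zero_eq_bot, bot_sup_eq] at hI
    exact (D.P 0).isPrime.ne_top (top_le_iff.1 (hI ▸
      (Ideal.span_singleton_le_iff_mem _).2 (D.three_mem_P 0)))
  | h₂ J hJ => rw [Ideal.isUnit_iff.1 hJ, idealDv_top, ξc_zero, ← Ideal.one_eq_top, map_one]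
  | h₃ J p hJ hp ih =>
    obtain ⟨v, rfl⟩ : ∃ v : HeightOneSpectrum (𝓞 D.M), v.asIdeal = p :=
      ⟨⟨p, Ideal.isPrime_of_prime hp, hp.ne_zero⟩, rfl⟩
    have hv := D.coprime_of_mul hI
    rw [mul_comm] at hI
    have hJc := D.coprime_of_mul hI
    rw [idealDv_mul v.ne_bot hJ, ξc_add, ih hJc, idealDv_prime, ξc_single, map_mul, D.coe_ξu]
    intro hT
    exact absurd ((D.ξ_prime_eq_zero_iff v).2 hT) (mt (D.ξ_eq_zero _).1 (not_not.2 hv))

/-- The restriction of the character to divisors of `F`. -/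
def η (A : Dv F) : ℂ := D.ξc (extDv A)

lemma η_add (A B : Dv F) : D.η (A + B) = D.η A * D.η B := by rw [η, map_add, ξc_add]; rfl

lemma η_zero : D.η 0 = 1 := by simp [η, ξc_zero]

lemma ξc_conj (J : Dv D.M) : D.ξc (D.conjDv J) = (D.ξc J)⁻¹ := by
  induction J using Finsupp.induction with
  | zero => simp [ξc_zero]
  | single_add P n E _ _ ih =>
    rw [map_add, ξc_add, ξc_add, ih, mul_inv]
    congr 1
    have h1 : D.conjDv (Finsupp.single P n) = Finsupp.single (D.conjP P) n :=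
      Finsupp.mapDomain_single
    have hu : D.ξu (D.conjP P) = (D.ξu P)⁻¹ := by
      by_cases hT : D.InT (D.below P)
      · rw [D.ξu_T hT, D.ξu_T (by rwa [D.below_conjP]), inv_one]
      · refine eq_inv_of_mul_eq_one_left (Units.ext ?_)
        have hc : P.asIdeal ⊔ Ideal.span {(3 : 𝓞 D.M)} = ⊤ :=
          not_not.1 (mt (D.ξ_eq_zero _).2 (mt (D.ξ_prime_eq_zero_iff P).1 hT))
        rw [Units.val_mul, D.coe_ξu (by rwa [D.below_conjP]), D.coe_ξu hT, Units.val_one,
          mul_comm, D.conjP_asIdeal, ← D.ξ_conj _ hc, mapRingHom_σ]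
        rfl
    rw [h1]
    simp only [ξc, ξd, Finsupp.liftAddHom_apply_single, zmultiplesHom_apply, hu]
    simp [← ofMul_zpow]

lemma η_single {q : HeightOneSpectrum (𝓞 F)} (h : ¬ D.InT q) :
    D.η (Finsupp.single q 1) = D.ξ (D.mapI q.asIdeal) ∧
      D.ξ (D.mapI q.asIdeal) ^ 2 = 1 := by
  refine ⟨?_, ?_⟩
  · rw [η, extDv_single, one_zsmul, ξc_idealDv]
    obtain ⟨P, rfl, hP⟩ := D.prime_cases h
    have h3 : ∀ Q, D.below Q = D.below P → Q.asIdeal ⊔ Ideal.span {(3 : 𝓞 D.M)} = ⊤ :=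
      fun Q hQ => not_not.1 (mt (D.ξ_eq_zero _).2 (mt (D.ξ_prime_eq_zero_iff Q).1 (hQ ▸ h)))
    rcases hP with ⟨-, he⟩ | ⟨-, he⟩
    · rw [mapI] at he; rw [he]; exact h3 P rfl
    · rw [mapI] at he; rw [he]
      rw [sup_comm, Ideal.sup_mul_eq_of_coprime_left (by rw [sup_comm]; exact h3 P rfl),
        sup_comm]
      exact h3 _ (D.below_conjP P)
  · rcases em (D.mapI q.asIdeal).IsPrime with hp | hp
    · rw [mapI, (D.ξ_base q fun i hi => h ⟨i, hi⟩).1 hp]; norm_num
    · rw [mapI, (D.ξ_base q fun i hi => h ⟨i, hi⟩).2 hp]; norm_num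

lemma η_sq (A : Dv F) : D.η A * D.η A = 1 := by
  induction A using Finsupp.induction with
  | zero => simp [η_zero]
  | single_add q n E _ _ ih =>
    rw [η_add, mul_mul_mul_comm, ih, mul_one]
    rw [← η_add, show Finsupp.single q n + Finsupp.single q n = n • (Finsupp.single q 2) by
      rw [Finsupp.smul_single, ← Finsupp.single_add, smul_eq_mul]; congr 1; ring]
    have h2 : D.η (Finsupp.single q 2) = 1 := by
      rw [show Finsupp.single q (2 : ℤ) = Finsupp.single q 1 + Finsupp.single q 1 by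
        rw [← Finsupp.single_add]; norm_num, η_add]
      by_cases hq : D.InT q
      · obtain ⟨i, rfl⟩ := hq
        suffices D.η (Finsupp.single (D.w i) 1) = 1 by rw [this, one_mul]
        rw [η, extDv_single, one_zsmul]
        have hPu : ∀ j, (D.ξc (idealDv (D.P j).asIdeal)) = 1 := fun j => by
          rw [idealDv_prime, ξc_single, D.ξu_T ⟨j, D.below_P j⟩, Units.val_one]
        rcases eq_or_ne i 0 with rfl | hi
        · rw [D.map_inert, hPu]
        · rw [D.map_ramified i hi, pow_two, idealDv_mul (D.P i).ne_bot (D.P i).ne_bot, ξc_add, hPu,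
            one_mul]
      · rw [(D.η_single hq).1, ← pow_two, (D.η_single hq).2]
    clear * - h2
    induction n using Int.induction_on with
    | zero => simp [η_zero]
    | succ k ih' => rw [add_zsmul, one_zsmul, η_add, ih', h2, one_mul]
    | pred k ih' =>
      rw [sub_zsmul, one_zsmul, η_add, ih', one_mul, η, map_neg, ξc_neg]
      rw [η] at h2
      rw [h2, inv_one]

/-- The norm of a divisor has trivial `η`. -/
lemma η_eq_one_of_norm {E : Dv F} {J : Dv D.M} (h : J + D.conjDv J = extDv E) : D.η E = 1 := by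
  rw [η, ← h, ξc_add, ξc_conj, mul_inv_cancel₀ (D.ξc_ne_zero J)]

lemma η_dD : D.η D.dD = 1 := by
  rw [η, dD, ← idealDv_map D.D'_ne, ξc_idealDv, D.ξ_D']
  have h := congrArg (Ideal.map (algebraMap (𝓞 F) (𝓞 D.M))) D.D'_coprime
  rwa [Ideal.map_sup, Ideal.map_span, Set.image_singleton, map_ofNat, Ideal.map_top] at h

/-- A `T`-integral element is a quotient of integers with denominator a unit at `T`. -/
lemma exists_frac {v : D.M} (h : ∀ i, OrdGe (D.P i) 0 v) :
    ∃ a b : 𝓞 D.M, (∀ i, b ∉ (D.P i).asIdeal) ∧ v * (b : D.M) = (a : D.M) := by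
  classical
  rcases eq_or_ne v 0 with rfl | hv
  · exact ⟨0, 1, fun i => (Ideal.ne_top_iff_one _).1 (D.P i).isPrime.ne_top, by simp [coeO_zero]⟩
  set S := (dvElt v).support ∪ Finset.univ.image D.P
  obtain ⟨b, hb⟩ := exists_crt S
    (fun Q => if Q ∈ Finset.univ.image D.P then 1 else (dvElt v Q).natAbs)
    (fun Q => if Q ∈ Finset.univ.image D.P then 1 else 0)
  have hbT : ∀ i, b ∉ (D.P i).asIdeal := by
    intro i hmem
    have h1 := hb (D.P i) (by simp [S])
    simp only [Finset.mem_image, Finset.mem_univ, true_and, exists_apply_eq_apply, if_true,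
      Nat.cast_one, ← coeO_sub, ordGe_one_iff] at h1
    exact (D.P i).isPrime.ne_top ((Ideal.eq_top_iff_one _).2 (by simpa using sub_mem hmem h1))
  have hint : v * (b : D.M) = 0 ∨ 0 ≤ dvElt (v * (b : D.M)) := by
    rcases eq_or_ne b 0 with rfl | hb0
    · exact Or.inl (by rw [coeO_zero, mul_zero])
    refine Or.inr fun Q => ?_
    rw [dvElt_mul hv (RingOfIntegers.coe_ne_zero_iff.2 hb0), Finsupp.add_apply]
    have hb' : 0 ≤ dvElt (b : D.M) Q := dvElt_coe_nonneg b Q
    show (0 : ℤ) ≤ _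
    by_cases hQ : ∃ i, D.P i = Q
    · obtain ⟨i, rfl⟩ := hQ
      exact add_nonneg ((h i).resolve_left hv) hb'
    by_cases hQs : Q ∈ S
    · have h1 := hb Q hQs
      have hQ' : Q ∉ Finset.univ.image D.P := by simpa using hQ
      rw [if_neg hQ', if_neg hQ', coeO_zero, sub_zero] at h1
      have h2 : ((dvElt v Q).natAbs : ℤ) ≤ _ := h1.resolve_left (RingOfIntegers.coe_ne_zero_iff.2 hb0)
      linarith [neg_abs_le (dvElt v Q), Int.natCast_natAbs (dvElt v Q)]
    · have : dvElt v Q = 0 := Finsupp.notMem_support_iff.1 fun hs => hQs (Finset.mem_union_left _ hs)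
      rw [this, zero_add]
      exact hb'
  obtain ⟨a, ha⟩ := exists_int_of_nonneg hint
  exact ⟨a, b, hbT, ha.symm⟩

/-- The product of the residual characters. -/
def χT (v : D.M) : ℂ := ∏ i, D.χ i (rmod (D.P i) v)

/-- The character at principal divisors. -/
lemma ξc_dvElt {v : D.M} (hv : v ≠ 0) (h : ∀ i, dvElt v (D.P i) = 0) :
    D.ξc (dvElt v) = D.χT v := by
  obtain ⟨a, b, hb, he⟩ := D.exists_frac fun i => Or.inr (h i).ge
  have hb0 : b ≠ 0 := fun hb0 => hb 0 (hb0 ▸ zero_mem _)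
  have hbM : (b : D.M) ≠ 0 := RingOfIntegers.coe_ne_zero_iff.2 hb0
  have ha0 : a ≠ 0 := by
    intro ha
    rw [ha, coeO_zero] at he
    exact mul_ne_zero hv hbM he
  have haM : (a : D.M) ≠ 0 := RingOfIntegers.coe_ne_zero_iff.2 ha0
  have hdv : dvElt (a : D.M) = dvElt v + dvElt (b : D.M) := by rw [← he, dvElt_mul hv hbM]
  have ha : ∀ i, a ∉ (D.P i).asIdeal := fun i hmem => by
    have h1 := (mem_prime_iff _ ha0).1 hmem
    have h2 := mt (mem_prime_iff _ hb0).2 (hb i)
    rw [hdv, Finsupp.add_apply, h i] at h1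
    omega
  have key : ∀ c : 𝓞 D.M, c ≠ 0 → (∀ i, c ∉ (D.P i).asIdeal) →
      D.ξc (dvElt (c : D.M)) = ∏ i, D.χ i (Ideal.Quotient.mk _ c) := by
    intro c hc0 hc
    rw [← idealDv_span, D.ξc_idealDv, D.ξ_principal c hc]
    by_contra hne
    have h0 := (D.ξ_eq_zero _).2 hne
    rw [D.ξ_principal c hc, Finset.prod_eq_zero_iff] at h0
    obtain ⟨i, -, hi⟩ := h0
    have := (D.P i).isMaximal
    have hu : IsUnit (Ideal.Quotient.mk (D.P i).asIdeal c) := by
      let := Ideal.Quotient.field (D.P i).asIdeal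
      exact Ne.isUnit (mt Ideal.Quotient.eq_zero_iff_mem.1 (hc i))
    exact (hu.map (D.χ i)).ne_zero hi
  have h2 : D.ξc (dvElt v) * D.ξc (dvElt (b : D.M)) = D.ξc (dvElt (a : D.M)) := by
    rw [← ξc_add, hdv]
  refine mul_right_cancel₀ (D.ξc_ne_zero (dvElt (b : D.M))) (h2.trans ?_)
  rw [key a ha0 ha, key b hb0 hb, χT, ← Finset.prod_mul_distrib]
  refine Finset.prod_congr rfl fun i _ => ?_
  rw [← map_mul, ← rmod_int (D.P i) a, ← rmod_int (D.P i) b, ← he,
    rmod_mul (D.P i) (Or.inr (h i).ge) (ordGe_int b)]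

lemma η_dvElt {x : F} (hx : x ≠ 0) (h : ∀ i, dvElt x (D.w i) = 0) :
    D.η (dvElt x) = D.χT (algebraMap F D.M x) := by
  rw [η, ← dvElt_algebraMap hx, D.ξc_dvElt ((map_ne_zero _).2 hx)]
  intro i
  rw [dvElt_algebraMap hx, extDv_apply, D.below_P, h, mul_zero]

end FermatAgent.LT.Dihedral.DihedralData
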