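import Fermat.Agent.LT.Dihedral.Trace
import Fermat.Agent.LT.Dihedral.Gamma

/-!
# Factorisation of the finite exponential sum of the theta transformation
-/

set_option autoImplicit false
set_option maxHeartbeats 800000

noncomputable section

open NumberField IsDedekindDomain Finset
open scoped nonZeroDivisors

namespace FermatAgent.LT.Dihedral

lemma exists_idealDv_eq {K : Type*} [Field K] [NumberField K] {q : Dv K} (hq : 0 ≤ q) :
    ∃ I : Ideal (𝓞 K), I ≠ ⊥ ∧ idealDv I = q := by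
  have h := fid_le hq
  rw [fid_zero, Units.val_one] at h
  obtain ⟨I, hI⟩ := FractionalIdeal.le_one_iff_exists_coeIdeal.1 h
  refine ⟨I, fun h0 => ?_, ?_⟩
  · rw [h0, FractionalIdeal.coeIdeal_bot] at hI
    exact (fid q).ne_zero hI.symm
  · rw [idealDv, hI, fracDv_fid]

namespace DihedralData

open QuadData

variable {F : Type} [Field F] [NumberField F] (D : DihedralData F)

/-- The product of the places of `M` over `3`. -/
def idealT : Ideal (𝓞 D.M) := ∏ i, (D.P i).asIdeal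

lemma idealT_ne : D.idealT ≠ ⊥ := Finset.prod_ne_zero_iff.2 fun i _ => (D.P i).ne_bot

lemma idealT_le (i : Fin 3) : D.idealT ≤ (D.P i).asIdeal :=
  Ideal.le_of_dvd (Finset.dvd_prod_of_mem _ (Finset.mem_univ i))

lemma three_coprime {𝔮 : Ideal (𝓞 F)} (hT : 𝔮 ⊔ Ideal.span {(3 : 𝓞 F)} = ⊤) (i : Fin 3) :
    idealDv 𝔮 (D.w i) = 0 := by
  by_contra hne
  have hq0 : 𝔮 ≠ ⊥ := by
    intro h
    rw [h, bot_sup_eq] at hT
    exact (D.w i).isPrime.ne_top (top_le_iff.1 (hT ▸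
      (Ideal.span_singleton_le_iff_mem _).2 (D.three_mem_w i)))
  have h1 : 1 ≤ idealDv 𝔮 (D.w i) := by
    have : 0 ≤ idealDv 𝔮 (D.w i) := idealDv_nonneg 𝔮 _
    omega
  have hle : 𝔮 ≤ (D.w i).asIdeal := fun x hx =>
    ordGe_one_iff.1 ((ordGe_of_mem hq0 hx _).mono h1)
  exact (D.w i).isPrime.ne_top (top_le_iff.1
    (hT ▸ sup_le hle ((Ideal.span_singleton_le_iff_mem _).2 (D.three_mem_w i))))

lemma ordGe_off {q : HeightOneSpectrum (𝓞 F)} (hq : ¬ D.InT q) {n : ℤ} {x : D.M}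
    {P : HeightOneSpectrum (𝓞 D.M)} (hP : D.below P = q) (h : OrdGe P n x) :
    OrdGe P (D.ram P * n) x := by
  rwa [D.ram_eq_one (hP ▸ hq), one_mul]

/-- The hypotheses on the coefficients of the finite sum. -/
structure SumCoeffs (𝔮 : Ideal (𝓞 F)) (c₁ : F) (c₂ : D.M) (d : F) : Prop where
  ne_bot : 𝔮 ≠ ⊥
  coprime : 𝔮 ⊔ Ideal.span {(3 : 𝓞 F)} = ⊤
  c₁_ord : ∀ q, ¬ D.InT q → OrdGe q (-idealDv 𝔮 q - D.dD q) c₁
  c₁_exact : ∀ q, 0 < idealDv 𝔮 q → c₁ ≠ 0 ∧ dvElt c₁ q = -idealDv 𝔮 q - D.dD q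
  c₁_T : ∀ i, OrdGe (D.w i) (-2) c₁
  c₂_ord : ∀ P, ¬ D.InT (D.below P) → OrdGe P (-idealDv 𝔮 (D.below P) - D.dD (D.below P)) c₂
  c₂_T : ∀ i, OrdGe (D.P i) (-(2 * D.ram (D.P i))) c₂
  d_ord : ∀ q, ¬ D.InT q → OrdGe q (-idealDv 𝔮 q - D.dD q) d
  d_T : ∀ i, OrdGe (D.w i) (-1) d
  d_eq : ∀ q, 0 < idealDv 𝔮 q → OrdGe q (-D.dD q) (d + D.nrm c₂ / c₁)

variable {𝔮 : Ideal (𝓞 F)} {c₁ : F} {c₂ : D.M} {d : F}

variable {D}

lemma SumCoeffs.notInT (h : D.SumCoeffs 𝔮 c₁ c₂ d) {q : HeightOneSpectrum (𝓞 F)}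
    (hq : 0 < idealDv 𝔮 q) : ¬ D.InT q := by
  rintro ⟨i, rfl⟩
  rw [D.three_coprime h.coprime i] at hq
  exact lt_irrefl _ hq

lemma SumCoeffs.quad_ord (h : D.SumCoeffs 𝔮 c₁ c₂ d) {q : HeightOneSpectrum (𝓞 F)}
    (hq : ¬ D.InT q) (x : 𝓞 D.M) :
    OrdGe q (-idealDv 𝔮 q - D.dD q) (D.quadForm c₁ c₂ x) := by
  refine OrdGe.add ?_ (D.ordGe_tra_self fun P hP => D.ordGe_off hq hP ?_)
  · simpa using (h.c₁_ord q hq).mul (D.nrm_int_ordGe q x)
  · simpa [hP] using (h.c₂_ord P (hP ▸ hq)).mul (ordGe_int x)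

lemma SumCoeffs.quad_ord_T (h : D.SumCoeffs 𝔮 c₁ c₂ d) (i : Fin 3) (x : 𝓞 D.M) :
    OrdGe (D.w i) (-2) (D.quadForm c₁ c₂ x) := by
  refine OrdGe.add ?_ (D.ordGe_tra_self fun P hP => ?_)
  · simpa using (h.c₁_T i).mul (D.nrm_int_ordGe _ x)
  · rw [D.eq_P_of_below hP]
    have := (h.c₂_T i).mul (ordGe_int (v := D.P i) x)
    refine this.mono ?_
    ring_nf
    rfl

/-- The values at a translate differ by a small element away from `T`. -/
lemma SumCoeffs.diff_ord (h : D.SumCoeffs 𝔮 c₁ c₂ d) {q : HeightOneSpectrum (𝓞 F)}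
    (hq : ¬ D.InT q) (x : 𝓞 D.M) {u : 𝓞 D.M} (hu : u ∈ D.mapI 𝔮) :
    OrdGe q (-D.dD q) (D.quadForm c₁ c₂ (x + u) - D.quadForm c₁ c₂ x) := by
  have hu' : ∀ P, D.below P = q → OrdGe P (idealDv 𝔮 q) (u : D.M) := fun P hP => by
    have := ordGe_of_mem (map_ne_bot_ext h.ne_bot) hu P
    rwa [idealDv_map h.ne_bot, extDv_apply, hP, D.ram_eq_one (hP ▸ hq), one_mul] at this
  rw [quadForm_add]
  refine OrdGe.add ?_ (D.ordGe_tra_self fun P hP => D.ordGe_off hq hP ?_)
  · have h2 : OrdGe q (idealDv 𝔮 q) (D.tra ((x : D.M) * D.σ u) + D.nrm (u : D.M)) := by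
      refine OrdGe.add (D.ordGe_tra_self fun P hP => D.ordGe_off hq hP ?_) ?_
      · simpa using (ordGe_int (v := P) x).mul
          (D.ordGe_σ (hu' _ ((D.below_conjP P).trans hP)))
      · refine (D.ordGe_nrm_self fun P hP => D.ordGe_off hq hP (hu' P hP)).mono ?_
        have : 0 ≤ idealDv 𝔮 q := idealDv_nonneg 𝔮 q
        omega
    exact ((h.c₁_ord q hq).mul h2).mono (by ring_nf; rfl)
  · exact ((h.c₂_ord P (hP ▸ hq)).mul (hu' P hP)).mono (by rw [hP]; ring_nf; rfl)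

lemma SumCoeffs.diff_T (h : D.SumCoeffs 𝔮 c₁ c₂ d) (i : Fin 3) (x : 𝓞 D.M) {u : 𝓞 D.M}
    (hu : u ∈ D.idealT) :
    OrdGe (D.w i) (-1) (D.quadForm c₁ c₂ (x + u) - D.quadForm c₁ c₂ x) := by
  have hu' : OrdGe (D.P i) 1 (u : D.M) := ordGe_one_iff.2 (D.idealT_le i hu)
  have hr := D.one_le_ram (D.P i)
  have hram : ∀ P, D.below P = D.w i → D.ram P = D.ram (D.P i) := fun P hP => by
    rw [D.eq_P_of_below hP]
  rw [quadForm_add]
  refine OrdGe.add ?_ ?_
  · have h2 : OrdGe (D.w i) 1 (D.tra ((x : D.M) * D.σ u) + D.nrm (u : D.M)) := by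
      refine OrdGe.add ?_ ?_
      · refine D.ordGe_tra (fun _ => 1) (fun P hP => by simp) (fun _ => rfl) fun P hP => ?_
        rw [D.eq_P_of_below hP]
        simpa using (ordGe_int (v := D.P i) x).mul (D.ordGe_σ (by rwa [D.conjP_P]))
      · refine D.ordGe_nrm (fun _ => 1) (fun P hP => by simp) (fun _ => rfl) fun P hP => ?_
        rwa [D.eq_P_of_below hP]
    simpa using (h.c₁_T i).mul h2
  · refine D.ordGe_tra (fun _ => -(2 * D.ram (D.P i)) + 1) (fun P hP => ?_) (fun _ => rfl)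
      fun P hP => ?_
    · rw [hram P hP]; omega
    · rw [D.eq_P_of_below hP]
      exact (h.c₂_T i).mul hu'

lemma SumCoeffs.sum_factor (h : D.SumCoeffs 𝔮 c₁ c₂ d) (φ : 𝓞 D.M → ℂ)
    (hφ : PeriodicMod D.idealT φ) :
    qsum (D.mapI 𝔮 * D.idealT) (fun x => φ x * ph (D.quadForm c₁ c₂ x)) =
      ph d * (D.ξ (D.mapI 𝔮) * (Ideal.absNorm 𝔮 : ℂ)) *
        qsum D.idealT (fun x => φ x *
          ∏ i, D.psiT i (rmod (D.w i) (-3 * D.quadForm c₁ c₂ x))) := by
  classical
  obtain ⟨a, ha, b, hb, hab⟩ := Submodule.mem_sup.1 ((Ideal.eq_top_iff_one _).1 h.coprime)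
  have hbw : ∀ i, b ∈ (D.w i).asIdeal := fun i =>
    ((Ideal.span_singleton_le_iff_mem _).2 (D.three_mem_w i)) hb
  have habF : (a : F) + (b : F) = 1 := by rw [← coeO_add, hab]; exact map_one _
  have haT : ∀ i, OrdGe (D.w i) 1 ((a : F) - 1) := fun i => by
    rw [show (a : F) - 1 = -(b : F) by linear_combination habF]
    exact (ordGe_one_iff.2 (hbw i)).neg
  have hbq : ∀ q, OrdGe q (idealDv 𝔮 q) ((b : F) - 1) := fun q => by
    rw [show (b : F) - 1 = -(a : F) by linear_combination habF]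
    exact (ordGe_of_mem h.ne_bot ha q).neg
  have hdD := D.dD_nonneg
  have hq0 : ∀ q, 0 ≤ idealDv 𝔮 q := fun q => idealDv_nonneg 𝔮 q
  set f₀ : 𝓞 D.M → ℂ := fun x => ph ((b : F) * D.quadForm c₁ c₂ x)
  set f₁ : 𝓞 D.M → ℂ := fun x => φ x * ph ((a : F) * D.quadForm c₁ c₂ x)
  have h0per : PeriodicMod (D.mapI 𝔮) f₀ := by
    intro x u hu
    refine D.ph_congr ⟨fun q hq => ?_, fun i => ?_⟩
    · rw [← mul_sub]
      simpa using (ordGe_int b).mul (h.diff_ord hq x hu)
    · rw [← mul_sub]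
      have := (ordGe_one_iff.2 (hbw i)).mul ((h.quad_ord_T i (x + u)).sub (h.quad_ord_T i x))
      simpa using this
  have h1per : PeriodicMod D.idealT f₁ := by
    intro x u hu
    simp only [f₁, hφ x u hu]
    congr 1
    refine D.ph_congr ⟨fun q hq => ?_, fun i => ?_⟩
    · rw [← mul_sub]
      refine ((ordGe_of_mem h.ne_bot ha q).mul
        ((h.quad_ord hq (x + u)).sub (h.quad_ord hq x))).mono ?_
      ring_nf; rfl
    · rw [← mul_sub]
      simpa using (ordGe_int a).mul (h.diff_T i x hu)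
  have := finite_quot (map_ne_bot_ext (L := D.M) h.ne_bot)
  have := finite_quot D.idealT_ne
  have hcop : D.mapI 𝔮 ⊔ D.idealT = ⊤ := by
    rw [idealT, Fin.prod_univ_three]
    have key : ∀ i, D.mapI 𝔮 ⊔ (D.P i).asIdeal = ⊤ := fun i => by
      refine top_le_iff.1 ?_
      rw [← Ideal.map_top (algebraMap (𝓞 F) (𝓞 D.M)), ← h.coprime, Ideal.map_sup]
      refine sup_le_sup_left ?_ _
      rw [Ideal.map_span, Set.image_singleton, map_ofNat]
      exact (Ideal.span_singleton_le_iff_mem _).2 (D.three_mem_P i)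
    rw [Ideal.sup_mul_eq_of_coprime_left, key 2]
    rw [Ideal.sup_mul_eq_of_coprime_left (key 0), key 1]
  have hsum : qsum (D.mapI 𝔮 * D.idealT) (fun x => φ x * ph (D.quadForm c₁ c₂ x)) =
      qsum (D.mapI 𝔮) f₀ * qsum D.idealT f₁ := by
    rw [← qsum_mul_crt hcop h0per h1per]
    refine qsum_congr fun x => ?_
    simp only [f₀, f₁]
    rw [← mul_assoc, mul_comm (ph _) (φ x), mul_assoc, ← ph_add, ← add_mul,
      add_comm (b : F), habF, one_mul]
  have h1 : ∀ x, f₁ x = φ x * ∏ i, D.psiT i (rmod (D.w i) (-3 * D.quadForm c₁ c₂ x)) := by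
    intro x
    simp only [f₁]
    congr 1
    refine D.ph_eq_prod haT (fun q hq => ?_) fun i => ?_
    · exact ((ordGe_of_mem h.ne_bot ha q).mul (h.quad_ord hq x)).mono (by ring_nf; rfl)
    · have h3 : OrdGe (D.w i) 2 (-3 : F) := Or.inr (by
        rw [dvElt_neg, D.dvElt_three]; simp [fT_w])
      simpa using h3.mul (h.quad_ord_T i x)
  rw [hsum, qsum_congr h1]
  congr 1
  -- the part prime to `3`
  let θ : AddChar (𝓞 F) ℂ :=
    { toFun := fun z => ph ((b : F) * c₁ * (z : F))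
      map_zero_eq_one' := by simp [coeO_zero, ph_zero]
      map_add_eq_mul' := fun z z' => by rw [coeO_add, mul_add, ph_add] }
  have hθ : Conductor θ 𝔮 := by
    refine ⟨fun z hz => ?_, fun q' 𝔟 hq' => ?_⟩
    · refine DihedralData.Small.ph_eq D ⟨fun q hq => ?_, fun i => ?_⟩
      · exact (((ordGe_int b).mul (h.c₁_ord q hq)).mul (ordGe_of_mem h.ne_bot hz q)).mono
          (by ring_nf; rfl)
      · simpa using ((ordGe_one_iff.2 (hbw i)).mul (h.c₁_T i)).mul (ordGe_int z)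
    · by_contra hall
      push Not at hall
      have hb0 : 𝔟 ≠ ⊥ := fun hb0 => h.ne_bot (by rw [hq', hb0, Ideal.mul_bot])
      have hqv : idealDv 𝔮 q' = 1 + idealDv 𝔟 q' := by
        rw [hq', idealDv_mul q'.ne_bot hb0, idealDv_prime, Finsupp.add_apply,
          Finsupp.single_eq_same]
      have hb' : 0 ≤ idealDv 𝔟 q' := idealDv_nonneg 𝔟 q'
      have hpos : 0 < idealDv 𝔮 q' := by omega
      have hq'T := h.notInT hpos
      obtain ⟨P, hP⟩ := D.exists_above q'
      have hx := D.ordGe_of_trivial (x := (b : F) * c₁) (idealDv (D.mapI 𝔟)) (fun y hy => by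
        obtain ⟨z, rfl⟩ : ∃ z : 𝓞 D.M, (z : D.M) = y := exists_int_of_nonneg
          (mem_fid.1 (mem_fid_iff_ordGe.2 fun P =>
            (hy P).mono (by simpa using idealDv_nonneg (D.mapI 𝔟) P)))
        rw [← coe_traO]
        exact hall _ (D.traO_mem hb0 ((mem_iff_ordGe (map_ne_bot_ext hb0)).2 hy))) P
      obtain ⟨hc0, hce⟩ := h.c₁_exact q' hpos
      have hbne : (b : F) ≠ 0 := by
        intro h0
        have := hbq q'
        rw [h0, zero_sub] at this
        have := (this.neg).resolve_left (by simp)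
        rw [neg_neg, dvElt_one, Finsupp.zero_apply] at this
        omega
      have hbv : dvElt (b : F) q' = 0 := by
        have h0 : 0 ≤ dvElt (b : F) q' := dvElt_coe_nonneg b q'
        by_contra hne
        have h1 : OrdGe q' 1 (b : F) := Or.inr (by omega)
        have h2 := h1.sub ((hbq q').mono (show (1 : ℤ) ≤ idealDv 𝔮 q' by omega))
        rw [sub_sub_cancel] at h2
        have := h2.resolve_left one_ne_zero
        rw [dvElt_one, Finsupp.zero_apply] at this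
        omega
      have hx' := hx.resolve_left ((map_ne_zero _).2 (mul_ne_zero hbne hc0))
      rw [dvElt_algebraMap (mul_ne_zero hbne hc0), extDv_apply, hP, idealDv_map hb0, extDv_apply,
        hP, D.ram_eq_one (hP ▸ hq'T), D.diff_not (hP ▸ hq'T), hP, dvElt_mul hbne hc0,
        Finsupp.add_apply, hbv, hce] at hx'
      omega
  -- completing the square
  set S := (extDv (L := D.M) (idealDv 𝔮)).support
  have hmem : ∀ {P}, P ∈ S → 0 < idealDv 𝔮 (D.below P) := fun {P} hP => by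
    have := hq0 (D.below P)
    rcases eq_or_ne (idealDv 𝔮 (D.below P)) 0 with h0 | h0
    · exact absurd (by rw [extDv_apply, h0, mul_zero]) (Finsupp.mem_support_iff.1 hP)
    · omega
  obtain ⟨x₀, hx₀⟩ := exists_int_congr S (fun P => (idealDv 𝔮 (D.below P)).toNat)
    (x := -D.σ c₂ / algebraMap F D.M c₁) (fun P hP => by
      obtain ⟨hc0, hce⟩ := h.c₁_exact _ (hmem hP)
      have hT := h.notInT (hmem hP)
      have h1 : OrdGe P (idealDv 𝔮 (D.below P) + D.dD (D.below P)) ((algebraMap F D.M c₁)⁻¹) := by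
        refine Or.inr ?_
        rw [dvElt_inv ((map_ne_zero _).2 hc0), Finsupp.neg_apply, dvElt_algebraMap hc0, extDv_apply,
          D.ram_eq_one hT, hce]
        linarith
      have h2 : OrdGe P (-idealDv 𝔮 (D.below P) - D.dD (D.below P)) (-D.σ c₂) := by
        refine (D.ordGe_σ ?_).neg
        have := h.c₂_ord (D.conjP P) (by rwa [D.below_conjP])
        rwa [D.below_conjP] at this
      rw [div_eq_mul_inv]
      refine (h2.mul h1).mono ?_
      ring_nf; rfl)
  have hx₀' : ∀ q, ¬ D.InT q → ∀ P, D.below P = q →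
      OrdGe P (-D.dD q) (algebraMap F D.M c₁ * D.σ (x₀ : D.M) + c₂) := by
    intro q hq P hP
    rcases (hq0 q).lt_or_eq with hpos | h0
    · obtain ⟨hc0, hce⟩ := h.c₁_exact q hpos
      have hS : D.conjP P ∈ S := by
        rw [Finsupp.mem_support_iff, extDv_apply, D.below_conjP, hP]
        exact mul_ne_zero (by have := D.one_le_ram (D.conjP P); omega) hpos.ne'
      have h1 := D.ordGe_σ (hx₀ _ hS)
      rw [D.below_conjP, hP, Int.toNat_of_nonneg (hq0 q), map_sub, map_div₀, map_neg, D.σ_σ,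
        D.σ_algebraMap] at h1
      have h2 := ((D.ordGe_algebraMap (P := P) (n := -idealDv 𝔮 q - D.dD q)
        (Or.inr (by rw [hP, hce]))).mul h1).neg
      rw [D.ram_eq_one (hP ▸ hq)] at h2
      rw [show algebraMap F D.M c₁ * D.σ (x₀ : D.M) + c₂ =
        -(algebraMap F D.M c₁ * (-c₂ / algebraMap F D.M c₁ - D.σ (x₀ : D.M))) by
          have hne : algebraMap F D.M c₁ ≠ 0 := (map_ne_zero _).2 hc0
          field_simp
          ring]
      refine h2.mono ?_
      ring_nf; rfl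
    · have h1 := (D.ordGe_algebraMap (P := P) (hP.symm ▸ h.c₁_ord q hq : OrdGe (D.below P) _ c₁)).mul
        (D.ordGe_σ (x := (x₀ : D.M)) (k := 0) (ordGe_int x₀))
      have h2 := h.c₂_ord P (hP ▸ hq)
      rw [hP] at h1 h2
      rw [← h0, neg_zero, zero_sub] at h1 h2
      rw [D.ram_eq_one (hP ▸ hq), one_mul, add_zero] at h1
      exact h1.add h2
  have hshift : ∀ x, f₀ (x + x₀) = ph d * θ (D.nrmO x) := by
    intro x
    show ph _ = ph d * ph _
    rw [← ph_add]
    refine D.ph_congr ?_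
    have hid : (b : F) * D.quadForm c₁ c₂ (x + x₀) -
        (d + (b : F) * c₁ * ((D.nrmO x : 𝓞 F) : F)) =
        (b : F) * D.tra ((algebraMap F D.M c₁ * D.σ (x₀ : D.M) + c₂) * (x : D.M)) +
          ((b : F) * D.quadForm c₁ c₂ x₀ - d) := by
      rw [show (algebraMap F D.M c₁ * D.σ (x₀ : D.M) + c₂) * (x : D.M) =
        algebraMap F D.M c₁ * ((x : D.M) * D.σ (x₀ : D.M)) + c₂ * (x : D.M) by ring,
        D.tra_add, D.tra_mul_algebraMap, quadForm, quadForm, coeO_add, D.nrm_add, mul_add c₂,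
        D.tra_add, coe_nrmO]
      ring
    rw [hid]
    refine ⟨fun q hq => OrdGe.add ?_ ?_, fun i => ?_⟩
    · refine ((ordGe_int b).mul (D.ordGe_tra_self fun P hP => D.ordGe_off hq hP
        ((hx₀' q hq P hP).mul (ordGe_int x)))).mono ?_
      ring_nf; rfl
    · rcases (hq0 q).lt_or_eq with hpos | h0
      · obtain ⟨hc0, hce⟩ := h.c₁_exact q hpos
        rw [show (b : F) * D.quadForm c₁ c₂ x₀ - d =
          ((b : F) - 1) * D.quadForm c₁ c₂ x₀ +
            (D.quadForm c₁ c₂ x₀ + D.nrm c₂ / c₁) - (d + D.nrm c₂ / c₁) by ring]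
        refine OrdGe.sub (OrdGe.add ?_ ?_) (h.d_eq q hpos)
        · exact ((hbq q).mul (h.quad_ord hq x₀)).mono (by ring_nf; rfl)
        · rw [quadForm, D.quad_square hc0, div_eq_mul_inv]
          have h1 := D.ordGe_nrm_self fun P hP => D.ordGe_off hq hP (hx₀' q hq P hP)
          have h2 : OrdGe q (idealDv 𝔮 q + D.dD q) c₁⁻¹ := Or.inr (by
            rw [dvElt_inv hc0, Finsupp.neg_apply, hce]; linarith)
          refine (h1.mul h2).mono ?_
          have := hdD q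
          omega
      · refine OrdGe.sub ?_ ?_
        · exact ((ordGe_int b).mul (h.quad_ord hq x₀)).mono (by rw [← h0]; ring_nf; rfl)
        · exact (h.d_ord q hq).mono (by rw [← h0]; ring_nf; rfl)
    · rw [← hid]
      refine OrdGe.sub ?_ (OrdGe.add (h.d_T i) ?_)
      · exact ((ordGe_one_iff.2 (hbw i)).mul (h.quad_ord_T i _)).mono (by norm_num)
      · exact (((ordGe_one_iff.2 (hbw i)).mul (h.c₁_T i)).mul (ordGe_int _)).mono (by norm_num)
  rw [← qsum_add_shift h0per x₀, qsum_congr hshift, qsum_const_mul,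
    D.gamma_eq h.ne_bot h.coprime hθ]

end DihedralData

end FermatAgent.LT.Dihedral
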