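import Fermat.Agent.LT.Dihedral.Decomp

/-!
# The dihedral form of level `3` and its left invariance
-/

set_option autoImplicit false
set_option maxHeartbeats 400000

noncomputable section

open NumberField IsDedekindDomain WithZero

namespace FermatAgent.LT.Dihedral.DihedralData

open QuadData

variable {F : Type} [Field F] [NumberField F] (D : DihedralData F)

/-- The form of level `3`. -/
def G0 (cv : ∀ i, D.kT i) (x : XInf F) (g : GAf F) : ℂ := (D.exists_dec g).some.value cv x

variable {D} {cv : ∀ i, D.kT i}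

lemma G0_eq {g : GAf F} (d : D.Dec g) (x : XInf F) : D.G0 cv x g = d.value cv x :=
  Dec.value_eq _ d cv x

lemma scalar_upper_comm {R : Type*} [CommRing R] (z : Rˣ) (g : GL (Fin 2) R) :
    g * upperTri z 0 z = upperTri z 0 z * g := by
  rw [← scalar_eq_upperTri, Matrix.GeneralLinearGroup.scalar_commute]

lemma exists_upper_form {R : Type*} [Field R] (γ : GL (Fin 2) R) (h : γ 1 0 = 0) :
    ∃ (u q : Rˣ) (c : R), γ = upperTri u 0 u * upperTri q c 1 := by
  have hd := γ.det_ne_zero
  rw [Matrix.det_fin_two, h, mul_zero, sub_zero, mul_ne_zero_iff] at hd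
  refine ⟨Units.mk0 _ hd.2, Units.mk0 (γ 0 0 / γ 1 1) (div_ne_zero hd.1 hd.2), γ 0 1 / γ 1 1,
    upperTri_eq_of_entries _ _ _ _ ?_ ?_ h rfl⟩ <;>
    simp [mul_div_cancel₀ _ hd.2]

/-- Left invariance under `B(F)`. -/
theorem G0_upper (γ : GL (Fin 2) F) (h : γ 1 0 = 0) (x : XInf F) (g : GAf F) :
    D.G0 cv (infAct γ x) (rationalMat γ * g) = D.G0 cv x g := by
  obtain ⟨u, q, c, rfl⟩ := exists_upper_form γ h
  set d := (D.exists_dec g).some
  have hmul : upperTri q c 1 * upperTri d.q d.c 1 = upperTri (q * d.q) ((q : F) * d.c + c) 1 := by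
    rw [upperTri_mul, one_mul, Units.val_one, mul_one]
  let d' : D.Dec (rationalMat (upperTri u 0 u * upperTri q c 1) * g) :=
    { q := q * d.q, c := (q : F) * d.c + c, a := d.a, k := d.k, z := d.z * ratIdele u, hT := d.hT,
      heq := by
        have hz : rationalMat (upperTri u 0 u) = upperTri (ratIdele u) 0 (ratIdele u) := by
          rw [rationalMat_upperTri, map_zero]
        rw [← hmul, map_mul, map_mul, hz,
          show upperTri (d.z * ratIdele u) (0 : Adf F) (d.z * ratIdele u) =
            upperTri d.z 0 d.z * upperTri (ratIdele u) 0 (ratIdele u) by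
              rw [upperTri_mul]; simp,
          ← scalar_upper_comm, mul_assoc, ← scalar_upper_comm]
        conv_lhs => rw [d.heq]
        simp only [mul_assoc] }
  rw [G0_eq d', G0_eq d]
  simp only [Dec.value, d']
  congr 1
  rw [infAct_mul', infAct_scalar, ← infAct_mul', ← hmul, mul_inv_rev, inv_mul_cancel_right]

/-- Central invariance. -/
theorem G0_central (a : (Adf F)ˣ) (x : XInf F) (g : GAf F) :
    D.G0 cv x (g * upperTri a 0 a) = D.G0 cv x g := by
  set d := (D.exists_dec g).some
  let d' : D.Dec (g * upperTri a 0 a) :=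
    { d with
      z := d.z * a
      heq := by
        conv_lhs => rw [d.heq]
        rw [mul_assoc _ (upperTri d.z 0 d.z), upperTri_mul]
        congr 2
        simp }
  rw [G0_eq d', G0_eq d]
  rfl

/-- Right translation by an integral matrix. -/
theorem G0_mul_int {g : GAf F} (d : D.Dec g) (k' : GL (Fin 2) (IntAd F)) (x : XInf F) :
    D.G0 cv x (g * Matrix.GeneralLinearGroup.map intToAdele k') =
      D.theta (adDv d.a) (D.VT cv (D.resT3 d.k * D.resT3 k')) 0
        (infAct (upperTri d.q d.c 1)⁻¹ x) := by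
  let d' : D.Dec (g * Matrix.GeneralLinearGroup.map intToAdele k') :=
    { d with
      k := d.k * k'
      heq := by
        conv_lhs => rw [d.heq]
        rw [map_mul]
        simp only [mul_assoc]
        rw [scalar_upper_comm] }
  rw [G0_eq d']
  simp only [Dec.value, d', map_mul]

lemma theta_shift (A : Dv F) (V : (∀ i, D.kT i) → ℂ) (β : F) (x : XInf F) :
    D.theta A V 0 (infAct (upperTri 1 β 1)⁻¹ x) = D.theta A V β x := by
  rw [upperTri_inv, inv_one]
  refine tsum_congr fun ν => ?_
  rw [term, term, D.waveProd_upper]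
  simp only [zero_mul, neg_zero, ph_zero, mul_one, Units.val_one, one_mul]
  rw [show (ν : F) * (-3)⁻¹ * -β = -(β * (ν : F)) * (-3)⁻¹ by ring]
  ring

/-- The matrices `n(β) diag(a, 1) k z` with `β` integral over `3`. -/
def goodMat (β : F) (a : (Adf F)ˣ) (k : GL (Fin 2) (IntAd F)) (z : (Adf F)ˣ) : GAf F :=
  rationalMat (upperTri 1 β 1) * upperTri a 0 1 * Matrix.GeneralLinearGroup.map intToAdele k *
    upperTri z 0 z

lemma G0_goodMat {a : (Adf F)ˣ} (ha : ∀ i, (a : Adf F) (D.w i) = 1) (β : F)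
    (k : GL (Fin 2) (IntAd F)) (z : (Adf F)ˣ) (x : XInf F) :
    D.G0 cv x (goodMat β a k z) = D.theta (adDv a) (D.VT cv (D.resT3 k)) β x := by
  rw [G0_eq (⟨1, β, a, k, z, ha, rfl⟩ : D.Dec (goodMat β a k z)), Dec.value, theta_shift]

/-- The inversion. -/
def wMat : GL (Fin 2) F := wUni 0

lemma infAct_wMat (x : XInf F) : infAct (wMat : GL (Fin 2) F) x = winv x := by
  funext w
  refine H3.ext ?_ ?_ <;>
    simp [infAct, wMat, wUni, winv, H3.smul_def, H3.act, H3.den, zInv, tInv,
      Matrix.GeneralLinearGroup.map_apply, Matrix.det_fin_two]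

lemma valued_zpow_pi (v : HeightOneSpectrum (𝓞 F)) (n : ℤ) :
    Valued.v (loc v (pi v : F) ^ n) = exp (-n) := by
  rw [map_zpow₀, valued_uniformizer, ← exp_zsmul]
  congr 1
  simp

lemma exists_idele_exact (E : Dv F) : ∃ z : (Adf F)ˣ, adDv z = E ∧
    ∀ v, E v = 0 → (z : Adf F) v = 1 := by
  let f : ∀ v : HeightOneSpectrum (𝓞 F), v.adicCompletion F := fun v => loc v (pi v : F) ^ E v
  have hE : ∀ᶠ v in Filter.cofinite, E v = 0 := Filter.eventually_cofinite.2
    (E.support.finite_toSet.subset fun v hv => Finsupp.mem_support_iff.2 hv)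
  let a : Adf F := ⟨f, by
    filter_upwards [hE] with v hv
    change f v ∈ v.adicCompletionIntegers F
    rw [HeightOneSpectrum.mem_adicCompletionIntegers, valued_zpow_pi, hv, neg_zero, exp_zero]⟩
  have ha : IsUnit a := FiniteAdeleRing.isUnit_iff.2 ⟨fun v h => by
    have h' := congrArg Valued.v h
    rw [map_zero] at h'
    exact exp_ne_zero ((valued_zpow_pi v (E v)).symm.trans h'),
    by filter_upwards [hE] with v hv
       exact (valued_zpow_pi v (E v)).trans (by rw [hv, neg_zero, exp_zero])⟩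
  exact ⟨ha.unit, Finsupp.ext fun v => adDv_eq_of_valued (valued_zpow_pi v (E v)),
    fun v hv => (congrArg (fun n : ℤ => loc v (pi v : F) ^ n) hv).trans (zpow_zero _)⟩

lemma coprime_of_dv {𝔮 : Ideal (𝓞 F)} (h0 : 𝔮 ≠ ⊥) (hT : ∀ i, idealDv 𝔮 (D.w i) = 0) :
    𝔮 ⊔ Ideal.span {(3 : 𝓞 F)} = ⊤ := by
  by_contra hne
  obtain ⟨m, hm, hle⟩ := Ideal.exists_le_maximal _ hne
  have h3 : (3 : 𝓞 F) ∈ m := hle (Ideal.mem_sup_right (Ideal.mem_span_singleton_self _))
  let v : HeightOneSpectrum (𝓞 F) := ⟨m, hm.isPrime, fun h => by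
    rw [h, Ideal.mem_bot] at h3; norm_num at h3⟩
  obtain ⟨i, hi⟩ := D.inT_of_three_mem (q := v) h3
  obtain ⟨J, hJ⟩ : v.asIdeal ∣ 𝔮 := Ideal.dvd_iff_le.2 (le_sup_left.trans hle)
  have hJ0 : J ≠ ⊥ := fun h => h0 (by rw [hJ, h, Ideal.mul_bot])
  have h := hT i
  rw [← hi, hJ, idealDv_mul v.ne_bot hJ0, idealDv_prime, Finsupp.add_apply,
    Finsupp.single_eq_same] at h
  have := idealDv_nonneg J v
  rw [Finsupp.zero_apply] at this
  omega

open Classical in
lemma exists_keyHyp {A : Dv F} (hA : D.TFree A) {β : F} (hβ : ∀ i, OrdGe (D.w i) 0 β) :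
    ∃ (𝔮 : Ideal (𝓞 F)) (β' : F), D.KeyHyp A 𝔮 β β' := by
  set Q : Dv F := if β = 0 then 0 else (A - dvElt β).mapRange (max 0) (max_self 0) with hQ
  have hQ0 : 0 ≤ Q := fun v => by
    rw [hQ]
    split_ifs
    · exact le_rfl
    · simp
  have hQT : ∀ i, Q (D.w i) = 0 := fun i => by
    rw [hQ]
    split_ifs with h
    · rfl
    · have := (hβ i).resolve_left h
      simp [hA i, this]
  have hord : ∀ v, OrdGe v (A v - Q v) β := fun v => by
    rcases eq_or_ne β 0 with h | h
    · exact Or.inl h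
    · refine Or.inr ?_
      have : Q v = max 0 (A v - dvElt β v) := by rw [hQ, if_neg h]; simp
      omega
  have hexact : ∀ v, 0 < Q v → β ≠ 0 ∧ dvElt β v = A v - Q v := fun v hv => by
    have h : β ≠ 0 := fun h => by rw [hQ, if_pos h] at hv; simp at hv
    refine ⟨h, ?_⟩
    have : Q v = max 0 (A v - dvElt β v) := by rw [hQ, if_neg h]; simp
    omega
  obtain ⟨𝔮, h0, h𝔮⟩ := exists_idealDv_eq hQ0
  let xA : Adf F := ⟨fun v => if 0 < Q v then loc v (-β⁻¹) else 0, Filter.eventually_cofinite.2
    (Q.support.finite_toSet.subset fun v hv => Finsupp.mem_support_iff.2 fun h => hv (by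
      show (if 0 < Q v then _ else 0) ∈ _
      rw [if_neg (by omega)]
      exact zero_mem _))⟩
  obtain ⟨β', hβ'⟩ := exists_rat_near xA
    (fun v => max (2 * Q v - A v).toNat (if D.InT v then 1 else 0)) (by
      refine Filter.eventually_cofinite.2 (((Q.support ∪ A.support ∪
        Finset.univ.image D.w).finite_toSet).subset fun v hv => ?_)
      by_contra h
      simp only [Finset.mem_coe, Finset.mem_union, Finsupp.mem_support_iff, Finset.mem_image,
        Finset.mem_univ, true_and, not_or, not_not] at h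
      refine hv ?_
      rw [if_neg fun ⟨i, hi⟩ => h.2 ⟨i, hi.symm⟩, h.1.1, h.1.2]
      rfl)
  have hnear : ∀ v, Valued.v ((if 0 < Q v then loc v (-β⁻¹) else 0) - loc v β') ≤
      exp (-(max (2 * Q v - A v).toNat (if D.InT v then 1 else 0) : ℕ) : ℤ) := hβ'
  have hsmall : ∀ v, 0 < Q v → OrdGe v (2 * Q v - A v) (β' + β⁻¹) := fun v hv => by
    have h := hnear v
    rw [if_pos hv, ← map_sub] at h
    have h' := (ordGe_iff_valued.2 h).neg
    rw [show -(-β⁻¹ - β') = β' + β⁻¹ by ring] at h'
    refine h'.mono ?_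
    have := Int.self_le_toNat (2 * Q v - A v)
    omega
  have hsmall' : ∀ v, ¬ 0 < Q v →
      OrdGe v (max (2 * Q v - A v).toNat (if D.InT v then 1 else 0) : ℕ) β' := fun v hv => by
    have h := hnear v
    rw [if_neg hv, zero_sub, Valuation.map_neg] at h
    exact ordGe_iff_valued.2 h
  refine ⟨𝔮, β', hA, h0, coprime_of_dv h0 fun i => by rw [h𝔮, hQT i], fun v _ => by
    rw [h𝔮]; exact hord v, fun v hv => by rw [h𝔮] at hv ⊢; exact hexact v hv, hβ,
    fun v _ => ?_, fun i => ?_, fun v hv => ?_⟩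
  · rw [h𝔮]
    by_cases hv : 0 < Q v
    · obtain ⟨hne, he⟩ := hexact v hv
      have hi : OrdGe v (Q v - A v) β⁻¹ :=
        Or.inr (by rw [dvElt_inv hne, Finsupp.neg_apply, he]; omega)
      rw [show β' = β' + β⁻¹ - β⁻¹ by ring]
      exact ((hsmall v hv).mono (by omega)).sub hi
    · refine (hsmall' v hv).mono ?_
      have h1 : Q v = 0 := le_antisymm (not_lt.1 hv) (hQ0 v)
      have := Int.self_le_toNat (2 * Q v - A v)
      omega
  · refine (hsmall' (D.w i) (by rw [hQT i]; omega)).mono ?_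
    rw [if_pos ⟨i, rfl⟩]
    omega
  · rw [h𝔮] at hv ⊢
    obtain ⟨hne, he⟩ := hexact v hv
    rw [show β * β' + 1 = β * (β' + β⁻¹) by rw [mul_add, mul_inv_cancel₀ hne]]
    exact ((hord v).mul (hsmall v hv)).mono (by omega)

/-- The inversion on a good matrix. -/
theorem exists_w_goodMat {a : (Adf F)ˣ} (ha : ∀ i, (a : Adf F) (D.w i) = 1) {β : F}
    (hβ : ∀ i, OrdGe (D.w i) 0 β) (k : GL (Fin 2) (IntAd F)) (z : (Adf F)ˣ) :
    ∃ (β' : F) (a' : (Adf F)ˣ) (k' : GL (Fin 2) (IntAd F)) (z' : (Adf F)ˣ),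
      (∀ i, (a' : Adf F) (D.w i) = 1) ∧ (∀ i, OrdGe (D.w i) 0 β') ∧
      rationalMat wMat * goodMat β a k z = goodMat β' a' k' z' ∧
      ∀ x, D.theta (adDv a') (D.VT cv (D.resT3 k')) β' (winv x) =
        D.theta (adDv a) (D.VT cv (D.resT3 k)) β x := by
  obtain ⟨𝔮, β', hK⟩ := exists_keyHyp (D := D) (tfree_adDv ha) hβ
  set A := adDv a with hA
  set E := idealDv 𝔮 - A with hE
  obtain ⟨z0, hz0, hz0T⟩ := exists_idele_exact E
  have hz0T' : ∀ i, (z0 : Adf F) (D.w i) = 1 := fun i => hz0T _ (hK.tfree_sub i)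
  set a' : (Adf F)ˣ := a * (z0 * z0) with ha'
  have ha'T : ∀ i, (a' : Adf F) (D.w i) = 1 := fun i => by
    simp only [ha', Units.val_mul, adele_mul_apply, ha i, hz0T' i, mul_one]
  have hA' : adDv a' = A + (E + E) := by rw [ha', adDv_mul, adDv_mul, hz0]
  set B : Adf F := algebraMap F (Adf F) β
  set B' : Adf F := algebraMap F (Adf F) β'
  set C : Adf F := algebraMap F (Adf F) (1 + β * β')
  set k00 : Adf F := -B' * ((z0⁻¹ : (Adf F)ˣ) : Adf F)
  set k01 : Adf F := -C * (((a * z0)⁻¹ : (Adf F)ˣ) : Adf F)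
  set k10 : Adf F := ((a * z0 : (Adf F)ˣ) : Adf F)
  set k11 : Adf F := B * (z0 : Adf F)
  have hQnn : ∀ v, 0 ≤ idealDv 𝔮 v := fun v => by simpa using idealDv_nonneg 𝔮 v
  have hor : ∀ v (y : F) (n : ℤ), OrdGe v n y →
      Valued.v ((algebraMap F (Adf F) y) v) ≤ exp (-n) := fun v y n h => by
    rw [adele_algebraMap_apply]; exact ordGe_iff_valued.1 h
  have hB : ∀ v, OrdGe v (A v - idealDv 𝔮 v) β := fun v => by
    by_cases hv : D.InT v
    · obtain ⟨i, rfl⟩ := hv
      rw [hK.tfree i, hK.q_T i, sub_zero]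
      exact hβ i
    · exact hK.β_ord v hv
  have hB' : ∀ v, OrdGe v (idealDv 𝔮 v - A v) β' := fun v => by
    by_cases hv : D.InT v
    · obtain ⟨i, rfl⟩ := hv
      rw [hK.tfree i, hK.q_T i, sub_zero]
      exact (hK.β'_T i).mono zero_le_one
    · exact hK.β'_ord v hv
  have hC : ∀ v, OrdGe v (idealDv 𝔮 v) (1 + β * β') := fun v => by
    rcases (hQnn v).lt_or_eq with hv | hv
    · rw [add_comm]; exact hK.congr v hv
    · rw [← hv]
      refine OrdGe.add ?_ (((hB v).mul (hB' v)).mono (by omega))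
      exact Or.inr (by rw [dvElt_one]; exact le_rfl)
  have hEv : ∀ v, E v = idealDv 𝔮 v - A v := fun v => rfl
  have h00 : ∀ v, k00 v ∈ v.adicCompletionIntegers F := fun v => by
    show Valued.v (k00 v) ≤ 1
    simp only [k00]
    rw [adele_mul_apply, adele_neg_apply, map_mul, Valuation.map_neg, valued_idele, adDv_inv, hz0,
      Finsupp.neg_apply, neg_neg, ← exp_zero]
    refine (mul_le_mul' (hor v _ _ (hB' v)) le_rfl).trans ?_
    rw [← exp_add, exp_le_exp, hEv]; simp only [A]; omega
  have h01 : ∀ v, k01 v ∈ v.adicCompletionIntegers F := fun v => by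
    show Valued.v (k01 v) ≤ 1
    simp only [k01]
    rw [adele_mul_apply, adele_neg_apply, map_mul, Valuation.map_neg, valued_idele, adDv_inv,
      adDv_mul, hz0, Finsupp.neg_apply, neg_neg, Finsupp.add_apply, ← exp_zero]
    refine (mul_le_mul' (hor v _ _ (hC v)) le_rfl).trans ?_
    rw [← exp_add, exp_le_exp, hEv]; simp only [A]; omega
  have h10 : ∀ v, k10 v ∈ v.adicCompletionIntegers F := fun v => by
    show Valued.v (k10 v) ≤ 1
    simp only [k10]
    rw [valued_idele, adDv_mul, hz0, Finsupp.add_apply, ← exp_zero, exp_le_exp, hEv]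
    simp only [A]
    have := hQnn v
    omega
  have h11 : ∀ v, k11 v ∈ v.adicCompletionIntegers F := fun v => by
    show Valued.v (k11 v) ≤ 1
    simp only [k11]
    rw [adele_mul_apply, map_mul, valued_idele, hz0, ← exp_zero]
    refine (mul_le_mul' (hor v _ _ (hB v)) le_rfl).trans ?_
    rw [← exp_add, exp_le_exp, hEv]; simp only [A]; omega
  let i00 : IntAd F := fun v => ⟨k00 v, h00 v⟩
  let i01 : IntAd F := fun v => ⟨k01 v, h01 v⟩
  let i10 : IntAd F := fun v => ⟨k10 v, h10 v⟩
  let i11 : IntAd F := fun v => ⟨k11 v, h11 v⟩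
  have hinj : Function.Injective (intToAdele (K := F)) := fun p r h => funext fun v =>
    Subtype.ext (congrArg (fun X : Adf F => X v) h)
  have hdet : i00 * i11 - i01 * i10 = 1 := hinj (by
    rw [map_sub, map_mul, map_mul, map_one]
    show k00 * k11 - k01 * k10 = 1
    simp only [k00, k01, k10, k11, B, B', C, map_add, map_mul, map_one]
    linear_combination (-(algebraMap F (Adf F) β' * algebraMap F (Adf F) β)) * z0.inv_mul +
      (1 + algebraMap F (Adf F) β * algebraMap F (Adf F) β') * (a * z0).inv_mul)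
  let km : GL (Fin 2) (IntAd F) :=
    ⟨!![i00, i01; i10, i11], !![i11, -i01; -i10, i00], by
      refine Matrix.ext fun i j => ?_
      fin_cases i <;> fin_cases j <;> simp [Matrix.mul_apply, Fin.sum_univ_two] <;>
        first | ring1 | linear_combination hdet, by
      refine Matrix.ext fun i j => ?_
      fin_cases i <;> fin_cases j <;> simp [Matrix.mul_apply, Fin.sum_univ_two] <;>
        first | ring1 | linear_combination hdet⟩
  refine ⟨β', a', km * k, z0⁻¹ * z, ha'T, fun i => (hK.β'_T i).mono zero_le_one, ?_, fun x => ?_⟩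
  · have hmain : rationalMat wMat * (rationalMat (upperTri 1 β 1) * upperTri a 0 1) =
        rationalMat (upperTri 1 β' 1) * upperTri a' 0 1 *
          Matrix.GeneralLinearGroup.map intToAdele km * upperTri z0⁻¹ 0 z0⁻¹ := by
      rw [rationalMat_upperTri, rationalMat_upperTri]
      have hkm : ((Matrix.GeneralLinearGroup.map intToAdele km : GAf F) :
          Matrix (Fin 2) (Fin 2) (Adf F)) = !![k00, k01; k10, k11] := Matrix.ext fun i j => by
        fin_cases i <;> fin_cases j <;> rfl
      have hw : ((rationalMat (wMat : GL (Fin 2) F) : GAf F) : Matrix (Fin 2) (Fin 2) (Adf F)) =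
          !![0, -1; 1, 0] := Matrix.ext fun i j => by
        fin_cases i <;> fin_cases j <;>
          simp [rationalMat, wMat, wUni, Matrix.GeneralLinearGroup.map_apply]
      have hu : ∀ (p r : (Adf F)ˣ) (y : Adf F), ((upperTri p y r : GAf F) :
          Matrix (Fin 2) (Fin 2) (Adf F)) = !![(p : Adf F), y; 0, (r : Adf F)] := fun _ _ _ => rfl
      have e1 : (z0 : Adf F) * ((z0⁻¹ : (Adf F)ˣ) : Adf F) = 1 := z0.mul_inv
      have e2 : ((a * z0 : (Adf F)ˣ) : Adf F) * (((a * z0)⁻¹ : (Adf F)ˣ) : Adf F) = 1 :=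
        (a * z0).mul_inv
      refine Units.ext ?_
      simp only [Units.val_mul, hkm, hw, hu, map_one, Units.val_one, Matrix.mul_fin_two, ha',
        k00, k01, k10, k11, B, B', C, map_add, map_mul, mul_zero, zero_mul, mul_one, one_mul,
        add_zero, zero_add]
      simp only [Units.val_mul] at e2
      generalize (algebraMap F (Adf F)) β = b at *
      generalize (algebraMap F (Adf F)) β' = b' at *
      generalize ((a⁻¹ : (Adf F)ˣ) : Adf F) = ai at *
      generalize ((z0⁻¹ : (Adf F)ˣ) : Adf F) = zi at *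
      generalize (((a * z0)⁻¹ : (Adf F)ˣ) : Adf F) = azi at *
      generalize (a : Adf F) = aa at *
      generalize (z0 : Adf F) = zz at *
      refine Matrix.ext fun i j => ?_
      fin_cases i <;> fin_cases j <;> simp
      · linear_combination (b' * aa * zz * zi) * e1
      · linear_combination ((1 + b * b') * zz * zi) * e2 + e1
      · linear_combination (-aa) * e1
      · linear_combination (-b) * e1
    rw [goodMat, goodMat, map_mul (Matrix.GeneralLinearGroup.map intToAdele),
      show upperTri (z0⁻¹ * z) (0 : Adf F) (z0⁻¹ * z) = upperTri z0⁻¹ 0 z0⁻¹ * upperTri z 0 z by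
        rw [upperTri_mul]; simp,
      mul_assoc (rationalMat (upperTri 1 β 1) * upperTri a 0 1), ← mul_assoc, hmain]
    set Zk := upperTri z0⁻¹ (0 : Adf F) z0⁻¹
    set K := Matrix.GeneralLinearGroup.map intToAdele k
    have e : K * (Zk * upperTri z 0 z) = Zk * (upperTri z 0 z * K) :=
      (Commute.mul_right (scalar_upper_comm z0⁻¹ K) (scalar_upper_comm z K)).eq.trans
        (mul_assoc _ _ _)
    simp only [mul_assoc] at e ⊢
    rw [e, scalar_upper_comm z K]
  · rw [hA']
    have hres : D.resT3 (km * k) = fun i => wUni (rmod (D.w i) β) * D.resT3 k i := by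
      funext i
      rw [map_mul, Pi.mul_apply]
      congr 1
      have hv1 : ((z0⁻¹ : (Adf F)ˣ) : Adf F) (D.w i) = 1 := by
        have h := congrArg (fun X : Adf F => X (D.w i)) z0.mul_inv
        beta_reduce at h
        rw [adele_mul_apply, hz0T' i, one_mul] at h
        exact h
      have hv2 : (((a * z0)⁻¹ : (Adf F)ˣ) : Adf F) (D.w i) = 1 := by
        have h := congrArg (fun X : Adf F => X (D.w i)) (a * z0).mul_inv
        beta_reduce at h
        rw [adele_mul_apply, Units.val_mul, adele_mul_apply, ha i, hz0T' i, one_mul, one_mul] at h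
        exact h
      have e00 : resHom (D.w i) (i00 (D.w i)) = 0 := by
        refine resHom_eq_zero _ ?_
        show Valued.v (k00 (D.w i)) ≤ _
        rw [adele_mul_apply, hv1, mul_one, adele_neg_apply, Valuation.map_neg]
        exact hor _ _ _ (hK.β'_T i)
      have hC1 : OrdGe (D.w i) 1 (β * β') := by simpa using (hβ i).mul (hK.β'_T i)
      have e01 : resHom (D.w i) (i01 (D.w i)) = -1 := by
        rw [resHom_eq (a := -1) _ ?_, map_neg, map_one]
        show Valued.v (k01 (D.w i) - _) ≤ _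
        rw [adele_mul_apply, hv2, mul_one, adele_neg_apply, adele_algebraMap_apply,
          show (((-1 : 𝓞 F)) : F) = -1 from (map_neg _ _).trans (congrArg Neg.neg (map_one _)),
          ← map_neg, ← map_sub, show -(1 + β * β') - (-1 : F) = -(β * β') by ring]
        exact ordGe_iff_valued.1 hC1.neg
      have e10 : resHom (D.w i) (i10 (D.w i)) = 1 := by
        rw [show i10 (D.w i) = 1 from Subtype.ext (by
          show k10 (D.w i) = 1
          simp only [k10]
          rw [Units.val_mul, adele_mul_apply, ha i, hz0T' i, one_mul]), map_one]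
      have e11 : resHom (D.w i) (i11 (D.w i)) = rmod (D.w i) β :=
        resHom_loc _ (by
          show k11 (D.w i) = _
          rw [adele_mul_apply, hz0T' i, mul_one, adele_algebraMap_apply])
      refine Units.ext (Matrix.ext fun p r => ?_)
      rw [resT3_apply, resGL_apply]
      fin_cases p <;> fin_cases r
      exacts [e00, e01, e10, e11]
    have hV : D.VT cv (D.resT3 (km * k)) = D.Vtw β (D.VT cv (D.resT3 k)) := by
      funext y
      rw [hres, VT_wUni_mul, Vtw]
    rw [hV]
    exact (theta_key hK _ x).symm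

end FermatAgent.LT.Dihedral.DihedralData
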