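import Mathlib.Analysis.SpecialFunctions.Gaussian.FourierTransform
import Mathlib.MeasureTheory.Measure.Haar.NormedSpace
import Mathlib.Analysis.Complex.Isometry
import Mathlib.LinearAlgebra.Complex.FiniteDimensional

/-!
# Gaussians on `ℂ × ℂ`

Gaussians on `ℂ × ℂ` attached to a point of hyperbolic three space, and their Fourier transforms.
-/

set_option autoImplicit false

noncomputable section

open MeasureTheory Complex

namespace FermatAgent.LT.Dihedral

lemma integrable_gauss1 {b : ℝ} (hb : 0 < b) (w : ℂ) :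
    Integrable fun x : ℂ =>
      cexp (-((b * Complex.normSq x : ℝ) : ℂ) + ((2 * (w * x).re : ℝ) : ℂ) * I) := by
  have h := GaussianFourier.integrable_cexp_neg_mul_sq_norm_add (V := ℂ) (b := (b : ℂ))
    (by simpa using hb) I ((2 : ℂ) * (starRingEnd ℂ) w)
  refine h.congr (Filter.Eventually.of_forall fun x => ?_)
  beta_reduce
  congr 1
  rw [Complex.inner, Complex.normSq_eq_norm_sq]
  simp only [map_mul, Complex.conj_ofNat, Complex.conj_conj]
  push_cast
  simp [Complex.mul_re, Complex.mul_im]
  ring

lemma integral_gauss1 {b : ℝ} (hb : 0 < b) (w : ℂ) :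
    ∫ x : ℂ, cexp (-((b * Complex.normSq x : ℝ) : ℂ) + ((2 * (w * x).re : ℝ) : ℂ) * I) =
      ((Real.pi / b * Real.exp (-(Complex.normSq w) / b) : ℝ) : ℂ) := by
  have h := GaussianFourier.integral_cexp_neg_mul_sq_norm_add (V := ℂ) (b := (b : ℂ))
    (by simpa using hb) I ((2 : ℂ) * (starRingEnd ℂ) w)
  refine (integral_congr_ae (Filter.Eventually.of_forall fun x => ?_)).trans (h.trans ?_)
  · congr 1
    rw [Complex.inner, Complex.normSq_eq_norm_sq]
    simp only [map_mul, Complex.conj_ofNat, Complex.conj_conj]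
    push_cast
    simp [Complex.mul_re, Complex.mul_im]
    ring
  · rw [Complex.finrank_real_complex, Complex.ofReal_mul, Complex.ofReal_exp]
    congr 1
    · norm_num
    · congr 1
      rw [norm_mul, Complex.norm_conj, Complex.norm_two, I_sq]
      push_cast
      rw [Complex.normSq_eq_norm_sq]
      push_cast
      ring

/-- The majorant Gaussian at the point `(z, t)`, with scalar `l` and parameter `s`. -/
def gaussPair (l z : ℂ) (t s : ℝ) (x : ℂ × ℂ) : ℂ :=
  cexp (-((2 * Real.pi * t * ‖l‖ * (Complex.normSq x.1 * s + Complex.normSq x.2 / s) : ℝ) : ℂ)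
    + ((2 * Real.pi * (2 * (l * z * x.1 * x.2).re) : ℝ) : ℂ) * I)

/-- The phase `exp (-2π i Tr (l x ȳ))`. -/
def pairPhase (l : ℂ) (y x : ℂ × ℂ) : ℂ :=
  cexp (-((2 * Real.pi * (2 * (l * (x.1 * y.2 + x.2 * y.1)).re) : ℝ) : ℂ) * I)

lemma norm_pairPhase (l : ℂ) (y x : ℂ × ℂ) : ‖pairPhase l y x‖ = 1 := by
  rw [pairPhase, ← Complex.ofReal_neg]
  exact Complex.norm_exp_ofReal_mul_I _

lemma norm_gaussPair (l z : ℂ) (t s : ℝ) (x : ℂ × ℂ) :
    ‖gaussPair l z t s x‖ =
      Real.exp (-(2 * Real.pi * t * ‖l‖ * (Complex.normSq x.1 * s + Complex.normSq x.2 / s))) := by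
  rw [gaussPair, Complex.norm_exp]
  congr 1
  simp only [Complex.add_re, Complex.neg_re, Complex.mul_re, Complex.ofReal_re, Complex.ofReal_im,
    Complex.I_re, Complex.I_im, mul_zero, zero_mul, sub_zero, add_zero]

lemma continuous_gaussPair (l z : ℂ) (t s : ℝ) : Continuous (gaussPair l z t s) := by
  unfold gaussPair
  fun_prop

lemma continuous_pairPhase (l : ℂ) (y : ℂ × ℂ) : Continuous (pairPhase l y) := by
  unfold pairPhase
  fun_prop

lemma integrable_gaussPair {l : ℂ} (hl : l ≠ 0) (z : ℂ) {t s : ℝ} (ht : 0 < t) (hs : 0 < s)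
    (y : ℂ × ℂ) : Integrable fun x : ℂ × ℂ => pairPhase l y x * gaussPair l z t s x := by
  have hl' : 0 < ‖l‖ := norm_pos_iff.2 hl
  have h1 := (integrable_gauss1 (b := 2 * Real.pi * t * ‖l‖ * s) (by positivity) 0).norm
  have h2 := (integrable_gauss1 (b := 2 * Real.pi * t * ‖l‖ / s) (by positivity) 0).norm
  refine (h1.mul_prod h2).mono'
    ((continuous_pairPhase l y).mul (continuous_gaussPair l z t s)).aestronglyMeasurable
    (Filter.Eventually.of_forall fun x => le_of_eq ?_)
  rw [norm_mul, norm_pairPhase, one_mul, norm_gaussPair, ← norm_mul, ← Complex.exp_add,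
    Complex.norm_exp]
  congr 1
  simp
  ring

/-- Fourier transform of the majorant Gaussian. -/
theorem integral_gaussPair {l : ℂ} (hl : l ≠ 0) (z : ℂ) {t s : ℝ} (ht : 0 < t) (hs : 0 < s)
    (y : ℂ × ℂ) :
    ∫ x : ℂ × ℂ, pairPhase l y x * gaussPair l z t s x =
      ((1 / (4 * ‖l‖ ^ 2 * (Complex.normSq z + t ^ 2)) : ℝ) : ℂ) *
        gaussPair l (-(starRingEnd ℂ) z / ((Complex.normSq z + t ^ 2 : ℝ) : ℂ))
          (t / (Complex.normSq z + t ^ 2)) s y := by
  set a : ℝ := t * ‖l‖
  set R : ℝ := Complex.normSq z + t ^ 2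
  have hl' : 0 < ‖l‖ := norm_pos_iff.2 hl
  have ha : 0 < a := mul_pos ht hl'
  have hR : 0 < R := add_pos_of_nonneg_of_pos (Complex.normSq_nonneg z) (by positivity)
  have hnl : Complex.normSq l = ‖l‖ ^ 2 := Complex.normSq_eq_norm_sq l
  rw [Measure.volume_eq_prod, integral_prod _
    (by rw [← Measure.volume_eq_prod]; exact integrable_gaussPair hl z ht hs y)]
  have inner : ∀ x1 : ℂ, ∫ x2 : ℂ, pairPhase l y (x1, x2) * gaussPair l z t s (x1, x2) =
      cexp (-((2 * Real.pi * a * s * Complex.normSq x1 : ℝ) : ℂ) -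
          ((2 * Real.pi * (2 * (l * (x1 * y.2)).re) : ℝ) : ℂ) * I) *
        ((s / (2 * a) *
          Real.exp (-(2 * Real.pi * s / a) * Complex.normSq (l * z * x1 - l * y.1)) : ℝ) : ℂ) := by
    intro x1
    have hb : 0 < 2 * Real.pi * a / s := by positivity
    have h := integral_gauss1 hb (2 * Real.pi * (l * z * x1 - l * y.1))
    have hc : (s / (2 * a) * Real.exp (-(2 * Real.pi * s / a) *
        Complex.normSq (l * z * x1 - l * y.1)) : ℝ) = Real.pi / (2 * Real.pi * a / s) *
          Real.exp (-Complex.normSq (2 * Real.pi * (l * z * x1 - l * y.1)) /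
            (2 * Real.pi * a / s)) := by
      congr 1
      · field_simp
      · congr 1
        simp only [Complex.normSq_mul, Complex.normSq_ofReal, Complex.normSq_ofNat]
        field_simp
    rw [hc, ← h, ← integral_const_mul]
    refine integral_congr_ae (Filter.Eventually.of_forall fun x2 => ?_)
    beta_reduce
    simp only [pairPhase, gaussPair, ← Complex.exp_add, a]
    congr 1
    apply Complex.ext <;> simp [Complex.mul_re, Complex.mul_im] <;> ring
  simp only [inner]
  set D : ℝ := a ^ 2 + Complex.normSq (l * z)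
  have hD : D = ‖l‖ ^ 2 * R := by
    simp only [D, a, R, Complex.normSq_mul, hnl]; ring
  have hD0 : 0 < D := by rw [hD]; positivity
  set c : ℂ := (starRingEnd ℂ) (l * z) * (l * y.1) / (D : ℂ)
  rw [← integral_add_right_eq_self _ c]
  have h := integral_gauss1 (b := 2 * Real.pi * s * D / a) (by positivity)
    (-(2 * Real.pi * (l * y.2)))
  set E : ℂ := cexp (-((2 * Real.pi * s * a * Complex.normSq (l * y.1) / D : ℝ) : ℂ)
    - ((2 * Real.pi * (2 * (l * y.2 * c).re) : ℝ) : ℂ) * I) * ((s / (2 * a) : ℝ) : ℂ)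
  have step : ∀ x : ℂ,
      cexp (-((2 * Real.pi * a * s * Complex.normSq (x + c) : ℝ) : ℂ) -
          ((2 * Real.pi * (2 * (l * ((x + c) * y.2)).re) : ℝ) : ℂ) * I) *
        ((s / (2 * a) *
          Real.exp (-(2 * Real.pi * s / a) * Complex.normSq (l * z * (x + c) - l * y.1)) : ℝ) : ℂ) =
      E * cexp (-((2 * Real.pi * s * D / a * Complex.normSq x : ℝ) : ℂ) +
        ((2 * (-(2 * Real.pi * (l * y.2)) * x).re : ℝ) : ℂ) * I) := by
    intro x
    simp only [E]
    rw [Complex.ofReal_mul (s / (2 * a)), Complex.ofReal_exp, mul_left_comm, mul_right_comm _ _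
      (cexp (-((2 * Real.pi * s * D / a * Complex.normSq x : ℝ) : ℂ) + _)), ← Complex.exp_add,
      ← Complex.exp_add, mul_comm (_ : ℂ) (cexp _)]
    congr 2
    have key : a * Complex.normSq (x + c) + Complex.normSq (l * z * (x + c) - l * y.1) / a =
        D * Complex.normSq x / a + a * Complex.normSq (l * y.1) / D := by
      have hcc : (D : ℂ) * c = (starRingEnd ℂ) (l * z) * (l * y.1) :=
        mul_div_cancel₀ _ (by exact_mod_cast hD0.ne')
      have h1 := congrArg Complex.re hcc
      have h2 := congrArg Complex.im hcc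
      have hn : Complex.normSq c * D ^ 2 = Complex.normSq (l * z) * Complex.normSq (l * y.1) := by
        rw [← Complex.normSq_conj (l * z), ← map_mul, ← hcc, Complex.normSq_mul,
          Complex.normSq_ofReal]
        ring
      have expand : a ^ 2 * Complex.normSq (x + c) + Complex.normSq (l * z * (x + c) - l * y.1) =
          D * Complex.normSq (x + c) - 2 * ((D : ℂ) * c * (starRingEnd ℂ) (x + c)).re
            + Complex.normSq (l * y.1) := by
        rw [hcc]
        simp only [D, Complex.normSq_apply, Complex.sub_re, Complex.sub_im, Complex.mul_re,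
          Complex.mul_im, Complex.conj_re, Complex.conj_im]
        ring
      have expand2 : D * Complex.normSq (x + c) - 2 * ((D : ℂ) * c * (starRingEnd ℂ) (x + c)).re =
          D * Complex.normSq x - D * Complex.normSq c := by
        simp only [Complex.normSq_apply, Complex.add_re, Complex.add_im, Complex.mul_re,
          Complex.mul_im, Complex.conj_re, Complex.conj_im, Complex.ofReal_re, Complex.ofReal_im]
        ring
      have hDdef : D = a ^ 2 + Complex.normSq (l * z) := rfl
      clear_value D
      generalize Complex.normSq (x + c) = N1 at expand expand2 ⊢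
      generalize Complex.normSq (l * z * (x + c) - l * y.1) = N2 at expand ⊢
      field_simp
      linear_combination D * expand + D * expand2 - hn + Complex.normSq (l * y.1) * hDdef
    apply Complex.ext
    · simp only [Complex.add_re, Complex.sub_re, Complex.neg_re, Complex.mul_re, Complex.ofReal_re,
        Complex.ofReal_im, Complex.I_re, Complex.I_im, mul_zero, zero_mul, sub_zero, add_zero]
      linear_combination (-(2 * Real.pi * s)) * key
    · simp [Complex.mul_re, Complex.mul_im]
      ring
  simp only [step]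
  rw [integral_const_mul, h]
  simp only [E, gaussPair]
  rw [Complex.ofReal_mul (Real.pi / _), Complex.ofReal_exp]
  rw [show ∀ A B C D' : ℂ, A * B * (C * D') = B * C * (A * D') from fun _ _ _ _ => by ring,
    ← Complex.ofReal_mul, ← Complex.exp_add]
  congr 1
  · congr 1
    rw [hD]
    field_simp
    ring
  · congr 1
    have hc' : c = ((1 / D : ℝ) : ℂ) * ((starRingEnd ℂ) (l * z) * (l * y.1)) := by
      simp only [c]; push_cast; ring
    have hz : -(starRingEnd ℂ) z / ((R : ℝ) : ℂ) = ((1 / R : ℝ) : ℂ) * (-(starRingEnd ℂ) z) := by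
      push_cast; ring
    rw [hc', hz]
    have hln : l.re * l.re + l.im * l.im = ‖l‖ ^ 2 := by rw [← hnl, Complex.normSq_apply]
    apply Complex.ext
    · simp only [Complex.add_re, Complex.sub_re, Complex.neg_re, Complex.mul_re, Complex.ofReal_re,
        Complex.ofReal_im, Complex.I_re, Complex.I_im, mul_zero, zero_mul, sub_zero, add_zero,
        map_mul, Complex.normSq_neg, Complex.normSq_ofReal, Complex.normSq_ofNat, hnl]
      rw [hD]
      simp only [a]
      field_simp
      ring
    · have hR' : (R : ℂ) ≠ 0 := by exact_mod_cast hR.ne'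
      have hl'' : (‖l‖ : ℂ) ≠ 0 := by exact_mod_cast hl'.ne'
      have hprod : l * y.2 * (((1 / D : ℝ) : ℂ) * ((starRingEnd ℂ) (l * z) * (l * y.1))) =
          -(l * (((1 / R : ℝ) : ℂ) * -(starRingEnd ℂ) z) * y.1 * y.2) := by
        rw [hD, map_mul]
        push_cast
        field_simp
        linear_combination (y.2 * y.1 * (starRingEnd ℂ) z) * Complex.conj_mul' l
      rw [hprod]
      simp only [Complex.add_im, Complex.sub_im, Complex.neg_im, Complex.mul_im, Complex.neg_re,
        Complex.ofReal_re, Complex.ofReal_im, Complex.I_re, Complex.I_im, mul_one, mul_zero,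
        add_zero, zero_add, neg_zero, zero_sub]
      ring

end FermatAgent.LT.Dihedral
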