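import Fermat.Agent.LT.Dihedral.Coef
import Fermat.Agent.LT.Dihedral.Level

/-!
# The sum over residues in the Hecke operator, on the theta series
-/

set_option autoImplicit false
set_option maxHeartbeats 400000

noncomputable section

open NumberField IsDedekindDomain WithZero

namespace FermatAgent.LT.Dihedral.DihedralData

open QuadData

variable {F : Type} [Field F] [NumberField F] {D : DihedralData F}

lemma summable_term {A : Dv F} (hA : D.TFree A) (V : (∀ i, D.kT i) → ℂ) (β : F) (y : XInf F) :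
    Summable (D.term A V β y) :=
  (D.hasSum_term A hA (D.mk_crep A) V β y).summable

lemma freqDv_add (A δ : Dv F) (ν : F) : D.freqDv (A + δ) ν = D.freqDv A ν + δ := by
  simp only [freqDv]
  abel

/-- The sum of the phases over the residues. -/
theorem sum_phase {Q : HeightOneSpectrum (𝓞 F)} (hQ : ¬ D.InT Q) {A : Dv F} (hA : D.TFree A) {β₁ : F}
    (hβ₁ : β₁ ≠ 0) (hord : ∀ v, OrdGe v (A v) β₁) (hexact : dvElt β₁ Q = A Q)
    (hT : ∀ i, OrdGe (D.w i) 1 β₁) {ν : Fˣ}
    (hc : D.coefR (D.freqDv A ν + Finsupp.single Q 1) ≠ 0) [Fintype (𝓞 F ⧸ Q.asIdeal)] :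
    ∑ b : 𝓞 F ⧸ Q.asIdeal, ph (-(β₁ * (Function.surjInv Ideal.Quotient.mk_surjective b : 𝓞 F) *
        (ν : F)) * (-3)⁻¹) =
      if 0 ≤ D.freqDv A ν Q then (Ideal.absNorm Q.asIdeal : ℂ) else 0 := by
  classical
  obtain ⟨hpos, hTf⟩ := D.coefR_ne_zero hc
  have hF : ∀ v, -(if v = Q then 1 else 0) - D.dD v ≤ dvElt (ν : F) v + A v := fun v => by
    have h := hpos v
    rw [Finsupp.zero_apply, Finsupp.add_apply, Finsupp.single_apply, freqDv, Finsupp.add_apply,
      Finsupp.add_apply] at h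
    split_ifs with hv
    · rw [if_pos hv.symm] at h; omega
    · rw [if_neg (Ne.symm hv)] at h; omega
  have hνT : ∀ i, OrdGe (D.w i) (-A (D.w i)) (ν : F) := fun i => Or.inr (by
    have h := hTf i
    rw [Finsupp.add_apply, Finsupp.single_eq_of_ne (fun he => hQ ⟨i, he.symm⟩), freqDv,
      Finsupp.add_apply, Finsupp.add_apply, D.dD_w] at h
    omega)
  have hsmall : ∀ b : 𝓞 F, (b ∈ Q.asIdeal ∨ 0 ≤ D.freqDv A ν Q) →
      ph (-(β₁ * (b : F) * (ν : F)) * (-3)⁻¹) = 1 := by
    intro b hb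
    refine (D.small_third (fun v hv => OrdGe.neg ?_) fun i => OrdGe.neg ?_).ph_eq
    · rcases eq_or_ne v Q with rfl | hne
      · rcases hb with hb | hb
        · refine (((hord v).mul (ordGe_one_iff.2 hb)).mul
            (Or.inr le_rfl : OrdGe v (dvElt (ν : F) v) (ν : F))).mono ?_
          have := hF v
          rw [if_pos rfl] at this
          omega
        · refine (((hord v).mul (ordGe_int b)).mul
            (Or.inr le_rfl : OrdGe v (dvElt (ν : F) v) (ν : F))).mono ?_
          rw [freqDv, Finsupp.add_apply, Finsupp.add_apply] at hb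
          omega
      · refine (((hord v).mul (ordGe_int b)).mul
          (Or.inr le_rfl : OrdGe v (dvElt (ν : F) v) (ν : F))).mono ?_
        have := hF v
        rw [if_neg hne] at this
        omega
    · refine (((hT i).mul (ordGe_int b)).mul (hνT i)).mono ?_
      have := hTf i
      rw [Finsupp.add_apply, Finsupp.single_eq_of_ne (fun he => hQ ⟨i, he.symm⟩), freqDv,
        Finsupp.add_apply, Finsupp.add_apply, D.dD_w] at this
      have := hA i
      omega
  let φ : AddChar (𝓞 F) ℂ :=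
    { toFun := fun b => ph (-(β₁ * (b : F) * (ν : F)) * (-3)⁻¹)
      map_zero_eq_one' := by simp [coeO_zero, ph_zero]
      map_add_eq_mul' := fun a b => by rw [← ph_add, coeO_add]; congr 1; ring }
  have hper : PeriodicMod Q.asIdeal fun b => φ b := fun b u hu => by
    simp only [AddChar.map_add_eq_mul]
    rw [show φ u = 1 from hsmall u (Or.inl hu), mul_one]
  let φq : AddChar (𝓞 F ⧸ Q.asIdeal) ℂ :=
    { toFun := fun c => φ (qrep _ c)
      map_zero_eq_one' := by
        rw [hper.eq_of_mk (x := qrep _ 0) (y := 0) (by simp), AddChar.map_zero_eq_one]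
      map_add_eq_mul' := fun a b => by
        rw [← AddChar.map_add_eq_mul]
        exact hper.eq_of_mk (by simp) }
  have hval : ∀ b : 𝓞 F ⧸ Q.asIdeal,
      ph (-(β₁ * (Function.surjInv Ideal.Quotient.mk_surjective b : 𝓞 F) * (ν : F)) * (-3)⁻¹) =
        φq b := fun b =>
    hper.eq_of_mk (x := Function.surjInv Ideal.Quotient.mk_surjective b) (y := qrep _ b)
      (by rw [mk_qrep, Function.surjInv_eq Ideal.Quotient.mk_surjective b])
  rw [Finset.sum_congr rfl fun b _ => hval b]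
  by_cases h0 : 0 ≤ D.freqDv A ν Q
  · rw [if_pos h0, Finset.sum_congr rfl fun b _ => show φq b = 1 from hsmall _ (Or.inr h0),
      Finset.sum_const, Finset.card_univ, nsmul_eq_mul, mul_one, ← card_quot,
      Nat.card_eq_fintype_card]
  · rw [if_neg h0, AddChar.sum_eq_zero_of_ne_one]
    intro h1
    have hall : ∀ b : 𝓞 F, ph (-(β₁ * (b : F) * (ν : F)) * (-3)⁻¹) = 1 := fun b => by
      have h2 : φq (Ideal.Quotient.mk _ b) = φ b := hper.qrep_mk b
      rw [h1, AddChar.one_apply] at h2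
      exact h2.symm
    obtain ⟨P, rfl⟩ := D.exists_above Q
    have hx := D.ordGe_of_trivial (x := -(β₁ * (ν : F)) * (-3)⁻¹) 0 (fun y hy => by
      obtain ⟨a, rfl⟩ := exists_int_of_nonneg (mem_fid.1 (mem_fid_iff_ordGe.2 hy))
      rw [← hall (D.traO a), coe_traO]
      congr 1
      ring) P
    have h3 : ((-3 : F)⁻¹) ≠ 0 := inv_ne_zero (by norm_num)
    have hne : -(β₁ * (ν : F)) * (-3)⁻¹ ≠ 0 :=
      mul_ne_zero (neg_ne_zero.2 (mul_ne_zero hβ₁ ν.ne_zero)) h3
    have h4 := hx.resolve_left ((map_ne_zero _).2 hne)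
    rw [dvElt_algebraMap hne, extDv_apply, D.ram_eq_one hQ, one_mul, Finsupp.zero_apply,
      D.diff_not hQ, dvElt_mul (neg_ne_zero.2 (mul_ne_zero hβ₁ ν.ne_zero)) h3, dvElt_neg,
      dvElt_mul hβ₁ ν.ne_zero, dvElt_inv (by norm_num), dvElt_neg, D.dvElt_three,
      Finsupp.add_apply, Finsupp.add_apply, Finsupp.neg_apply, Finsupp.smul_apply,
      D.fT_of_not hQ, hexact, smul_zero, neg_zero, add_zero] at h4
    rw [freqDv, Finsupp.add_apply, Finsupp.add_apply] at h0
    omega

/-- The Hecke identity of the theta series. -/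
theorem theta_hecke {Q : HeightOneSpectrum (𝓞 F)} (hQ : ¬ D.InT Q) {A : Dv F} (hA : D.TFree A)
    {β₁ : F} (hβ₁ : β₁ ≠ 0) (hord : ∀ v, OrdGe v (A v) β₁) (hexact : dvElt β₁ Q = A Q)
    (hT : ∀ i, OrdGe (D.w i) 1 β₁) (V : (∀ i, D.kT i) → ℂ) (y : XInf F)
    [Fintype (𝓞 F ⧸ Q.asIdeal)] :
    (∑ b : 𝓞 F ⧸ Q.asIdeal, D.theta (A + Finsupp.single Q 1) V
        (β₁ * (Function.surjInv Ideal.Quotient.mk_surjective b : 𝓞 F)) y) +
      D.theta (A - Finsupp.single Q 1) V 0 y =
    (Real.sqrt (Ideal.absNorm Q.asIdeal) : ℂ) * D.coefR (Finsupp.single Q 1) *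
      D.theta A V 0 y := by
  classical
  have hδ : D.TFree (Finsupp.single Q 1) := fun i =>
    Finsupp.single_eq_of_ne fun he => hQ ⟨i, he.symm⟩
  have hA1 : D.TFree (A + Finsupp.single Q 1) := TFree.add D hA hδ
  have hA2 : D.TFree (A - Finsupp.single Q 1) := by
    rw [sub_eq_add_neg]; exact TFree.add D hA (TFree.neg D hδ)
  set N : ℝ := (Ideal.absNorm Q.asIdeal : ℝ)
  have hN : ndeg (Finsupp.single Q (1 : ℤ)) = N := by rw [← idealDv_prime, ndeg_idealDv Q.ne_bot]
  have hNpos : 0 < N := hN ▸ ndeg_pos _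
  simp only [theta]
  rw [← Summable.tsum_finsetSum fun b _ => summable_term hA1 V _ y,
    ← (summable_sum fun b _ => summable_term hA1 V _ y).tsum_add (summable_term hA2 V 0 y),
    ← tsum_mul_left]
  refine tsum_congr fun ν => ?_
  set E := D.freqDv A ν with hE
  set rest : ℂ := V (D.resT (ν : F)) * waveProd ((ν : F) * (-3)⁻¹) y
  have hterm : ∀ (B : Dv F) (β : F), D.term B V β y ν =
      D.coefR (D.freqDv B ν) * (((Real.sqrt (ndeg (D.freqDv B ν)))⁻¹ : ℝ) : ℂ) *
        ph (-(β * (ν : F)) * (-3)⁻¹) * rest := fun B β => by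
    simp only [term, rest]; ring
  simp only [hterm, freqDv_add, sub_eq_add_neg A, ← hE, zero_mul, neg_zero, ph_zero, mul_one,
    ← Finset.sum_mul, ← Finset.mul_sum]
  rw [← sub_eq_add_neg]
  have hsum : D.coefR (E + Finsupp.single Q 1) *
      ∑ b : 𝓞 F ⧸ Q.asIdeal, ph (-(β₁ *
        (Function.surjInv Ideal.Quotient.mk_surjective b : 𝓞 F) * (ν : F)) * (-3)⁻¹) =
      (if 0 ≤ E Q then D.coefR (E + Finsupp.single Q 1) else 0) * (N : ℂ) := by
    by_cases hc : D.coefR (E + Finsupp.single Q 1) = 0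
    · rw [hc]; simp
    · rw [sum_phase hQ hA hβ₁ hord hexact hT hc, ← hE]
      split_ifs <;> simp [N]
  have hp := ndeg_pos E
  have h1 : (Real.sqrt (ndeg (E + Finsupp.single Q 1)))⁻¹ * N =
      Real.sqrt N * (Real.sqrt (ndeg E))⁻¹ := by
    rw [ndeg_add, hN, Real.sqrt_mul hp.le, mul_inv, mul_assoc]
    rw [mul_comm (Real.sqrt N), inv_mul_eq_div (Real.sqrt N), Real.div_sqrt]
  have h2 : (Real.sqrt (ndeg (E - Finsupp.single Q 1)))⁻¹ =
      Real.sqrt N * (Real.sqrt (ndeg E))⁻¹ := by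
    rw [sub_eq_add_neg E, ndeg_add, ndeg_neg, hN, Real.sqrt_mul hp.le, mul_inv, Real.sqrt_inv,
      inv_inv, mul_comm]
  have hrec := coefR_recursion hQ E
  rw [h2, show ∀ c s p r : ℂ, c * s * p * r = c * p * s * r from fun c s p r => by ring, hsum,
    mul_assoc _ (N : ℂ), ← Complex.ofReal_mul, mul_comm N, h1]
  push_cast
  linear_combination ((Real.sqrt N : ℂ) * ((Real.sqrt (ndeg E) : ℂ))⁻¹ * rest) * hrec

end FermatAgent.LT.Dihedral.DihedralData
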