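import Fermat.Agent.LT.Dihedral.Theta

/-!
# The transformation of the lattice sum of a class
-/

set_option autoImplicit false
set_option maxHeartbeats 400000

noncomputable section

open NumberField IsDedekindDomain
open scoped nonZeroDivisors

namespace FermatAgent.LT.Dihedral.DihedralData

open QuadData

variable {F : Type} [Field F] [NumberField F] (D : DihedralData F)

/-- The hypotheses of the transformation. -/
structure KeyHyp (A : Dv F) (𝔮 : Ideal (𝓞 F)) (β β' : F) : Prop where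
  tfree : D.TFree A
  ne_bot : 𝔮 ≠ ⊥
  coprime : 𝔮 ⊔ Ideal.span {(3 : 𝓞 F)} = ⊤
  β_ord : ∀ q, ¬ D.InT q → OrdGe q (A q - idealDv 𝔮 q) β
  β_exact : ∀ q, 0 < idealDv 𝔮 q → β ≠ 0 ∧ dvElt β q = A q - idealDv 𝔮 q
  β_T : ∀ i, OrdGe (D.w i) 0 β
  β'_ord : ∀ q, ¬ D.InT q → OrdGe q (idealDv 𝔮 q - A q) β'
  β'_T : ∀ i, OrdGe (D.w i) 1 β'
  congr : ∀ q, 0 < idealDv 𝔮 q → OrdGe q (idealDv 𝔮 q) (β * β' + 1)

/-- The twist of a local vector by the phases at `3`. -/
def Vtw (β : F) (V : (∀ i, D.kT i) → ℂ) : (∀ i, D.kT i) → ℂ :=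
  fun c => V c * ∏ i, D.psiT i (-(rmod (D.w i) β * c i))

lemma idealDv_mapI_mul {𝔮 : Ideal (𝓞 F)} (h : 𝔮 ≠ ⊥) :
    idealDv (D.mapI 𝔮 * D.idealT) = extDv (idealDv 𝔮) + D.fM := by
  rw [idealDv_mul (map_ne_bot_ext h) D.idealT_ne, idealDv_map h, idealDv_idealT]

variable {D} {A : Dv F} {𝔮 : Ideal (𝓞 F)} {β β' : F}

lemma KeyHyp.q_T (hK : D.KeyHyp A 𝔮 β β') (i : Fin 3) : idealDv 𝔮 (D.w i) = 0 :=
  D.three_coprime hK.coprime i

lemma KeyHyp.not_inT (hK : D.KeyHyp A 𝔮 β β') {q : HeightOneSpectrum (𝓞 F)}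
    (hq : 0 < idealDv 𝔮 q) : ¬ D.InT q := by
  rintro ⟨i, rfl⟩
  rw [hK.q_T i] at hq
  exact lt_irrefl _ hq

lemma Pair.conj_eq (p : D.Pair A) {P : HeightOneSpectrum (𝓞 D.M)} (h : ¬ D.InT (D.below P)) :
    p.J P + p.J (D.conjP P) =
      dvElt (p.lam : F) (D.below P) + A (D.below P) + D.dD (D.below P) := by
  have h1 := DFunLike.congr_fun p.hdv P
  rw [Finsupp.add_apply, conjDv_apply, extDv_apply, D.ram_eq_one h, one_mul, Finsupp.add_apply,
    Finsupp.add_apply] at h1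
  exact h1

lemma rmod_neg_mul {i : Fin 3} {a b : F} (ha : OrdGe (D.w i) 0 a) (hb : OrdGe (D.w i) 0 b) :
    rmod (D.w i) (-(a * b)) = -(rmod (D.w i) a * rmod (D.w i) b) := by
  have h2 : OrdGe (D.w i) 0 (a * b) := by simpa using ha.mul hb
  refine eq_neg_of_add_eq_zero_left ?_
  rw [← rmod_mul _ ha hb, ← rmod_add _ h2.neg h2, neg_add_cancel,
    show (0 : F) = ((0 : 𝓞 F) : F) from (map_zero _).symm, rmod_int, map_zero]

lemma hW_periodic (hK : D.KeyHyp A 𝔮 β β') (p : D.Pair A) (V : (∀ i, D.kT i) → ℂ)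
    {x u : D.M} (hx : x ∈ (fid (-p.J) : FractionalIdeal (𝓞 D.M)⁰ D.M))
    (hu : u ∈ (fid (-p.J + (extDv (idealDv 𝔮) + D.fM)) : FractionalIdeal (𝓞 D.M)⁰ D.M)) :
    D.hW V β p.lam (x + u) = D.hW V β p.lam x := by
  have hlam : ∀ q, OrdGe q (dvElt (p.lam : F) q) (p.lam : F) := fun q => Or.inr le_rfl
  have hx' := mem_fid_iff_ordGe.1 hx
  have hu' := mem_fid_iff_ordGe.1 hu
  have hxT : ∀ i, OrdGe (D.P i) 0 x := ordGe_of_mem_fid p.hJ hx
  have huT : ∀ i, OrdGe (D.P i) 1 u := fun i => by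
    refine (hu' (D.P i)).mono ?_
    rw [Finsupp.add_apply, Finsupp.add_apply, Finsupp.neg_apply, p.hJ i, extDv_apply, D.below_P,
      hK.q_T, fM_P]
    simp
  have hrm : ∀ i, rmod (D.P i) (x + u) = rmod (D.P i) x := fun i =>
    rmod_congr _ (hxT i) (by rw [add_sub_cancel_left]; exact huT i)
  have hlamT : ∀ i, OrdGe (D.w i) 0 (p.lam : F) := fun i =>
    Or.inr (p.lam_T hK.tfree i).ge
  have hdiffN : ∀ i, OrdGe (D.w i) 1 (D.nrm (x + u) - D.nrm x) := by
    intro i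
    rw [D.nrm_add, show D.nrm x + D.tra (x * D.σ u) + D.nrm u - D.nrm x =
      D.tra (x * D.σ u) + D.nrm u by ring]
    refine OrdGe.add ?_ ?_
    · refine D.ordGe_tra (fun _ => 1) (fun P _ => by simp) (fun _ => rfl) fun P hP => ?_
      rw [D.eq_P_of_below hP]
      simpa using (hxT i).mul (D.ordGe_σ (P := D.P i) (by rw [D.conjP_P]; exact huT i))
    · refine D.ordGe_nrm (fun _ => 1) (fun P _ => by simp) (fun _ => rfl) fun P hP => ?_
      rw [D.eq_P_of_below hP]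
      exact huT i
  have hres : D.resT ((p.lam : F) * D.nrm (x + u)) = D.resT ((p.lam : F) * D.nrm x) := by
    funext i
    refine rmod_congr _ (by simpa using (hlamT i).mul (D.ordGe_nrm_T (hxT i))) ?_
    rw [← mul_sub]
    simpa using (hlamT i).mul (hdiffN i)
  have hph : ph (-(β * ((p.lam : F) * D.nrm (x + u))) * (-3)⁻¹) =
      ph (-(β * ((p.lam : F) * D.nrm x)) * (-3)⁻¹) := by
    refine D.ph_congr ?_
    rw [show -(β * ((p.lam : F) * D.nrm (x + u))) * (-3)⁻¹ - -(β * ((p.lam : F) * D.nrm x)) * (-3)⁻¹ =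
      (-(β * ((p.lam : F) * (D.nrm (x + u) - D.nrm x)))) * (-3)⁻¹ by ring]
    refine D.small_third (fun q hq => OrdGe.neg ?_) fun i => OrdGe.neg ?_
    · have hk : OrdGe q (-(dvElt (p.lam : F) q + A q + D.dD q) + idealDv 𝔮 q)
          (D.nrm (x + u) - D.nrm x) := by
        rw [D.nrm_add, show D.nrm x + D.tra (x * D.σ u) + D.nrm u - D.nrm x =
          D.tra (x * D.σ u) + D.nrm u by ring]
        refine OrdGe.add ?_ ?_
        · refine D.ordGe_tra_self fun P hP => D.ordGe_off hq hP ?_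
          refine ((hx' P).mul (D.ordGe_σ (hu' (D.conjP P)))).mono ?_
          have hT : ¬ D.InT (D.below P) := hP ▸ hq
          have := p.conj_eq hT
          rw [Finsupp.add_apply, Finsupp.add_apply, Finsupp.neg_apply, Finsupp.neg_apply,
            extDv_apply, D.below_conjP, D.ram_conjP, D.ram_eq_one hT, hP, one_mul,
            D.fM_of_not (by rw [D.below_conjP]; exact hT)]
          rw [hP] at this
          omega
        · obtain ⟨P, hP⟩ := D.exists_above q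
          rw [← hP]
          refine D.ordGe_of_algebraMap
            (k := -(p.J P + p.J (D.conjP P)) + 2 * idealDv 𝔮 q) ?_ ?_
          · have := p.conj_eq (hP.symm ▸ hq : ¬ D.InT (D.below P))
            rw [D.ram_eq_one (hP.symm ▸ hq), one_mul, this, hP]
            have : 0 ≤ idealDv 𝔮 q := idealDv_nonneg 𝔮 q
            omega
          · rw [algebraMap_nrm]
            refine ((hu' P).mul (D.ordGe_σ (hu' (D.conjP P)))).mono ?_
            have hT : ¬ D.InT (D.below P) := hP.symm ▸ hq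
            rw [Finsupp.add_apply, Finsupp.add_apply, Finsupp.neg_apply, Finsupp.add_apply,
              Finsupp.add_apply, Finsupp.neg_apply,
              extDv_apply, extDv_apply, D.below_conjP, D.ram_conjP, D.ram_eq_one hT, hP, one_mul,
              D.fM_of_not hT, D.fM_of_not (by rw [D.below_conjP]; exact hT)]
            omega
      refine ((hK.β_ord q hq).mul ((hlam q).mul hk)).mono ?_
      omega
    · simpa using (hK.β_T i).mul ((hlamT i).mul (hdiffN i))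
  simp only [hW, coefT, χT, hrm, hres, hph]

lemma dual_eq (_hK : D.KeyHyp A 𝔮 β β') (p : D.Pair A) :
    D.dualDv ((p.lam : F) * (-3)⁻¹) (-p.J + (extDv (idealDv 𝔮) + D.fM)) =
      -(p.J + extDv (idealDv 𝔮 - A)) := by
  have hne : ((-3 : F)⁻¹) ≠ 0 := inv_ne_zero (by norm_num)
  have h1 : diffDv D.M = extDv (2 • D.fT + D.dD) - D.fM := eq_sub_of_add_eq D.diffDv_eq
  rw [dualDv, dvElt_mul p.lam.ne_zero hne, dvElt_inv (by norm_num), dvElt_neg, D.dvElt_three, h1]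
  have h2 := p.hdv
  have hc : D.conjDv p.J = extDv (dvElt (p.lam : F) + A + D.dD) - p.J := eq_sub_of_add_eq' h2
  simp only [map_sub, map_add, map_neg, D.conjDv_extDv, D.conjDv_fM, hc]
  have hfT : extDv (L := D.M) (2 • D.fT) = 2 • extDv D.fT := map_nsmul _ _ _
  rw [hfT]
  abel

lemma ndeg_J (p : D.Pair A) :
    ndeg p.J = ndeg (dvElt (p.lam : F)) * ndeg A * ndeg D.dD := by
  have h := congrArg ndeg p.hdv
  rw [ndeg_add, ndeg_conjDv, ndeg_extDv, D.finrank_eq, ndeg_add, ndeg_add, ← pow_two] at h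
  have := ndeg_pos (dvElt (p.lam : F))
  have := ndeg_pos A
  have := ndeg_pos D.dD
  exact (pow_left_inj₀ (ndeg_pos _).le (by positivity) two_ne_zero).1 h

lemma covol_eq (_hK : D.KeyHyp A 𝔮 β β') (p : D.Pair A) :
    D.covol ((p.lam : F) * (-3)⁻¹) (-p.J + (extDv (idealDv 𝔮) + D.fM)) =
      9 * ndeg (idealDv 𝔮) ^ 2 / ndeg A := by
  have hne : ((-3 : F)⁻¹) ≠ 0 := inv_ne_zero (by norm_num)
  have hfT : ndeg D.fT = 27 := by
    have h : ∀ i, ndeg (Finsupp.single (D.w i) (1 : ℤ)) = 3 := fun i => by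
      rw [← idealDv_prime, ndeg_idealDv (D.w i).ne_bot, D.absNorm_w]; norm_num
    rw [fT, Fin.sum_univ_three, ndeg_add, ndeg_add, h, h, h]; norm_num
  have hf2 : ndeg (2 • D.fT) = 729 := by rw [two_nsmul, ndeg_add, hfT]; norm_num
  have hN : |((Algebra.norm ℚ ((p.lam : F) * (-3)⁻¹) : ℚ) : ℝ)| =
      ndeg (dvElt (p.lam : F)) / 729 := by
    rw [← ndeg_dvElt (mul_ne_zero p.lam.ne_zero hne), dvElt_mul p.lam.ne_zero hne,
      dvElt_inv (by norm_num), dvElt_neg, D.dvElt_three, ndeg_add, ndeg_neg, hf2, div_eq_mul_inv]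
  have hd : Real.sqrt (ndeg (diffDv D.M)) = 81 * ndeg D.dD := by
    have h := congrArg ndeg D.diffDv_eq
    rw [ndeg_add, D.ndeg_fM, ndeg_extDv, D.finrank_eq, ndeg_add, hf2] at h
    rw [show ndeg (diffDv D.M) = (81 * ndeg D.dD) ^ 2 by linarith [h],
      Real.sqrt_sq (by linarith [ndeg_pos D.dD])]
  rw [covol, hN, hd, ndeg_add, ndeg_add, ndeg_neg, ndeg_extDv, D.finrank_eq, D.ndeg_fM, ndeg_J p]
  have := ndeg_pos (dvElt (p.lam : F))
  have := ndeg_pos A
  have := ndeg_pos D.dD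
  field_simp
  ring

/-- The finite sum of a class at a dual point. -/
lemma finite_sum_eq (hK : D.KeyHyp A 𝔮 β β') (p : D.Pair A) (V : (∀ i, D.kT i) → ℂ)
    {l₀ : D.M} (hl₀ : l₀ ≠ 0)
    (hmem : l₀ ∈ (fid (-p.J) : FractionalIdeal (𝓞 D.M)⁰ D.M))
    (hexact : ∀ P, (extDv (idealDv 𝔮) + D.fM : Dv D.M) P ≠ 0 → dvElt l₀ P = -p.J P) {v : D.M}
    (hv : v ∈ (fid (-(p.J + extDv (idealDv 𝔮 - A))) : FractionalIdeal (𝓞 D.M)⁰ D.M)) :
    qsum (D.mapI 𝔮 * D.idealT) (fun x => D.hW V β p.lam (l₀ * (x : D.M)) *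
        ph ((p.lam : F) * (-3)⁻¹ * D.tra (l₀ * (x : D.M) * D.σ v))) =
      9 * D.η A * (D.η (idealDv 𝔮) * (Ideal.absNorm 𝔮 : ℂ)) *
        D.hW (D.Vtw β V) β' p.lam v := by
  have hlam0 : (p.lam : F) ≠ 0 := p.lam.ne_zero
  have hthree : ((-3 : F)⁻¹) ≠ 0 := inv_ne_zero (by norm_num)
  have hl0 := mem_fid_iff_ordGe.1 hmem
  have hv' := mem_fid_iff_ordGe.1 hv
  have hlamT : ∀ i, dvElt (p.lam : F) (D.w i) = 0 := fun i => p.lam_T hK.tfree i
  have hlamI : ∀ i, OrdGe (D.w i) 0 (p.lam : F) := fun i => Or.inr (hlamT i).ge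
  have hlamQ : ∀ q, OrdGe q (dvElt (p.lam : F) q) (p.lam : F) := fun q => Or.inr le_rfl
  have hlT : ∀ i, dvElt l₀ (D.P i) = 0 := fun i => by
    rw [hexact (D.P i) (by rw [Finsupp.add_apply, extDv_apply, D.below_P, hK.q_T, fM_P]; simp),
      p.hJ i, neg_zero]
  have hvT : ∀ i, OrdGe (D.P i) 0 v := fun i => by
    have := hv' (D.P i)
    rwa [Finsupp.neg_apply, Finsupp.add_apply, p.hJ i, extDv_apply, D.below_P, Finsupp.sub_apply,
      hK.q_T, hK.tfree i, sub_zero, mul_zero, add_zero, neg_zero] at this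
  have hl0T : ∀ i, OrdGe (D.P i) 0 l₀ := fun i => Or.inr (hlT i).ge
  have hσv : ∀ i, OrdGe (D.P i) 0 (D.σ v) := fun i => D.ordGe_σ (by rw [D.conjP_P]; exact hvT i)
  set c₁ : F := -(β * (p.lam : F) * D.nrm l₀) * (-3)⁻¹
  set c₂ : D.M := algebraMap F D.M ((p.lam : F) * (-3)⁻¹) * (l₀ * D.σ v)
  set d : F := -(β' * ((p.lam : F) * D.nrm v)) * (-3)⁻¹
  have hq0 : ∀ q, 0 ≤ idealDv 𝔮 q := fun q => idealDv_nonneg 𝔮 q
  have hnl : ∀ q, ¬ D.InT q → OrdGe q (-(dvElt (p.lam : F) q + A q + D.dD q)) (D.nrm l₀) := by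
    intro q hq
    obtain ⟨P, hP⟩ := D.exists_above q
    subst hP
    refine D.ordGe_of_algebraMap (k := -(p.J P + p.J (D.conjP P))) ?_ ?_
    · rw [D.ram_eq_one hq, one_mul, p.conj_eq hq]; omega
    · rw [algebraMap_nrm]
      refine ((hl0 P).mul (D.ordGe_σ (hl0 (D.conjP P)))).mono ?_
      rw [Finsupp.neg_apply, Finsupp.neg_apply]; omega
  have hnv : ∀ q, ¬ D.InT q →
      OrdGe q (-(dvElt (p.lam : F) q + A q + D.dD q + 2 * (idealDv 𝔮 q - A q))) (D.nrm v) := by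
    intro q hq
    obtain ⟨P, hP⟩ := D.exists_above q
    subst hP
    refine D.ordGe_of_algebraMap
      (k := -(p.J P + p.J (D.conjP P) + 2 * (idealDv 𝔮 (D.below P) - A (D.below P)))) ?_ ?_
    · rw [D.ram_eq_one hq, one_mul, p.conj_eq hq]; omega
    · rw [algebraMap_nrm]
      refine ((hv' P).mul (D.ordGe_σ (hv' (D.conjP P)))).mono ?_
      rw [Finsupp.neg_apply, Finsupp.neg_apply, Finsupp.add_apply, Finsupp.add_apply, extDv_apply,
        extDv_apply, D.ram_conjP, D.below_conjP, D.ram_eq_one hq, one_mul, Finsupp.sub_apply]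
      omega
  have hS : D.SumCoeffs 𝔮 c₁ c₂ d := by
    refine ⟨hK.ne_bot, hK.coprime, fun q hq => ?_, fun q hq => ?_, fun i => ?_, fun P hP => ?_,
      fun i => ?_, fun q hq => ?_, fun i => ?_, fun q hq => ?_⟩
    · refine ((((hK.β_ord q hq).mul (hlamQ q)).mul (hnl q hq)).neg.mul
        (D.ordGe_inv_three' hq)).mono ?_
      omega
    · obtain ⟨hb0, hbe⟩ := hK.β_exact q hq
      have hqT := hK.not_inT hq
      obtain ⟨P, hP⟩ := D.exists_above q
      subst hP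
      have hcb : dvElt l₀ P + dvElt l₀ (D.conjP P) = -(p.J P + p.J (D.conjP P)) := by
        have hne : ∀ Q, D.below Q = D.below P → (extDv (idealDv 𝔮) + D.fM : Dv D.M) Q ≠ 0 := by
          intro Q hQ
          rw [Finsupp.add_apply, extDv_apply, D.fM_of_not (hQ.symm ▸ hqT), add_zero,
            D.ram_eq_one (hQ.symm ▸ hqT), one_mul, hQ]
          exact hq.ne'
        rw [hexact P (hne P rfl), hexact (D.conjP P) (hne _ (D.below_conjP P))]
        ring
      have hN : dvElt (D.nrm l₀) (D.below P) =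
          -(dvElt (p.lam : F) (D.below P) + A (D.below P) + D.dD (D.below P)) := by
        have h1 := DFunLike.congr_fun (D.extDv_dvElt_nrm hl₀) P
        rw [extDv_apply, D.ram_eq_one hqT, one_mul, Finsupp.add_apply, conjDv_apply, hcb,
          p.conj_eq hqT] at h1
        exact h1
      have hn0 : D.nrm l₀ ≠ 0 := D.nrm_eq_zero.not.2 hl₀
      have hne : β * (p.lam : F) * D.nrm l₀ ≠ 0 := mul_ne_zero (mul_ne_zero hb0 hlam0) hn0
      refine ⟨mul_ne_zero (neg_ne_zero.2 hne) hthree, ?_⟩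
      have h3 : dvElt ((-3 : F)⁻¹) (D.below P) = 0 := by
        rw [dvElt_inv (by norm_num), dvElt_neg, D.dvElt_three]
        simp [D.fT_of_not hqT]
      simp only [c₁]
      rw [dvElt_mul (neg_ne_zero.2 hne) hthree, dvElt_neg, dvElt_mul (mul_ne_zero hb0 hlam0) hn0,
        dvElt_mul hb0 hlam0, Finsupp.add_apply, Finsupp.add_apply, Finsupp.add_apply, hbe, hN, h3]
      omega
    · simpa [c₁] using (((hK.β_T i).mul (hlamI i)).mul (D.ordGe_nrm_T (hl0T i))).neg.mul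
        (D.ordGe_inv_three i)
    · refine ((D.ordGe_algebraMap ((hlamQ (D.below P)).mul (D.ordGe_inv_three' hP))).mul
        ((hl0 P).mul (D.ordGe_σ (hv' (D.conjP P))))).mono ?_
      have := p.conj_eq hP
      rw [Finsupp.neg_apply, Finsupp.neg_apply, Finsupp.add_apply, extDv_apply, D.ram_conjP,
        D.below_conjP, D.ram_eq_one hP, Finsupp.sub_apply, one_mul, one_mul]
      omega
    · have h1 : OrdGe (D.below (D.P i)) (-2) ((p.lam : F) * (-3)⁻¹) := by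
        rw [D.below_P]; simpa using (hlamI i).mul (D.ordGe_inv_three i)
      refine ((D.ordGe_algebraMap h1).mul ((hl0T i).mul (hσv i))).mono ?_
      rw [mul_neg, mul_comm]; omega
    · refine (((hK.β'_ord q hq).mul ((hlamQ q).mul (hnv q hq))).neg.mul
        (D.ordGe_inv_three' hq)).mono ?_
      omega
    · simpa [d] using ((hK.β'_T i).mul ((hlamI i).mul (D.ordGe_nrm_T (hvT i)))).neg.mul
        (D.ordGe_inv_three i)
    · obtain ⟨hb0, hbe⟩ := hK.β_exact q hq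
      have hqT := hK.not_inT hq
      have hid : d + D.nrm c₂ / c₁ = -(((p.lam : F) * D.nrm v) * (β * β' + 1) * β⁻¹ * (-3)⁻¹) := by
        simp only [d, c₁, c₂, D.nrm_mul, D.nrm_algebraMap, D.nrm_σ]
        have hn0 : D.nrm l₀ ≠ 0 := D.nrm_eq_zero.not.2 hl₀
        field_simp
      rw [hid]
      have hbi : OrdGe q (idealDv 𝔮 q - A q) β⁻¹ :=
        Or.inr (by rw [dvElt_inv hb0, Finsupp.neg_apply, hbe]; omega)
      refine (((((hlamQ q).mul (hnv q hqT)).mul (hK.congr q hq)).mul hbi).mul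
        (D.ordGe_inv_three' hqT)).neg.mono ?_
      omega
  have hrm : ∀ (x u : 𝓞 D.M) (i : Fin 3), u ∈ D.idealT →
      rmod (D.P i) (l₀ * ((x + u : 𝓞 D.M) : D.M)) = rmod (D.P i) (l₀ * (x : D.M)) := by
    intro x u i hu
    rw [rmod_mul _ (hl0T i) (ordGe_int _), rmod_mul _ (hl0T i) (ordGe_int _), rmod_int, rmod_int,
      map_add, Ideal.Quotient.eq_zero_iff_mem.2 (D.idealT_le i hu), add_zero]
  have hφ : PeriodicMod D.idealT fun x : 𝓞 D.M => D.coefT V (p.lam : F) (l₀ * (x : D.M)) := by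
    intro x u hu
    have hX : ∀ (y : 𝓞 D.M) i, OrdGe (D.P i) 0 (l₀ * (y : D.M)) := fun y i => by
      simpa using (hl0T i).mul (ordGe_int y)
    have hres : D.resT ((p.lam : F) * D.nrm (l₀ * ((x + u : 𝓞 D.M) : D.M))) =
        D.resT ((p.lam : F) * D.nrm (l₀ * (x : D.M))) := by
      funext i
      rw [resT, resT, rmod_mul _ (hlamI i) (D.ordGe_nrm_T (hX _ i)),
        rmod_mul _ (hlamI i) (D.ordGe_nrm_T (hX _ i)), D.rmod_nrm i (hX _ i),
        D.rmod_nrm i (hX _ i), hrm x u i hu]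
    simp only [coefT, χT, hrm x u _ hu, hres]
  have hsummand : ∀ x : 𝓞 D.M, D.hW V β p.lam (l₀ * (x : D.M)) *
      ph ((p.lam : F) * (-3)⁻¹ * D.tra (l₀ * (x : D.M) * D.σ v)) =
      D.coefT V (p.lam : F) (l₀ * (x : D.M)) * ph (D.quadForm c₁ c₂ x) := by
    intro x
    rw [hW, mul_assoc, ← ph_add]
    congr 2
    simp only [quadForm, c₁, c₂]
    rw [mul_assoc (algebraMap F D.M _), D.tra_mul_algebraMap, mul_right_comm l₀ (D.σ v), D.nrm_mul]
    ring
  rw [qsum_congr hsummand, hS.sum_factor _ hφ, D.residual_sum V hl₀ hlam0 hlamT hlT hK.β_T hvT]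
  have hη : D.χT (algebraMap F D.M (p.lam : F)) = D.η A := by
    rw [← D.η_dvElt hlam0 hlamT]
    have h1 := D.η_eq_one_of_norm p.hdv
    rw [D.η_add, D.η_add, D.η_dD, mul_one] at h1
    calc D.η (dvElt (p.lam : F)) = D.η (dvElt (p.lam : F)) * (D.η A * D.η A) := by rw [D.η_sq, mul_one]
      _ = D.η A := by rw [← mul_assoc, h1, one_mul]
  have hξ : D.ξ (D.mapI 𝔮) = D.η (idealDv 𝔮) := by
    rw [η, ← idealDv_map hK.ne_bot, D.ξc_idealDv]
    have h := congrArg (Ideal.map (algebraMap (𝓞 F) (𝓞 D.M))) hK.coprime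
    rwa [Ideal.map_sup, Ideal.map_span, Set.image_singleton, map_ofNat, Ideal.map_top] at h
  have hψ : ∀ i, rmod (D.w i) (-(β * ((p.lam : F) * D.nrm v))) =
      -(rmod (D.w i) β * rmod (D.w i) ((p.lam : F) * D.nrm v)) := fun i =>
    rmod_neg_mul (hK.β_T i) (by simpa using (hlamI i).mul (D.ordGe_nrm_T (hvT i)))
  rw [hη, hξ]
  simp only [hW, coefT, Vtw, resT, hψ, d]
  ring

/-- The transformation of the lattice sum of a class. -/
theorem class_poisson (hK : D.KeyHyp A 𝔮 β β') (p : D.Pair A) (V : (∀ i, D.kT i) → ℂ)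
    (z : InfinitePlace F → ℂ) {t s : InfinitePlace F → ℝ} (ht : ∀ w, 0 < t w) (hs : ∀ w, 0 < s w) :
    D.latSum (-p.J) (fun x => D.hW V β p.lam x *
        gaussV (lW ((p.lam : F) * (-3)⁻¹)) z t s (D.vec x)) =
      D.η A * D.η (idealDv 𝔮) *
        ((ndeg A / ndeg (idealDv 𝔮) * ∏ w, (Complex.normSq (z w) + t w ^ 2)⁻¹ : ℝ) : ℂ) *
        D.latSum (-(p.J + extDv (idealDv 𝔮 - A))) (fun x => D.hW (D.Vtw β V) β' p.lam x *
          gaussV (lW ((p.lam : F) * (-3)⁻¹)) (zInv z t) (tInv z t) s (D.vec x)) := by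
  classical
  set l : F := (p.lam : F) * (-3)⁻¹
  have hl : l ≠ 0 := mul_ne_zero p.lam.ne_zero (inv_ne_zero (by norm_num))
  set I := D.mapI 𝔮 * D.idealT
  have hI : I ≠ ⊥ := mul_ne_zero (map_ne_bot_ext hK.ne_bot) D.idealT_ne
  have hIdv : idealDv I = extDv (idealDv 𝔮) + D.fM := D.idealDv_mapI_mul hK.ne_bot
  obtain ⟨l₀, hl₀, hmem, hex⟩ := D.exists_gen (-p.J) (extDv (idealDv 𝔮) + D.fM).support
    ⟨D.P 0, Finsupp.mem_support_iff.2 (by rw [Finsupp.add_apply, extDv_apply, D.below_P, hK.q_T, fM_P]; simp)⟩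
  have hexact : ∀ P, (extDv (idealDv 𝔮) + D.fM : Dv D.M) P ≠ 0 → dvElt l₀ P = -p.J P :=
    fun P hP => by rw [hex P (Finsupp.mem_support_iff.2 hP), Finsupp.neg_apply]
  have := finite_quot hI
  have := Fintype.ofFinite (𝓞 D.M ⧸ I)
  obtain ⟨e, he⟩ : ∃ e : (𝓞 D.M ⧸ I) × D.Lat (-p.J + idealDv I) ≃ D.Lat (-p.J),
      ∀ c u, (e (c, u) : D.M) = l₀ * ((qrep I c : 𝓞 D.M) : D.M) + (u : D.M) :=
    ⟨Equiv.ofBijective _ (D.split_bijective (E := -p.J) hI hl₀ hmem
      (fun P hP => by rw [hexact P (hIdv ▸ hP), Finsupp.neg_apply])), fun _ _ => rfl⟩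
  set g : D.M → ℂ := fun x => gaussV (lW l) z t s (D.vec x)
  set g' : D.M → ℂ := fun x => gaussV (lW l) (zInv z t) (tInv z t) s (D.vec x)
  have hbd : ∀ (W : (∀ i, D.kT i) → ℂ) (b : F) (x : D.M), ‖D.hW W b p.lam x‖ ≤ ∑ c, ‖W c‖ :=
    fun W b x => norm_hW_le W b p.lam x
  have hsum : Summable fun x : D.Lat (-p.J) => D.hW V β p.lam x * g x := by
    refine Summable.of_norm (((D.summable_gauss_lattice (-p.J) hl 0 z ht hs).mul_left
      (∑ c, ‖V c‖)).of_nonneg_of_le (fun _ => norm_nonneg _) fun x => ?_)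
    rw [norm_mul, zero_add]
    exact mul_le_mul_of_nonneg_right (hbd V β x) (norm_nonneg _)
  have hval : ∀ (c : 𝓞 D.M ⧸ I) (u : D.Lat (-p.J + idealDv I)),
      D.hW V β p.lam (e (c, u) : D.M) =
        D.hW V β p.lam (l₀ * ((qrep I c : 𝓞 D.M) : D.M)) := by
    intro c u
    rw [he]
    refine hW_periodic hK p V (mem_fid_iff_ordGe.2 fun P => ?_) (hIdv ▸ u.2)
    simpa using (mem_fid_iff_ordGe.1 hmem P).mul (ordGe_int (v := P) (qrep I c))
  have h1 : D.latSum (-p.J) (fun x => D.hW V β p.lam x * g x) =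
      ∑ c : 𝓞 D.M ⧸ I, D.hW V β p.lam (l₀ * ((qrep I c : 𝓞 D.M) : D.M)) *
        D.latSum (-p.J + idealDv I)
          (fun u => gaussV (lW l) z t s (D.vec (l₀ * ((qrep I c : 𝓞 D.M) : D.M) + u))) := by
    have hs' : Summable fun cu : (𝓞 D.M ⧸ I) × D.Lat (-p.J + idealDv I) =>
        D.hW V β p.lam (e cu : D.M) * g (e cu : D.M) :=
      (e.summable_iff (f := fun x : D.Lat (-p.J) => D.hW V β p.lam x * g x)).2 hsum
    have he1 : D.latSum (-p.J) (fun x => D.hW V β p.lam x * g x) =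
        ∑' cu : (𝓞 D.M ⧸ I) × D.Lat (-p.J + idealDv I),
          D.hW V β p.lam (e cu : D.M) * g (e cu : D.M) :=
      (e.tsum_eq (fun x : D.Lat (-p.J) => D.hW V β p.lam x * g x)).symm
    rw [he1, hs'.tsum_prod, tsum_fintype]
    unfold latSum
    refine Finset.sum_congr rfl fun c _ => ?_
    rw [← tsum_mul_left]
    refine tsum_congr fun u => ?_
    rw [hval, he]
  rw [h1]
  simp only [D.lattice_poisson _ hl _ z ht hs]
  rw [hIdv, dual_eq hK p, covol_eq hK p]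
  set E' := -(p.J + extDv (idealDv 𝔮 - A))
  set K : ℂ := (((9 * ndeg (idealDv 𝔮) ^ 2 / ndeg A)⁻¹ *
    ∏ w, (Complex.normSq (z w) + t w ^ 2)⁻¹ : ℝ) : ℂ)
  have hph : ∀ (r : D.M), Summable fun v : D.Lat E' =>
      ph (l * D.tra (r * D.σ (v : D.M))) * g' (v : D.M) := fun r => by
    refine Summable.of_norm (((D.summable_gauss_lattice E' hl 0 (zInv z t) (tInv_pos z ht) hs)).congr
      fun v => ?_)
    rw [norm_mul, norm_ph, one_mul, zero_add]
  have h2 : ∑ c : 𝓞 D.M ⧸ I, D.hW V β p.lam (l₀ * ((qrep I c : 𝓞 D.M) : D.M)) *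
      (K * D.latSum E' (fun v => ph (l * D.tra (l₀ * ((qrep I c : 𝓞 D.M) : D.M) * D.σ v)) * g' v)) =
      K * ∑' v : D.Lat E',
        qsum I (fun x => D.hW V β p.lam (l₀ * (x : D.M)) *
          ph (l * D.tra (l₀ * (x : D.M) * D.σ (v : D.M)))) * g' (v : D.M) := by
    have h3 : ∀ c : 𝓞 D.M ⧸ I, D.hW V β p.lam (l₀ * ((qrep I c : 𝓞 D.M) : D.M)) *
        (K * D.latSum E' (fun v => ph (l * D.tra (l₀ * ((qrep I c : 𝓞 D.M) : D.M) * D.σ v)) * g' v)) =
        K * ∑' v : D.Lat E', D.hW V β p.lam (l₀ * ((qrep I c : 𝓞 D.M) : D.M)) *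
          ph (l * D.tra (l₀ * ((qrep I c : 𝓞 D.M) : D.M) * D.σ (v : D.M))) * g' (v : D.M) := by
      intro c
      rw [latSum, mul_left_comm, ← tsum_mul_left]
      exact congrArg _ (tsum_congr fun v => (mul_assoc _ _ _).symm)
    rw [Finset.sum_congr rfl fun c _ => h3 c, ← Finset.mul_sum,
      ← Summable.tsum_finsetSum fun c _ => ((hph _).mul_left _).congr fun v => (mul_assoc _ _ _).symm]
    refine congrArg _ (tsum_congr fun v => ?_)
    rw [qsum_eq_sum, Finset.sum_mul]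
  refine h2.trans ?_
  rw [tsum_congr fun v : D.Lat E' => by
    rw [finite_sum_eq hK p V hl₀ hmem hexact v.2, mul_assoc]]
  rw [tsum_mul_left, latSum, ← mul_assoc]
  congr 1
  simp only [K]
  have hN : (Ideal.absNorm 𝔮 : ℂ) = ((ndeg (idealDv 𝔮) : ℝ) : ℂ) := by
    rw [ndeg_idealDv hK.ne_bot]; simp
  rw [hN]
  have hA := (ndeg_pos A).ne'
  have hq := (ndeg_pos (idealDv 𝔮)).ne'
  push_cast
  field_simp

end FermatAgent.LT.Dihedral.DihedralData
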