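import Fermat.Agent.LT.Dihedral.Eta
import Mathlib.Algebra.Group.AddChar

/-!
# Phases of rational traces, and the residual characters at the places over `3`
-/

set_option autoImplicit false
set_option maxHeartbeats 400000

noncomputable section

open NumberField IsDedekindDomain Finset
open scoped nonZeroDivisors

namespace FermatAgent.LT.Dihedral

/-- The phase `exp (2π i tr x)`. -/
def ph {K : Type*} [Field K] [NumberField K] (x : K) : ℂ :=
  Complex.exp (2 * Real.pi * Complex.I * ((Algebra.trace ℚ K x : ℚ) : ℂ))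

section

variable {K : Type*} [Field K] [NumberField K]

lemma ph_add (x y : K) : ph (x + y) = ph x * ph y := by
  simp only [ph, map_add, Rat.cast_add, mul_add, Complex.exp_add]

lemma ph_zero : ph (0 : K) = 1 := by simp [ph]

lemma ph_eq_one_iff (x : K) : ph x = 1 ↔ ∃ n : ℤ, Algebra.trace ℚ K x = n := by
  rw [ph, Complex.exp_eq_one_iff]
  refine exists_congr fun n => ⟨fun h => ?_, fun h => ?_⟩
  · have h' : ((Algebra.trace ℚ K x : ℚ) : ℂ) = ((n : ℚ) : ℂ) := by
      refine mul_left_cancel₀ Complex.two_pi_I_ne_zero (h.trans ?_)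
      push_cast; ring
    exact Rat.cast_injective h'
  · rw [h]; push_cast; ring

end

namespace DihedralData

open QuadData

variable {F : Type} [Field F] [NumberField F] (D : DihedralData F)

lemma diff_apply (P : HeightOneSpectrum (𝓞 D.M)) :
    diffDv D.M P = D.ram P * (2 * D.fT (D.below P) + D.dD (D.below P)) - D.fM P := by
  have h := DFunLike.congr_fun D.diffDv_eq P
  rw [Finsupp.add_apply, extDv_apply, Finsupp.add_apply, Finsupp.smul_apply, nsmul_eq_mul,
    Nat.cast_ofNat] at h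
  linarith

lemma diff_P (i : Fin 3) : diffDv D.M (D.P i) = 2 * D.ram (D.P i) - 1 := by
  rw [diff_apply, D.below_P, fT_w, dD_w, fM_P]
  ring

lemma diff_not {P : HeightOneSpectrum (𝓞 D.M)} (h : ¬ D.InT (D.below P)) :
    diffDv D.M P = D.dD (D.below P) := by
  rw [diff_apply, D.fT_of_not h, D.fM_of_not h, D.ram_eq_one h]
  ring

/-- Elements with integral trace. -/
def Small (x : F) : Prop :=
  (∀ q, ¬ D.InT q → OrdGe q (-D.dD q) x) ∧ ∀ i, OrdGe (D.w i) (-1) x

lemma Small.trace_int {x : F} (h : D.Small x) : ∃ n : ℤ, Algebra.trace ℚ F x = n := by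
  have hmem : ∀ a : 𝓞 D.M, ∃ n : ℤ, Algebra.trace ℚ F (x * D.tra (a : D.M)) = n := by
    intro a
    have h1 : algebraMap F D.M x ∈ (fid (-(0 : Dv D.M) - diffDv D.M) :
        FractionalIdeal (𝓞 D.M)⁰ D.M) := by
      refine mem_fid_iff_ordGe.2 fun P => ?_
      rw [neg_zero, zero_sub, Finsupp.neg_apply]
      by_cases hT : D.InT (D.below P)
      · obtain ⟨i, hi⟩ := hT
        refine (D.ordGe_algebraMap (hi ▸ h.2 i)).mono ?_
        rw [D.eq_P_of_below hi, D.diff_P]
        have := D.one_le_ram (D.P i)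
        omega
      · refine (D.ordGe_algebraMap (h.1 _ hT)).mono ?_
        rw [D.diff_not hT, D.ram_eq_one hT, one_mul]
    obtain ⟨n, hn⟩ := mem_fid_dual.1 h1 (a : D.M)
      (mem_fid_iff_ordGe.2 fun P => by simpa using ordGe_int a)
    exact ⟨n, by rw [← hn, trace_rat, tra_mul_algebraMap]⟩
  let I : Ideal (𝓞 F) :=
    { carrier := {c | ∀ b : 𝓞 F, ∃ n : ℤ, Algebra.trace ℚ F (x * ((b * c : 𝓞 F) : F)) = n}
      zero_mem' := fun b => ⟨0, by simp⟩
      add_mem' := fun {c d} hc hd b => by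
        obtain ⟨m, hm⟩ := hc b
        obtain ⟨n, hn⟩ := hd b
        exact ⟨m + n, by rw [mul_add, coeO_add, mul_add, map_add, hm, hn, Int.cast_add]⟩
      smul_mem' := fun e c hc b => by
        obtain ⟨m, hm⟩ := hc (b * e)
        exact ⟨m, by rw [smul_eq_mul, ← mul_assoc]; exact hm⟩ }
  have hI : ∀ a, D.traO a ∈ I := by
    intro a b
    obtain ⟨n, hn⟩ := hmem (algebraMap (𝓞 F) (𝓞 D.M) b * a)
    refine ⟨n, ?_⟩
    rw [coeO_mul, coe_traO, ← hn]
    congr 2
    exact (D.tra_mul_algebraMap (b : F) (a : D.M)).symm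
  have htop : I = ⊤ := by
    by_contra hne
    obtain ⟨m, hm, hle⟩ := Ideal.exists_le_maximal _ hne
    have h2 : (2 : 𝓞 F) ∈ m := by
      have := hle (hI 1)
      rwa [show D.traO 1 = 2 from RingOfIntegers.ext (by
        rw [coe_traO]
        have h1 : ((1 : 𝓞 D.M) : D.M) = algebraMap F D.M 1 := by rw [map_one]; rfl
        rw [h1, tra_algebraMap, mul_one]
        exact (map_ofNat _ 2).symm)] at this
    let q : HeightOneSpectrum (𝓞 F) := ⟨m, hm.isPrime, fun h0 => by
      have h2' : (2 : 𝓞 F) = 0 := Ideal.mem_bot.1 (h0 ▸ h2)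
      exact two_ne_zero h2'⟩
    have hq : ¬ D.InT q := by
      rintro ⟨i, hi⟩
      have h3 := D.three_mem_w i
      rw [← hi] at h3
      have h1 : (1 : 𝓞 F) ∈ q.asIdeal := by
        have := sub_mem h3 (show (2 : 𝓞 F) ∈ q.asIdeal from h2)
        norm_num at this
        exact this
      exact q.isPrime.ne_top ((Ideal.eq_top_iff_one _).2 h1)
    obtain ⟨w, hw⟩ := D.exists_tra_eq_one hq (x := 1) (fun h1 =>
      q.isPrime.ne_top ((Ideal.eq_top_iff_one _).2
        (D.mem_of_algebraMap_mem q.ne_bot (by rw [map_one]; exact h1))))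
    rw [one_mul] at hw
    exact q.isPrime.ne_top ((Ideal.eq_top_iff_one _).2 (by
      simpa using sub_mem (show D.traO w ∈ q.asIdeal from hle (hI w)) hw))
  have h1 : (1 : 𝓞 F) ∈ I := htop ▸ Submodule.mem_top
  obtain ⟨n, hn⟩ := h1 1
  exact ⟨n, by rw [← hn, one_mul]; simp⟩

lemma Small.ph_eq {x : F} (h : D.Small x) : ph x = 1 := (ph_eq_one_iff x).2 h.trace_int

lemma ph_congr {x y : F} (h : D.Small (x - y)) : ph x = ph y := by
  rw [← sub_add_cancel x y, ph_add, h.ph_eq, one_mul]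

/-- An element of `F` orthogonal to the ring of integers of `M`. -/
lemma ordGe_of_trivial {x : F} (A : Dv D.M)
    (h : ∀ y : D.M, (∀ P, OrdGe P (A P) y) → ph (x * D.tra y) = 1) (P : HeightOneSpectrum (𝓞 D.M)) :
    OrdGe P (-A P - diffDv D.M P) (algebraMap F D.M x) := by
  have h1 : algebraMap F D.M x ∈ (fid (-A - diffDv D.M) : FractionalIdeal (𝓞 D.M)⁰ D.M) := by
    refine mem_fid_dual.2 fun y hy => ?_
    rw [trace_rat, tra_mul_algebraMap, ← ph_eq_one_iff]
    exact h y (mem_fid_iff_ordGe.1 hy)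
  simpa using mem_fid_iff_ordGe.1 h1 P

lemma exists_idem (i : Fin 3) : ∃ e : 𝓞 F, ∀ j,
    OrdGe (D.w j) 1 ((e : F) - if j = i then 1 else 0) := by
  classical
  obtain ⟨e, he⟩ := exists_crt (Finset.univ.image D.w) (fun _ => 1)
    (fun v => if v = D.w i then 1 else 0)
  refine ⟨e, fun j => ?_⟩
  have := he (D.w j) (Finset.mem_image_of_mem _ (Finset.mem_univ j))
  simp only [D.w_injective.eq_iff, Nat.cast_one] at this
  split_ifs with h
  · simpa [h] using this
  · simpa [h, coeO_zero] using this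

/-- The idempotent at `w i`. -/
def idem (i : Fin 3) : 𝓞 F := (D.exists_idem i).choose

lemma idem_spec (i j : Fin 3) : OrdGe (D.w j) 1 ((D.idem i : F) - if j = i then 1 else 0) :=
  (D.exists_idem i).choose_spec j

lemma ordGe_inv_three (i : Fin 3) : OrdGe (D.w i) (-2) ((-3 : F)⁻¹) := by
  refine Or.inr ?_
  rw [dvElt_inv (by norm_num), dvElt_neg, D.dvElt_three]
  simp [fT_w]

lemma ordGe_inv_three' {q : HeightOneSpectrum (𝓞 F)} (h : ¬ D.InT q) :
    OrdGe q 0 ((-3 : F)⁻¹) := by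
  refine Or.inr ?_
  rw [dvElt_inv (by norm_num), dvElt_neg, D.dvElt_three]
  simp [D.fT_of_not h]

lemma small_third {a : F} (h0 : ∀ q, ¬ D.InT q → OrdGe q (-D.dD q) a)
    (h1 : ∀ i, OrdGe (D.w i) 1 a) : D.Small (a * (-3)⁻¹) := by
  refine ⟨fun q hq => ?_, fun i => ?_⟩
  · simpa using (h0 q hq).mul (D.ordGe_inv_three' hq)
  · simpa using (h1 i).mul (D.ordGe_inv_three i)

lemma dD_nonneg (q : HeightOneSpectrum (𝓞 F)) : 0 ≤ D.dD q := idealDv_nonneg D.D' q

lemma small_third_int {a : 𝓞 F} (h : ∀ i, a ∈ (D.w i).asIdeal) :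
    D.Small ((a : F) * (-3)⁻¹) :=
  D.small_third (fun q _ => (ordGe_int a).mono (by have := D.dD_nonneg q; omega))
    fun i => ordGe_one_iff.2 (h i)

/-- The additive character of `O_F` attached to the place `w i`. -/
def psiO (i : Fin 3) : AddChar (𝓞 F) ℂ where
  toFun a := ph ((D.idem i : F) * (a : F) * (-3)⁻¹)
  map_zero_eq_one' := by simp [coeO_zero, ph_zero]
  map_add_eq_mul' a b := by rw [coeO_add, mul_add, add_mul, ph_add]

lemma psiO_apply (i : Fin 3) (a : 𝓞 F) :
    D.psiO i a = ph ((D.idem i : F) * (a : F) * (-3)⁻¹) := rfl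

lemma idem_mul_mem {i : Fin 3} {a : 𝓞 F} (h : a ∈ (D.w i).asIdeal) (j : Fin 3) :
    D.idem i * a ∈ (D.w j).asIdeal := by
  by_cases hj : j = i
  · subst hj; exact Ideal.mul_mem_left _ _ h
  · refine Ideal.mul_mem_right _ _ (ordGe_one_iff.1 ?_)
    have := D.idem_spec i j
    rwa [if_neg hj, sub_zero] at this

lemma psiO_periodic (i : Fin 3) : PeriodicMod (D.w i).asIdeal fun a => D.psiO i a := by
  intro a u hu
  simp only [AddChar.map_add_eq_mul]
  rw [D.psiO_apply i u, ← coeO_mul, (D.small_third_int (D.idem_mul_mem hu)).ph_eq, mul_one]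

/-- The character of the residue field at `w i`. -/
def psiT (i : Fin 3) : AddChar (𝓞 F ⧸ (D.w i).asIdeal) ℂ where
  toFun c := D.psiO i (qrep _ c)
  map_zero_eq_one' := by
    rw [(D.psiO_periodic i).eq_of_mk (x := qrep _ 0) (y := 0) (by simp), AddChar.map_zero_eq_one]
  map_add_eq_mul' a b := by
    rw [← AddChar.map_add_eq_mul]
    exact (D.psiO_periodic i).eq_of_mk (by simp)

lemma psiT_mk (i : Fin 3) (a : 𝓞 F) : D.psiT i (Ideal.Quotient.mk _ a) = D.psiO i a :=
  (D.psiO_periodic i).qrep_mk a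

lemma psiT_ne_one (i : Fin 3) : D.psiT i ≠ 1 := by
  intro h
  have hO : ∀ a, D.psiO i a = 1 := fun a => by rw [← D.psiT_mk i a, h, AddChar.one_apply]
  have hx := D.ordGe_of_trivial (x := (D.idem i : F) * (-3)⁻¹) 0 (fun y hy => by
    obtain ⟨a, rfl⟩ := exists_int_of_nonneg (mem_fid.1 (mem_fid_iff_ordGe.2 hy))
    rw [← coe_traO, mul_right_comm]
    exact hO _) (D.P i)
  have he : dvElt (D.idem i : F) (D.w i) = 0 := by
    have h1 : D.idem i ∉ (D.w i).asIdeal := fun hm => by
      have := D.idem_spec i i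
      rw [if_pos rfl] at this
      have h2 : OrdGe (D.w i) 1 ((1 : 𝓞 F) : F) := by
        have := (ordGe_one_iff.2 hm).sub this
        simpa using this
      exact (D.w i).isPrime.ne_top ((Ideal.eq_top_iff_one _).2 (ordGe_one_iff.1 h2))
    have hne : D.idem i ≠ 0 := fun h => h1 (h ▸ zero_mem _)
    have := mt (mem_prime_iff (D.w i) hne).2 h1
    have := dvElt_coe_nonneg (D.idem i) (D.w i)
    rw [Finsupp.zero_apply] at this
    omega
  have hne : (D.idem i : F) ≠ 0 := fun h0 => by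
    have := D.idem_spec i i
    rw [h0, if_pos rfl, zero_sub] at this
    have := this.neg
    rw [neg_neg] at this
    have h' := this.resolve_left one_ne_zero
    rw [dvElt_one, Finsupp.zero_apply] at h'
    omega
  have h3 : ((-3 : F)⁻¹) ≠ 0 := inv_ne_zero (by norm_num)
  have h' := hx.resolve_left ((map_ne_zero _).2 (mul_ne_zero hne h3))
  rw [dvElt_algebraMap (mul_ne_zero hne h3), extDv_apply, D.below_P, Finsupp.zero_apply, D.diff_P,
    dvElt_mul hne h3, Finsupp.add_apply, he, dvElt_inv (by norm_num), dvElt_neg, D.dvElt_three,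
    Finsupp.neg_apply, Finsupp.smul_apply, D.fT_w] at h'
  have := D.one_le_ram (D.P i)
  simp at h'
  omega

include D in
lemma finrank_eq_six : Module.finrank ℚ F = 6 := by
  have h := congrArg Ideal.absNorm D.three_eq
  rw [map_prod] at h
  simp only [map_pow, D.absNorm_w, Finset.prod_const, Finset.card_univ, Fintype.card_fin,
    Ideal.absNorm_span_singleton] at h
  rw [show (3 : 𝓞 F) = algebraMap ℤ (𝓞 F) 3 by rw [map_ofNat],
    Algebra.norm_algebraMap, RingOfIntegers.rank, Int.natAbs_pow,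
    ← pow_mul] at h
  exact Nat.pow_right_injective (le_refl 2 |>.trans (by norm_num : 2 ≤ 3)) h

lemma psiO_natCast_eq (i j : Fin 3) (n : ℕ) : D.psiO i n = D.psiO j n := by
  have h3 : ∀ k, D.psiO k 1 ^ 3 = 1 := fun k => by
    rw [← AddChar.map_nsmul_eq_pow, nsmul_one, Nat.cast_ofNat, ← zero_add (3 : 𝓞 F)]
    rw [show D.psiO k (0 + 3) = D.psiO k 0 from (D.psiO_periodic k) 0 3 (D.three_mem_w k)]
    exact AddChar.map_zero_eq_one _
  have hne : ∀ k, D.psiO k 1 ≠ 1 := by
    intro k h1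
    refine D.psiT_ne_one k (DFunLike.ext _ _ fun c => ?_)
    have := finite_quot (D.w k).ne_bot
    have := Fintype.ofFinite (𝓞 F ⧸ (D.w k).asIdeal)
    have hcard : Nat.card (𝓞 F ⧸ (D.w k).asIdeal) = 3 := by rw [card_quot, D.absNorm_w]
    have : Fact (Nat.Prime 3) := ⟨Nat.prime_three⟩
    obtain ⟨m, rfl⟩ : ∃ m : ℕ, (m : 𝓞 F ⧸ (D.w k).asIdeal) = c := by
      have h1 : Ideal.Quotient.mk (D.w k).asIdeal 1 ≠ 0 := by
        rw [Ne, Ideal.Quotient.eq_zero_iff_mem]
        exact (Ideal.ne_top_iff_one _).1 (D.w k).isPrime.ne_top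
      obtain ⟨m, hm⟩ := mem_multiples_of_prime_card (p := 3) (g := Ideal.Quotient.mk (D.w k).asIdeal 1)
        (g' := c) hcard h1
      exact ⟨m, by rw [← hm]; simp⟩
    rw [← map_natCast (Ideal.Quotient.mk (D.w k).asIdeal), D.psiT_mk, ← nsmul_one,
      AddChar.map_nsmul_eq_pow, h1, one_pow, AddChar.one_apply]
  have hprod : D.psiO 0 1 * D.psiO 1 1 * D.psiO 2 1 = 1 := by
    simp only [psiO_apply, ← ph_add]
    have hs : D.Small ((((D.idem 0 : F) + D.idem 1 + D.idem 2) - 1) * (-3)⁻¹) := by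
      rw [← coeO_add, ← coeO_add, show (1 : F) = ((1 : 𝓞 F) : F) from (map_one _).symm, ← coeO_sub]
      refine D.small_third_int fun l => ordGe_one_iff.1 ?_
      rw [coeO_sub, coeO_add, coeO_add, show (((1 : 𝓞 F)) : F) = 1 from map_one _]
      have a0 := D.idem_spec 0 l
      have a1 := D.idem_spec 1 l
      have a2 := D.idem_spec 2 l
      have := (a0.add a1).add a2
      fin_cases l <;> (simp at this ⊢; convert this using 1; ring)
    have h6 : ph ((-3 : F)⁻¹) = 1 := by
      rw [ph_eq_one_iff]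
      refine ⟨-2, ?_⟩
      rw [show ((-3 : F)⁻¹) = algebraMap ℚ F ((-3 : ℚ)⁻¹) by simp,
        Algebra.trace_algebraMap, D.finrank_eq_six]
      norm_num
    rw [show ((D.idem 0 : F) * ((1 : 𝓞 F) : F) * (-3)⁻¹ + (D.idem 1 : F) * ((1 : 𝓞 F) : F) * (-3)⁻¹ +
      (D.idem 2 : F) * ((1 : 𝓞 F) : F) * (-3)⁻¹) =
      (((D.idem 0 : F) + D.idem 1 + D.idem 2) - 1) * (-3)⁻¹ + (-3 : F)⁻¹ by
        rw [show (((1 : 𝓞 F)) : F) = 1 from map_one _]; ring,
      ph_add, hs.ph_eq, h6, one_mul]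
  have key : ∀ a b c : ℂ, a ^ 3 = 1 → b ^ 3 = 1 → c ^ 3 = 1 → a ≠ 1 → b ≠ 1 → c ≠ 1 →
      a * b * c = 1 → a = b ∧ b = c := by
    intro a b c ha hb hc na nb nc habc
    have hq : ∀ z : ℂ, z ^ 3 = 1 → z ≠ 1 → z ^ 2 + z + 1 = 0 := fun z hz nz =>
      mul_left_cancel₀ (sub_ne_zero.2 nz) (by linear_combination hz)
    have two : ∀ x y : ℂ, x ^ 3 = 1 → x ≠ 1 → y ^ 3 = 1 → y ≠ 1 → x = y ∨ x * y = 1 := by
      intro x y hx nx hy ny
      rcases mul_eq_zero.1 (show (x - y) * (x + y + 1) = 0 by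
        linear_combination (hq x hx nx) - (hq y hy ny)) with h | h
      · exact Or.inl (sub_eq_zero.1 h)
      · exact Or.inr (by
          have : y = -x - 1 := by linear_combination h
          rw [this]
          linear_combination -(hq x hx nx))
    rcases two a b ha na hb nb with rfl | h
    · refine ⟨rfl, ?_⟩
      rcases two a c ha na hc nc with h | h
      · exact h
      · exact absurd (show a = 1 by linear_combination habc - a * h) na
    · exact absurd (show c = 1 by linear_combination habc - c * h) nc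
  obtain ⟨e1, e2⟩ := key _ _ _ (h3 0) (h3 1) (h3 2) (hne 0) (hne 1) (hne 2) hprod
  rw [← nsmul_one, AddChar.map_nsmul_eq_pow, AddChar.map_nsmul_eq_pow]
  congr 1
  fin_cases i <;> fin_cases j <;> simp [e1, e2]

/-- Phases of elements integral away from `3` factor through the residue fields. -/
lemma ph_eq_prod {y : F} {E : 𝓞 F} (hE : ∀ i, OrdGe (D.w i) 1 ((E : F) - 1))
    (h0 : ∀ q, ¬ D.InT q → OrdGe q (-D.dD q) ((E : F) * y))
    (hT : ∀ i, OrdGe (D.w i) 0 (-3 * y)) :
    ph ((E : F) * y) = ∏ i, D.psiT i (rmod (D.w i) (-3 * y)) := by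
  classical
  obtain ⟨a, ha⟩ := exists_int_congr (Finset.univ.image D.w) (fun _ => 1) (x := -3 * y)
    (fun v hv => by
      simp only [Finset.mem_image, Finset.mem_univ, true_and] at hv
      obtain ⟨i, rfl⟩ := hv
      exact hT i)
  have ha' : ∀ i, OrdGe (D.w i) 1 (-3 * y - (a : F)) := fun i => by
    simpa using ha (D.w i) (Finset.mem_image_of_mem _ (Finset.mem_univ i))
  have h1 : ph ((E : F) * y) = ph ((a : F) * (-3)⁻¹) := by
    refine D.ph_congr ?_
    rw [show (E : F) * y - (a : F) * (-3)⁻¹ = ((E : F) * (-3 * y) - a) * (-3)⁻¹ by ring]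
    refine D.small_third (fun q hq => ?_) fun i => ?_
    · refine OrdGe.sub ?_ ((ordGe_int a).mono (by have := D.dD_nonneg q; omega))
      rw [show (E : F) * (-3 * y) = ((-3 : ℤ) : 𝓞 F) * ((E : F) * y) by
        rw [show ((((-3 : ℤ) : 𝓞 F)) : F) = -3 by
          rw [Int.cast_neg, Int.cast_ofNat]; exact (map_neg _ _).trans (congrArg Neg.neg (map_ofNat _ 3))]; ring]
      simpa using (ordGe_int ((-3 : ℤ) : 𝓞 F)).mul (h0 q hq)
    · rw [show (E : F) * (-3 * y) - a = ((E : F) - 1) * (-3 * y) + (-3 * y - a) by ring]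
      exact ((hE i).mul (hT i)).add (ha' i) |>.mono (by norm_num)
  have h2 : ∀ i, D.psiT i (rmod (D.w i) (-3 * y)) = D.psiO i a := fun i => by
    rw [rmod_eq (D.w i) (hT i) (ha' i), D.psiT_mk]
  rw [h1, Fin.prod_univ_three, h2, h2, h2, psiO_apply, psiO_apply, psiO_apply, ← ph_add, ← ph_add]
  refine D.ph_congr ?_
  rw [show (a : F) * (-3)⁻¹ - ((D.idem 0 : F) * a * (-3)⁻¹ + (D.idem 1 : F) * a * (-3)⁻¹ +
    (D.idem 2 : F) * a * (-3)⁻¹) =
    ((1 - ((D.idem 0 : F) + D.idem 1 + D.idem 2)) * a) * (-3)⁻¹ by ring,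
    show (1 : F) = ((1 : 𝓞 F) : F) from (map_one _).symm, ← coeO_add, ← coeO_add, ← coeO_sub,
    ← coeO_mul]
  refine D.small_third_int fun l => Ideal.mul_mem_right _ _ (ordGe_one_iff.1 ?_)
  rw [coeO_sub, coeO_add, coeO_add, show (((1 : 𝓞 F)) : F) = 1 from map_one _]
  have := ((D.idem_spec 0 l).add (D.idem_spec 1 l)).add (D.idem_spec 2 l) |>.neg
  fin_cases l <;> (simp at this ⊢; convert this using 1; ring)

end DihedralData

end FermatAgent.LT.Dihedral
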