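import Fermat.Agent.LT.Dihedral.PairPoisson
import Fermat.Agent.LT.Dihedral.Trace
import Mathlib.NumberTheory.NumberField.Discriminant.Different
import Mathlib.NumberTheory.NumberField.InfinitePlace.Basic
import Mathlib.RingTheory.Norm.Transitivity

/-!
# Poisson summation over a fractional ideal of `M` for the trace form twisted by `l`
-/

set_option autoImplicit false
set_option maxHeartbeats 400000

noncomputable section

open NumberField IsDedekindDomain Matrix
open scoped nonZeroDivisors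

namespace FermatAgent.LT.Dihedral

section Trace

variable {K : Type*} [Field K] [NumberField K]

/-- The rational trace of a totally complex field through its places. -/
lemma trace_eq_sum_places (hc : ∀ w : InfinitePlace K, w.IsComplex) (x : K) :
    ((Algebra.trace ℚ K x : ℚ) : ℝ) = ∑ w : InfinitePlace K, 2 * (w.embedding x).re := by
  classical
  have h := trace_eq_sum_embeddings ℂ (K := ℚ) (L := K) (x := x)
  have h2 : ((Algebra.trace ℚ K x : ℚ) : ℂ) = ∑ φ : K →+* ℂ, φ x := by
    rw [← Fintype.sum_equiv (RingHom.equivRatAlgHom K ℂ).symm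
      (fun σ : K →ₐ[ℚ] ℂ => σ x) (fun φ => φ x) fun σ => rfl, ← h]
    simp
  have h3 := congrArg Complex.re h2
  rw [Complex.ratCast_re, Complex.re_sum] at h3
  rw [h3, ← Finset.sum_fiberwise Finset.univ InfinitePlace.mk]
  refine Finset.sum_congr rfl fun w _ => ?_
  have hcard := InfinitePlace.card_filter_mk_eq w
  rw [InfinitePlace.mult, if_neg (InfinitePlace.not_isReal_iff_isComplex.2 (hc w))] at hcard
  rw [Finset.sum_congr rfl (g := fun _ => (w.embedding x).re) fun φ hφ => ?_, Finset.sum_const,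
    hcard, nsmul_eq_mul]
  · norm_num
  · rw [Finset.mem_filter] at hφ
    rcases InfinitePlace.mk_eq_iff.1 (hφ.2.trans w.mk_embedding.symm) with h | h
    · rw [h]
    · rw [← h, ComplexEmbedding.conjugate_coe_eq, Complex.conj_re]

end Trace

namespace QuadData

variable {F : Type} [Field F] [NumberField F] (D : QuadData F)

lemma exists_emb (w : InfinitePlace F) :
    ∃ φ : D.M →+* ℂ, ∀ a : F, φ (algebraMap F D.M a) = w.embedding a := by
  let := w.embedding.toAlgebra
  exact ⟨(IsAlgClosed.lift : D.M →ₐ[F] ℂ).toRingHom, fun a => AlgHom.commutes _ a⟩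

/-- The chosen embedding of `M` over a place. -/
def emb (w : InfinitePlace F) : D.M →+* ℂ := (D.exists_emb w).choose

lemma emb_algebraMap (w : InfinitePlace F) (a : F) :
    D.emb w (algebraMap F D.M a) = w.embedding a :=
  (D.exists_emb w).choose_spec a

/-- An element of `M` in the space of pairs. -/
def vec : D.M →+ PairSpace (InfinitePlace F) where
  toFun x w := (D.emb w x, D.emb w (D.σ x))
  map_zero' := by funext w; simp
  map_add' x y := by funext w; simp

lemma vec_fst (x : D.M) (w : InfinitePlace F) : (D.vec x w).1 = D.emb w x := rfl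

lemma vec_snd (x : D.M) (w : InfinitePlace F) : (D.vec x w).2 = D.emb w (D.σ x) := rfl

lemma emb_nrm (w : InfinitePlace F) (x : D.M) :
    (D.vec x w).1 * (D.vec x w).2 = w.embedding (D.nrm x) := by
  rw [vec_fst, vec_snd, ← map_mul, ← algebraMap_nrm, emb_algebraMap]

/-- The archimedean components of an element of `F`. -/
def lW (l : F) : InfinitePlace F → ℂ := fun w => w.embedding l

omit [NumberField F] in
lemma lW_ne {l : F} (hl : l ≠ 0) (w : InfinitePlace F) : lW l w ≠ 0 := (map_ne_zero _).2 hl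

lemma pairForm_vec (l : F) (a b : D.M) :
    pairForm (lW l) (D.vec a) (D.vec b) =
      ((Algebra.trace ℚ F (l * D.tra (a * D.σ b)) : ℚ) : ℝ) := by
  rw [trace_eq_sum_places D.totallyComplex, pairForm_apply]
  refine Finset.sum_congr rfl fun w _ => ?_
  congr 2
  rw [vec_fst, vec_fst, vec_snd, vec_snd, lW, map_mul w.embedding, ← D.emb_algebraMap w (D.tra _),
    algebraMap_tra, map_mul D.σ, D.σ_σ, map_add, map_mul, map_mul]

lemma σ_smul (c : ℚ) (x : D.M) : D.σ (c • x) = c • D.σ x := by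
  rw [Rat.smul_def, Rat.smul_def, map_mul, map_ratCast]

lemma σ_mem_fid {X : Dv D.M} {u : D.M} :
    u ∈ (fid (D.conjDv X) : FractionalIdeal (𝓞 D.M)⁰ D.M) ↔
      D.σ u ∈ (fid X : FractionalIdeal (𝓞 D.M)⁰ D.M) := by
  rcases eq_or_ne u 0 with rfl | hu
  · simp [mem_fid]
  rw [mem_fid, mem_fid, or_iff_right hu, or_iff_right ((map_ne_zero _).2 hu), D.dvElt_σ hu]
  constructor
  · intro h P
    have := h (D.conjP P)
    rw [conjDv_apply, D.conjP_conjP] at this
    rwa [conjDv_apply]
  · intro h P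
    have := h (D.conjP P)
    rw [conjDv_apply, D.conjP_conjP] at this
    rwa [conjDv_apply]

variable (l : F) (E : Dv D.M)

/-- A `ℚ`-basis spanning the lattice of `E` over `ℤ`. -/
def lbasis : Module.Basis (Module.Free.ChooseBasisIndex ℤ (fid E : FractionalIdeal (𝓞 D.M)⁰ D.M))
    ℚ D.M := basisOfFractionalIdeal D.M (fid E)

/-- The index type of the lattice basis. -/
abbrev LIdx := Module.Free.ChooseBasisIndex ℤ (fid E : FractionalIdeal (𝓞 D.M)⁰ D.M)

lemma mem_iff_lbasis {x : D.M} :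
    x ∈ (fid E : FractionalIdeal (𝓞 D.M)⁰ D.M) ↔
      ∃ n : D.LIdx E → ℤ, ∑ i, (n i : ℚ) • D.lbasis E i = x := by
  rw [← SetLike.mem_coe, lbasis, ← mem_span_basisOfFractionalIdeal,
    Submodule.mem_span_range_iff_exists_fun]
  refine exists_congr fun n => ?_
  simp only [Int.cast_smul_eq_zsmul]

/-- The parametrisation of the lattice. -/
def latT : (D.LIdx E → ℝ) →ₗ[ℝ] PairSpace (InfinitePlace F) :=
  Fintype.linearCombination ℝ fun i => D.vec (D.lbasis E i)

lemma latT_single (i : D.LIdx E) [DecidableEq (D.LIdx E)] :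
    D.latT E (Pi.single i 1) = D.vec (D.lbasis E i) := by
  rw [latT, Fintype.linearCombination_apply, Finset.sum_eq_single i (fun j _ hj => by simp [hj])
    (by simp)]
  simp

lemma latT_rat (c : D.LIdx E → ℚ) :
    D.latT E (fun i => (c i : ℝ)) = D.vec (∑ i, c i • D.lbasis E i) := by
  rw [latT, Fintype.linearCombination_apply, map_sum]
  refine Finset.sum_congr rfl fun i _ => ?_
  have h : ∀ (φ : D.M →+* ℂ), φ (c i • D.lbasis E i) = (c i : ℂ) * φ (D.lbasis E i) := fun φ => by
    rw [Rat.smul_def, map_mul, map_ratCast]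
  funext w
  refine Prod.ext ?_ ?_
  · show (c i : ℝ) • (D.vec (D.lbasis E i) w).1 = D.emb w _
    rw [vec_fst, h, Complex.real_smul]
    norm_cast
  · show (c i : ℝ) • (D.vec (D.lbasis E i) w).2 = D.emb w (D.σ _)
    rw [vec_snd, Rat.smul_def (c i), map_mul D.σ, map_ratCast D.σ, map_mul, map_ratCast,
      Complex.real_smul]
    norm_cast

lemma latT_int (n : D.LIdx E → ℤ) :
    D.latT E (intVec n) = D.vec (∑ i, (n i : ℚ) • D.lbasis E i) := by
  rw [← latT_rat]
  congr 1

/-- The rational Gram matrix. -/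
def gramQ : Matrix (D.LIdx E) (D.LIdx E) ℚ :=
  Matrix.of fun i j => Algebra.trace ℚ F (l * D.tra (D.lbasis E i * D.σ (D.lbasis E j)))

lemma gramQ_apply (i j : D.LIdx E) :
    D.gramQ l E i j = Algebra.trace ℚ D.M
      (D.lbasis E i * (algebraMap F D.M l * D.σ (D.lbasis E j))) := by
  rw [trace_rat, gramQ, Matrix.of_apply, mul_left_comm, tra_mul_algebraMap]

lemma gram_latT [DecidableEq (D.LIdx E)] :
    gram (lW l) (D.latT E) = (D.gramQ l E).map ((↑) : ℚ → ℝ) := by
  refine Matrix.ext fun i j => ?_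
  rw [gram, Matrix.of_apply, D.latT_single, D.latT_single, D.pairForm_vec]
  rfl

lemma card_LIdx : Fintype.card (D.LIdx E) = 4 * Fintype.card (InfinitePlace F) := by
  classical
  rw [← Module.finrank_eq_card_basis (D.lbasis E), ← Module.finrank_mul_finrank ℚ F D.M,
    D.finrank_eq, ← InfinitePlace.sum_mult_eq]
  simp only [InfinitePlace.mult, InfinitePlace.not_isReal_iff_isComplex.2 (D.totallyComplex _),
    if_false, Finset.sum_const, Finset.card_univ, smul_eq_mul]
  ring

/-- The constant of the Poisson formula. -/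
def covol : ℝ := ndeg E * |((Algebra.norm ℚ l : ℚ) : ℝ)| * Real.sqrt (ndeg (diffDv D.M))

lemma abs_det_σ : |LinearMap.det (D.σ.toLinearMap.restrictScalars ℚ)| = 1 := by
  have h : (D.σ.toLinearMap.restrictScalars ℚ) ∘ₗ (D.σ.toLinearMap.restrictScalars ℚ) =
      LinearMap.id := LinearMap.ext fun x => D.σ_σ x
  have := congrArg LinearMap.det h
  rw [LinearMap.det_comp, LinearMap.det_id] at this
  rcases mul_self_eq_one_iff.1 this with h | h <;> simp [h]

lemma abs_det_gramQ [DecidableEq (D.LIdx E)] :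
    |((D.gramQ l E).det : ℝ)| =
      ndeg E ^ 2 * |((Algebra.norm ℚ l : ℚ) : ℝ)| ^ 2 * ndeg (diffDv D.M) := by
  classical
  set f : D.M →ₗ[ℚ] D.M :=
    (Algebra.lmul ℚ D.M (algebraMap F D.M l)) ∘ₗ (D.σ.toLinearMap.restrictScalars ℚ)
  have hmat : D.gramQ l E = Algebra.traceMatrix ℚ (D.lbasis E) *
      LinearMap.toMatrix (D.lbasis E) (D.lbasis E) f := by
    refine Matrix.ext fun i j => ?_
    rw [gramQ_apply, Matrix.mul_apply]
    have hf : algebraMap F D.M l * D.σ (D.lbasis E j) = f (D.lbasis E j) := rfl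
    rw [hf]
    conv_lhs => rw [← (D.lbasis E).sum_repr (f (D.lbasis E j))]
    rw [Finset.mul_sum, map_sum]
    refine Finset.sum_congr rfl fun k _ => ?_
    rw [mul_smul_comm, map_smul, smul_eq_mul, LinearMap.toMatrix_apply, mul_comm]
    rfl
  have hf : |LinearMap.det f| = |Algebra.norm ℚ l| ^ 2 := by
    rw [LinearMap.det_comp, abs_mul, abs_det_σ, mul_one, ← Algebra.norm_apply,
      ← Algebra.norm_norm (R := ℚ) (S := F), Algebra.norm_algebraMap, D.finrank_eq, map_pow,
      abs_pow]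
  have hdisc : |(Algebra.traceMatrix ℚ (D.lbasis E)).det| =
      (FractionalIdeal.absNorm (fid E : FractionalIdeal (𝓞 D.M)⁰ D.M)) ^ 2 *
        |((NumberField.discr D.M : ℤ) : ℚ)| := by
    have hc : Fintype.card (Module.Free.ChooseBasisIndex ℤ (𝓞 D.M)) = Fintype.card (D.LIdx E) := by
      rw [← Module.finrank_eq_card_basis (integralBasis D.M),
        ← Module.finrank_eq_card_basis (D.lbasis E)]
    let e := Fintype.equivOfCardEq hc
    set b' := (D.lbasis E).reindex e.symm
    have h1 : Algebra.discr ℚ b' = Algebra.discr ℚ (D.lbasis E) := by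
      rw [← Algebra.discr_reindex ℚ (D.lbasis E) e.symm, Module.Basis.coe_reindex]
    have h2 := Algebra.discr_of_matrix_vecMul (A := ℚ) (integralBasis D.M : _ → D.M)
      ((integralBasis D.M).toMatrix b')
    rw [Module.Basis.toMatrix_map_vecMul, h1, ← NumberField.coe_discr,
      ← Module.Basis.det_apply] at h2
    rw [← Algebra.discr_def, h2, abs_mul, abs_pow]
    congr 2
    exact det_basisOfFractionalIdeal_eq_absNorm D.M (fid E) e
  rw [hmat, Matrix.det_mul, LinearMap.det_toMatrix]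
  push_cast
  rw [abs_mul]
  have h1 := congrArg ((↑) : ℚ → ℝ) hdisc
  have h2 := congrArg ((↑) : ℚ → ℝ) hf
  push_cast at h1 h2
  rw [h1, h2]
  have hd : ndeg (diffDv D.M) = |((NumberField.discr D.M : ℤ) : ℝ)| := by
    rw [diffDv, ndeg_idealDv differentIdeal_ne_bot, absNorm_differentIdeal D.M,
      ← Int.cast_natCast, Int.natCast_natAbs, Int.cast_abs]
  rw [hd, ndeg]
  ring

lemma gramQ_det_ne {l : F} (hl : l ≠ 0) [DecidableEq (D.LIdx E)] : (D.gramQ l E).det ≠ 0 := by
  intro h
  have h1 := D.abs_det_gramQ l E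
  rw [h, Rat.cast_zero, abs_zero] at h1
  have : 0 < |((Algebra.norm ℚ l : ℚ) : ℝ)| :=
    abs_pos.2 (by exact_mod_cast Algebra.norm_ne_zero_iff.2 hl)
  have := ndeg_pos E
  have := ndeg_pos (diffDv D.M)
  have : 0 < ndeg E ^ 2 * |((Algebra.norm ℚ l : ℚ) : ℝ)| ^ 2 * ndeg (diffDv D.M) := by positivity
  linarith

lemma gram_latT_det [DecidableEq (D.LIdx E)] :
    (gram (lW l) (D.latT E)).det = ((D.gramQ l E).det : ℝ) := by
  rw [gram_latT]
  exact ((Rat.castHom ℝ).map_det _).symm

/-- The dual lattice. -/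
def dualDv : Dv D.M := D.conjDv (-E - diffDv D.M) - extDv (dvElt l)

lemma mem_dual_iff {l : F} (hl : l ≠ 0) {u : D.M} :
    u ∈ (fid (D.dualDv l E) : FractionalIdeal (𝓞 D.M)⁰ D.M) ↔
      ∀ i, ∃ n : ℤ, Algebra.trace ℚ D.M
        (D.lbasis E i * (algebraMap F D.M l * D.σ u)) = n := by
  have hlM : algebraMap F D.M l ≠ 0 := (map_ne_zero _).2 hl
  have h1 : D.dualDv l E = D.conjDv (-E - diffDv D.M - extDv (dvElt l)) := by
    rw [map_sub, conjDv_extDv]; rfl
  rw [h1, σ_mem_fid]
  have h2 : D.σ u ∈ (fid (-E - diffDv D.M - extDv (dvElt l)) : FractionalIdeal (𝓞 D.M)⁰ D.M) ↔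
      algebraMap F D.M l * D.σ u ∈ (fid (-E - diffDv D.M) : FractionalIdeal (𝓞 D.M)⁰ D.M) := by
    rcases eq_or_ne u 0 with rfl | hu
    · simp [mem_fid]
    have hσ : D.σ u ≠ 0 := (map_ne_zero _).2 hu
    rw [mem_fid, mem_fid, or_iff_right hσ, or_iff_right (mul_ne_zero hlM hσ), dvElt_mul hlM hσ,
      dvElt_algebraMap hl, sub_le_iff_le_add']
  rw [h2, mem_fid_dual]
  constructor
  · intro h i
    obtain ⟨n, hn⟩ := h (D.lbasis E i) ((D.mem_iff_lbasis E).2 ⟨Pi.single i 1, by
      classical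
      rw [Finset.sum_eq_single i (fun j _ hj => by simp [hj]) (by simp)]; simp⟩)
    exact ⟨n, by rw [← hn, mul_comm]⟩
  · intro h a ha
    obtain ⟨c, rfl⟩ := (D.mem_iff_lbasis E).1 ha
    choose n hn using h
    refine ⟨∑ i, c i * n i, ?_⟩
    rw [Finset.mul_sum, map_sum, Int.cast_sum]
    refine Finset.sum_congr rfl fun i _ => ?_
    rw [mul_smul_comm, map_smul, mul_comm (algebraMap F D.M l * D.σ u), hn, smul_eq_mul,
      Int.cast_mul]

/-- The sum of the Gaussians over a translated lattice. -/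
def latSum (E : Dv D.M) (f : D.M → ℂ) : ℂ :=
  ∑' u : {x : D.M // x ∈ (fid E : FractionalIdeal (𝓞 D.M)⁰ D.M)}, f u

/-- The parametrisation as an equivalence. -/
def latEquiv : (D.LIdx E → ℤ) ≃ {x : D.M // x ∈ (fid E : FractionalIdeal (𝓞 D.M)⁰ D.M)} :=
  Equiv.ofBijective (fun n => ⟨∑ i, (n i : ℚ) • D.lbasis E i, (D.mem_iff_lbasis E).2 ⟨n, rfl⟩⟩)
    ⟨fun n m h => funext fun i => by
        have h' := congrArg (fun x => (D.lbasis E).repr x i) (congrArg Subtype.val h)
        simp only [Module.Basis.repr_sum_self] at h'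
        exact_mod_cast h',
      fun x => by
        obtain ⟨n, hn⟩ := (D.mem_iff_lbasis E).1 x.2
        exact ⟨n, Subtype.ext hn⟩⟩

lemma latEquiv_vec (n : D.LIdx E → ℤ) :
    D.vec (D.latEquiv E n : D.M) = D.latT E (intVec n) := (D.latT_int E n).symm

/-- The Gaussians are summable over a translated lattice. -/
theorem summable_gauss_lattice {l : F} (hl : l ≠ 0) (r : D.M) (z : InfinitePlace F → ℂ)
    {t s : InfinitePlace F → ℝ} (ht : ∀ w, 0 < t w) (hs : ∀ w, 0 < s w) :
    Summable fun u : {x : D.M // x ∈ (fid E : FractionalIdeal (𝓞 D.M)⁰ D.M)} =>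
      ‖gaussV (lW l) z t s (D.vec (r + u))‖ := by
  classical
  rw [← (D.latEquiv E).summable_iff]
  obtain ⟨a, ha, hb⟩ := exists_gaussV_bound (lW_ne hl) z ht hs
  have hG : (gram (lW l) (D.latT E)).det ≠ 0 := by
    rw [gram_latT_det]; exact_mod_cast D.gramQ_det_ne E hl
  refine ((translateBound_affine ha hb (injective_of_det hG) (D.vec r)).summable).congr fun n => ?_
  show _ = ‖gaussV _ _ _ _ (D.vec (r + (D.latEquiv E n : D.M)))‖
  rw [map_add, latEquiv_vec]

/-- Poisson summation over a fractional ideal. -/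
theorem lattice_poisson {l : F} (hl : l ≠ 0) (r : D.M) (z : InfinitePlace F → ℂ)
    {t s : InfinitePlace F → ℝ} (ht : ∀ w, 0 < t w) (hs : ∀ w, 0 < s w) :
    D.latSum E (fun u => gaussV (lW l) z t s (D.vec (r + u))) =
      (((D.covol l E)⁻¹ * ∏ w, (Complex.normSq (z w) + t w ^ 2)⁻¹ : ℝ) : ℂ) *
        D.latSum (D.dualDv l E) (fun u => ph (l * D.tra (r * D.σ u)) *
          gaussV (lW l) (zInv z t) (tInv z t) s (D.vec u)) := by
  classical
  set G₀ := D.gramQ l E
  have hG₀ : G₀.det ≠ 0 := D.gramQ_det_ne E hl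
  have hu : IsUnit G₀.det := isUnit_iff_ne_zero.2 hG₀
  have hG : (gram (lW l) (D.latT E)).det ≠ 0 := by
    rw [gram_latT_det]; exact_mod_cast hG₀
  have hsqrt : Real.sqrt |(gram (lW l) (D.latT E)).det| = D.covol l E := by
    rw [gram_latT_det, abs_det_gramQ, covol, Real.sqrt_mul (by positivity), ← mul_pow,
      Real.sqrt_sq (mul_nonneg (ndeg_pos E).le (abs_nonneg _))]
  have hdual : ∀ m : D.LIdx E → ℤ, dualT (lW l) (D.latT E) (intVec m) =
      D.vec (∑ j, (G₀⁻¹ *ᵥ fun i => (m i : ℚ)) j • D.lbasis E j) := by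
    intro m
    have hinv : (gram (lW l) (D.latT E))⁻¹ = G₀⁻¹.map ((↑) : ℚ → ℝ) := by
      refine Matrix.inv_eq_right_inv ?_
      rw [gram_latT]
      have := congrArg (fun A : Matrix (D.LIdx E) (D.LIdx E) ℚ => (Rat.castHom ℝ).mapMatrix A)
        (Matrix.mul_nonsing_inv G₀ hu)
      simp only [map_mul, map_one] at this
      exact this
    rw [dualT, LinearMap.comp_apply, Matrix.toLin'_apply, hinv, ← latT_rat]
    congr 1
    funext j
    simp [Matrix.mulVec, dotProduct, intVec]
  let ψ : (D.LIdx E → ℤ) →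
      {x : D.M // x ∈ (fid (D.dualDv l E) : FractionalIdeal (𝓞 D.M)⁰ D.M)} := fun m =>
    ⟨∑ j, (G₀⁻¹ *ᵥ fun i => (m i : ℚ)) j • D.lbasis E j, by
      rw [D.mem_dual_iff E hl]
      refine fun i => ⟨m i, ?_⟩
      have h1 : G₀ *ᵥ (G₀⁻¹ *ᵥ fun i => (m i : ℚ)) = fun i => (m i : ℚ) := by
        rw [Matrix.mulVec_mulVec, Matrix.mul_nonsing_inv G₀ hu, Matrix.one_mulVec]
      conv_rhs => rw [← congrFun h1 i]
      rw [map_sum, Finset.mul_sum, Finset.mul_sum, map_sum, Matrix.mulVec, dotProduct]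
      refine Finset.sum_congr rfl fun j _ => ?_
      rw [D.σ_smul, mul_smul_comm, mul_smul_comm, map_smul, smul_eq_mul, ← gramQ_apply, mul_comm]⟩
  have hψ : Function.Bijective ψ := by
    constructor
    · intro m m' h
      have h1 := congrArg Subtype.val h
      have h2 : (G₀⁻¹ *ᵥ fun i => (m i : ℚ)) = G₀⁻¹ *ᵥ fun i => (m' i : ℚ) := funext fun j => by
        have := congrArg (fun x => (D.lbasis E).repr x j) h1
        simpa only [ψ, Module.Basis.repr_sum_self] using this
      have h3 := congrArg (G₀ *ᵥ ·) h2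
      simp only [Matrix.mulVec_mulVec, Matrix.mul_nonsing_inv G₀ hu, Matrix.one_mulVec] at h3
      exact funext fun i => by exact_mod_cast congrFun h3 i
    · rintro ⟨u, hu'⟩
      choose m hm using (D.mem_dual_iff E hl).1 hu'
      refine ⟨m, Subtype.ext ?_⟩
      have h1 : (fun i => (m i : ℚ)) = G₀ *ᵥ fun j => (D.lbasis E).repr u j := by
        funext i
        rw [← hm i, Matrix.mulVec, dotProduct]
        conv_lhs => rw [← (D.lbasis E).sum_repr u]
        rw [map_sum, Finset.mul_sum, Finset.mul_sum, map_sum]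
        refine Finset.sum_congr rfl fun j _ => ?_
        rw [D.σ_smul, mul_smul_comm, mul_smul_comm, map_smul, smul_eq_mul, ← gramQ_apply, mul_comm]
      show ∑ j, (G₀⁻¹ *ᵥ fun i => (m i : ℚ)) j • D.lbasis E j = u
      rw [h1, Matrix.mulVec_mulVec, Matrix.nonsing_inv_mul G₀ hu, Matrix.one_mulVec]
      exact (D.lbasis E).sum_repr u
  have h := pair_poisson (lW_ne hl) hG (D.card_LIdx E) (D.vec r) z ht hs
  rw [hsqrt] at h
  unfold latSum
  rw [← (D.latEquiv E).tsum_eq, ← (Equiv.ofBijective ψ hψ).tsum_eq]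
  simp only [map_add, latEquiv_vec, Equiv.ofBijective_apply]
  rw [h]
  refine congrArg _ (tsum_congr fun m => ?_)
  rw [hdual, formPhase, pairForm_vec]
  simp only [ψ, ph]
  norm_cast

end QuadData

end FermatAgent.LT.Dihedral
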