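import Fermat.Agent.LT.Dihedral.Poisson
import Fermat.Agent.LT.Dihedral.Gauss
import Mathlib.MeasureTheory.Integral.Pi
import Mathlib.MeasureTheory.Measure.Lebesgue.EqHaar
import Mathlib.MeasureTheory.Measure.Lebesgue.Complex
import Mathlib.LinearAlgebra.Matrix.NonsingularInverse

/-!
# Poisson summation for products of pair Gaussians, with the constant computed by self-duality
-/

set_option autoImplicit false
set_option maxHeartbeats 400000

noncomputable section

open MeasureTheory Complex Matrix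

namespace FermatAgent.LT.Dihedral

variable {W : Type*} [Fintype W] {d : Type*} [Fintype d] [DecidableEq d]

/-- The archimedean space of pairs. -/
abbrev PairSpace (W : Type*) := W → ℂ × ℂ

instance isAddHaar_volume_pair : (volume : Measure (ℂ × ℂ)).IsAddHaarMeasure :=
  Measure.prod.instIsAddHaarMeasure (volume : Measure ℂ) (volume : Measure ℂ)

instance isAddHaar_volume_pairSpace : (volume : Measure (PairSpace W)).IsAddHaarMeasure :=
  Measure.pi.isAddHaarMeasure (fun _ : W => (volume : Measure (ℂ × ℂ)))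

/-- The trace form `Σ 2 Re (l (x₁ y₂ + x₂ y₁))`. -/
def pairForm (l : W → ℂ) : PairSpace W →ₗ[ℝ] PairSpace W →ₗ[ℝ] ℝ :=
  LinearMap.mk₂ ℝ (fun x y => ∑ w, 2 * (l w * ((x w).1 * (y w).2 + (x w).2 * (y w).1)).re)
    (fun x x' y => by
      rw [← Finset.sum_add_distrib]
      refine Finset.sum_congr rfl fun w _ => ?_
      simp [mul_re, mul_im]; ring)
    (fun c x y => by
      rw [smul_eq_mul, Finset.mul_sum]
      refine Finset.sum_congr rfl fun w _ => ?_
      simp [mul_re, mul_im]; ring)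
    (fun x y y' => by
      rw [← Finset.sum_add_distrib]
      refine Finset.sum_congr rfl fun w _ => ?_
      simp [mul_re, mul_im]; ring)
    fun c x y => by
      rw [smul_eq_mul, Finset.mul_sum]
      refine Finset.sum_congr rfl fun w _ => ?_
      simp [mul_re, mul_im]; ring

lemma pairForm_apply (l : W → ℂ) (x y : PairSpace W) :
    pairForm l x y = ∑ w, 2 * (l w * ((x w).1 * (y w).2 + (x w).2 * (y w).1)).re := rfl

lemma pairForm_comm (l : W → ℂ) (x y : PairSpace W) : pairForm l x y = pairForm l y x := by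
  simp only [pairForm_apply]
  refine Finset.sum_congr rfl fun w _ => ?_
  rw [add_comm ((x w).1 * (y w).2), mul_comm (x w).2, mul_comm (x w).1]

/-- The product Gaussian. -/
def gaussV (l z : W → ℂ) (t s : W → ℝ) (v : PairSpace W) : ℂ :=
  ∏ w, gaussPair (l w) (z w) (t w) (s w) (v w)

/-- The phase of the trace form. -/
def formPhase (l : W → ℂ) (r y : PairSpace W) : ℂ :=
  cexp (2 * Real.pi * I * (pairForm l r y : ℂ))

lemma norm_formPhase (l : W → ℂ) (r y : PairSpace W) : ‖formPhase l r y‖ = 1 := by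
  rw [formPhase, show (2 * Real.pi * I * (pairForm l r y : ℂ)) =
    ((2 * Real.pi * pairForm l r y : ℝ) : ℂ) * I by push_cast; ring]
  exact Complex.norm_exp_ofReal_mul_I _

lemma formPhase_zero (l : W → ℂ) (y : PairSpace W) : formPhase l 0 y = 1 := by simp [formPhase]

lemma continuous_gaussV (l z : W → ℂ) (t s : W → ℝ) : Continuous (gaussV l z t s) :=
  continuous_finsetProd _ fun w _ => (continuous_gaussPair _ _ _ _).comp (continuous_apply w)

lemma exists_gaussV_bound {l : W → ℂ} (hl : ∀ w, l w ≠ 0) (z : W → ℂ) {t s : W → ℝ}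
    (ht : ∀ w, 0 < t w) (hs : ∀ w, 0 < s w) :
    ∃ a, 0 < a ∧ ∀ v, ‖gaussV l z t s v‖ ≤ Real.exp (-a * ‖v‖ ^ 2) := by
  classical
  obtain ⟨a, ha, hb⟩ : ∃ a, 0 < a ∧ ∀ w,
      a ≤ 2 * Real.pi * t w * ‖l w‖ * min (s w) (1 / s w) := by
    have hpos : ∀ w, 0 < 2 * Real.pi * t w * ‖l w‖ * min (s w) (1 / s w) := fun w => by
      have := ht w; have := hs w; have := norm_pos_iff.2 (hl w)
      have : 0 < min (s w) (1 / s w) := lt_min (hs w) (by positivity)
      positivity
    rcases isEmpty_or_nonempty W with h | h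
    · exact ⟨1, one_pos, isEmptyElim⟩
    · obtain ⟨w0, -, h0⟩ := Finset.exists_min_image Finset.univ
        (fun w => 2 * Real.pi * t w * ‖l w‖ * min (s w) (1 / s w)) Finset.univ_nonempty
      exact ⟨_, hpos w0, fun w => h0 w (Finset.mem_univ w)⟩
  refine ⟨a, ha, fun v => ?_⟩
  have hle : ‖v‖ ^ 2 ≤ ∑ w, (normSq (v w).1 + normSq (v w).2) := by
    rcases isEmpty_or_nonempty W with h | h
    · rw [Subsingleton.elim v 0]
      simp
    · obtain ⟨w0, -, h0⟩ := Finset.exists_max_image Finset.univ (fun w => ‖v w‖) Finset.univ_nonempty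
      have hv : ‖v‖ ≤ ‖v w0‖ :=
        (pi_norm_le_iff_of_nonneg (norm_nonneg _)).2 fun w => h0 w (Finset.mem_univ w)
      refine le_trans (pow_le_pow_left₀ (norm_nonneg _) hv 2)
        (le_trans ?_ (Finset.single_le_sum (f := fun w => normSq (v w).1 + normSq (v w).2)
          (fun w _ => add_nonneg (normSq_nonneg _) (normSq_nonneg _)) (Finset.mem_univ w0)))
      rw [Prod.norm_def]
      rcases le_total ‖(v w0).1‖ ‖(v w0).2‖ with h | h
      · rw [max_eq_right h, ← normSq_eq_norm_sq]
        linarith [normSq_nonneg (v w0).1]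
      · rw [max_eq_left h, ← normSq_eq_norm_sq]
        linarith [normSq_nonneg (v w0).2]
  rw [gaussV, norm_prod]
  simp only [norm_gaussPair]
  rw [← Real.exp_sum, Real.exp_le_exp]
  have : a * ∑ w, (normSq (v w).1 + normSq (v w).2) ≤
      ∑ w, 2 * Real.pi * t w * ‖l w‖ * (normSq (v w).1 * s w + normSq (v w).2 / s w) := by
    rw [Finset.mul_sum]
    refine Finset.sum_le_sum fun w _ => ?_
    have h1 := normSq_nonneg (v w).1
    have h2 := normSq_nonneg (v w).2
    have hk : 0 ≤ 2 * Real.pi * t w * ‖l w‖ := by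
      have := ht w; positivity
    calc a * (normSq (v w).1 + normSq (v w).2)
        ≤ 2 * Real.pi * t w * ‖l w‖ * min (s w) (1 / s w) *
          (normSq (v w).1 + normSq (v w).2) :=
          mul_le_mul_of_nonneg_right (hb w) (add_nonneg h1 h2)
      _ ≤ 2 * Real.pi * t w * ‖l w‖ * (normSq (v w).1 * s w + normSq (v w).2 / s w) := by
        rw [mul_assoc _ (min _ _)]
        refine mul_le_mul_of_nonneg_left ?_ hk
        rw [mul_add, div_eq_mul_one_div (normSq (v w).2)]
        refine add_le_add ?_ ?_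
        · rw [mul_comm (normSq _) (s w)]
          exact mul_le_mul_of_nonneg_right (min_le_left _ _) h1
        · rw [mul_comm (normSq _) (1 / s w)]
          exact mul_le_mul_of_nonneg_right (min_le_right _ _) h2
  rw [Finset.sum_neg_distrib]
  nlinarith

omit [DecidableEq d] in
lemma translateBound_affine {g : PairSpace W → ℂ} {a : ℝ} (ha : 0 < a)
    (hg : ∀ v, ‖g v‖ ≤ Real.exp (-a * ‖v‖ ^ 2)) {T : (d → ℝ) →ₗ[ℝ] PairSpace W}
    (hT : Function.Injective T) (r : PairSpace W) : TranslateBound fun x => g (r + T x) := by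
  obtain ⟨K, hK, hKT⟩ := T.exists_antilipschitzWith (LinearMap.ker_eq_bot.2 hT)
  refine translateBound_of_gaussian (C := Real.exp (a * ‖r‖ ^ 2))
    (c := a / (2 * ((K : ℝ) + 1) ^ 2 * (Fintype.card d + 1))) (Real.exp_pos _).le
    (by positivity) fun x => ?_
  refine (hg _).trans ?_
  rw [← Real.exp_add, Real.exp_le_exp]
  have h1 : ‖x‖ ≤ ((K : ℝ) + 1) * ‖T x‖ :=
    (hKT.le_mul_norm (map_zero T) x).trans
      (mul_le_mul_of_nonneg_right (by linarith) (norm_nonneg _))
  have h2 : ∑ i, x i ^ 2 ≤ (Fintype.card d + 1) * ‖x‖ ^ 2 := by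
    refine (Finset.sum_le_sum fun i _ => ?_).trans (le_of_le_of_eq ?_ rfl) (b := ∑ _i : d, ‖x‖ ^ 2)
    · rw [← sq_abs]
      exact pow_le_pow_left₀ (abs_nonneg _) (by simpa using norm_le_pi_norm x i) 2
    · rw [Finset.sum_const, nsmul_eq_mul, Finset.card_univ]
      nlinarith [sq_nonneg ‖x‖]
  have h3 : ‖T x‖ ≤ ‖r + T x‖ + ‖r‖ := by
    have := norm_sub_le (r + T x) r
    rwa [add_sub_cancel_left] at this
  have h4 : ‖T x‖ ^ 2 ≤ 2 * ‖r + T x‖ ^ 2 + 2 * ‖r‖ ^ 2 :=
    (pow_le_pow_left₀ (norm_nonneg _) h3 2).trans (by nlinarith [sq_nonneg (‖r + T x‖ - ‖r‖)])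
  have h5 : ‖x‖ ^ 2 ≤ ((K : ℝ) + 1) ^ 2 * ‖T x‖ ^ 2 := by
    rw [← mul_pow]
    exact pow_le_pow_left₀ (norm_nonneg _) h1 2
  have hpos : (0 : ℝ) < 2 * ((K : ℝ) + 1) ^ 2 * (Fintype.card d + 1) := by positivity
  have h6 : ∑ i, x i ^ 2 / (2 * ((K : ℝ) + 1) ^ 2 * (Fintype.card d + 1)) ≤ ‖T x‖ ^ 2 / 2 := by
    rw [← Finset.sum_div, div_le_iff₀ hpos]
    have := mul_le_mul_of_nonneg_left h5 (show (0 : ℝ) ≤ Fintype.card d + 1 by positivity)
    nlinarith
  rw [← Finset.sum_div] at h6
  rw [neg_mul, neg_mul, div_mul_eq_mul_div, ← mul_div_assoc']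
  nlinarith [mul_le_mul_of_nonneg_left h6 ha.le]

omit [Fintype d] in
omit [DecidableEq d] in
lemma TranslateBound.summable {f : (d → ℝ) → ℂ} (hf : TranslateBound f) :
    Summable fun n : d → ℤ => ‖f (intVec n)‖ := by
  obtain ⟨u, hu, hb⟩ := hf
  refine hu.of_nonneg_of_le (fun n => norm_nonneg _) fun n => ?_
  simpa using hb n 0 (fun i => by simp)

/-- The Gram matrix of a family of vectors. -/
def gram (l : W → ℂ) (T : (d → ℝ) →ₗ[ℝ] PairSpace W) : Matrix d d ℝ :=
  Matrix.of fun i j => pairForm l (T (Pi.single i 1)) (T (Pi.single j 1))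

lemma pairForm_T (l : W → ℂ) (T : (d → ℝ) →ₗ[ℝ] PairSpace W) (x y : d → ℝ) :
    pairForm l (T x) (T y) = x ⬝ᵥ gram l T *ᵥ y := by
  have hx : ∀ z : d → ℝ, T z = ∑ i, z i • T (Pi.single i 1) := fun z => by
    conv_lhs => rw [pi_eq_sum_univ' z]
    simp [map_sum, map_smul]
  conv_lhs => rw [hx x, hx y]
  simp only [map_sum, map_smul, LinearMap.sum_apply, LinearMap.smul_apply, smul_eq_mul, dotProduct,
    Matrix.mulVec, gram, Matrix.of_apply, Finset.mul_sum]
  rw [Finset.sum_comm]
  refine Finset.sum_congr rfl fun i _ => Finset.sum_congr rfl fun j _ => ?_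
  ring

omit [Fintype d] in
lemma gram_transpose (l : W → ℂ) (T : (d → ℝ) →ₗ[ℝ] PairSpace W) : (gram l T)ᵀ = gram l T :=
  Matrix.ext fun _ _ => pairForm_comm l _ _

lemma injective_of_det {l : W → ℂ} {T : (d → ℝ) →ₗ[ℝ] PairSpace W} (h : (gram l T).det ≠ 0) :
    Function.Injective T := by
  rw [← LinearMap.ker_eq_bot, Submodule.eq_bot_iff]
  intro y hy
  rw [LinearMap.mem_ker] at hy
  have h0 : gram l T *ᵥ y = 0 := by
    funext i
    have := pairForm_T l T (Pi.single i 1) y
    rw [hy, map_zero, single_dotProduct, one_mul] at this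
    exact this.symm
  by_contra hne
  exact h (Matrix.exists_mulVec_eq_zero_iff.1 ⟨y, hne, h0⟩)

/-- The dual parametrisation. -/
def dualT (l : W → ℂ) (T : (d → ℝ) →ₗ[ℝ] PairSpace W) : (d → ℝ) →ₗ[ℝ] PairSpace W :=
  T ∘ₗ Matrix.toLin' (gram l T)⁻¹

lemma pairForm_dual {l : W → ℂ} {T : (d → ℝ) →ₗ[ℝ] PairSpace W} (h : (gram l T).det ≠ 0)
    (m x : d → ℝ) : pairForm l (dualT l T m) (T x) = m ⬝ᵥ x := by
  have hu : IsUnit (gram l T).det := isUnit_iff_ne_zero.2 h
  rw [dualT, LinearMap.comp_apply, Matrix.toLin'_apply, pairForm_T, Matrix.dotProduct_mulVec,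
    ← Matrix.mulVec_transpose, Matrix.mulVec_mulVec, gram_transpose, Matrix.mul_nonsing_inv _ hu,
    Matrix.one_mulVec]

lemma gram_dual {l : W → ℂ} {T : (d → ℝ) →ₗ[ℝ] PairSpace W} (h : (gram l T).det ≠ 0) :
    gram l (dualT l T) = (gram l T)⁻¹ := by
  refine Matrix.ext fun i j => ?_
  show pairForm l (dualT l T (Pi.single i 1)) (dualT l T (Pi.single j 1)) = _
  have : dualT l T (Pi.single j 1) = T ((gram l T)⁻¹ *ᵥ Pi.single j 1) := rfl
  rw [this, pairForm_dual h, single_dotProduct, one_mul, Matrix.mulVec_single_one]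
  rfl

lemma dualT_dualT {l : W → ℂ} {T : (d → ℝ) →ₗ[ℝ] PairSpace W} (h : (gram l T).det ≠ 0)
    (m : d → ℝ) : dualT l (dualT l T) m = T m := by
  have hu : IsUnit (gram l T).det := isUnit_iff_ne_zero.2 h
  rw [dualT, LinearMap.comp_apply, Matrix.toLin'_apply, gram_dual h, dualT, LinearMap.comp_apply,
    Matrix.toLin'_apply, Matrix.mulVec_mulVec, Matrix.nonsing_inv_nonsing_inv _ hu,
    Matrix.nonsing_inv_mul _ hu, Matrix.one_mulVec]

/-- The transformed position. -/
def zInv (z : W → ℂ) (t : W → ℝ) (w : W) : ℂ :=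
  -(starRingEnd ℂ) (z w) / ((normSq (z w) + t w ^ 2 : ℝ) : ℂ)

/-- The transformed height. -/
def tInv (z : W → ℂ) (t : W → ℝ) (w : W) : ℝ := t w / (normSq (z w) + t w ^ 2)

omit [Fintype W] in
lemma tInv_pos (z : W → ℂ) {t : W → ℝ} (ht : ∀ w, 0 < t w) (w : W) : 0 < tInv z t w := by
  have := ht w
  have := normSq_nonneg (z w)
  rw [tInv]; positivity

/-- The archimedean constant of the transform. -/
def gaussConst (l z : W → ℂ) (t : W → ℝ) : ℝ :=
  ∏ w, 1 / (4 * ‖l w‖ ^ 2 * (normSq (z w) + t w ^ 2))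

omit [DecidableEq d] in
lemma exists_jacobian {T : (d → ℝ) →ₗ[ℝ] PairSpace W} (hT : Function.Injective T)
    (hcard : Fintype.card d = 4 * Fintype.card W) :
    ∃ c : ℝ, ∀ h : PairSpace W → ℂ, ∫ x, h (T x) = c * ∫ v, h v := by
  have hfin : Module.finrank ℝ (d → ℝ) = Module.finrank ℝ (PairSpace W) := by
    simp [Module.finrank_pi_fintype, Module.finrank_prod, Complex.finrank_real_complex, hcard,
      mul_comm]
  let e := LinearEquiv.ofBijective T ⟨hT, (LinearMap.injective_iff_surjective_of_finrank_eq_finrank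
    hfin).1 hT⟩
  let eL := e.toContinuousLinearEquiv
  have : (Measure.map eL volume).IsAddHaarMeasure := eL.isAddHaarMeasure_map volume
  refine ⟨(Measure.addHaarScalarFactor (Measure.map eL (volume : Measure (d → ℝ))) volume : ℝ),
    fun h => ?_⟩
  have h1 : ∫ x, h (T x) = ∫ v, h v ∂(Measure.map eL volume) :=
    (MeasureTheory.integral_map_equiv eL.toHomeomorph.toMeasurableEquiv h).symm
  have h2 := congrArg (fun μ : Measure (PairSpace W) => ∫ v, h v ∂μ)
    (Measure.isAddLeftInvariant_eq_smul (Measure.map eL (volume : Measure (d → ℝ))) volume)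
  simp only [integral_smul_nnreal_measure] at h2
  rw [h1, h2]
  rfl

lemma integral_dualT {l : W → ℂ} {T : (d → ℝ) →ₗ[ℝ] PairSpace W} (h : (gram l T).det ≠ 0)
    (g : PairSpace W → ℂ) :
    ∫ x, g (dualT l T x) = (|(gram l T).det| : ℝ) * ∫ x, g (T x) := by
  set A := (gram l T)⁻¹
  have hdet : A.det = (gram l T).det⁻¹ := by rw [Matrix.det_nonsing_inv, Ring.inverse_eq_inv']
  have hA : A.det ≠ 0 := by rw [hdet]; exact inv_ne_zero h
  let e := (Matrix.toLinearEquiv' A (Matrix.invertibleOfIsUnitDet A (isUnit_iff_ne_zero.2 hA)))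
  have hmap := Real.map_matrix_volume_pi_eq_smul_volume_pi hA
  calc ∫ x, g (dualT l T x) = ∫ v, g (T v) ∂(Measure.map (Matrix.toLin' A) volume) := by
        refine (MeasurableEmbedding.integral_map ?_ (fun v => g (T v))).symm
        exact e.toContinuousLinearEquiv.toHomeomorph.measurableEmbedding
    _ = _ := by
        rw [hmap, integral_smul_measure, ENNReal.toReal_ofReal (abs_nonneg _), hdet, inv_inv]
        rw [Complex.real_smul]

variable {l : W → ℂ} (hl : ∀ w, l w ≠ 0) {T : (d → ℝ) →ₗ[ℝ] PairSpace W}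
  (hG : (gram l T).det ≠ 0)

include hl hG in
/-- Poisson summation with an unknown constant. -/
lemma poisson_const {c : ℝ} (hc : ∀ h : PairSpace W → ℂ, ∫ x, h (T x) = c * ∫ v, h v)
    (r : PairSpace W) (z : W → ℂ) {t s : W → ℝ} (ht : ∀ w, 0 < t w) (hs : ∀ w, 0 < s w) :
    ∑' n : d → ℤ, gaussV l z t s (r + T (intVec n)) =
      ((c * gaussConst l z t : ℝ) : ℂ) *
        ∑' m : d → ℤ, formPhase l r (dualT l T (intVec m)) *
          gaussV l (zInv z t) (tInv z t) s (dualT l T (intVec m)) := by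
  obtain ⟨a, ha, hb⟩ := exists_gaussV_bound hl z ht hs
  have hTB := translateBound_affine ha hb (injective_of_det hG) r
  let f : C((d → ℝ), ℂ) := ⟨fun x => gaussV l z t s (r + T x),
    (continuous_gaussV l z t s).comp (continuous_const.add T.continuous_of_finiteDimensional)⟩
  have hF : ∀ m, fourierInt f m = ((c * gaussConst l z t : ℝ) : ℂ) *
      (formPhase l r (dualT l T (intVec m)) *
        gaussV l (zInv z t) (tInv z t) s (dualT l T (intVec m))) := by
    intro m
    set y := dualT l T (intVec m)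
    have hph : ∀ v, cexp (-(2 * Real.pi * I) * (pairForm l v y : ℂ)) =
        ∏ w, pairPhase (l w) (y w) (v w) := by
      intro v
      simp only [pairPhase, ← Complex.exp_sum, pairForm_apply]
      congr 1
      push_cast
      rw [Finset.mul_sum]
      exact Finset.sum_congr rfl fun w _ => by ring
    have h1 : ∀ x, phaseVec x m * f x = formPhase l r y *
        (fun v => cexp (-(2 * Real.pi * I) * (pairForm l v y : ℂ)) * gaussV l z t s v) (r + T x) := by
      intro x
      show _ * gaussV l z t s (r + T x) = _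
      rw [← mul_assoc, formPhase, ← Complex.exp_add, phaseVec]
      congr 2
      have hmx : ∑ i, ((m i : ℂ) * (x i : ℂ)) = ((pairForm l (T x) y : ℝ) : ℂ) := by
        rw [pairForm_comm, pairForm_dual hG]
        simp [dotProduct, intVec]
      rw [hmx, map_add, LinearMap.add_apply]
      push_cast
      ring
    rw [fourierInt]
    simp only [h1, integral_const_mul]
    rw [hc (fun u => (fun v => cexp (-(2 * Real.pi * I) * (pairForm l v y : ℂ)) *
        gaussV l z t s v) (r + u)), integral_add_left_eq_self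
      (fun v => cexp (-(2 * Real.pi * I) * (pairForm l v y : ℂ)) * gaussV l z t s v) r]
    have h2 : ∫ v : PairSpace W, cexp (-(2 * Real.pi * I) * (pairForm l v y : ℂ)) *
        gaussV l z t s v = ((gaussConst l z t : ℝ) : ℂ) * gaussV l (zInv z t) (tInv z t) s y := by
      simp only [hph, gaussV, ← Finset.prod_mul_distrib]
      rw [integral_fintype_prod_volume_eq_prod
        (fun w x => pairPhase (l w) (y w) x * gaussPair (l w) (z w) (t w) (s w) x),
        gaussConst, Complex.ofReal_prod, ← Finset.prod_mul_distrib]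
      exact Finset.prod_congr rfl fun w _ => integral_gaussPair (hl w) _ (ht w) (hs w) _
    rw [h2]
    push_cast
    ring
  have hsum : Summable (fourierInt f) := by
    obtain ⟨a', ha', hb'⟩ := exists_gaussV_bound hl (zInv z t) (tInv_pos z ht) hs
    have hdual : (gram l (dualT l T)).det ≠ 0 := by
      rw [gram_dual hG, Matrix.det_nonsing_inv, Ring.inverse_eq_inv']; exact inv_ne_zero hG
    have hTB' := translateBound_affine ha' hb' (injective_of_det hdual) (0 : PairSpace W)
    refine Summable.of_norm ?_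
    refine ((hTB'.summable).mul_left ‖((c * gaussConst l z t : ℝ) : ℂ)‖).congr fun m => ?_
    rw [hF, norm_mul, norm_mul, norm_formPhase, one_mul, zero_add]
  have h := poisson_summation (f := f) hTB hsum
  simp only [hF, tsum_mul_left] at h
  exact h

include hl hG in
/-- Poisson summation for product Gaussians. -/
theorem pair_poisson (hcard : Fintype.card d = 4 * Fintype.card W) (r : PairSpace W) (z : W → ℂ)
    {t s : W → ℝ} (ht : ∀ w, 0 < t w) (hs : ∀ w, 0 < s w) :
    ∑' n : d → ℤ, gaussV l z t s (r + T (intVec n)) =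
      (((Real.sqrt |(gram l T).det|)⁻¹ * ∏ w, (normSq (z w) + t w ^ 2)⁻¹ : ℝ) : ℂ) *
        ∑' m : d → ℤ, formPhase l r (dualT l T (intVec m)) *
          gaussV l (zInv z t) (tInv z t) s (dualT l T (intVec m)) := by
  obtain ⟨c, hc⟩ := exists_jacobian (injective_of_det hG) hcard
  rw [poisson_const hl hG hc r z ht hs]
  congr 2
  -- the constant, from self-duality
  set δ := |(gram l T).det|
  have hδ : 0 < δ := abs_pos.2 hG
  set C₀ := ∏ w, 1 / (4 * ‖l w‖ ^ 2)
  have hC₀ : 0 < C₀ := Finset.prod_pos fun w _ => by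
    have := norm_pos_iff.2 (hl w); positivity
  have hGC : ∀ z' : W → ℂ, ∀ t' : W → ℝ,
      gaussConst l z' t' = C₀ * ∏ w, (normSq (z' w) + t' w ^ 2)⁻¹ := fun z' t' => by
    rw [gaussConst, ← Finset.prod_mul_distrib]
    exact Finset.prod_congr rfl fun w _ => by rw [one_div, one_div, ← mul_inv]
  rw [hGC, ← mul_assoc]
  congr 1
  have hdual : (gram l (dualT l T)).det ≠ 0 := by
    rw [gram_dual hG, Matrix.det_nonsing_inv, Ring.inverse_eq_inv']; exact inv_ne_zero hG
  have hc' : ∀ h : PairSpace W → ℂ,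
      ∫ x, h (dualT l T x) = ((δ * c : ℝ) : ℂ) * ∫ v, h v := fun h => by
    rw [integral_dualT hG h, hc]
    push_cast
    ring
  have hz : zInv (0 : W → ℂ) (fun _ => 1) = 0 := by funext w; simp [zInv]
  have htt : tInv (0 : W → ℂ) (fun _ => 1) = fun _ => 1 := by funext w; simp [tInv]
  have one : ∀ (T' : (d → ℝ) →ₗ[ℝ] PairSpace W), (gram l T').det ≠ 0 → ∀ c' : ℝ,
      (∀ h : PairSpace W → ℂ, ∫ x, h (T' x) = c' * ∫ v, h v) →
      ∑' n : d → ℤ, gaussV l 0 (fun _ => 1) (fun _ => 1) (T' (intVec n)) =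
        ((c' * C₀ : ℝ) : ℂ) *
          ∑' m : d → ℤ, gaussV l 0 (fun _ => 1) (fun _ => 1) (dualT l T' (intVec m)) := by
    intro T' hG' c' hc'
    have h := poisson_const hl hG' hc' 0 0 (fun _ => one_pos) (fun _ => one_pos)
      (t := fun _ => (1 : ℝ)) (s := fun _ => (1 : ℝ))
    simp only [zero_add, hz, htt, formPhase_zero, one_mul] at h
    rw [h, hGC]
    simp
  have e1 := one T hG c hc
  have e2 := one (dualT l T) hdual (δ * c) hc'
  simp only [dualT_dualT hG] at e2
  rw [e2, ← mul_assoc, ← Complex.ofReal_mul] at e1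
  set S := ∑' n : d → ℤ, gaussV l 0 (fun _ => 1) (fun _ => 1) (T (intVec n))
  have hreal : ∀ v, gaussV l 0 (fun _ => 1) (fun _ => 1) v =
      ((∏ w, Real.exp (-(2 * Real.pi * ‖l w‖ * (normSq (v w).1 + normSq (v w).2))) : ℝ) : ℂ) := by
    intro v
    rw [gaussV, Complex.ofReal_prod]
    refine Finset.prod_congr rfl fun w _ => ?_
    rw [gaussPair, Complex.ofReal_exp]
    simp
  have hS : S ≠ 0 := by
    obtain ⟨a, ha, hb⟩ := exists_gaussV_bound hl (0 : W → ℂ) (fun _ => one_pos) (fun _ => one_pos)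
      (t := fun _ => (1 : ℝ)) (s := fun _ => (1 : ℝ))
    have hsm := (translateBound_affine ha hb (injective_of_det hG) (0 : PairSpace W)).summable
    have hsum : Summable fun n : d → ℤ =>
        ∏ w, Real.exp (-(2 * Real.pi * ‖l w‖ *
          (normSq (T (intVec n) w).1 + normSq (T (intVec n) w).2))) := by
      refine hsm.congr fun n => ?_
      rw [zero_add, hreal, Complex.norm_real, Real.norm_of_nonneg
        (Finset.prod_nonneg fun w _ => (Real.exp_pos _).le)]
    simp only [S, hreal]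
    rw [← Complex.ofReal_tsum, Ne, Complex.ofReal_eq_zero]
    refine (hsum.tsum_pos (fun n => Finset.prod_nonneg fun w _ => (Real.exp_pos _).le) 0 ?_).ne'
    exact Finset.prod_pos fun w _ => Real.exp_pos _
  have h1 : c * C₀ * (δ * c * C₀) = 1 := by
    have := mul_right_cancel₀ hS (e1.symm.trans (one_mul S).symm)
    exact_mod_cast this
  have hcpos : 0 ≤ c := by
    have h := hc fun v => gaussV l 0 (fun _ => 1) (fun _ => 1) v
    simp only [hreal, integral_complex_ofReal] at h
    have h' : ∫ x : d → ℝ, ∏ w, Real.exp (-(2 * Real.pi * ‖l w‖ *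
        (normSq (T x w).1 + normSq (T x w).2))) =
      c * ∫ v : PairSpace W, ∏ w, Real.exp (-(2 * Real.pi * ‖l w‖ *
        (normSq (v w).1 + normSq (v w).2))) := by exact_mod_cast h
    by_contra hneg
    push Not at hneg
    have hA : 0 ≤ ∫ x : d → ℝ, ∏ w, Real.exp (-(2 * Real.pi * ‖l w‖ *
        (normSq (T x w).1 + normSq (T x w).2))) :=
      integral_nonneg fun x => Finset.prod_nonneg fun w _ => (Real.exp_pos _).le
    have hB : 0 < ∫ v : PairSpace W, ∏ w, Real.exp (-(2 * Real.pi * ‖l w‖ *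
        (normSq (v w).1 + normSq (v w).2))) := by
      have hpos : ∀ w, 0 < ∫ x : ℂ × ℂ, Real.exp (-(2 * Real.pi * ‖l w‖ *
          (normSq x.1 + normSq x.2))) := by
        intro w
        have hi := (integrable_gaussPair (hl w) 0 one_pos one_pos (0 : ℂ × ℂ)).norm
        refine (integral_pos_iff_support_of_nonneg (fun x => (Real.exp_pos _).le) ?_).2 ?_
        · refine hi.congr (Filter.Eventually.of_forall fun x => ?_)
          show ‖pairPhase (l w) 0 x * gaussPair (l w) 0 1 1 x‖ = _
          rw [norm_mul, norm_pairPhase, one_mul, norm_gaussPair]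
          simp
        · rw [show Function.support (fun x : ℂ × ℂ => Real.exp (-(2 * Real.pi * ‖l w‖ *
            (normSq x.1 + normSq x.2)))) = Set.univ from
            Set.eq_univ_of_forall fun x => (Real.exp_pos _).ne']
          exact Measure.measure_univ_pos.2 (NeZero.ne _)
      rw [integral_fintype_prod_volume_eq_prod
        (fun w (x : ℂ × ℂ) => Real.exp (-(2 * Real.pi * ‖l w‖ * (normSq x.1 + normSq x.2))))]
      exact Finset.prod_pos fun w _ => hpos w
    nlinarith
  have hsq : (c * C₀) ^ 2 = δ⁻¹ := by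
    field_simp
    linear_combination h1
  rw [← Real.sqrt_inv, ← hsq, Real.sqrt_sq (mul_nonneg hcpos hC₀.le)]

end FermatAgent.LT.Dihedral
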