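import Fermat.Agent.LT.Dihedral.QuadData

/-!
# The quadratic extension of the dihedral data: conjugation, norm and trace
-/

set_option autoImplicit false

noncomputable section

open NumberField IsDedekindDomain

namespace FermatAgent.LT.Dihedral.QuadData

variable {F : Type} [Field F] [NumberField F] (D : QuadData F)

instance finiteDimensional : FiniteDimensional F D.M :=
  Module.finite_of_finrank_eq_succ (n := 1) D.finrank_eq

lemma card_aut : Nat.card (D.M ≃ₐ[F] D.M) = 2 := by
  have h1 : Fintype.card (D.M ≃ₐ[F] D.M) ≤ 2 := (AlgEquiv.card_le).trans D.finrank_eq.le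
  have h2 : 1 < Fintype.card (D.M ≃ₐ[F] D.M) := Fintype.one_lt_card_iff.2 ⟨D.σ, 1, D.σ_ne⟩
  rw [Nat.card_eq_fintype_card]
  omega

instance isGalois : IsGalois F D.M :=
  IsGalois.of_card_aut_eq_finrank F D.M (by rw [D.card_aut, D.finrank_eq])

lemma aut_cases (f : D.M ≃ₐ[F] D.M) : f = 1 ∨ f = D.σ := by
  classical
  by_contra h
  push Not at h
  have hs : ({1, D.σ, f} : Finset (D.M ≃ₐ[F] D.M)).card = 3 := by
    rw [Finset.card_insert_of_notMem (by simp [Ne.symm D.σ_ne, Ne.symm h.1]),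
      Finset.card_insert_of_notMem (by simp [Ne.symm h.2]), Finset.card_singleton]
  have := Finset.card_le_univ ({1, D.σ, f} : Finset (D.M ≃ₐ[F] D.M))
  rw [hs, ← Nat.card_eq_fintype_card, D.card_aut] at this
  omega

lemma σ_σ (x : D.M) : D.σ (D.σ x) = x := by
  rcases D.aut_cases (D.σ * D.σ) with h | h
  · exact DFunLike.congr_fun h x
  · exact absurd (mul_left_cancel (h.trans (mul_one _).symm)) D.σ_ne

lemma σ_algebraMap (a : F) : D.σ (algebraMap F D.M a) = algebraMap F D.M a := D.σ.commutes a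

lemma exists_of_fixed {x : D.M} (h : D.σ x = x) : ∃ a : F, algebraMap F D.M a = x := by
  refine (IsGalois.mem_range_algebraMap_iff_fixed x).2 fun f => ?_
  rcases D.aut_cases f with rfl | rfl
  · rfl
  · exact h

/-- The relative norm `x * σ x`, as an element of `F`. -/
def nrm (x : D.M) : F :=
  (D.exists_of_fixed (x := x * D.σ x) (by rw [map_mul, D.σ_σ, mul_comm])).choose

@[simp] lemma algebraMap_nrm (x : D.M) : algebraMap F D.M (D.nrm x) = x * D.σ x :=
  (D.exists_of_fixed (x := x * D.σ x) (by rw [map_mul, D.σ_σ, mul_comm])).choose_spec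

/-- The relative trace `x + σ x`, as an element of `F`. -/
def tra (x : D.M) : F :=
  (D.exists_of_fixed (x := x + D.σ x) (by rw [map_add, D.σ_σ, add_comm])).choose

@[simp] lemma algebraMap_tra (x : D.M) : algebraMap F D.M (D.tra x) = x + D.σ x :=
  (D.exists_of_fixed (x := x + D.σ x) (by rw [map_add, D.σ_σ, add_comm])).choose_spec

lemma nrm_mul (x y : D.M) : D.nrm (x * y) = D.nrm x * D.nrm y :=
  (algebraMap F D.M).injective (by simp only [map_mul, algebraMap_nrm]; ring)

lemma nrm_one : D.nrm 1 = 1 := (algebraMap F D.M).injective (by simp)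

lemma nrm_eq_zero {x : D.M} : D.nrm x = 0 ↔ x = 0 := by
  rw [← map_eq_zero (algebraMap F D.M), algebraMap_nrm, mul_eq_zero,
    map_eq_zero_iff D.σ D.σ.injective, or_self]

lemma nrm_inv (x : D.M) : D.nrm x⁻¹ = (D.nrm x)⁻¹ :=
  (algebraMap F D.M).injective (by
    simp only [algebraMap_nrm, map_inv₀, mul_inv])

lemma nrm_algebraMap (a : F) : D.nrm (algebraMap F D.M a) = a ^ 2 :=
  (algebraMap F D.M).injective (by simp [pow_two, D.σ_algebraMap])

lemma nrm_σ (x : D.M) : D.nrm (D.σ x) = D.nrm x :=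
  (algebraMap F D.M).injective (by simp [D.σ_σ, mul_comm])

lemma nrm_add (x y : D.M) : D.nrm (x + y) = D.nrm x + D.tra (x * D.σ y) + D.nrm y :=
  (algebraMap F D.M).injective (by simp [D.σ_σ]; ring)

lemma tra_add (x y : D.M) : D.tra (x + y) = D.tra x + D.tra y :=
  (algebraMap F D.M).injective (by simp; ring)

lemma tra_zero : D.tra 0 = 0 := (algebraMap F D.M).injective (by simp)

lemma tra_neg (x : D.M) : D.tra (-x) = -D.tra x :=
  (algebraMap F D.M).injective (by simp; ring)

lemma tra_sub (x y : D.M) : D.tra (x - y) = D.tra x - D.tra y := by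
  rw [sub_eq_add_neg, D.tra_add, D.tra_neg, ← sub_eq_add_neg]

lemma tra_mul_algebraMap (a : F) (x : D.M) :
    D.tra (algebraMap F D.M a * x) = a * D.tra x :=
  (algebraMap F D.M).injective (by simp [D.σ_algebraMap]; ring)

lemma tra_algebraMap (a : F) : D.tra (algebraMap F D.M a) = 2 * a :=
  (algebraMap F D.M).injective (by simp [D.σ_algebraMap, map_ofNat]; ring)

lemma trace_eq_tra (x : D.M) : Algebra.trace F D.M x = D.tra x := by
  classical
  apply (algebraMap F D.M).injective
  rw [trace_eq_sum_automorphisms, algebraMap_tra]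
  have hu : (Finset.univ : Finset (D.M ≃ₐ[F] D.M)) = {1, D.σ} := by
    ext f
    simp only [Finset.mem_univ, Finset.mem_insert, Finset.mem_singleton, true_iff]
    exact D.aut_cases f
  rw [hu, Finset.sum_insert (by simp [Ne.symm D.σ_ne]), Finset.sum_singleton]
  rfl

/-- The absolute trace is the trace from `F` of the relative trace. -/
lemma trace_rat (x : D.M) : Algebra.trace ℚ D.M x = Algebra.trace ℚ F (D.tra x) := by
  rw [← D.trace_eq_tra, Algebra.trace_trace]

/-- The conjugation on integers. -/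
def σO : 𝓞 D.M ≃+* 𝓞 D.M := NumberField.RingOfIntegers.mapRingEquiv D.σ

@[simp] lemma coe_σO (x : 𝓞 D.M) : ((D.σO x : 𝓞 D.M) : D.M) = D.σ x := rfl

lemma mapRingHom_σ :
    NumberField.RingOfIntegers.mapRingHom D.σ.toAlgHom = D.σO.toRingHom := rfl

lemma σO_σO (x : 𝓞 D.M) : D.σO (D.σO x) = x := RingOfIntegers.ext (D.σ_σ x)

lemma σO_algebraMap (a : 𝓞 F) :
    D.σO (algebraMap (𝓞 F) (𝓞 D.M) a) = algebraMap (𝓞 F) (𝓞 D.M) a :=
  RingOfIntegers.ext (D.σ_algebraMap (a : F))

lemma isIntegral_of_algebraMap {a : F} (h : IsIntegral ℤ (algebraMap F D.M a)) :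
    IsIntegral ℤ a :=
  (isIntegral_algebraMap_iff (algebraMap F D.M).injective).1 h

/-- The relative norm of an integer. -/
def nrmO (x : 𝓞 D.M) : 𝓞 F :=
  ⟨D.nrm x, D.isIntegral_of_algebraMap (by
    rw [algebraMap_nrm, ← coe_σO]
    exact (x * D.σO x).2)⟩

@[simp] lemma coe_nrmO (x : 𝓞 D.M) : ((D.nrmO x : 𝓞 F) : F) = D.nrm x := rfl

lemma algebraMap_nrmO (x : 𝓞 D.M) : algebraMap (𝓞 F) (𝓞 D.M) (D.nrmO x) = x * D.σO x :=
  RingOfIntegers.ext (D.algebraMap_nrm x)

/-- The relative trace of an integer. -/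
def traO (x : 𝓞 D.M) : 𝓞 F :=
  ⟨D.tra x, D.isIntegral_of_algebraMap (by
    rw [algebraMap_tra, ← coe_σO]
    exact (x + D.σO x).2)⟩

@[simp] lemma coe_traO (x : 𝓞 D.M) : ((D.traO x : 𝓞 F) : F) = D.tra x := rfl

lemma algebraMap_traO (x : 𝓞 D.M) : algebraMap (𝓞 F) (𝓞 D.M) (D.traO x) = x + D.σO x :=
  RingOfIntegers.ext (D.algebraMap_tra x)

end FermatAgent.LT.Dihedral.QuadData
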