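import Fermat.Agent.LT.Dihedral.QuadPrimes
import Mathlib.Algebra.CharP.Basic
import Mathlib.RingTheory.ClassGroup.Basic

/-!
# Orders, divisors and exponential sums attached to the quadratic extension

The parts of the theta machinery that do not see the bad places.
-/

set_option autoImplicit false
set_option maxHeartbeats 400000

noncomputable section

open NumberField IsDedekindDomain Finset
open scoped nonZeroDivisors

namespace FermatAgent.LT.Dihedral

lemma ordGe_of_mem {K : Type*} [Field K] [NumberField K] {I : Ideal (𝓞 K)} (hI : I ≠ ⊥) {a : 𝓞 K}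
    (h : a ∈ I) (v : HeightOneSpectrum (𝓞 K)) : OrdGe v (idealDv I v) (a : K) := by
  rcases eq_or_ne a 0 with rfl | ha
  · exact Or.inl (map_zero _)
  · exact Or.inr ((idealDv_le_iff hI ha).1 h v)

lemma mem_iff_ordGe {K : Type*} [Field K] [NumberField K] {I : Ideal (𝓞 K)} (hI : I ≠ ⊥)
    {a : 𝓞 K} : a ∈ I ↔ ∀ v, OrdGe v (idealDv I v) (a : K) := by
  refine ⟨fun h v => ordGe_of_mem hI h v, fun h => ?_⟩
  rcases eq_or_ne a 0 with rfl | ha
  · exact zero_mem _
  · exact (idealDv_le_iff hI ha).2 fun v => (h v).resolve_left (RingOfIntegers.coe_ne_zero_iff.2 ha)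

namespace QuadData

variable {F : Type} [Field F] [NumberField F] (D : QuadData F)

/-- Orders of elements of `F` in `M`. -/
lemma ordGe_algebraMap {P : HeightOneSpectrum (𝓞 D.M)} {a : F} {n : ℤ}
    (h : OrdGe (D.below P) n a) : OrdGe P (D.ram P * n) (algebraMap F D.M a) := by
  rcases h with rfl | h
  · exact Or.inl (map_zero _)
  rcases eq_or_ne a 0 with rfl | ha
  · exact Or.inl (map_zero _)
  refine Or.inr ?_
  rw [dvElt_algebraMap ha, extDv_apply]
  exact mul_le_mul_of_nonneg_left h (zero_le_one.trans (D.one_le_ram P))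

lemma ordGe_of_algebraMap {P : HeightOneSpectrum (𝓞 D.M)} {a : F} {k n : ℤ}
    (hk : D.ram P * (n - 1) < k) (h : OrdGe P k (algebraMap F D.M a)) :
    OrdGe (D.below P) n a := by
  rcases eq_or_ne a 0 with rfl | ha
  · exact ordGe_zero _
  refine Or.inr ?_
  have h' := h.resolve_left ((map_ne_zero _).2 ha)
  rw [dvElt_algebraMap ha, extDv_apply] at h'
  by_contra hc
  push Not at hc
  have := mul_le_mul_of_nonneg_left (Int.le_sub_one_of_lt hc) (zero_le_one.trans (D.one_le_ram P))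
  omega

lemma ordGe_σ {P : HeightOneSpectrum (𝓞 D.M)} {k : ℤ} {x : D.M}
    (h : OrdGe (D.conjP P) k x) : OrdGe P k (D.σ x) := by
  rcases h with rfl | h
  · exact Or.inl (map_zero _)
  rcases eq_or_ne x 0 with rfl | hx
  · exact Or.inl (map_zero _)
  exact Or.inr (by rwa [D.dvElt_σ hx, conjDv_apply])

lemma ordGe_tra {q : HeightOneSpectrum (𝓞 F)} {n : ℤ} (k : HeightOneSpectrum (𝓞 D.M) → ℤ)
    (hk : ∀ P, D.below P = q → D.ram P * (n - 1) < k P) (hkc : ∀ P, k (D.conjP P) = k P)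
    {x : D.M} (hx : ∀ P, D.below P = q → OrdGe P (k P) x) : OrdGe q n (D.tra x) := by
  obtain ⟨P, rfl⟩ := D.exists_above q
  refine D.ordGe_of_algebraMap (hk P rfl) ?_
  rw [algebraMap_tra]
  refine (hx P rfl).add (D.ordGe_σ ?_)
  rw [← hkc P]
  exact hx _ (D.below_conjP P)

lemma ordGe_nrm {q : HeightOneSpectrum (𝓞 F)} {n : ℤ} (k : HeightOneSpectrum (𝓞 D.M) → ℤ)
    (hk : ∀ P, D.below P = q → D.ram P * (n - 1) < 2 * k P) (hkc : ∀ P, k (D.conjP P) = k P)
    {x : D.M} (hx : ∀ P, D.below P = q → OrdGe P (k P) x) : OrdGe q n (D.nrm x) := by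
  obtain ⟨P, rfl⟩ := D.exists_above q
  refine D.ordGe_of_algebraMap (hk P rfl) ?_
  rw [algebraMap_nrm, two_mul]
  refine (hx P rfl).mul (D.ordGe_σ ?_)
  rw [← hkc P]
  exact hx _ (D.below_conjP P)

lemma extDv_injective : Function.Injective (extDv (K := F) (L := D.M)) := by
  refine (injective_iff_map_eq_zero _).2 fun E h => Finsupp.ext fun q => ?_
  obtain ⟨P, rfl⟩ := D.exists_above q
  have := DFunLike.congr_fun h P
  rw [extDv_apply, Finsupp.zero_apply] at this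
  have h1 := D.one_le_ram P
  exact (mul_eq_zero.1 this).resolve_left (by omega)

lemma ndeg_single_conjP (P : HeightOneSpectrum (𝓞 D.M)) :
    ndeg (Finsupp.single (D.conjP P) (1 : ℤ)) = ndeg (Finsupp.single P (1 : ℤ)) := by
  rw [← idealDv_prime, ← idealDv_prime, ndeg_idealDv (D.conjP P).ne_bot, ndeg_idealDv P.ne_bot,
    ← card_quot, ← card_quot]
  exact_mod_cast Nat.card_congr (Ideal.quotientEquiv _ _ D.σO (D.conjP_asIdeal P)).symm.toEquiv

lemma ndeg_conjDv (J : Dv D.M) : ndeg (D.conjDv J) = ndeg J := by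
  classical
  induction J using Finsupp.induction with
  | zero => rw [map_zero]
  | single_add P n E _ _ ih =>
    have h1 : D.conjDv (Finsupp.single P n) = Finsupp.single (D.conjP P) n :=
      Finsupp.mapDomain_single
    rw [map_add, ndeg_add, ndeg_add, ih, h1,
      show Finsupp.single (D.conjP P) n = n • Finsupp.single (D.conjP P) (1 : ℤ) by simp,
      show Finsupp.single P n = n • Finsupp.single P (1 : ℤ) by simp, ndeg_zsmul, ndeg_zsmul,
      ndeg_single_conjP]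

lemma exists_dvElt_of_mk_eq {J J' : Dv D.M}
    (h : ClassGroup.mk D.M (fid J) = ClassGroup.mk D.M (fid J')) :
    ∃ x : D.M, x ≠ 0 ∧ J' = J + dvElt x := by
  have h1 : ClassGroup.mk D.M (fid (J' - J)) = 1 := by
    rw [sub_eq_add_neg, fid_add, map_mul, fid_neg, map_inv, h, mul_inv_cancel]
  obtain ⟨x, hx⟩ := (ClassGroup.mk_eq_one_iff.1 h1).principal
  have h2 : (fid (J' - J) : FractionalIdeal (𝓞 D.M)⁰ D.M) =
      FractionalIdeal.spanSingleton (𝓞 D.M)⁰ x :=
    FractionalIdeal.coeToSubmodule_injective (by simp only [FractionalIdeal.coe_spanSingleton]; exact hx)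
  have hx0 : x ≠ 0 := fun h0 => (fid (J' - J)).ne_zero (by rw [h2, h0]; simp)
  refine ⟨x, hx0, ?_⟩
  have h3 := congrArg fracDv h2
  rw [fracDv_fid] at h3
  rw [dvElt, ← h3, add_sub_cancel]

variable {D}

lemma conjDv_single (P : HeightOneSpectrum (𝓞 D.M)) (n : ℤ) :
    D.conjDv (Finsupp.single P n) = Finsupp.single (D.conjP P) n :=
  Finsupp.mapDomain_single

/-- The divisor of a prime splitting in `M`. -/
lemma extDv_split {P : HeightOneSpectrum (𝓞 D.M)}
    (hsp : D.mapI (D.below P).asIdeal = P.asIdeal * (D.conjP P).asIdeal) :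
    extDv (L := D.M) (Finsupp.single (D.below P) 1) =
      Finsupp.single P 1 + Finsupp.single (D.conjP P) 1 := by
  rw [extDv_single, one_zsmul, ← idealDv_prime, ← idealDv_prime,
    ← idealDv_mul P.ne_bot (D.conjP P).ne_bot, ← hsp]

/-- The divisor of an inert prime. -/
lemma extDv_inert {P : HeightOneSpectrum (𝓞 D.M)}
    (hin : D.mapI (D.below P).asIdeal = P.asIdeal) :
    extDv (L := D.M) (Finsupp.single (D.below P) 1) = Finsupp.single P 1 := by
  rw [extDv_single, one_zsmul, ← idealDv_prime, ← hin]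

lemma idealDv_map_σO {J : Ideal (𝓞 D.M)} (hJ : J ≠ ⊥) :
    idealDv (J.map D.σO) = D.conjDv (idealDv J) := by
  induction J using UniqueFactorizationMonoid.induction_on_prime with
  | h₁ => exact absurd rfl hJ
  | h₂ I hI => rw [Ideal.isUnit_iff.1 hI, Ideal.map_top, idealDv_top, map_zero]
  | h₃ I p hI hp ih =>
    obtain ⟨v, rfl⟩ : ∃ v : HeightOneSpectrum (𝓞 D.M), v.asIdeal = p :=
      ⟨⟨p, Ideal.isPrime_of_prime hp, hp.ne_zero⟩, rfl⟩
    rw [Ideal.map_mul, ← conjP_asIdeal, idealDv_mul (D.conjP v).ne_bot, ih hI,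
      idealDv_mul v.ne_bot hI, map_add, idealDv_prime, idealDv_prime, conjDv_single]
    exact fun h => hI ((Ideal.map_eq_bot_iff_of_injective D.σO.injective).1 h)

variable (D)

lemma nrmO_add (x u : 𝓞 D.M) :
    D.nrmO (x + u) = D.nrmO x + D.traO (x * D.σO u) + D.nrmO u :=
  RingOfIntegers.ext (D.nrm_add (x : D.M) (u : D.M))

lemma nrmO_mul (x u : 𝓞 D.M) : D.nrmO (x * u) = D.nrmO x * D.nrmO u :=
  RingOfIntegers.ext (D.nrm_mul (x : D.M) (u : D.M))

lemma nrmO_algebraMap (a : 𝓞 F) : D.nrmO (algebraMap (𝓞 F) (𝓞 D.M) a) = a * a :=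
  RingOfIntegers.ext ((D.nrm_algebraMap (a : F)).trans (pow_two _))

lemma traO_add (x u : 𝓞 D.M) : D.traO (x + u) = D.traO x + D.traO u :=
  RingOfIntegers.ext (D.tra_add (x : D.M) (u : D.M))

lemma traO_algebraMap_mul (a : 𝓞 F) (x : 𝓞 D.M) :
    D.traO (algebraMap (𝓞 F) (𝓞 D.M) a * x) = a * D.traO x :=
  RingOfIntegers.ext (D.tra_mul_algebraMap (a : F) (x : D.M))

/-- An additive character of conductor exactly `𝔞`. -/
structure Conductor (θ : AddChar (𝓞 F) ℂ) (𝔞 : Ideal (𝓞 F)) : Prop where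
  trivial : ∀ x ∈ 𝔞, θ x = 1
  primitive : ∀ (q : HeightOneSpectrum (𝓞 F)) (𝔟 : Ideal (𝓞 F)), 𝔞 = q.asIdeal * 𝔟 →
    ∃ x ∈ 𝔟, θ x ≠ 1

variable {θ : AddChar (𝓞 F) ℂ} {𝔞 : Ideal (𝓞 F)}

lemma periodic_theta_nrm (h0 : 𝔞 ≠ ⊥) (hθ : ∀ x ∈ 𝔞, θ x = 1) :
    PeriodicMod (D.mapI 𝔞) fun x => θ (D.nrmO x) := by
  intro x u hu
  simp only [nrmO_add, AddChar.map_add_eq_mul]
  rw [hθ _ (D.traO_mem h0 (Ideal.mul_mem_left _ _ (D.σO_mem_mapI hu))),
    hθ _ (Ideal.mul_le_left (D.nrmO_mem h0 hu)), mul_one, mul_one]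

lemma gamma_inert {P : HeightOneSpectrum (𝓞 D.M)}
    (hP : D.mapI (D.below P).asIdeal = P.asIdeal) (hc : D.conjP P = P)
    (hθ : Conductor θ (D.below P).asIdeal) :
    qsum (D.mapI (D.below P).asIdeal) (fun x => θ (D.nrmO x)) =
      -(Ideal.absNorm (D.below P).asIdeal : ℂ) := by
  classical
  have := finite_quot (D.below P).ne_bot
  have := finite_quot P.ne_bot
  have := Fintype.ofFinite (𝓞 D.M ⧸ P.asIdeal)
  have := Fintype.ofFinite (𝓞 F ⧸ (D.below P).asIdeal)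
  let := Ideal.Quotient.field P.asIdeal
  let := Ideal.Quotient.field (D.below P).asIdeal
  have hper : PeriodicMod (D.below P).asIdeal fun x => θ x := fun x u hu => by
    simp only [AddChar.map_add_eq_mul, hθ.trivial u hu, mul_one]
  let ψ : AddChar (𝓞 F ⧸ (D.below P).asIdeal) ℂ :=
    { toFun := fun c => θ (qrep _ c)
      map_zero_eq_one' := by
        refine hθ.trivial _ ?_
        rw [← Ideal.Quotient.eq_zero_iff_mem, mk_qrep]
      map_add_eq_mul' := fun a b => by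
        rw [← AddChar.map_add_eq_mul]
        exact hper.eq_of_mk (by simp) }
  have hψ : ψ ≠ 1 := by
    intro h1
    obtain ⟨x, -, hx⟩ := hθ.primitive (D.below P) ⊤ (Ideal.mul_top _).symm
    refine hx ?_
    rw [← hper.qrep_mk x]
    exact DFunLike.congr_fun h1 (Ideal.Quotient.mk _ x)
  have hcard : Fintype.card (𝓞 D.M ⧸ P.asIdeal) =
      Fintype.card (𝓞 F ⧸ (D.below P).asIdeal) ^ 2 := by
    rw [← Nat.card_eq_fintype_card, ← Nat.card_eq_fintype_card, D.card_inert hP]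
  have key := sum_addChar_pow_succ hcard
    (fun c => Ideal.Quotient.mk _ (D.nrmO (qrep P.asIdeal c))) ?_ hψ
  · rw [hP, qsum_eq_sum, ← card_quot, Nat.card_eq_fintype_card, ← key]
    exact Finset.sum_congr rfl fun c _ => (hper.qrep_mk _).symm
  · intro c
    rw [mk_algebraMap, algebraMap_nrmO, map_mul, mk_qrep, ← σres_mk D hc, mk_qrep,
      ringEquiv_eq_pow_card (k := 𝓞 F ⧸ (D.below P).asIdeal) (D.card_inert hP |>.trans (by
        rw [Nat.card_eq_fintype_card])) (D.σres hc) ?_ (D.σres_ne hP hc), pow_succ, mul_comm]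
    intro a
    obtain ⟨a, rfl⟩ := Ideal.Quotient.mk_surjective a
    rw [mk_algebraMap, σres_mk, D.σO_algebraMap]

lemma gamma_split {P : HeightOneSpectrum (𝓞 D.M)}
    (hP : D.mapI (D.below P).asIdeal = P.asIdeal * (D.conjP P).asIdeal) (hc : D.conjP P ≠ P)
    (hθ : Conductor θ (D.below P).asIdeal) :
    qsum (D.mapI (D.below P).asIdeal) (fun x => θ (D.nrmO x)) =
      (Ideal.absNorm (D.below P).asIdeal : ℂ) := by
  classical
  have := finite_quot (map_ne_bot_ext (L := D.M) (D.below P).ne_bot)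
  set q := (D.below P).asIdeal
  have hq0 : q ≠ ⊥ := (D.below P).ne_bot
  have hmul : ∀ {u : 𝓞 D.M}, u ∈ P.asIdeal → u * D.σO u ∈ D.mapI q := fun {u} hu => by
    rw [hP]
    exact Ideal.mul_mem_mul hu (D.mem_conjP.2 (by rwa [D.σO_σO]))
  have hle : D.mapI q ≤ P.asIdeal := hP ▸ Ideal.mul_le_left
  set f : 𝓞 D.M → ℂ := fun x => if x ∈ P.asIdeal then 0 else θ (D.nrmO x)
  set g : 𝓞 D.M → ℂ := fun x => if x ∈ P.asIdeal then 1 else 0
  have hsplit : ∀ x, θ (D.nrmO x) = f x + g x := by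
    intro x
    simp only [f, g]
    split_ifs with hx
    · rw [zero_add]
      exact hθ.trivial _ (D.mem_of_algebraMap_mem hq0 (by rw [algebraMap_nrmO]; exact hmul hx))
    · rw [add_zero]
  have hgper : PeriodicMod P.asIdeal g := fun x u hu => by
    simp only [g, P.asIdeal.add_mem_iff_left hu]
  have hfper : PeriodicMod (D.mapI q) f := fun x u hu => by
    simp only [f, P.asIdeal.add_mem_iff_left (hle hu)]
    exact if_ctx_congr Iff.rfl (fun _ => rfl) fun _ =>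
      D.periodic_theta_nrm hq0 hθ.trivial x u hu
  have hf : qsum (D.mapI q) f = 0 := by
    refine qsum_eq_zero_of_twist hfper P.asIdeal (fun x u => θ (D.traO (x * D.σO u))) ?_ ?_ ?_ ?_
    · intro x y u hu
      simp only [map_add, mul_add, traO_add, AddChar.map_add_eq_mul]
      rw [hθ.trivial _ (D.traO_mem hq0 (Ideal.mul_mem_left _ _ (D.σO_mem_mapI hu))), mul_one]
    · intro x u hu
      simp only [f, P.asIdeal.add_mem_iff_left hu]
      split_ifs with hx
      · rw [zero_mul]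
      · rw [nrmO_add, AddChar.map_add_eq_mul, AddChar.map_add_eq_mul,
          hθ.trivial (D.nrmO u) (D.mem_of_algebraMap_mem hq0
            (by rw [algebraMap_nrmO]; exact hmul hu)), mul_one]
    · intro x u _ v _
      simp only [map_add, mul_add, traO_add, AddChar.map_add_eq_mul]
    · intro x hx
      have hxP : x ∉ P.asIdeal := fun h => hx (if_pos h)
      obtain ⟨c, -, hne⟩ := hθ.primitive (D.below P) ⊤ (Ideal.mul_top _).symm
      obtain ⟨w, hw, hwc⟩ := D.split_solve hc hxP c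
      refine ⟨D.σO w, D.mem_conjP.1 hw, ?_⟩
      simp only [D.σO_σO]
      rwa [← sub_add_cancel (D.traO (x * w)) c, AddChar.map_add_eq_mul, hθ.trivial _ hwc, one_mul]
  rw [qsum_congr hsplit, qsum, finsum_add_distrib (Set.toFinite _) (Set.toFinite _)]
  rw [qsum] at hf
  rw [hf, zero_add]
  have := finite_quot P.ne_bot
  have h1 := qsum_coarsen hle hgper
  have h2 : qsum P.asIdeal g = 1 := by
    have := Fintype.ofFinite (𝓞 D.M ⧸ P.asIdeal)
    rw [qsum_eq_sum, Finset.sum_eq_single (0 : 𝓞 D.M ⧸ P.asIdeal)]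
    · simp only [g]
      rw [if_pos (Ideal.Quotient.eq_zero_iff_mem.1 (mk_qrep _ _))]
    · intro c _ hc0
      simp only [g]
      rw [if_neg]
      intro h
      exact hc0 (by rw [← mk_qrep P.asIdeal c, Ideal.Quotient.eq_zero_iff_mem]; exact h)
    · simp
  rw [h2, mul_one, card_quot, card_quot, absNorm_mapI] at h1
  have hN : Ideal.absNorm P.asIdeal = Ideal.absNorm q := by
    have hconj : Ideal.absNorm (D.conjP P).asIdeal = Ideal.absNorm P.asIdeal := by
      rw [← card_quot, ← card_quot]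
      exact Nat.card_congr (Ideal.quotientEquiv _ _ D.σO (D.conjP_asIdeal P)).symm.toEquiv
    have h := D.absNorm_mapI q
    rw [hP, map_mul, hconj, ← pow_two] at h
    exact Nat.pow_left_injective two_ne_zero h
  rw [hN, Nat.cast_pow, pow_two] at h1
  exact mul_left_cancel₀ (Nat.cast_ne_zero.2 (mt Ideal.absNorm_eq_zero_iff.1 hq0)) h1

lemma gamma_crt {q : HeightOneSpectrum (𝓞 F)} {𝔟 : Ideal (𝓞 F)} (hb0 : 𝔟 ≠ ⊥)
    (hcop : q.asIdeal ⊔ 𝔟 = ⊤) (hθ : Conductor θ (q.asIdeal * 𝔟)) :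
    ∃ θ₁ θ₂ : AddChar (𝓞 F) ℂ, Conductor θ₁ q.asIdeal ∧ Conductor θ₂ 𝔟 ∧
      qsum (D.mapI (q.asIdeal * 𝔟)) (fun x => θ (D.nrmO x)) =
        qsum (D.mapI q.asIdeal) (fun x => θ₁ (D.nrmO x)) *
          qsum (D.mapI 𝔟) (fun x => θ₂ (D.nrmO x)) := by
  obtain ⟨a, ha, e, he, hae⟩ := Submodule.mem_sup.1 ((Ideal.eq_top_iff_one _).1 hcop)
  have htriv : ∀ {u v : 𝓞 F}, u ∈ q.asIdeal → v ∈ 𝔟 → θ (u * v) = 1 := fun hu hv =>
    hθ.trivial _ (Ideal.mul_mem_mul hu hv)
  let θ₁ : AddChar (𝓞 F) ℂ := θ.compAddMonoidHom (AddMonoidHom.mulLeft e)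
  let θ₂ : AddChar (𝓞 F) ℂ := θ.compAddMonoidHom (AddMonoidHom.mulLeft a)
  have h1 : ∀ x, θ₁ x = θ (e * x) := fun _ => rfl
  have h2 : ∀ x, θ₂ x = θ (a * x) := fun _ => rfl
  have hsum : ∀ x, θ x = θ₁ x * θ₂ x := fun x => by
    rw [h1, h2, ← AddChar.map_add_eq_mul, ← add_mul, add_comm e a, hae, one_mul]
  have hc1 : Conductor θ₁ q.asIdeal := by
    refine ⟨fun x hx => by rw [h1, mul_comm]; exact htriv hx he, fun q' 𝔡 hd => ?_⟩
    obtain ⟨c, hc, hne⟩ := hθ.primitive q 𝔟 rfl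
    have htop : 𝔡 = ⊤ := by
      have hqle : q.asIdeal ≤ q'.asIdeal := hd ▸ Ideal.mul_le_left
      have hqq : q'.asIdeal = q.asIdeal :=
        (q.isMaximal.eq_of_le q'.isPrime.ne_top hqle).symm
      rw [hqq] at hd
      rw [← Ideal.one_eq_top]
      exact (mul_left_cancel₀ q.ne_bot ((mul_one q.asIdeal).trans hd)).symm
    refine ⟨c, htop ▸ Submodule.mem_top, ?_⟩
    rw [hsum, h2, htriv ha hc, mul_one] at hne
    exact hne
  have hc2 : Conductor θ₂ 𝔟 := by
    refine ⟨fun x hx => by rw [h2]; exact htriv ha hx, fun q' 𝔡 hd => ?_⟩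
    obtain ⟨c, hc, hne⟩ := hθ.primitive q' (q.asIdeal * 𝔡) (by rw [hd]; ring)
    refine ⟨c, Ideal.mul_le_right hc, ?_⟩
    have he1 : θ₁ c = 1 := by
      rw [h1, mul_comm]
      exact htriv (Ideal.mul_le_left hc) he
    rw [hsum, he1, one_mul] at hne
    exact hne
  refine ⟨θ₁, θ₂, hc1, hc2, ?_⟩
  have := finite_quot (map_ne_bot_ext (L := D.M) q.ne_bot)
  have := finite_quot (map_ne_bot_ext (L := D.M) hb0)
  rw [qsum_congr (fun x => hsum (D.nrmO x)), mapI, Ideal.map_mul]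
  refine qsum_mul_crt ?_ (D.periodic_theta_nrm q.ne_bot hc1.trivial)
    (D.periodic_theta_nrm hb0 hc2.trivial)
  rw [← Ideal.map_sup, hcop, Ideal.map_top]

lemma gamma_descent {q : HeightOneSpectrum (𝓞 F)} (hq : (D.mapI q.asIdeal).IsRadical)
    {𝔠 : Ideal (𝓞 F)}
    (hc0 : 𝔠 ≠ ⊥) (hθ : Conductor θ (q.asIdeal * (q.asIdeal * 𝔠))) :
    ∃ θ' : AddChar (𝓞 F) ℂ, Conductor θ' 𝔠 ∧
      (Nat.card (𝓞 D.M ⧸ D.mapI 𝔠) : ℂ) *
          qsum (D.mapI (q.asIdeal * (q.asIdeal * 𝔠))) (fun x => θ (D.nrmO x)) =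
        (Nat.card (𝓞 D.M ⧸ D.mapI (q.asIdeal * 𝔠)) : ℂ) *
          qsum (D.mapI 𝔠) (fun x => θ' (D.nrmO x)) := by
  classical
  set 𝔟 := q.asIdeal * 𝔠
  set 𝔞 := q.asIdeal * 𝔟
  have hb0 : 𝔟 ≠ ⊥ := mul_ne_zero q.ne_bot hc0
  have ha0 : 𝔞 ≠ ⊥ := mul_ne_zero q.ne_bot hb0
  have := finite_quot (map_ne_bot_ext (L := D.M) ha0)
  have := finite_quot (map_ne_bot_ext (L := D.M) hb0)
  have haq : 𝔞 ≤ q.asIdeal := Ideal.mul_le_left
  have hbb : 𝔟 * 𝔟 ≤ 𝔞 := Ideal.mul_mono_left Ideal.mul_le_left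
  obtain ⟨π, hπ⟩ := IsDedekindDomain.exists_sup_span_eq (I := q.asIdeal * 𝔞) (J := q.asIdeal)
    Ideal.mul_le_left (mul_ne_zero q.ne_bot ha0)
  obtain ⟨R, hR⟩ : q.asIdeal ∣ Ideal.span {π} :=
    Ideal.dvd_iff_le.2 (le_sup_right.trans hπ.le)
  have hcop : 𝔞 ⊔ R = ⊤ := by
    rw [hR, ← Ideal.mul_sup] at hπ
    rw [← Ideal.one_eq_top]
    exact mul_left_cancel₀ q.ne_bot (hπ.trans (mul_one _).symm)
  have hπq : π ∈ q.asIdeal := (hπ.le) (Submodule.mem_sup_right (Ideal.mem_span_singleton_self π))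
  let θ' : AddChar (𝓞 F) ℂ := θ.compAddMonoidHom (AddMonoidHom.mulLeft (π * π))
  have hθ'def : ∀ x, θ' x = θ (π * π * x) := fun _ => rfl
  have hc' : Conductor θ' 𝔠 := by
    refine ⟨fun x hx => ?_, fun q' 𝔡 hd => ?_⟩
    · rw [hθ'def, mul_assoc]
      exact hθ.trivial _ (Ideal.mul_mem_mul hπq (Ideal.mul_mem_mul hπq hx))
    · obtain ⟨c, hc, hne⟩ := hθ.primitive q' (q.asIdeal * (q.asIdeal * 𝔡))
        (by simp only [𝔞, 𝔟, hd]; ring)
      have hmem : c ∈ Ideal.span {π * π} * 𝔡 ⊔ 𝔞 := by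
        have h' : Ideal.span {π * π} * 𝔡 ⊔ 𝔞 = q.asIdeal * q.asIdeal * (R * R * 𝔡 ⊔ 𝔠) := by
          rw [← Ideal.span_singleton_mul_span_singleton, hR, Ideal.mul_sup]
          congr 1
          · ring
          · simp only [𝔞, 𝔟]; ring
        rw [h']
        have hRc : R * R ⊔ 𝔠 = ⊤ := by
          refine top_le_iff.1 ?_
          have h1 : 𝔠 ⊔ R = ⊤ := top_le_iff.1 (hcop ▸ sup_le_sup_right
            ((Ideal.mul_le_right).trans Ideal.mul_le_right) R)
          rw [sup_comm, Ideal.sup_mul_eq_of_coprime_left h1, h1]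
        have hsup : R * R * 𝔡 ⊔ 𝔠 = 𝔡 := by
          rw [hd, mul_comm q'.asIdeal 𝔡, mul_comm (R * R) 𝔡, ← Ideal.mul_sup]
          have : R * R ⊔ q'.asIdeal = ⊤ := top_le_iff.1
            (hRc ▸ sup_le_sup_left (hd ▸ Ideal.mul_le_left) _)
          rw [this, Ideal.mul_top]
        rw [hsup, mul_assoc]
        exact hc
      obtain ⟨y, hy, z, hz, hyz⟩ := Submodule.mem_sup.1 hmem
      obtain ⟨t, ht, rfl⟩ := Ideal.mem_span_singleton_mul.1 hy
      refine ⟨t, ht, ?_⟩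
      rw [hθ'def]
      rwa [← hyz, AddChar.map_add_eq_mul, hθ.trivial z hz, mul_one] at hne
  refine ⟨θ', hc', ?_⟩
  set f : 𝓞 D.M → ℂ := fun x => if x ∈ D.mapI q.asIdeal then 0 else θ (D.nrmO x)
  set g : 𝓞 D.M → ℂ := fun x => if x ∈ D.mapI q.asIdeal then θ (D.nrmO x) else 0
  have hmq : D.mapI 𝔞 ≤ D.mapI q.asIdeal := Ideal.map_mono haq
  have hfper : PeriodicMod (D.mapI 𝔞) f := fun x u hu => by
    simp only [f, (D.mapI q.asIdeal).add_mem_iff_left (hmq hu)]
    exact if_ctx_congr Iff.rfl (fun _ => rfl) fun _ =>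
      D.periodic_theta_nrm ha0 hθ.trivial x u hu
  have hgper : PeriodicMod (D.mapI 𝔞) g := fun x u hu => by
    simp only [g, (D.mapI q.asIdeal).add_mem_iff_left (hmq hu)]
    exact if_ctx_congr Iff.rfl (fun _ => D.periodic_theta_nrm ha0 hθ.trivial x u hu) fun _ => rfl
  have hf : qsum (D.mapI 𝔞) f = 0 := by
    refine qsum_eq_zero_of_twist hfper (D.mapI 𝔟) (fun x u => θ (D.traO (x * D.σO u))) ?_ ?_ ?_ ?_
    · intro x y u hu
      simp only [map_add, mul_add, traO_add, AddChar.map_add_eq_mul]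
      rw [hθ.trivial _ (D.traO_mem ha0 (Ideal.mul_mem_left _ _ (D.σO_mem_mapI hu))), mul_one]
    · intro x u hu
      have huq : u ∈ D.mapI q.asIdeal := Ideal.map_mono Ideal.mul_le_left hu
      simp only [f, (D.mapI q.asIdeal).add_mem_iff_left huq]
      split_ifs with hx
      · rw [zero_mul]
      · rw [nrmO_add, AddChar.map_add_eq_mul, AddChar.map_add_eq_mul,
          hθ.trivial (D.nrmO u) (hbb (D.nrmO_mem hb0 hu)), mul_one]
    · intro x u _ v _
      simp only [map_add, mul_add, traO_add, AddChar.map_add_eq_mul]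
    · intro x hx
      have hxq : x ∉ D.mapI q.asIdeal := fun h => hx (if_pos h)
      obtain ⟨c, hc, hne⟩ := hθ.primitive q 𝔟 rfl
      obtain ⟨w, hw⟩ := D.exists_tra_eq_one_of_isRadical hq hxq
      refine ⟨D.σO (algebraMap (𝓞 F) (𝓞 D.M) c * w),
        D.σO_mem_mapI (Ideal.mul_mem_right _ _ (Ideal.mem_map_of_mem _ hc)), ?_⟩
      simp only [D.σO_σO]
      rw [mul_left_comm, traO_algebraMap_mul,
        show c * D.traO (x * w) = (D.traO (x * w) - 1) * c + c by ring, AddChar.map_add_eq_mul,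
        hθ.trivial _ (Ideal.mul_mem_mul hw hc), one_mul]
      exact hne
  have hsplit : ∀ x, θ (D.nrmO x) = f x + g x := fun x => by
    simp only [f, g]
    split_ifs <;> simp
  rw [qsum_congr hsplit, qsum, finsum_add_distrib (Set.toFinite _) (Set.toFinite _)]
  rw [qsum] at hf
  rw [hf, zero_add]
  have hscale : qsum (D.mapI 𝔞) g =
      qsum (D.mapI 𝔟) (fun z => g (algebraMap (𝓞 F) (𝓞 D.M) π * z)) := by
    refine qsum_scale (J := D.mapI q.asIdeal) hgper _ ?_ ?_ (fun x hx => by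
      by_contra h; exact hx (if_neg h))
    · rw [mapI, mapI, show (Ideal.span {algebraMap (𝓞 F) (𝓞 D.M) π}) =
        (Ideal.span {π}).map (algebraMap (𝓞 F) (𝓞 D.M)) by
          rw [Ideal.map_span, Set.image_singleton], ← Ideal.map_sup]
      congr 1
      rw [hR]
      conv_lhs => rw [show 𝔞 = q.asIdeal * 𝔟 from rfl]
      rw [← Ideal.mul_sup]
      have : R ⊔ 𝔟 = ⊤ := top_le_iff.1 (hcop ▸ (sup_comm 𝔞 R).le.trans
        (sup_le_sup_left Ideal.mul_le_right _))
      rw [this, Ideal.mul_top]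
    · intro z
      rw [← Ideal.span_singleton_le_iff_mem, ← Ideal.span_singleton_le_iff_mem,
        ← Ideal.dvd_iff_le, ← Ideal.dvd_iff_le, ← Ideal.span_singleton_mul_span_singleton,
        show (Ideal.span {algebraMap (𝓞 F) (𝓞 D.M) π}) =
          (Ideal.span {π}).map (algebraMap (𝓞 F) (𝓞 D.M)) by
            rw [Ideal.map_span, Set.image_singleton], hR, mapI, mapI]
      simp only [𝔞, Ideal.map_mul]
      rw [mul_assoc,
        mul_dvd_mul_iff_left (map_ne_bot_ext (L := D.M) q.ne_bot)]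
      refine ⟨fun h => (IsCoprime.dvd_of_dvd_mul_left ?_ h), fun h => h.mul_left _⟩
      rw [Ideal.isCoprime_iff_sup_eq, ← Ideal.map_sup]
      have : 𝔟 ⊔ R = ⊤ := top_le_iff.1 (hcop ▸ sup_le_sup_right Ideal.mul_le_right R)
      rw [this, Ideal.map_top]
  rw [qsum] at hscale
  rw [hscale]
  have hper' := D.periodic_theta_nrm hc0 hc'.trivial
  have hgz : ∀ z, g (algebraMap (𝓞 F) (𝓞 D.M) π * z) = θ' (D.nrmO z) := fun z => by
    simp only [g]
    rw [if_pos (Ideal.mul_mem_right _ _ (Ideal.mem_map_of_mem _ hπq)), nrmO_mul, nrmO_algebraMap,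
      hθ'def]
  have hcoarse := qsum_coarsen (Ideal.map_mono (Ideal.mul_le_right : 𝔟 ≤ 𝔠) :
    D.mapI 𝔟 ≤ D.mapI 𝔠) hper'
  rw [qsum] at hcoarse
  change _ * qsum (D.mapI 𝔟) _ = _
  rw [qsum_congr hgz]
  exact hcoarse

/-- The exponent of the finite sum. -/
def quadForm (c₁ : F) (c₂ : D.M) (x : 𝓞 D.M) : F := c₁ * D.nrm (x : D.M) + D.tra (c₂ * (x : D.M))

lemma quadForm_add (c₁ : F) (c₂ : D.M) (x u : 𝓞 D.M) :
    D.quadForm c₁ c₂ (x + u) - D.quadForm c₁ c₂ x =
      c₁ * (D.tra ((x : D.M) * D.σ u) + D.nrm (u : D.M)) + D.tra (c₂ * (u : D.M)) := by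
  simp only [quadForm, coeO_add, D.nrm_add, mul_add, D.tra_add]
  ring

lemma quad_square {c₁ : F} (hc₁ : c₁ ≠ 0) (c₂ x : D.M) :
    c₁ * D.nrm x + D.tra (c₂ * x) + D.nrm c₂ / c₁ =
      D.nrm (algebraMap F D.M c₁ * D.σ x + c₂) / c₁ := by
  rw [eq_div_iff hc₁]
  apply (algebraMap F D.M).injective
  simp only [map_add, map_mul, algebraMap_nrm, algebraMap_tra, map_div₀, D.σ_σ, D.σ_algebraMap]
  have h : algebraMap F D.M c₁ ≠ 0 := (map_ne_zero _).2 hc₁
  field_simp
  ring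

lemma ordGe_tra_self {q : HeightOneSpectrum (𝓞 F)} {n : ℤ} {x : D.M}
    (h : ∀ P, D.below P = q → OrdGe P (D.ram P * n) x) : OrdGe q n (D.tra x) := by
  refine D.ordGe_tra (fun P => D.ram P * n) (fun P _ => ?_)
    (fun P => by rw [D.ram_conjP]) h
  have := D.one_le_ram P
  rw [mul_sub, mul_one]
  omega

lemma ordGe_nrm_self {q : HeightOneSpectrum (𝓞 F)} {n : ℤ} {x : D.M}
    (h : ∀ P, D.below P = q → OrdGe P (D.ram P * n) x) : OrdGe q (2 * n) (D.nrm x) := by
  refine D.ordGe_nrm (fun P => D.ram P * n) (fun P _ => ?_)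
    (fun P => by rw [D.ram_conjP]) h
  have := D.one_le_ram P
  rw [mul_sub, mul_one, mul_left_comm]
  omega

lemma nrm_int_ordGe (q : HeightOneSpectrum (𝓞 F)) (x : 𝓞 D.M) :
    OrdGe q 0 (D.nrm (x : D.M)) := by
  rw [← coe_nrmO]
  exact ordGe_int _

lemma exists_gen (E : Dv D.M) (S : Finset (HeightOneSpectrum (𝓞 D.M))) (hS : S.Nonempty) :
    ∃ x : D.M, x ≠ 0 ∧ x ∈ (fid E : FractionalIdeal (𝓞 D.M)⁰ D.M) ∧
      ∀ P ∈ S, dvElt x P = E P := by
  classical
  obtain ⟨x, hx0, hx⟩ := exists_ord_eq S fun P => E P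
  set B := ((dvElt x).support ∪ E.support) \ S
  obtain ⟨a, ha⟩ := exists_crt (S ∪ B)
    (fun P => if P ∈ S then 1 else (E P - dvElt x P).toNat + 1) (fun P => if P ∈ S then 1 else 0)
  obtain ⟨P1, hP1⟩ := hS
  have hval : ∀ P ∈ S, dvElt (a : D.M) P = 0 ∧ a ≠ 0 := by
    intro P hP
    have h := ha P (Finset.mem_union_left _ hP)
    rw [if_pos hP, if_pos hP, Nat.cast_one, ← coeO_sub, ordGe_one_iff] at h
    have hnot : a ∉ P.asIdeal := fun hm =>
      P.isPrime.ne_top ((Ideal.eq_top_iff_one _).2 (by simpa using sub_mem hm h))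
    have hne : a ≠ 0 := fun h0 => hnot (h0 ▸ zero_mem _)
    have h0 : 0 ≤ dvElt (a : D.M) P := dvElt_coe_nonneg a P
    have h1 := mt (mem_prime_iff P hne).2 hnot
    exact ⟨by omega, hne⟩
  have ha0 := (hval P1 hP1).2
  have haM : (a : D.M) ≠ 0 := RingOfIntegers.coe_ne_zero_iff.2 ha0
  refine ⟨x * (a : D.M), mul_ne_zero hx0 haM, ?_, fun P hP => ?_⟩
  · refine mem_fid_iff_ordGe.2 fun P => ?_
    by_cases hP : P ∈ S
    · refine (OrdGe.mul (Or.inr le_rfl : OrdGe P (dvElt x P) x) (ordGe_int a)).mono ?_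
      rw [hx P hP, add_zero]
    by_cases hB : P ∈ B
    · have := ha P (Finset.mem_union_right _ hB)
      rw [if_neg hP, if_neg hP, coeO_zero, sub_zero] at this
      refine (OrdGe.mul (Or.inr le_rfl : OrdGe P (dvElt x P) x) this).mono ?_
      push_cast
      have := Int.self_le_toNat (E P - dvElt x P)
      omega
    · have h1 : dvElt x P = 0 ∧ E P = 0 := by
        simpa [B, hP, Finsupp.notMem_support_iff] using hB
      refine (OrdGe.mul (Or.inr h1.1.ge : OrdGe P 0 x) (ordGe_int a)).mono ?_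
      simp [h1.2]
  · rw [dvElt_mul hx0 haM, Finsupp.add_apply, hx P hP, (hval P hP).1, add_zero]

/-- The points of a sublattice. -/
abbrev Lat (E : Dv D.M) := {x : D.M // x ∈ (fid E : FractionalIdeal (𝓞 D.M)⁰ D.M)}

/-- The lattice as residues times a sublattice. -/
lemma split_bijective {E : Dv D.M} {I : Ideal (𝓞 D.M)} (hI : I ≠ ⊥) {l₀ : D.M}
    (hl₀ : l₀ ≠ 0) (hmem : l₀ ∈ (fid E : FractionalIdeal (𝓞 D.M)⁰ D.M))
    (hexact : ∀ P, idealDv I P ≠ 0 → dvElt l₀ P = E P) :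
    Function.Bijective (fun cu : (𝓞 D.M ⧸ I) × Lat (D := D) (E + idealDv I) =>
      (⟨l₀ * ((qrep I cu.1 : 𝓞 D.M) : D.M) + cu.2, by
        refine mem_fid_iff_ordGe.2 fun P => OrdGe.add ?_ ?_
        · simpa using (mem_fid_iff_ordGe.1 hmem P).mul (ordGe_int (v := P) (qrep I cu.1))
        · refine (mem_fid_iff_ordGe.1 cu.2.2 P).mono ?_
          rw [Finsupp.add_apply]
          have : 0 ≤ idealDv I P := idealDv_nonneg I P
          omega⟩ : Lat (D := D) E)) := by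
  classical
  have hexact' : ∀ P, 0 < idealDv I P → dvElt l₀ P = E P := fun P hP => hexact P hP.ne'
  constructor
  · rintro ⟨c, u⟩ ⟨c', u'⟩ h
    have h' : l₀ * ((qrep I c : 𝓞 D.M) : D.M) + u = l₀ * ((qrep I c' : 𝓞 D.M) : D.M) + u' :=
      congrArg Subtype.val h
    have hc : c = c' := by
      rw [← mk_qrep I c, ← mk_qrep I c', Ideal.Quotient.eq, mem_iff_ordGe hI]
      intro P
      rcases (show 0 ≤ idealDv I P from idealDv_nonneg I P).lt_or_eq with hP | hP
      · have hsub : OrdGe P (E P + idealDv I P) ((u' : D.M) - u) := by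
          have := (mem_fid_iff_ordGe.1 u'.2 P).sub (mem_fid_iff_ordGe.1 u.2 P)
          rwa [Finsupp.add_apply] at this
        have hinv : OrdGe P (-E P) l₀⁻¹ :=
          Or.inr (by rw [dvElt_inv hl₀, Finsupp.neg_apply, hexact' P hP])
        have h2 := hinv.mul hsub
        rw [show l₀⁻¹ * ((u' : D.M) - u) =
          ((qrep I c : 𝓞 D.M) : D.M) - ((qrep I c' : 𝓞 D.M) : D.M) by
            rw [inv_mul_eq_iff_eq_mul₀ hl₀]; linear_combination -h'] at h2
        rw [coeO_sub]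
        exact h2.mono (by omega)
      · exact (ordGe_int _).mono hP.ge
    subst hc
    exact Prod.ext rfl (Subtype.ext (add_left_cancel h'))
  · rintro ⟨x, hx⟩
    have hxS : ∀ P ∈ (idealDv I).support, OrdGe P 0 (x * l₀⁻¹) := by
      intro P hP
      refine ((mem_fid_iff_ordGe.1 hx P).mul
        (Or.inr le_rfl : OrdGe P (dvElt l₀⁻¹ P) l₀⁻¹)).mono ?_
      rw [dvElt_inv hl₀, Finsupp.neg_apply, hexact P (Finsupp.mem_support_iff.1 hP)]
      omega
    obtain ⟨a, ha⟩ := exists_int_congr (idealDv I).support (fun P => (idealDv I P).toNat) hxS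
    set b := qrep I (Ideal.Quotient.mk I a)
    refine ⟨⟨Ideal.Quotient.mk I a, ⟨x - l₀ * (b : D.M), mem_fid_iff_ordGe.2 fun P => ?_⟩⟩,
      Subtype.ext (add_sub_cancel _ _)⟩
    rw [Finsupp.add_apply]
    rcases (show 0 ≤ idealDv I P from idealDv_nonneg I P).lt_or_eq with hP | hP
    · have h1 := ha P (Finsupp.mem_support_iff.2 hP.ne')
      rw [Int.toNat_of_nonneg hP.le] at h1
      have h2 := ordGe_of_mem hI (Ideal.Quotient.eq.1 (mk_qrep I (Ideal.Quotient.mk I a))) P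
      have h3 := OrdGe.mul (Or.inr le_rfl : OrdGe P (dvElt l₀ P) l₀) (h1.sub h2)
      rw [show l₀ * (x * l₀⁻¹ - (a : D.M) - ((b - a : 𝓞 D.M) : D.M)) = x - l₀ * (b : D.M) by
        rw [coeO_sub]; field_simp; ring, hexact' P hP] at h3
      exact h3
    · rw [← hP, add_zero]
      refine (mem_fid_iff_ordGe.1 hx P).sub ?_
      simpa using (mem_fid_iff_ordGe.1 hmem P).mul (ordGe_int (v := P) b)

include D in
lemma sqrt_ndeg_dvElt {x : F} (hx : x ≠ 0) :
    Real.sqrt (ndeg (dvElt x)) = ∏ w : InfinitePlace F, ‖w.embedding x‖ := by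
  rw [ndeg_dvElt hx]
  have h := InfinitePlace.prod_eq_abs_norm x
  simp only [InfinitePlace.mult, InfinitePlace.not_isReal_iff_isComplex.2 (D.totallyComplex _),
    if_false] at h
  rw [show |((Algebra.norm ℚ x : ℚ) : ℝ)| = ((|Algebra.norm ℚ x| : ℚ) : ℝ) by push_cast; rfl,
    ← h, Finset.prod_pow, Real.sqrt_sq]
  · exact Finset.prod_congr rfl fun w _ => (InfinitePlace.norm_embedding_eq w x).symm
  · exact Finset.prod_nonneg fun w _ => apply_nonneg w x

end QuadData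

end FermatAgent.LT.Dihedral
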