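import Fermat.Agent.LT.Dihedral.Lattice
import Mathlib.NumberTheory.NumberField.Units.DirichletTheorem
import Mathlib.Algebra.Module.ZLattice.Basic

/-!
# The units of relative norm one and their logarithmic lattice
-/

set_option autoImplicit false
set_option maxHeartbeats 400000

noncomputable section

open NumberField IsDedekindDomain MeasureTheory
open scoped nonZeroDivisors

namespace FermatAgent.LT.Dihedral.QuadData

variable {F : Type} [Field F] [NumberField F] (D : QuadData F)

/-- The units of relative norm `1`. -/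
def unitOne : Subgroup (𝓞 D.M)ˣ where
  carrier := {e | D.nrm ((e : 𝓞 D.M) : D.M) = 1}
  one_mem' := by
    show D.nrm (((1 : (𝓞 D.M)ˣ) : 𝓞 D.M) : D.M) = 1
    rw [Units.val_one, show (((1 : 𝓞 D.M)) : D.M) = 1 from map_one _, D.nrm_one]
  mul_mem' {a b} (ha : D.nrm _ = 1) (hb : D.nrm _ = 1) := by
    show D.nrm (((a * b : (𝓞 D.M)ˣ) : 𝓞 D.M) : D.M) = 1
    rw [Units.val_mul, coeO_mul, D.nrm_mul, ha, hb, one_mul]
  inv_mem' {a} (ha : D.nrm _ = 1) := by
    show D.nrm (((a⁻¹ : (𝓞 D.M)ˣ) : 𝓞 D.M) : D.M) = 1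
    have h := D.nrm_mul (((a⁻¹ : (𝓞 D.M)ˣ) : 𝓞 D.M) : D.M) ((a : 𝓞 D.M) : D.M)
    rw [← coeO_mul, Units.inv_mul, show (((1 : 𝓞 D.M)) : D.M) = 1 from map_one _, D.nrm_one, ha,
      mul_one] at h
    exact h.symm

/-- A unit of relative norm one as an element of `M`. -/
def uval (e : D.unitOne) : D.M := (((e : (𝓞 D.M)ˣ) : 𝓞 D.M) : D.M)

lemma uval_ne (e : D.unitOne) : D.uval e ≠ 0 :=
  RingOfIntegers.coe_ne_zero_iff.2 (e : (𝓞 D.M)ˣ).ne_zero

lemma nrm_uval (e : D.unitOne) : D.nrm (D.uval e) = 1 := e.2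

lemma uval_mul (a b : D.unitOne) : D.uval (a * b) = D.uval a * D.uval b := rfl

lemma uval_one : D.uval 1 = 1 := map_one _

lemma emb_uval (w : InfinitePlace F) (e : D.unitOne) :
    ‖D.emb w (D.uval e)‖ * ‖D.emb w (D.σ (D.uval e))‖ = 1 := by
  rw [← norm_mul, ← map_mul, ← algebraMap_nrm, nrm_uval, map_one, map_one, norm_one]

/-- Twice the logarithms of a unit of norm one. -/
def ulog : Additive D.unitOne →+ (InfinitePlace F → ℝ) where
  toFun e w := 2 * Real.log ‖D.emb w (D.uval e.toMul)‖
  map_zero' := by funext w; simp [uval_one]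
  map_add' a b := by
    funext w
    simp only [toMul_add, uval_mul, map_mul, norm_mul, Pi.add_apply]
    rw [Real.log_mul (norm_ne_zero_iff.2 ((map_ne_zero _).2 (D.uval_ne _)))
      (norm_ne_zero_iff.2 ((map_ne_zero _).2 (D.uval_ne _)))]
    ring

lemma exp_ulog (w : InfinitePlace F) (e : D.unitOne) :
    Real.exp (D.ulog (Additive.ofMul e) w) = ‖D.emb w (D.uval e)‖ ^ 2 := by
  show Real.exp (2 * Real.log ‖D.emb w (D.uval e)‖) = _
  rw [two_mul, Real.exp_add, Real.exp_log (norm_pos_iff.2 ((map_ne_zero _).2 (D.uval_ne _))),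
    pow_two]

/-- The places of `M` over a place of `F`. -/
def upPlace (w : InfinitePlace F) : Bool → InfinitePlace D.M
  | true => InfinitePlace.mk (D.emb w)
  | false => InfinitePlace.mk ((D.emb w).comp D.σ.toRingEquiv.toRingHom)

lemma upPlace_injective : Function.Injective (fun p : InfinitePlace F × Bool =>
    D.upPlace p.1 p.2) := by
  have hres : ∀ (w : InfinitePlace F) (b : Bool),
      (D.upPlace w b).comap (algebraMap F D.M) = w := by
    intro w b
    cases b
    · rw [upPlace, InfinitePlace.comap_mk]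
      conv_rhs => rw [← w.mk_embedding]
      congr 1
      refine RingHom.ext fun a => ?_
      show D.emb w (D.σ (algebraMap F D.M a)) = _
      rw [D.σ_algebraMap, emb_algebraMap]
    · rw [upPlace, InfinitePlace.comap_mk]
      conv_rhs => rw [← w.mk_embedding]
      congr 1
      exact RingHom.ext fun a => D.emb_algebraMap w a
  rintro ⟨w, b⟩ ⟨w', b'⟩ h
  simp only at h
  obtain rfl : w = w' := by rw [← hres w b, h, hres w' b']
  have key : D.upPlace w true ≠ D.upPlace w false := by
    intro he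
    rw [upPlace, upPlace, InfinitePlace.mk_eq_iff] at he
    rcases he with he | he
    · refine D.σ_ne (AlgEquiv.ext fun x => ?_)
      exact ((D.emb w).injective (DFunLike.congr_fun he x)).symm
    · refine (InfinitePlace.isComplex_iff.1 (D.totallyComplex w)) ?_
      refine ComplexEmbedding.isReal_iff.2 (RingHom.ext fun a => ?_)
      have h1 := DFunLike.congr_fun he (algebraMap F D.M a)
      rw [ComplexEmbedding.conjugate_coe_eq, emb_algebraMap] at h1
      rw [ComplexEmbedding.conjugate_coe_eq, h1]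
      show D.emb w (D.σ (algebraMap F D.M a)) = _
      rw [D.σ_algebraMap, emb_algebraMap]
  cases b <;> cases b' <;> first | rfl | exact absurd h key | exact absurd h.symm key

lemma upPlace_bijective : Function.Bijective (fun p : InfinitePlace F × Bool =>
    D.upPlace p.1 p.2) := by
  classical
  refine (Fintype.bijective_iff_injective_and_card _).2 ⟨D.upPlace_injective, ?_⟩
  have hM : ∀ v : InfinitePlace D.M, v.IsComplex := fun v => by
    rw [← InfinitePlace.not_isReal_iff_isComplex]
    intro hv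
    exact InfinitePlace.not_isReal_iff_isComplex.2 (D.totallyComplex _) (hv.comap (algebraMap F D.M))
  have h1 := InfinitePlace.sum_mult_eq (K := D.M)
  have h2 := InfinitePlace.sum_mult_eq (K := F)
  simp only [InfinitePlace.mult, InfinitePlace.not_isReal_iff_isComplex.2 (hM _),
    InfinitePlace.not_isReal_iff_isComplex.2 (D.totallyComplex _), if_false, Finset.sum_const,
    Finset.card_univ, smul_eq_mul] at h1 h2
  rw [← Module.finrank_mul_finrank ℚ F D.M, D.finrank_eq, ← h2] at h1
  rw [Fintype.card_prod, Fintype.card_bool]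
  omega

/-- The logarithmic lattice. -/
def ulat : Submodule ℤ (InfinitePlace F → ℝ) := AddSubgroup.toIntSubmodule D.ulog.range

lemma mem_ulat {x : InfinitePlace F → ℝ} :
    x ∈ D.ulat ↔ ∃ e : D.unitOne, D.ulog (Additive.ofMul e) = x :=
  ⟨fun ⟨e, he⟩ => ⟨e.toMul, he⟩, fun ⟨e, he⟩ => ⟨Additive.ofMul e, he⟩⟩

lemma ulog_ball_finite (r : ℝ) : {e : D.unitOne | ‖D.ulog (Additive.ofMul e)‖ ≤ r}.Finite := by
  have hfin := Embeddings.finite_of_norm_le D.M ℂ (Real.exp r)
  refine Set.Finite.of_finite_image (f := D.uval) (hfin.subset ?_)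
    (fun a _ b _ h => Subtype.ext (Units.ext (RingOfIntegers.coe_injective h)))
  rintro _ ⟨e, he, rfl⟩
  refine ⟨((e : (𝓞 D.M)ˣ) : 𝓞 D.M).2, fun φ => ?_⟩
  obtain ⟨⟨w, b⟩, hp⟩ := D.upPlace_bijective.2 (InfinitePlace.mk φ)
  have hw : |D.ulog (Additive.ofMul e) w| ≤ r :=
    le_trans (by simpa using norm_le_pi_norm (D.ulog (Additive.ofMul e)) w) he
  have hn : ‖φ (D.uval e)‖ = InfinitePlace.mk φ (D.uval e) := rfl
  have hsq := D.exp_ulog w e
  have hpos : 0 < ‖D.emb w (D.uval e)‖ := norm_pos_iff.2 ((map_ne_zero _).2 (D.uval_ne e))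
  have hr : 0 ≤ r := le_trans (abs_nonneg _) hw
  have h1 : ‖D.emb w (D.uval e)‖ ≤ Real.exp r := by
    have h2 : ‖D.emb w (D.uval e)‖ ^ 2 ≤ Real.exp r ^ 2 := by
      rw [← hsq, ← Real.exp_nat_mul, Real.exp_le_exp]
      have := le_abs_self (D.ulog (Additive.ofMul e) w)
      push_cast; linarith
    exact (pow_le_pow_iff_left₀ hpos.le (Real.exp_pos r).le two_ne_zero).1 h2
  rw [hn, ← hp]
  cases b
  · show ‖D.emb w (D.σ (D.uval e))‖ ≤ _
    have h3 : ‖D.emb w (D.σ (D.uval e))‖ ^ 2 ≤ Real.exp r ^ 2 := by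
      rw [show ‖D.emb w (D.σ (D.uval e))‖ = ‖D.emb w (D.uval e)‖⁻¹ from
        eq_inv_of_mul_eq_one_right (D.emb_uval w e), inv_pow, ← hsq, ← Real.exp_neg,
        ← Real.exp_nat_mul, Real.exp_le_exp]
      have := neg_abs_le (D.ulog (Additive.ofMul e) w)
      push_cast; linarith
    exact (pow_le_pow_iff_left₀ (norm_nonneg _) (Real.exp_pos r).le two_ne_zero).1 h3
  · exact h1

instance discrete_ulat : DiscreteTopology D.ulat := by
  refine discreteTopology_of_isOpen_singleton_zero ?_
  refine isOpen_singleton_of_finite_mem_nhds 0 (s := Metric.closedBall 0 1)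
    (Metric.closedBall_mem_nhds _ one_pos) ?_
  refine Set.Finite.of_finite_image ?_ (Set.injOn_of_injective Subtype.val_injective)
  refine ((D.ulog_ball_finite 1).image fun e => D.ulog (Additive.ofMul e)).subset ?_
  rintro _ ⟨⟨x, hx⟩, hb, rfl⟩
  obtain ⟨e, rfl⟩ := D.mem_ulat.1 hx
  refine ⟨e, ?_, rfl⟩
  rw [Metric.mem_closedBall, Subtype.dist_eq] at hb
  simpa [dist_zero_right] using hb

instance isZLattice_ulat : IsZLattice ℝ D.ulat := by
  classical
  refine ⟨eq_top_iff.2 fun y _ => ?_⟩
  -- the map from the log space of `M`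
  let ext : Units.dirichletUnitTheorem.logSpace D.M →ₗ[ℝ] InfinitePlace D.M → ℝ :=
    { toFun := fun x v => if h : v = Units.dirichletUnitTheorem.w₀ then -∑ u, x u else x ⟨v, h⟩
      map_add' := fun x x' => by
        funext v
        simp only [Pi.add_apply]
        split_ifs
        · rw [Finset.sum_add_distrib, neg_add]
        · rfl
      map_smul' := fun c x => by
        funext v
        simp only [Pi.smul_apply, RingHom.id_apply, smul_eq_mul]
        split_ifs
        · rw [← Finset.mul_sum, mul_neg]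
        · rfl }
  let P : Units.dirichletUnitTheorem.logSpace D.M →ₗ[ℝ] InfinitePlace F → ℝ :=
    { toFun := fun x w => ext x (D.upPlace w true) - ext x (D.upPlace w false)
      map_add' := fun x x' => by
        funext w
        simp only [map_add, Pi.add_apply]; ring
      map_smul' := fun c x => by
        funext w
        simp only [map_smul, Pi.smul_apply, RingHom.id_apply, smul_eq_mul]; ring }
  have hunit : ∀ e : (𝓞 D.M)ˣ, P (Units.logEmbedding D.M (Additive.ofMul e)) ∈
      Submodule.span ℝ (D.ulat : Set (InfinitePlace F → ℝ)) := by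
    intro e
    have hext : ∀ v : InfinitePlace D.M, ext (Units.logEmbedding D.M (Additive.ofMul e)) v =
        v.mult * Real.log (v ((e : 𝓞 D.M) : D.M)) := by
      intro v
      show (if h : v = _ then _ else _) = _
      split_ifs with h
      · rw [Units.dirichletUnitTheorem.sum_logEmbedding_component, h]; ring
      · rfl
    let se : (𝓞 D.M)ˣ := Units.map D.σO.toMonoidHom e
    let q : D.unitOne := ⟨e * se⁻¹, by
      show D.nrm (((e * se⁻¹ : (𝓞 D.M)ˣ) : 𝓞 D.M) : D.M) = 1
      have hne : ((e : 𝓞 D.M) : D.M) ≠ 0 := RingOfIntegers.coe_ne_zero_iff.2 e.ne_zero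
      have hse : (((se⁻¹ : (𝓞 D.M)ˣ) : 𝓞 D.M) : D.M) = (D.σ ((e : 𝓞 D.M) : D.M))⁻¹ := by
        refine eq_inv_of_mul_eq_one_left ?_
        rw [show D.σ ((e : 𝓞 D.M) : D.M) = ((se : 𝓞 D.M) : D.M) from rfl, ← coeO_mul,
          Units.inv_mul]
        exact map_one _
      rw [Units.val_mul, coeO_mul, hse, D.nrm_mul, D.nrm_inv, D.nrm_σ,
        mul_inv_cancel₀ (D.nrm_eq_zero.not.2 hne)]⟩
    refine Submodule.subset_span ((D.mem_ulat).2 ⟨q, ?_⟩)
    funext w
    show 2 * Real.log ‖D.emb w (D.uval q)‖ = ext _ _ - ext _ _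
    have hne : ∀ φ : D.M →+* ℂ, φ ((e : 𝓞 D.M) : D.M) ≠ 0 := fun φ =>
      (map_ne_zero φ).2 (RingOfIntegers.coe_ne_zero_iff.2 e.ne_zero)
    have hq : D.uval q = ((e : 𝓞 D.M) : D.M) * (D.σ ((e : 𝓞 D.M) : D.M))⁻¹ := by
      show (((e * se⁻¹ : (𝓞 D.M)ˣ) : 𝓞 D.M) : D.M) = _
      rw [Units.val_mul, coeO_mul]
      congr 1
      refine eq_inv_of_mul_eq_one_left ?_
      rw [show D.σ ((e : 𝓞 D.M) : D.M) = ((se : 𝓞 D.M) : D.M) from rfl, ← coeO_mul, Units.inv_mul]
      exact map_one _
    have hmult : ∀ b, (D.upPlace w b).mult = 2 := by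
      intro b
      rw [InfinitePlace.mult, if_neg]
      intro hv
      exact InfinitePlace.not_isReal_iff_isComplex.2 (D.totallyComplex _)
        (hv.comap (algebraMap F D.M))
    rw [hext, hext, hmult, hmult, hq, map_mul, map_inv₀, norm_mul, norm_inv,
      Real.log_mul (norm_ne_zero_iff.2 (hne _)) (inv_ne_zero (norm_ne_zero_iff.2
        ((map_ne_zero _).2 ((map_ne_zero _).2 (RingOfIntegers.coe_ne_zero_iff.2 e.ne_zero))))),
      Real.log_inv]
    show _ = (2 : ℕ) * Real.log ‖D.emb w ((e : 𝓞 D.M) : D.M)‖ -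
      (2 : ℕ) * Real.log ‖D.emb w (D.σ ((e : 𝓞 D.M) : D.M))‖
    push_cast
    ring
  -- surjectivity
  obtain ⟨x, rfl⟩ : ∃ x, P x = y := by
    have hb := D.upPlace_bijective
    let x' : InfinitePlace D.M → ℝ := fun v =>
      if ((Equiv.ofBijective _ hb).symm v).2 then y ((Equiv.ofBijective _ hb).symm v).1 / 2
      else -(y ((Equiv.ofBijective _ hb).symm v).1 / 2)
    have hx' : ∀ w b, x' (D.upPlace w b) = if b then y w / 2 else -(y w / 2) := fun w b => by
      have : (Equiv.ofBijective _ hb).symm (D.upPlace w b) = (w, b) :=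
        (Equiv.ofBijective _ hb).symm_apply_apply (w, b)
      simp [x', this]
    have hsum : ∑ v, x' v = 0 := by
      rw [← (Equiv.ofBijective _ hb).sum_comp, Fintype.sum_prod_type]
      refine Finset.sum_eq_zero fun w _ => ?_
      simp [Equiv.ofBijective_apply, hx']
    refine ⟨fun v => x' v.1, funext fun w => ?_⟩
    have hext : ∀ v, ext (fun v : {u : InfinitePlace D.M // u ≠ Units.dirichletUnitTheorem.w₀} =>
        x' v.1) v = x' v := by
      intro v
      show (if h : v = _ then _ else _) = _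
      by_cases h : v = Units.dirichletUnitTheorem.w₀
      · rw [dif_pos h, h, neg_eq_iff_add_eq_zero, add_comm,
          ← Fintype.sum_eq_add_sum_subtype_ne x' Units.dirichletUnitTheorem.w₀]
        exact hsum
      · rw [dif_neg h]
    show ext _ _ - ext _ _ = _
    rw [hext, hext, hx', hx']
    simp
  have hmem : x ∈ Submodule.span ℝ (Units.unitLattice D.M : Set (Units.dirichletUnitTheorem.logSpace D.M)) := by
    rw [Units.dirichletUnitTheorem.unitLattice_span_eq_top]; trivial
  refine Submodule.span_induction ?_ ?_ ?_ ?_ hmem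
  · rintro _ ⟨e, -, rfl⟩
    exact hunit e.toMul
  · rw [map_zero]; exact zero_mem _
  · intro a b _ _ ha hb
    rw [map_add]; exact add_mem ha hb
  · intro c a _ ha
    rw [map_smul]; exact Submodule.smul_mem _ _ ha

/-- The index of a basis of the logarithmic lattice. -/
abbrev UIdx : Type := Module.Free.ChooseBasisIndex ℤ D.ulat

/-- A real basis spanning the lattice. -/
def ubasis : Module.Basis D.UIdx ℝ (InfinitePlace F → ℝ) :=
  (Module.Free.chooseBasis ℤ D.ulat).ofZLatticeBasis ℝ D.ulat

/-- A fundamental domain of the lattice. -/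
def dom : Set (InfinitePlace F → ℝ) := ZSpan.fundamentalDomain D.ubasis

lemma isBounded_dom : Bornology.IsBounded D.dom := ZSpan.fundamentalDomain_isBounded _

lemma measurableSet_dom : MeasurableSet D.dom := ZSpan.fundamentalDomain_measurableSet _

lemma isAddFundamentalDomain_dom :
    IsAddFundamentalDomain D.ulat D.dom (volume : Measure (InfinitePlace F → ℝ)) := by
  have h := ZSpan.isAddFundamentalDomain D.ubasis (volume : Measure (InfinitePlace F → ℝ))
  rwa [ubasis, Module.Basis.ofZLatticeBasis_span] at h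

/-- The units in the kernel of the logarithm. -/
def kerOne : Set D.unitOne := {e | D.ulog (Additive.ofMul e) = 0}

lemma finite_kerOne : D.kerOne.Finite :=
  (D.ulog_ball_finite 0).subset fun e (he : D.ulog _ = 0) => by simp [he]

instance fintype_kerOne : Fintype D.kerOne := D.finite_kerOne.fintype

lemma card_kerOne_pos : 0 < Fintype.card D.kerOne :=
  Fintype.card_pos_iff.2 ⟨⟨1, D.ulog.map_zero⟩⟩

/-- A unit over a lattice point. -/
def usec (x : D.ulat) : D.unitOne := (D.mem_ulat.1 x.2).choose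

lemma ulog_usec (x : D.ulat) : D.ulog (Additive.ofMul (D.usec x)) = (x : InfinitePlace F → ℝ) :=
  (D.mem_ulat.1 x.2).choose_spec

/-- The units of norm one are the product of the kernel and the lattice. -/
def unitEquiv : D.kerOne × D.ulat ≃ D.unitOne :=
  Equiv.ofBijective (fun p => (p.1 : D.unitOne) * D.usec p.2) (by
    constructor
    · rintro ⟨a, x⟩ ⟨b, y⟩ h
      simp only at h
      have hxy : x = y := Subtype.ext (by
        have := congrArg (fun e => D.ulog (Additive.ofMul e)) h
        simpa [ofMul_mul, ulog_usec, show D.ulog (Additive.ofMul (a : D.unitOne)) = 0 from a.2,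
          show D.ulog (Additive.ofMul (b : D.unitOne)) = 0 from b.2] using this)
      subst hxy
      exact Prod.ext (Subtype.ext (mul_right_cancel h)) rfl
    · intro e
      let x : D.ulat := ⟨D.ulog (Additive.ofMul e), D.mem_ulat.2 ⟨e, rfl⟩⟩
      refine ⟨⟨⟨e * (D.usec x)⁻¹, ?_⟩, x⟩, by simp⟩
      show D.ulog _ = 0
      rw [ofMul_mul, map_add, ofMul_inv, map_neg, ulog_usec]
      exact add_neg_cancel _)

lemma ulog_unitEquiv (p : D.kerOne × D.ulat) :
    D.ulog (Additive.ofMul (D.unitEquiv p)) = (p.2 : InfinitePlace F → ℝ) := by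
  show D.ulog (Additive.ofMul ((p.1 : D.unitOne) * D.usec p.2)) = _
  rw [ofMul_mul, map_add, ulog_usec, show D.ulog (Additive.ofMul (p.1 : D.unitOne)) = 0 from p.1.2,
    zero_add]

end FermatAgent.LT.Dihedral.QuadData
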